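import Fermat.Agent.Carayol.Inertia

/-!
# The residue field of `A₀`, roots of units
-/

set_option autoImplicit false
set_option linter.unusedSectionVars false
set_option linter.style.haveILetI false

noncomputable section

namespace Fermat.Agent.Carayol

open Fermat.Agent.Frob IsLocalRing Polynomial
open scoped Pointwise NumberField

variable {A : ValuationSubring Qb} {q : ℕ}

theorem val_nat_eq_one (hq : q.Prime) (hA : A.LiesOverPrime q) {m : ℕ} (hm : ¬ q ∣ m) :
    A.valuation (m : Qb) = 1 := by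
  have := valuation_intCast_eq_one A hq hA (n := (m : ℤ)) (by exact_mod_cast hm)
  simpa using this

theorem exists_one_add_pow' {B : Type*} [CommRing B] (y : B) (m : ℕ) :
    ∃ z : B, (1 + y) ^ m = 1 + m * y + y ^ 2 * z := by
  induction m with
  | zero => exact ⟨0, by simp⟩
  | succ n ih =>
    obtain ⟨z, hz⟩ := ih
    refine ⟨n + z + z * y, ?_⟩
    rw [pow_succ, hz]
    push_cast
    ring

/-- roots of unity of order prime to `q` which reduce to `1` are equal to `1` -/
theorem eq_one_of_pow (hq : q.Prime) (hA : A.LiesOverPrime q) {m : ℕ} (hm : ¬ q ∣ m) {z : Qb}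
    (hz : z ^ m = 1) (h : A.valuation (z - 1) < 1) : z = 1 := by
  have hzA : z - 1 ∈ A := (A.valuation_le_one_iff _).1 h.le
  obtain ⟨w, hw⟩ := exists_one_add_pow' (⟨z - 1, hzA⟩ : A) m
  have hw' : z ^ m = 1 + m * (z - 1) + (z - 1) ^ 2 * (w : Qb) := by
    have := congrArg (fun x : A => (x : Qb)) hw
    simpa using this
  rw [hz] at hw'
  have h1 : (z - 1) * (m + (z - 1) * (w : Qb)) = 0 := by linear_combination -hw'
  rcases mul_eq_zero.1 h1 with h2 | h2
  · exact sub_eq_zero.1 h2
  · exfalso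
    have h3 : (m : Qb) = -((z - 1) * (w : Qb)) := by linear_combination h2
    have h4 := val_nat_eq_one hq hA hm
    rw [h3, Valuation.map_neg, map_mul] at h4
    have h5 : A.valuation (z - 1) * A.valuation (w : Qb) < 1 :=
      mul_lt_one_of_nonneg_of_lt_one_left zero_le h ((A.valuation_le_one_iff _).2 w.2)
    rw [h4] at h5
    exact lt_irrefl _ h5

/-- an integral element with `y ^ m ∈ K₀` a unit lies in `K₀` -/
theorem mem_K0_of_pow (hq : q.Prime) (hA : A.LiesOverPrime q) {m : ℕ} (hm : ¬ q ∣ m) {y : Qb}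
    (hy : y ^ m ∈ K0 A) (hv : A.valuation y = 1) : y ∈ K0 A := by
  rw [mem_K0] at hy ⊢
  intro σ hσ
  have h1 := hy σ hσ
  rw [map_pow] at h1
  have hy0 : y ≠ 0 := by
    rintro rfl
    rw [map_zero] at hv
    exact zero_ne_one hv
  have h2 : σ y / y = 1 := by
    refine eq_one_of_pow hq hA hm ?_ ?_
    · rw [div_pow, h1, div_self (pow_ne_zero m hy0)]
    · have h3 : σ y / y - 1 = (σ y - y) / y := by rw [sub_div, div_self hy0]
      rw [h3, map_div₀, hv, div_one]
      exact ((mem_inertia_iff A σ).1 hσ).2 y ((A.valuation_le_one_iff y).1 hv.le)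
  exact (div_eq_one_iff_eq hy0).1 h2

/-- units of `A₀` have `m`-th roots -/
theorem exists_root_unit (hq : q.Prime) (hA : A.LiesOverPrime q) {m : ℕ} (hm : ¬ q ∣ m)
    (u : (A0 A)ˣ) : ∃ v : (A0 A)ˣ, v ^ m = u := by
  have hm0 : 0 < m := Nat.pos_of_ne_zero (fun h => hm (h ▸ dvd_zero q))
  obtain ⟨y, hy⟩ := IsAlgClosed.exists_pow_nat_eq ((((u : A0 A) : K0 A) : Qb)) hm0
  have hu := isUnit_A0_iff.1 u.isUnit
  have hv : A.valuation y = 1 := by
    rw [← hy, map_pow] at hu
    exact (pow_eq_one_iff.1 hu).resolve_right hm0.ne'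
  have hyK : y ∈ K0 A := mem_K0_of_pow hq hA hm (hy ▸ (((u : A0 A) : K0 A)).2) hv
  have hyu : IsUnit (⟨⟨y, hyK⟩, (A.valuation_le_one_iff y).1 hv.le⟩ : A0 A) := isUnit_A0_iff.2 hv
  refine ⟨hyu.unit, ?_⟩
  apply Units.ext
  apply Subtype.ext
  apply Subtype.ext
  exact hy

/-- the residue map of `A₀` -/
def π0 (A : ValuationSubring Qb) : A0 A →+* ResidueField A := (residue A).comp (inclA A)

theorem charP_res (hq : q.Prime) (hA : A.LiesOverPrime q) : CharP (ResidueField A) q := by
  rw [CharP.charP_iff_prime_eq_zero hq]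
  have h1 : (q : ResidueField A) = residue A (q : A) := by rw [map_natCast]
  rw [h1, residue_eq_zero_iff]
  refine (A.valuation_lt_one_iff _).2 ?_
  push_cast
  exact hA

theorem exists_pow_eq_one (hq : q.Prime) (hA : A.LiesOverPrime q) {y : ResidueField A}
    (hy : y ≠ 0) : ∃ n : ℕ, ¬ q ∣ n ∧ y ^ n = 1 := by
  haveI := charP_res hq hA
  haveI : Fact q.Prime := ⟨hq⟩
  letI : Algebra (ZMod q) (ResidueField A) := ZMod.algebra _ q
  -- algebraic over `ZMod q`
  have hint : ∀ b : A, IsIntegral ℤ (b : Qb) → IsIntegral (ZMod q) (residue A b) := by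
    intro b hb
    have hb' : IsIntegral ℤ b := by
      rwa [← isIntegral_algebraMap_iff (B := Qb) (show Function.Injective (algebraMap A Qb) from
        Subtype.val_injective)]
    obtain ⟨p, hp, hpb⟩ := hb'
    refine ⟨p.map (Int.castRingHom (ZMod q)), hp.map _, ?_⟩
    rw [eval₂_map]
    have h1 := congrArg (residue A) hpb
    rw [hom_eval₂, map_zero] at h1
    rw [← h1]
    congr 1
    exact RingHom.ext_int _ _
  obtain ⟨y, rfl⟩ := residue_surjective y
  have halg : IsAlgebraic ℤ (y : Qb) := by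
    have : IsAlgebraic ℚ (y : Qb) := (Algebra.IsIntegral.isIntegral (R := ℚ) (y : Qb)).isAlgebraic
    exact (IsFractionRing.isAlgebraic_iff ℤ ℚ Qb).mpr this
  obtain ⟨b, s, hb, hs, hv, hbs⟩ := exists_isIntegral_mul_eq A hq hA y.2 halg
  have hbA : b ∈ A := mem_of_isIntegral A hb
  have hsA : s ∈ A := mem_of_isIntegral A hs
  have h1 := hint ⟨b, hbA⟩ hb
  have h2 := hint ⟨s, hsA⟩ hs
  have hs0 : residue A ⟨s, hsA⟩ ≠ 0 := by
    rw [Ne, residue_eq_zero_iff]
    intro h
    have := (A.valuation_lt_one_iff _).1 h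
    exact this.ne hv
  have h3 : residue A y = residue A ⟨b, hbA⟩ / residue A ⟨s, hsA⟩ := by
    rw [eq_div_iff hs0, ← map_mul]
    congr 1
    exact Subtype.ext hbs
  have h4 : IsIntegral (ZMod q) (residue A y) := by
    rw [h3, ← isAlgebraic_iff_isIntegral, div_eq_mul_inv]
    exact h1.isAlgebraic.mul h2.isAlgebraic.inv
  let E := IntermediateField.adjoin (ZMod q) {residue A y}
  haveI : FiniteDimensional (ZMod q) E := IntermediateField.adjoin.finiteDimensional h4
  haveI : Finite E := Module.finite_of_finite (ZMod q)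
  letI : Fintype E := Fintype.ofFinite E
  haveI : CharP E q := (Algebra.charP_iff (ZMod q) E q).1 inferInstance
  obtain ⟨n, -, hn⟩ := FiniteField.card E q
  refine ⟨Fintype.card E - 1, ?_, ?_⟩
  · intro hd
    have h5 : q ∣ Fintype.card E := by
      rw [hn]
      exact dvd_pow_self q n.pos.ne'
    have h6 : 0 < Fintype.card E := Fintype.card_pos
    have h7 := (Nat.dvd_sub h5 hd)
    rw [Nat.sub_sub_self h6] at h7
    exact hq.one_lt.ne' (Nat.dvd_one.1 h7)
  · have hmem : residue A y ∈ E := IntermediateField.mem_adjoin_simple_self _ _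
    have h8 := FiniteField.pow_card_sub_one_eq_one (⟨residue A y, hmem⟩ : E) (by
      intro h0
      exact hy (congrArg Subtype.val h0))
    exact congrArg Subtype.val h8

/-- the residue field of `A₀` is that of `A` -/
theorem π0_surjective (hq : q.Prime) (hA : A.LiesOverPrime q) : Function.Surjective (π0 A) := by
  intro y
  rcases eq_or_ne y 0 with rfl | hy
  · exact ⟨0, map_zero _⟩
  obtain ⟨n, hn, hyn⟩ := exists_pow_eq_one hq hA hy
  have hn0 : 0 < n := Nat.pos_of_ne_zero (fun h => hn (h ▸ dvd_zero q))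
  haveI : NeZero n := ⟨hn0.ne'⟩
  haveI : NeZero (n : Qb) := ⟨by exact_mod_cast hn0.ne'⟩
  obtain ⟨ζ, hζ⟩ := HasEnoughRootsOfUnity.exists_primitiveRoot Qb n
  obtain ⟨y, rfl⟩ := residue_surjective y
  have h1 := congrArg (Polynomial.eval (y : Qb)) (X_pow_sub_one_eq_prod hn0 hζ)
  rw [Polynomial.eval_prod] at h1
  simp only [eval_sub, eval_pow, eval_X, eval_one, eval_C] at h1
  have h2 : A.valuation ((y : Qb) ^ n - 1) < 1 := by
    have : residue A (y ^ n - 1) = 0 := by rw [map_sub, map_pow, hyn, map_one, sub_self]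
    rw [residue_eq_zero_iff] at this
    exact (A.valuation_lt_one_iff _).1 this
  rw [h1, map_prod] at h2
  obtain ⟨ξ, hξ, hξ'⟩ : ∃ ξ ∈ nthRootsFinset n (1 : Qb), A.valuation ((y : Qb) - ξ) < 1 := by
    by_contra! hcon
    have : (1 : A.ValueGroup) ≤ ∏ ξ ∈ nthRootsFinset n (1 : Qb), A.valuation ((y : Qb) - ξ) :=
      Finset.one_le_prod' fun ξ hξ => hcon ξ hξ
    exact absurd h2 (not_lt.2 this)
  rw [mem_nthRootsFinset hn0] at hξ
  have hvξ : A.valuation ξ = 1 := by
    have := congrArg A.valuation hξ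
    rw [map_pow, map_one] at this
    exact (pow_eq_one_iff.1 this).resolve_right hn0.ne'
  have hξK : ξ ∈ K0 A := mem_K0_of_pow hq hA hn (by rw [hξ]; exact one_mem _) hvξ
  refine ⟨⟨⟨ξ, hξK⟩, (A.valuation_le_one_iff ξ).1 hvξ.le⟩, ?_⟩
  change residue A _ = residue A y
  rw [eq_comm, ← sub_eq_zero, ← map_sub, residue_eq_zero_iff]
  exact (A.valuation_lt_one_iff _).2 hξ'

instance isLocalHom_π0 : IsLocalHom (π0 A) := by
  refine ⟨fun a ha => ?_⟩
  rw [isUnit_A0_iff]
  have h1 : π0 A a ≠ 0 := ha.ne_zero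
  have h2 : ¬ A.valuation (((a : K0 A) : Qb)) < 1 := by
    intro h
    apply h1
    change residue A (inclA A a) = 0
    rw [residue_eq_zero_iff]
    exact (A.valuation_lt_one_iff _).2 h
  exact le_antisymm ((A.valuation_le_one_iff _).2 (inclA A a).2) (not_lt.1 h2)

theorem π0_eq_zero_iff {a : A0 A} : π0 A a = 0 ↔ A.valuation (((a : K0 A) : Qb)) < 1 := by
  change residue A (inclA A a) = 0 ↔ _
  rw [residue_eq_zero_iff]
  exact (A.valuation_lt_one_iff _)

theorem isUnit_nat (hq : q.Prime) (hA : A.LiesOverPrime q) {m : ℕ} (hm : ¬ q ∣ m) :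
    IsUnit ((m : ℕ) : A0 A) := by
  rw [isUnit_A0_iff]
  push_cast
  exact val_nat_eq_one hq hA hm

end Fermat.Agent.Carayol
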