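import Fermat.Agent.GoodRed.HauptGood

/-!
# Good charts for `j` in residue characteristic `2` and `3`
-/

set_option autoImplicit false
set_option linter.unusedSectionVars false
set_option linter.style.haveILetI false
set_option synthInstance.maxHeartbeats 400000

noncomputable section

namespace Fermat.Agent.Carayol

open Polynomial AlgebraicCurve Fermat.Agent.Curves Module IntermediateField ModularCurve
open Fermat.Agent.GenusX0 (je transcendental_je)
open Fermat.Agent.GoodRed

section Shift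

variable {K κ : Type*} [Field K] [Field κ] [IsAlgClosed K] [IsAlgClosed κ] {A : ValuationSubring K}
  {π : A →+* κ} [IsLocalHom π]
  {F Fb : Type*} [Field F] [Field Fb] [Algebra K F] [Algebra κ Fb]
  [IsFunctionField K F] [IsFunctionField κ Fb] {G : GaussRed A π F Fb} {t : F} {tb : Fb}

theorem adjoin_sub_eq' {k F : Type*} [Field k] [Field F] [Algebra k F] (x : F) (c : k) :
    k⟮x - algebraMap k F c⟯ = k⟮x⟯ := by
  apply le_antisymm
  · rw [IntermediateField.adjoin_simple_le_iff]
    exact sub_mem (IntermediateField.mem_adjoin_simple_self k x) (IntermediateField.algebraMap_mem _ c)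
  · rw [IntermediateField.adjoin_simple_le_iff]
    have := add_mem (IntermediateField.mem_adjoin_simple_self k (x - algebraMap k F c))
      (IntermediateField.algebraMap_mem k⟮x - algebraMap k F c⟯ c)
    rwa [sub_add_cancel] at this

theorem transcendental_sub {k F : Type*} [Field k] [Field F] [Algebra k F] {x : F}
    (hx : Transcendental k x) (c : k) : Transcendental k (x - algebraMap k F c) := by
  intro h
  apply hx
  have := h.add (isAlgebraic_algebraMap c)
  rwa [sub_add_cancel] at this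

theorem chart_shift (hC : Chart G t tb) (a : A) :
    Chart G (t - algebraMap K F a) (tb - algebraMap κ Fb (π a)) where
  R := hC.R.sub (GaussRed.R.const G a)
  tr := transcendental_sub hC.tr _
  trb := transcendental_sub hC.trb _
  sep := by rw [adjoin_sub_eq']; exact hC.sep
  sepb := by rw [adjoin_sub_eq']; exact hC.sepb
  finrank_eq := by rw [adjoin_sub_eq', adjoin_sub_eq']; exact hC.finrank_eq

/-- lifting in the chart `1 / (t - a)` when the second branch point coincides with `a` modulo the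
maximal ideal -/
theorem lift_inv_sub (hC : Chart G t tb) (hπ : Function.Surjective π) [CharZero K]
    (a b : A) (ha : π a ≠ 0) (hab : π a = π b) (m : ℕ)
    (h0 : ∀ w : Place K F, -w.ord t ≤ m)
    (h1 : ∀ (w : Place K F) (c : K), w.ord (t - algebraMap K F c) ≤ m)
    (h2 : ∀ (w : Place K F) (c : K), c ≠ 0 → c ≠ b → w.ord (t - algebraMap K F c) ≤ 1)
    {yb : Fb} (hyb : yb ∈ affineRing κ (tb - algebraMap κ Fb (π a))⁻¹) :
    ∃ y ∈ affineRing K (t - algebraMap K F a)⁻¹, G.R y yb := by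
  have hCs := chart_shift hC a
  have hs0 : t - algebraMap K F a ≠ 0 := fun h => hCs.tr (h ▸ isAlgebraic_zero)
  set s := t - algebraMap K F a with hs
  have hg : (X * (C a * X + C 1) * (C (b - a) * X - C 1) : A[X]).map π =
      -(X * (C (π a) * X - C (-1))) := by
    simp only [Polynomial.map_mul, Polynomial.map_sub, Polynomial.map_add, map_X, map_C, map_one,
      map_sub, hab, sub_self, zero_mul, zero_sub, map_neg, sub_neg_eq_add, Polynomial.map_one]
    ring
  have hsq : Squarefree ((X * (C a * X + C 1) * (C (b - a) * X - C 1) : A[X]).map π) := by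
    rw [hg]
    have h3 := squarefree_aux ha (neg_ne_zero.2 (one_ne_zero (α := κ)))
    exact fun y hy => h3 y ((dvd_neg).1 hy)
  -- the order at non-zero values
  have key : ∀ (w : Place K F) (c : K), c ≠ 0 → 0 < w.ord (s⁻¹ - algebraMap K F c) →
      w.ord (s⁻¹ - algebraMap K F c) = w.ord (t - algebraMap K F (c⁻¹ + a)) := by
    intro w c hc hw
    have hcF : algebraMap K F c ≠ 0 := by simpa using hc
    have htc : t - algebraMap K F (c⁻¹ + a) ≠ 0 := fun h =>
      transcendental_sub hC.tr _ (h ▸ isAlgebraic_zero)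
    have h3 : s⁻¹ - algebraMap K F c =
        -(algebraMap K F c * s⁻¹) * (t - algebraMap K F (c⁻¹ + a)) := by
      rw [map_add, map_inv₀]
      have : t = s + algebraMap K F a := by rw [hs]; ring
      rw [this]
      field_simp
      ring
    have h4 : w.ord (s⁻¹) = 0 := by
      have h5 := (ord_add_eq_left w hcF (g := s⁻¹ - algebraMap K F c)
        (Or.inr (by rw [ord_algebraMap]; exact hw))).2
      rwa [add_sub_cancel, ord_algebraMap] at h5
    rw [h3, w.ord_mul (neg_ne_zero.2 (mul_ne_zero hcF (inv_ne_zero hs0))) htc, ord_neg,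
      w.ord_mul hcF (inv_ne_zero hs0), h4, ord_algebraMap, zero_add, zero_add]
  have hs1 : ∀ w : Place K F, -w.ord s ≤ m := by
    intro w
    by_contra hcon
    push Not at hcon
    have h5 : t = s + algebraMap K F a := by rw [hs]; ring
    have h6 : w.ord t = w.ord s := by
      have ha0 : algebraMap K F a ≠ 0 := by
        intro h
        apply ha
        have : a = 0 := Subtype.ext (by simpa using h)
        rw [this, map_zero]
      have hm : (0 : ℤ) ≤ m := by positivity
      have := (ord_add_eq_left w hs0 (g := algebraMap K F a)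
        (Or.inr (by rw [ord_algebraMap]; omega))).2
      rw [h5, this]
    have := h0 w
    omega
  refine hCs.inv.lift hπ (X * (C a * X + C 1) * (C (b - a) * X - C 1)) ?_ hsq (m := m + 1)
    (Nat.succ_pos m) ?_ ?_ hyb
  · exact hsq.ne_zero
  · intro w c hw
    have hm' : ((m + 1 : ℕ) : ℤ) = m + 1 := by push_cast; ring
    rw [hm']
    rcases eq_or_ne c 0 with rfl | hc0
    · rw [map_zero, sub_zero, w.ord_inv]
      have := hs1 w
      omega
    · rw [key w c hc0 hw]
      have := h1 w (c⁻¹ + a)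
      omega
  · intro w c hw hc
    have hc0 : c ≠ 0 := by
      rintro rfl
      apply hc
      simp
    rw [Polynomial.map_mul, Polynomial.map_mul, Polynomial.map_sub, Polynomial.map_add,
      Polynomial.map_mul, Polynomial.map_mul, map_X, map_C, map_C, map_C,
      map_one, eval_mul, eval_mul, eval_sub, eval_add, eval_mul, eval_mul, eval_C, eval_C, eval_C,
      eval_X] at hc
    change c * ((a : K) * c + 1) * (((b - a : A) : K) * c - 1) ≠ 0 at hc
    have hca : c⁻¹ + a ≠ 0 := by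
      intro h
      apply hc
      have : (a : K) * c + 1 = 0 := by
        have h7 : (c⁻¹ + (a : K)) * c = 0 := by rw [h, zero_mul]
        rw [add_mul, inv_mul_cancel₀ hc0] at h7
        linear_combination h7
      rw [this, mul_zero, zero_mul]
    have hcb : c⁻¹ + a ≠ b := by
      intro h
      apply hc
      have : (((b - a : A) : K)) * c - 1 = 0 := by
        push_cast
        rw [← h]
        field_simp
        ring
      rw [this, mul_zero]
    have h5 := h2 w (c⁻¹ + a) hca hcb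
    have h6 := key w c hc0 hw
    omega

/-! ### from `t` to `j` -/

section Rel

variable {k E : Type*} [Field k] [IsAlgClosed k] [Field E] [Algebra k E] [IsFunctionField k E]
  {j t : E} {e : ℕ} {H : k[X]}

/-- where `j` is regular -/
theorem mem_iff_of_rel (htr : Transcendental k t) (hjt : Transcendental k j)
    (hrel : j * t ^ e = aeval t H) (hH : H.Monic) (hdeg : H.natDegree = e + 1)
    (hH0 : H.coeff 0 ≠ 0) (he : e ≠ 0) (P : Place k E) :
    j ∈ P.toValuationSubring ↔ t ∈ P.toValuationSubring ∧ t⁻¹ ∈ P.toValuationSubring := by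
  have ht0 : t ≠ 0 := fun h0 => htr (h0 ▸ isAlgebraic_zero)
  have hj0 : j ≠ 0 := fun h0 => hjt (h0 ▸ isAlgebraic_zero)
  rw [mem_iff_ord P hj0, mem_iff_ord P ht0, mem_iff_ord P (inv_ne_zero ht0), P.ord_inv]
  rcases lt_trichotomy (P.ord t) 0 with h1 | h1 | h1
  · have := ord_j_of_neg htr hjt hrel hH hdeg P h1
    omega
  · have := ord_j_of_zero htr hjt hrel hH P h1
    omega
  · have := ord_j_of_pos htr hjt hrel hH hH0 P h1
    have h3 : 0 < (e : ℤ) := by exact_mod_cast Nat.pos_of_ne_zero he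
    rw [this]
    constructor
    · intro h4
      nlinarith
    · intro h4
      omega

end Rel

theorem exists_ord_bound {k E : Type*} [Field k] [IsAlgClosed k] [Field E] [Algebra k E]
    [IsFunctionField k E] (y : E) : ∃ n : ℕ, ∀ w : Place k E, -(n : ℤ) ≤ w.ord y := by
  classical
  refine ⟨∑ w ∈ (finite_support (k := k) y).toFinset, (w.ord y).natAbs, fun w => ?_⟩
  by_cases h3 : w.ord y = 0
  · rw [h3, neg_nonpos]
    exact Int.natCast_nonneg _
  have h4 : w ∈ (finite_support (k := k) y).toFinset := by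
    rw [Set.Finite.mem_toFinset]
    exact h3
  have h5 : (w.ord y).natAbs ≤ ∑ w ∈ (finite_support (k := k) y).toFinset, (w.ord y).natAbs :=
    Finset.single_le_sum (f := fun w : Place k E => (w.ord y).natAbs)
      (fun _ _ => Nat.zero_le _) h4
  generalize (∑ w ∈ (finite_support (k := k) y).toFinset, (w.ord y).natAbs) = n at h5
  omega

section JLift

variable {j : F} {jb : Fb} {e : ℕ} {H : K[X]} {Hb : κ[X]}

/-- lifting in the `j`-chart -/
theorem lift_j_of_rel (hgood : GoodChart G t tb) (hCj : Chart G j jb)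
    (hrel : j * t ^ e = aeval t H) (hH : H.Monic) (hdeg : H.natDegree = e + 1)
    (hH0 : H.coeff 0 ≠ 0) (he : e ≠ 0)
    (hrelb : jb * tb ^ e = aeval tb Hb) (hHb : Hb.Monic) (hdegb : Hb.natDegree = e + 1)
    (hHb0 : Hb.coeff 0 ≠ 0) : GoodChart G j jb := by
  refine { toChart := hCj, hπ := hgood.hπ, lift := fun yb hyb => ?_ }
  have htr := hgood.tr
  have htrb := hgood.trb
  have ht0 : t ≠ 0 := fun h0 => htr (h0 ▸ isAlgebraic_zero)
  have htb0 : tb ≠ 0 := fun h0 => htrb (h0 ▸ isAlgebraic_zero)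
  -- multiply by a power of `t`
  obtain ⟨n, hn⟩ : ∃ n : ℕ, tb ^ n * yb ∈ affineRing κ tb := by
    rcases eq_or_ne yb 0 with rfl | hy0
    · exact ⟨0, by rw [mul_zero]; exact zero_mem _⟩
    obtain ⟨n, hn⟩ := exists_ord_bound (k := κ) yb
    refine ⟨n, fun w hw => ?_⟩
    rw [mem_iff_ord w (mul_ne_zero (pow_ne_zero _ htb0) hy0), w.ord_mul (pow_ne_zero _ htb0) hy0,
      ord_pow]
    have h1 := (mem_iff_ord w htb0).1 hw
    have h7 := hn w
    rcases h1.eq_or_lt with h2 | h2
    · have h3 : jb ∈ w.toValuationSubring := by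
        rw [mem_iff_of_rel htrb hCj.trb hrelb hHb hdegb hHb0 he]
        refine ⟨hw, ?_⟩
        rw [mem_iff_ord w (inv_ne_zero htb0), w.ord_inv]
        omega
      have h4 := (mem_iff_ord w hy0).1 (hyb w h3)
      rw [← h2]
      omega
    · have h8 : (0 : ℤ) ≤ n := Int.natCast_nonneg n
      have h9 : (n : ℤ) * 1 ≤ n * w.ord tb := mul_le_mul_of_nonneg_left h2 h8
      omega
  obtain ⟨x, hx, hxR⟩ := hgood.lift _ hn
  refine ⟨(t ^ n)⁻¹ * x, fun w hw => ?_, ?_⟩
  · obtain ⟨h1, h2⟩ := (mem_iff_of_rel htr hCj.tr hrel hH hdeg hH0 he w).1 hw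
    refine mul_mem ?_ (hx w h1)
    rw [← inv_pow]
    exact pow_mem h2 n
  · have h1 := ((hgood.R.pow n).inv (pow_ne_zero n htb0)).mul hxR
    rwa [← mul_assoc, inv_mul_cancel₀ (pow_ne_zero n htb0), one_mul] at h1

/-- lifting in the `1/j`-chart -/
theorem lift_j_inv_of_rel (hC : Chart G t tb) (hCj : Chart G j jb) (hπ : Function.Surjective π)
    [CharZero K]
    (hrel : j * t ^ e = aeval t H) (hH : H.Monic) (he : e ≠ 0)
    (hrelb : jb * tb ^ e = aeval tb Hb) (hHb : Hb.Monic) (hdegb : Hb.natDegree = e + 1)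
    (hHb0 : Hb.coeff 0 ≠ 0) (a b : A) (ha : π a ≠ 0) (hab : π a = π b) (m : ℕ)
    (h0 : ∀ w : Place K F, -w.ord t ≤ m)
    (h1 : ∀ (w : Place K F) (c : K), w.ord (t - algebraMap K F c) ≤ m)
    (h2 : ∀ (w : Place K F) (c : K), c ≠ 0 → c ≠ b → w.ord (t - algebraMap K F c) ≤ 1)
    (hHκ : Hb = (X - C (π a)) ^ (e + 1)) (hHK : H.eval (a : K) = 0) :
    GoodChart G j⁻¹ jb⁻¹ := by
  refine { toChart := hCj.inv, hπ := hπ, lift := fun yb hyb => ?_ }
  have htr := hC.tr
  have htrb := hC.trb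
  have hjK := hCj.tr
  have hjκ := hCj.trb
  have hj0 : j ≠ 0 := fun h0 => hjK (h0 ▸ isAlgebraic_zero)
  have hjb0 : jb ≠ 0 := fun h0 => hjκ (h0 ▸ isAlgebraic_zero)
  have ht0 : t ≠ 0 := fun h0 => htr (h0 ▸ isAlgebraic_zero)
  have htb0 : tb ≠ 0 := fun h0 => htrb (h0 ▸ isAlgebraic_zero)
  have haK0 : (a : K) ≠ 0 := by
    intro h0
    apply ha
    have : a = 0 := Subtype.ext h0
    rw [this, map_zero]
  have hyb' : yb ∈ affineRing κ (tb - algebraMap κ _ (π a))⁻¹ := by
    intro w hw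
    refine hyb w ?_
    have hs0 : tb - algebraMap κ _ (π a) ≠ 0 := fun h0 =>
      transcendental_sub htrb _ (h0 ▸ isAlgebraic_zero)
    rw [mem_iff_ord w (inv_ne_zero hs0), w.ord_inv] at hw
    rw [mem_iff_ord w (inv_ne_zero hjb0), w.ord_inv]
    rcases lt_trichotomy (w.ord tb) 0 with h1 | h1 | h1
    · have := ord_j_of_neg htrb hjκ hrelb hHb hdegb w h1
      omega
    · rw [hHκ, map_pow, map_sub, aeval_X, aeval_C] at hrelb
      have h2 := congrArg w.ord hrelb
      rw [w.ord_mul hjb0 (pow_ne_zero _ htb0), ord_pow, ord_pow, h1, mul_zero, add_zero] at h2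
      rw [h2]
      have h3 : (0 : ℤ) ≤ ((e + 1 : ℕ) : ℤ) := by positivity
      nlinarith
    · have := ord_j_of_pos htrb hjκ hrelb hHb hHb0 w h1
      have h3 : 0 ≤ (e : ℤ) := by positivity
      rw [this]
      nlinarith
  obtain ⟨x, hx, hxR⟩ := lift_inv_sub hC hπ a b ha hab m h0 h1 h2 hyb'
  refine ⟨x, fun w hw => hx w ?_, hxR⟩
  have hs0 : t - algebraMap K _ (a : K) ≠ 0 := fun h0 =>
    transcendental_sub htr _ (h0 ▸ isAlgebraic_zero)
  rw [mem_iff_ord w (inv_ne_zero hj0), w.ord_inv] at hw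
  rw [mem_iff_ord w (inv_ne_zero hs0), w.ord_inv]
  by_contra hcon
  push Not at hcon
  have h2 : 0 < w.ord (t - algebraMap K _ (a : K)) := by omega
  obtain ⟨H', hH'⟩ := dvd_iff_isRoot.2 hHK
  have haF : algebraMap K F (a : K) ≠ 0 := by simpa using haK0
  have h4 : w.ord t = 0 := by
    have h5 := (ord_add_eq_left w haF (g := t - algebraMap K _ (a : K))
      (Or.inr (by rw [ord_algebraMap]; exact h2))).2
    rwa [add_sub_cancel, ord_algebraMap] at h5
  have h5 : H' ≠ 0 := by
    rintro rfl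
    rw [mul_zero] at hH'
    exact hH.ne_zero hH'
  have h6 := ord_aeval_nonneg w htr h4.ge h5
  have h7 : aeval t H' ≠ 0 := fun h0 => htr ⟨H', h5, h0⟩
  have h8 := congrArg w.ord hrel
  rw [hH', map_mul, map_sub, aeval_X, aeval_C, w.ord_mul hj0 (pow_ne_zero _ ht0), ord_pow, h4,
    mul_zero, add_zero, w.ord_mul hs0 h7] at h8
  omega

end JLift

end Shift

section J

variable {K κ : Type} [Field K] [Field κ] {A : ValuationSubring K} (π : A →+* κ) (N : ℕ)
  [IsLocalHom π] [IsAlgClosed K] [IsAlgClosed κ] {p : ℕ} [NeZero p] (h : Haup p)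

section Bounds

variable [CharZero K] (ι : K →+* ℂ) (hNK : (N : K) ≠ 0) (hp : (p : K) ≠ 0) (hpN : p ∣ N)
  (w : Place K (modularFunctionFieldFullC K N))

include ι hNK

theorem te_ord_sub_le (c : K) :
    w.ord (h.te K N hp hpN - algebraMap K _ c) ≤ ((3 + N : ℕ) : ℤ) := by
  haveI : NeZero N := ⟨by rintro rfl; simp at hNK⟩
  have hN : (0 : ℤ) ≤ N := by positivity
  rcases eq_or_ne c 0 with rfl | hc0
  · have := h.ord_le N hp hpN ι w
    rw [map_zero, sub_zero, Nat.cast_add]
    omega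
  · have := h.ord_sub_le N hp hpN ι w hc0
    rw [Nat.cast_add]
    omega

theorem te_neg_ord_le : -w.ord (h.te K N hp hpN) ≤ ((3 + N : ℕ) : ℤ) := by
  haveI : NeZero N := ⟨by rintro rfl; simp at hNK⟩
  have := h.neg_ord_le N hp hpN ι w
  rw [Nat.cast_add]
  omega

theorem te_ord_sub_le_one (c : K) (h0 : c ≠ 0) (h1 : c ≠ (((h.b : ℤ) : A) : K)) :
    w.ord (h.te K N hp hpN - algebraMap K _ c) ≤ 1 := by
  haveI : NeZero N := ⟨by rintro rfl; simp at hNK⟩
  have hbK : (((h.b : ℤ) : A) : K) = h.b := by simp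
  rw [hbK] at h1
  exact h.ord_sub_le_one N hp hpN ι w h0 h1

end Bounds

include h in
/-- lifting in the `j`-chart -/
theorem j_lift [CharZero K] (ι : K →+* ℂ) (hπ : Function.Surjective π) (hNK : (N : K) ≠ 0)
    (hNκ : (N : κ) ≠ 0) (hp : (p : K) ≠ 0) (hpκ : (p : κ) ≠ 0) (hpN : p ∣ N) :
    haveI := isFunctionField_fullC K N hNK
    haveI := isFunctionField_fullC κ N hNκ
    GoodChart (modGauss π N hπ hNK hNκ) (je K N) (je κ N) := by
  haveI := isFunctionField_fullC K N hNK
  haveI := isFunctionField_fullC κ N hNκ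
  have hC := hauptChart π N h hπ hNK hNκ hp hpκ hpN
  have hb : π ((h.b : ℤ) : A) ≠ 0 := by
    rw [map_intCast]
    exact h.b_ne κ hpκ
  exact lift_j_of_rel (hC.good hπ ((h.b : ℤ) : A) hb (3 + N)
    (fun w => by
      have := te_ord_sub_le N h ι hNK hp hpN w 0
      rwa [map_zero, sub_zero] at this)
    (fun w => te_ord_sub_le N h ι hNK hp hpN w _)
    (fun w c => te_ord_sub_le_one (A := A) N h ι hNK hp hpN w c)) (modChart π N hπ hNK hNκ)
    (h.te_rel K N hp hpN) (h.monic_map K) (h.natDegree_map K) (h.coeff_map_ne K hp) h.e_pos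
    (h.te_rel κ N hpκ hpN) (h.monic_map κ) (h.natDegree_map κ) (h.coeff_map_ne κ hpκ)

/-- lifting in the `1/j`-chart -/
theorem j_lift_inv [CharZero K] (ι : K →+* ℂ) (hπ : Function.Surjective π) (hNK : (N : K) ≠ 0)
    (hNκ : (N : κ) ≠ 0) (hp : (p : K) ≠ 0) (hpκ : (p : κ) ≠ 0) (hpN : p ∣ N) (a : ℤ)
    (ha : (a : κ) ≠ 0) (hab : (a : κ) = h.b)
    (hHκ : h.H.map (Int.castRingHom κ) = (X - C (a : κ)) ^ (h.e + 1))
    (hHK : (h.H.map (Int.castRingHom K)).eval (a : K) = 0) :
    haveI := isFunctionField_fullC K N hNK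
    haveI := isFunctionField_fullC κ N hNκ
    GoodChart (modGauss π N hπ hNK hNκ) (je K N)⁻¹ (je κ N)⁻¹ := by
  haveI := isFunctionField_fullC K N hNK
  haveI := isFunctionField_fullC κ N hNκ
  have hC := hauptChart π N h hπ hNK hNκ hp hpκ hpN
  have hπa : π ((a : ℤ) : A) = (a : κ) := map_intCast π a
  have hπb : π ((h.b : ℤ) : A) = (h.b : κ) := map_intCast π h.b
  have haK : (((a : ℤ) : A) : K) = (a : K) := by simp
  exact lift_j_inv_of_rel hC (modChart π N hπ hNK hNκ) hπ
    (h.te_rel K N hp hpN) (h.monic_map K) h.e_pos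
    (h.te_rel κ N hpκ hpN) (h.monic_map κ) (h.natDegree_map κ) (h.coeff_map_ne κ hpκ)
    ((a : ℤ) : A) ((h.b : ℤ) : A) (by rwa [hπa]) (by rw [hπa, hπb, hab]) (3 + N)
    (fun w => te_neg_ord_le N h ι hNK hp hpN w)
    (fun w c => te_ord_sub_le N h ι hNK hp hpN w c)
    (fun w c => te_ord_sub_le_one (A := A) N h ι hNK hp hpN w c)
    (by rw [hπa]; exact hHκ) (by rw [haK]; exact hHK)

/-- the `j`-charts in residue characteristic three, at even level -/
theorem jGood_three [CharZero K] [CharP κ 3] (ι : K →+* ℂ) (hπ : Function.Surjective π)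
    (hNK : (N : K) ≠ 0) (hNκ : (N : κ) ≠ 0) (h2 : 2 ∣ N) :
    haveI := isFunctionField_fullC K N hNK
    haveI := isFunctionField_fullC κ N hNκ
    GoodChart (modGauss π N hπ hNK hNκ) (je K N) (je κ N) ∧
      GoodChart (modGauss π N hπ hNK hNκ) (je K N)⁻¹ (je κ N)⁻¹ := by
  have h3 : ((3 : ℤ) : κ) = 0 := by
    have := CharP.cast_eq_zero κ 3
    exact_mod_cast this
  have hpκ : ((2 : ℕ) : κ) ≠ 0 := by
    intro h0
    apply one_ne_zero (α := κ)
    have h0' : ((2 : ℤ) : κ) = 0 := by exact_mod_cast h0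
    have : (1 : κ) = ((3 : ℤ) : κ) - ((2 : ℤ) : κ) := by push_cast; norm_num
    rw [this, h3, h0', sub_zero]
  have hpK : ((2 : ℕ) : K) ≠ 0 := by norm_num
  refine ⟨j_lift π N haup2 ι hπ hNK hNκ hpK hpκ h2,
    j_lift_inv π N haup2 ι hπ hNK hNκ hpK hpκ h2 (-256) ?_ ?_ ?_ ?_⟩
  · have : (((-256 : ℤ)) : κ) = -(((2 : ℕ) : κ) ^ 8) := by push_cast; norm_num
    rw [this]
    exact neg_ne_zero.2 (pow_ne_zero _ hpκ)
  · change ((-256 : ℤ) : κ) = ((-64 : ℤ) : κ)
    have : ((-256 : ℤ) : κ) = ((-64 : ℤ) : κ) - 64 * ((3 : ℤ) : κ) := by push_cast; norm_num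
    rw [this, h3, mul_zero, sub_zero]
  · change ((X + C 256) ^ 3 : ℤ[X]).map (Int.castRingHom κ) = (X - C ((-256 : ℤ) : κ)) ^ 3
    simp only [Polynomial.map_pow, Polynomial.map_add, map_X, map_C]
    simp
  · change (((X + C 256) ^ 3 : ℤ[X]).map (Int.castRingHom K)).eval ((-256 : ℤ) : K) = 0
    simp

/-- the `j`-charts in residue characteristic two, at levels divisible by three -/
theorem jGood_two [CharZero K] [CharP κ 2] (ι : K →+* ℂ) (hπ : Function.Surjective π)
    (hNK : (N : K) ≠ 0) (hNκ : (N : κ) ≠ 0) (h3 : 3 ∣ N) :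
    haveI := isFunctionField_fullC K N hNK
    haveI := isFunctionField_fullC κ N hNκ
    GoodChart (modGauss π N hπ hNK hNκ) (je K N) (je κ N) ∧
      GoodChart (modGauss π N hπ hNK hNκ) (je K N)⁻¹ (je κ N)⁻¹ := by
  have h2 : ((2 : ℤ) : κ) = 0 := by
    have := CharP.cast_eq_zero κ 2
    exact_mod_cast this
  have hpκ : ((3 : ℕ) : κ) ≠ 0 := by
    intro h0
    apply one_ne_zero (α := κ)
    have h0' : ((3 : ℤ) : κ) = 0 := by exact_mod_cast h0
    have : (1 : κ) = ((3 : ℤ) : κ) - ((2 : ℤ) : κ) := by push_cast; norm_num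
    rw [this, h2, h0', sub_zero]
  have hpK : ((3 : ℕ) : K) ≠ 0 := by norm_num
  refine ⟨j_lift π N haup3 ι hπ hNK hNκ hpK hpκ h3,
    j_lift_inv π N haup3 ι hπ hNK hNκ hpK hpκ h3 (-243) ?_ ?_ ?_ ?_⟩
  · have : (((-243 : ℤ)) : κ) = -(((3 : ℕ) : κ) ^ 5) := by push_cast; norm_num
    rw [this]
    exact neg_ne_zero.2 (pow_ne_zero _ hpκ)
  · change ((-243 : ℤ) : κ) = ((-27 : ℤ) : κ)
    have : ((-243 : ℤ) : κ) = ((-27 : ℤ) : κ) - 108 * ((2 : ℤ) : κ) := by push_cast; norm_num
    rw [this, h2, mul_zero, sub_zero]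
  · change ((X + C 27) * (X + C 243) ^ 3 : ℤ[X]).map (Int.castRingHom κ) =
      (X - C ((-243 : ℤ) : κ)) ^ 4
    have h5 : ((27 : ℤ) : κ) = ((243 : ℤ) : κ) := by
      have : ((243 : ℤ) : κ) = ((27 : ℤ) : κ) + 108 * ((2 : ℤ) : κ) := by push_cast; norm_num
      rw [this, h2, mul_zero, add_zero]
    have e1 : ((X + C 27 : ℤ[X]).map (Int.castRingHom κ)) = X + C ((243 : ℤ) : κ) := by
      rw [Polynomial.map_add, map_X, map_C, ← h5]
      rfl
    have e2 : ((X + C 243 : ℤ[X]).map (Int.castRingHom κ)) = X + C ((243 : ℤ) : κ) := by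
      rw [Polynomial.map_add, map_X, map_C]
      rfl
    rw [Polynomial.map_mul, Polynomial.map_pow, e1, e2, Int.cast_neg, C_neg, sub_neg_eq_add]
    ring
  · change (((X + C 27) * (X + C 243) ^ 3 : ℤ[X]).map (Int.castRingHom K)).eval
      ((-243 : ℤ) : K) = 0
    simp

end J

end Fermat.Agent.Carayol
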