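import Fermat.Agent.Carayol.Ramif
import Fermat.Agent.Mink.Inertia
import Fermat.Agent.GoodRed.ValRing

/-!
# The inertia field `K₀` and its valuation ring `A₀`
-/

set_option autoImplicit false
set_option linter.unusedSectionVars false
set_option linter.style.haveILetI false

noncomputable section

namespace Fermat.Agent.Carayol

open Fermat.Agent.Frob IsLocalRing Polynomial
open scoped Pointwise NumberField

abbrev Qb : Type := AlgebraicClosure ℚ

instance isGaloisQb : IsGalois ℚ Qb := isGalois_Qbar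

variable (A : ValuationSubring Qb)

theorem mem_inertia_iff (σ : Qb ≃ₐ[ℚ] Qb) : σ ∈ A.inertiaSubgroupIn ℚ ↔
    (∀ x, σ x ∈ A ↔ x ∈ A) ∧ ∀ x ∈ A, A.valuation (σ x - x) < 1 := by
  constructor
  · rintro ⟨⟨σ', hσ'⟩, h1, h2⟩
    have h3 : σ' = σ := h2
    subst h3
    have hdec : σ' • A = A := hσ'
    refine ⟨fun x => ?_, fun x hx => ?_⟩
    · conv_lhs => rw [← hdec]
      exact ValuationSubring.smul_mem_pointwise_smul_iff
    · have h4 : (⟨σ', hσ'⟩ : A.decompositionSubgroup ℚ) ∈ MonoidHom.ker _ := h1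
      rw [MonoidHom.mem_ker] at h4
      have h5 := DFunLike.congr_fun h4 (residue A ⟨x, hx⟩)
      have h6 : residue A ((⟨σ', hσ'⟩ : A.decompositionSubgroup ℚ) • (⟨x, hx⟩ : A)) =
          residue A ⟨x, hx⟩ := h5
      rw [← sub_eq_zero, ← map_sub, residue_eq_zero_iff] at h6
      exact (A.valuation_lt_one_iff _).1 h6
  · rintro ⟨h1, h2⟩
    have hdec : σ • A = A := by
      ext x
      rw [ValuationSubring.mem_pointwise_smul_iff_inv_smul_mem, ← h1 (σ⁻¹ • x)]
      have : σ (σ⁻¹ • x) = x := smul_inv_smul σ x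
      rw [this]
    refine ⟨⟨σ, hdec⟩, ?_, rfl⟩
    change _ ∈ MonoidHom.ker _
    rw [MonoidHom.mem_ker]
    ext x
    obtain ⟨x, rfl⟩ := residue_surjective x
    change residue A ((⟨σ, hdec⟩ : A.decompositionSubgroup ℚ) • x) = residue A x
    rw [← sub_eq_zero, ← map_sub, residue_eq_zero_iff]
    exact (A.valuation_lt_one_iff _).2 (h2 x x.2)

/-- the inertia field -/
def K0 : IntermediateField ℚ Qb := IntermediateField.fixedField (A.inertiaSubgroupIn ℚ)

theorem mem_K0 {x : Qb} : x ∈ K0 A ↔ ∀ σ ∈ A.inertiaSubgroupIn ℚ, σ x = x := by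
  rw [K0, IntermediateField.mem_fixedField_iff]

/-- conditions on one value define closed sets -/
theorem isClosed_aux (x : Qb) (Q : Qb → Prop) : IsClosed {σ : Qb ≃ₐ[ℚ] Qb | Q (σ x)} := by
  rw [← isOpen_compl_iff]
  have hop : IsOpen ((MulAction.stabilizer (Qb ≃ₐ[ℚ] Qb) x : Subgroup _) : Set (Qb ≃ₐ[ℚ] Qb)) :=
    stabilizer_isOpen_of_isIntegral (K := ℚ) (L := Qb) x
  rw [isOpen_iff_forall_mem_open]
  intro σ hσ
  refine ⟨(fun τ => σ * τ) '' (MulAction.stabilizer (Qb ≃ₐ[ℚ] Qb) x : Set (Qb ≃ₐ[ℚ] Qb)), ?_, ?_,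
    ⟨1, one_mem _, mul_one σ⟩⟩
  · rintro _ ⟨τ, hτ, rfl⟩
    have h1 : (σ * τ) x = σ x := by
      rw [AlgEquiv.mul_apply]
      exact congrArg σ hτ
    change ¬ Q ((σ * τ) x)
    rw [h1]
    exact hσ
  · exact (Homeomorph.mulLeft σ).isOpenMap _ hop

theorem isClosed_inertia : IsClosed (A.inertiaSubgroupIn ℚ : Set (Qb ≃ₐ[ℚ] Qb)) := by
  have h : (A.inertiaSubgroupIn ℚ : Set (Qb ≃ₐ[ℚ] Qb)) =
      (⋂ x : Qb, {σ : Qb ≃ₐ[ℚ] Qb | (σ x ∈ A ↔ x ∈ A) ∧ (x ∈ A → A.valuation (σ x - x) < 1)}) := by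
    ext σ
    rw [SetLike.mem_coe, mem_inertia_iff, Set.mem_iInter]
    constructor
    · rintro ⟨h1, h2⟩ x
      exact ⟨h1 x, h2 x⟩
    · intro h
      exact ⟨fun x => (h x).1, fun x hx => (h x).2 hx⟩
  rw [h]
  refine isClosed_iInter fun x => ?_
  exact isClosed_aux x (fun y => (y ∈ A ↔ x ∈ A) ∧ (x ∈ A → A.valuation (y - x) < 1))

theorem fixingSubgroup_K0 : (K0 A).fixingSubgroup = A.inertiaSubgroupIn ℚ :=
  InfiniteGalois.fixingSubgroup_fixedField ⟨A.inertiaSubgroupIn ℚ, isClosed_inertia A⟩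

/-- automorphisms over `K₀` are in the inertia group -/
theorem mem_inertia_of_K0 (σ : Qb ≃ₐ[K0 A] Qb) :
    (σ.restrictScalars ℚ : Qb ≃ₐ[ℚ] Qb) ∈ A.inertiaSubgroupIn ℚ := by
  rw [← fixingSubgroup_K0, IntermediateField.mem_fixingSubgroup_iff]
  intro x hx
  exact σ.commutes ⟨x, hx⟩

variable {A}

theorem K0_mem_iff (σ : Qb ≃ₐ[K0 A] Qb) (x : Qb) : σ x ∈ A ↔ x ∈ A :=
  ((mem_inertia_iff A _).1 (mem_inertia_of_K0 A σ)).1 x

theorem K0_val (σ : Qb ≃ₐ[K0 A] Qb) {x : Qb} (hx : x ∈ A) : A.valuation (σ x - x) < 1 :=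
  ((mem_inertia_iff A _).1 (mem_inertia_of_K0 A σ)).2 x hx

variable {q : ℕ}

/-- the valuation of an element of the inertia field is an integral power of that of `q` -/
theorem exists_unit_mul (hq : q.Prime) (hA : A.LiesOverPrime q) {x : Qb} (hx : x ∈ K0 A)
    (hx0 : x ≠ 0) : ∃ (n : ℤ) (u : Qb), u ∈ K0 A ∧ A.valuation u = 1 ∧ x = (q : Qb) ^ n * u := by
  -- a finite Galois extension containing `x`
  let L : IntermediateField ℚ Qb := IntermediateField.normalClosure ℚ (IntermediateField.adjoin ℚ {x}) Qb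
  haveI : FiniteDimensional ℚ (IntermediateField.adjoin ℚ {x}) :=
    IntermediateField.adjoin.finiteDimensional (Algebra.IsIntegral.isIntegral x)
  haveI : FiniteDimensional ℚ L := normalClosure.is_finiteDimensional _ _ _
  haveI : Normal ℚ L := normalClosure.normal _ _ _
  haveI : IsGalois ℚ L := ⟨⟩
  haveI : NumberField L := ⟨⟩
  have hxL : x ∈ L := by
    have h1 : IntermediateField.adjoin ℚ {x} ≤ L := IntermediateField.le_normalClosure _
    exact h1 (IntermediateField.mem_adjoin_simple_self ℚ x)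
  -- the center
  let incl : 𝓞 L →+* integralClosure ℤ Qb :=
    { toFun := fun y => ⟨((y : L) : Qb), by
        have h := y.2
        exact h.map (IsScalarTower.toAlgHom ℤ L Qb)⟩
      map_one' := rfl
      map_mul' := fun _ _ => rfl
      map_zero' := rfl
      map_add' := fun _ _ => rfl }
  let P : Ideal (𝓞 L) := (center A).comap incl
  have hPmem : ∀ b : 𝓞 L, b ∈ P ↔ A.valuation (((b : L) : Qb)) < 1 := by
    intro b
    exact mem_center_iff A (incl b)
  have hPmem' : ∀ b : 𝓞 L, b ∉ P ↔ A.valuation (((b : L) : Qb)) = 1 := by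
    intro b
    exact notMem_center_iff A (incl b)
  haveI hPp : P.IsPrime := Ideal.comap_isPrime _ _
  have hqA : A.valuation (q : Qb) < 1 := by
    have h1 : (q : Qb) ∈ A.nonunits := hA
    exact h1
  have hqP : (q : 𝓞 L) ∈ P := by
    rw [hPmem]
    exact hqA
  have hq0 : (q : 𝓞 L) ≠ 0 := by exact_mod_cast hq.ne_zero
  have hP0 : P ≠ ⊥ := by
    intro h
    rw [h, Ideal.mem_bot] at hqP
    exact hq0 hqP
  -- `x` lies in the inertia field of `P`
  have hxE : (⟨x, hxL⟩ : L) ∈ inertiaField L P := by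
    rw [mem_inertiaField]
    intro γ hγ
    obtain ⟨g, hg⟩ := AlgEquiv.restrictNormalHom_surjective (F := ℚ) (K₁ := L) Qb γ
    haveI : L.fixingSubgroup.Normal := by
      infer_instance
    have hop : IsOpen (L.fixingSubgroup : Set (Qb ≃ₐ[ℚ] Qb)) :=
      IntermediateField.fixingSubgroup_isOpen L
    obtain ⟨h, hh, hhg⟩ := Mink.exists_mul_mem_inertia A hq hA L.fixingSubgroup hop g (by
      intro b hb
      have hbL : (b : Qb) ∈ L := by
        have h1 : (b : Qb) ∈ IntermediateField.fixedField L.fixingSubgroup := by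
          rw [IntermediateField.mem_fixedField_iff]
          intro f hf
          exact congrArg Subtype.val (hb f hf)
        rwa [InfiniteGalois.fixedField_fixingSubgroup] at h1
      have hbint : IsIntegral ℤ (⟨(b : Qb), hbL⟩ : L) := by
        rw [← isIntegral_algebraMap_iff (B := Qb) (algebraMap L Qb).injective]
        exact b.2
      let b' : 𝓞 L := ⟨⟨(b : Qb), hbL⟩, hbint⟩
      have h2 : γ • b' - b' ∈ P := hγ b'
      have h3 := (hPmem _).1 h2
      rw [mem_center_iff]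
      have h4 : ((γ (⟨(b : Qb), hbL⟩ : L) : L) : Qb) = g b := by
        rw [← hg]
        exact AlgEquiv.restrictNormal_commutes g L ⟨(b : Qb), hbL⟩
      change A.valuation (((γ (⟨(b : Qb), hbL⟩ : L) : L) : Qb) - b) < 1 at h3
      rw [h4] at h3
      exact h3)
    have h5 : (h * g) x = x := (mem_K0 A).1 hx _ hhg
    have h6 : ((γ (⟨x, hxL⟩ : L) : L) : Qb) = g x := by
      rw [← hg]
      exact AlgEquiv.restrictNormal_commutes g L ⟨x, hxL⟩
    have h7 : g x ∈ L := by rw [← h6]; exact Subtype.mem _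
    have h8 : h (g x) = g x := (IntermediateField.mem_fixingSubgroup_iff L h).1 hh _ h7
    apply Subtype.ext
    rw [h6]
    rw [AlgEquiv.mul_apply, h8] at h5
    exact h5
  -- the ring of integers of the inertia field
  set E := inertiaField L P with hE
  set PE := P.under (𝓞 E) with hPE
  have hram := ramificationIdx_inertiaField L P hP0
  rw [← hE, ← hPE] at hram
  haveI : PE.IsPrime := inferInstance
  haveI : P.LiesOver PE := ⟨rfl⟩
  haveI : PE.LiesOver (P.under ℤ) := ⟨by rw [hPE, Ideal.under_under]⟩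
  have hPE0 : PE ≠ ⊥ := by
    intro h
    exact hP0 (Ideal.eq_bot_of_comap_eq_bot h)
  have hPZ : P.under ℤ = Ideal.span {(q : ℤ)} := by
    have h1 : (Ideal.span {(q : ℤ)}).IsMaximal :=
      Ideal.IsPrime.isMaximal ((Ideal.span_singleton_prime (by exact_mod_cast hq.ne_zero)).2
        (Nat.prime_iff_prime_int.1 hq)) (by simpa using hq.ne_zero)
    refine (h1.eq_of_le (Ideal.IsPrime.ne_top inferInstance) ?_).symm
    rw [Ideal.span_singleton_le_iff_mem, Ideal.mem_comap]
    simpa using hqP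
  have hqE0 : (q : 𝓞 E) ≠ 0 := by exact_mod_cast hq.ne_zero
  have hmap : (P.under ℤ).map (algebraMap ℤ (𝓞 E)) = Ideal.span {(q : 𝓞 E)} := by
    rw [hPZ, Ideal.map_span, Set.image_singleton]
    simp
  have hmul : multiplicity PE (Ideal.span {(q : 𝓞 E)}) = 1 := by
    rw [← hmap, ← Ideal.IsDedekindDomain.ramificationIdx_eq_multiplicity, hram]
    rw [hmap]
    simpa using hqE0
  -- elements of `E` outside `PE`
  have hval : ∀ s : 𝓞 E, s ∉ PE → A.valuation ((((s : E) : L) : Qb)) = 1 := by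
    intro s hs
    rw [hPE, Ideal.mem_comap, hPmem'] at hs
    exact hs
  have hEK : ∀ y : E, ((y : L) : Qb) ∈ K0 A := by
    intro y
    rw [mem_K0]
    intro σ hσ
    -- the restriction of `σ` is in the inertia group of `P`
    have h1 : AlgEquiv.restrictNormalHom L σ ∈ P.inertia Gal(L/ℚ) := by
      intro b
      change (AlgEquiv.restrictNormalHom L σ) • b - b ∈ P
      rw [hPmem]
      have h4 : (((AlgEquiv.restrictNormalHom L σ) (b : L) : L) : Qb) = σ ((b : L) : Qb) :=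
        AlgEquiv.restrictNormal_commutes σ L (b : L)
      change A.valuation ((((AlgEquiv.restrictNormalHom L σ) (b : L) : L) : Qb) - ((b : L) : Qb)) < 1
      rw [h4]
      refine ((mem_inertia_iff A σ).1 hσ).2 _ ?_
      exact mem_of_isIntegral A (incl b).2
    have h2 := (mem_inertiaField L P (y : L)).1 y.2 _ h1
    have h4 : (((AlgEquiv.restrictNormalHom L σ) (y : L) : L) : Qb) = σ ((y : L) : Qb) :=
      AlgEquiv.restrictNormal_commutes σ L (y : L)
    rw [← h4, h2]
  -- write `x` as a fraction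
  obtain ⟨a, b, hb, hab⟩ := IsFractionRing.div_surjective (A := 𝓞 E) (⟨⟨x, hxL⟩, hxE⟩ : E)
  have hb0 : b ≠ 0 := nonZeroDivisors.ne_zero hb
  have ha0 : a ≠ 0 := by
    rintro rfl
    rw [map_zero, zero_div] at hab
    apply hx0
    have := congrArg (fun z : E => ((z : L) : Qb)) hab
    exact this.symm
  obtain ⟨n, s, t, hs, ht, h1⟩ := exists_pow_mul hPE0 hqE0 hmul ha0
  obtain ⟨m, s', t', hs', ht', h2⟩ := exists_pow_mul hPE0 hqE0 hmul hb0
  have hx' : x = ((((a : E) : L) : Qb)) / (((b : E) : L) : Qb) := by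
    have := congrArg (fun z : E => ((z : L) : Qb)) hab
    simp only [IntermediateField.coe_div] at this
    exact this.symm
  have e1 : ((((a : E) : L) : Qb)) * ((((s : E) : L) : Qb)) = (q : Qb) ^ n * ((((t : E) : L) : Qb)) := by
    have := congrArg (fun z : 𝓞 E => ((((z : E) : L) : Qb))) h1
    simpa using this
  have e2 : ((((b : E) : L) : Qb)) * ((((s' : E) : L) : Qb)) = (q : Qb) ^ m * ((((t' : E) : L) : Qb)) := by
    have := congrArg (fun z : 𝓞 E => ((((z : E) : L) : Qb))) h2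
    simpa using this
  have hqQ : (q : Qb) ≠ 0 := by exact_mod_cast hq.ne_zero
  have hne : ∀ s : 𝓞 E, s ∉ PE → ((((s : E) : L) : Qb)) ≠ 0 := by
    intro s hs h0
    have := hval s hs
    rw [h0, map_zero] at this
    exact zero_ne_one this
  have hs0 := hne s hs
  have ht0 := hne t ht
  have hs'0 := hne s' hs'
  have ht'0 := hne t' ht'
  have hbQ : ((((b : E) : L) : Qb)) ≠ 0 := by
    intro h0
    rw [h0, zero_mul] at e2
    exact mul_ne_zero (pow_ne_zero m hqQ) ht'0 e2.symm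
  refine ⟨(n : ℤ) - m, ((((t : E) : L) : Qb)) * ((((s' : E) : L) : Qb)) /
    (((((s : E) : L) : Qb)) * ((((t' : E) : L) : Qb))), ?_, ?_, ?_⟩
  · exact div_mem (mul_mem (hEK _) (hEK _)) (mul_mem (hEK _) (hEK _))
  · rw [map_div₀, map_mul, map_mul, hval _ ht, hval _ hs', hval _ hs, hval _ ht', mul_one, div_one]
  · rw [hx', zpow_sub₀ hqQ, zpow_natCast, zpow_natCast]
    rw [div_mul_div_comm, div_eq_div_iff hbQ (mul_ne_zero (pow_ne_zero m hqQ) (mul_ne_zero hs0 ht'0))]
    linear_combination ((q : Qb) ^ m * ((((t' : E) : L) : Qb))) * e1 -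
      ((q : Qb) ^ n * ((((t : E) : L) : Qb))) * e2

/-! ### the valuation ring `A₀` -/

variable (A) in
/-- the valuation ring of the inertia field -/
def A0 : ValuationSubring (K0 A) := A.comap (algebraMap (K0 A) Qb)

theorem mem_A0 {x : K0 A} : x ∈ A0 A ↔ (x : Qb) ∈ A := Iff.rfl

variable (A) in
/-- the inclusion `A₀ → A` -/
def inclA : A0 A →+* A where
  toFun x := ⟨((x : K0 A) : Qb), x.2⟩
  map_one' := rfl
  map_mul' _ _ := rfl
  map_zero' := rfl
  map_add' _ _ := rfl

theorem coe_inclA (x : A0 A) : ((inclA A x : A) : Qb) = ((x : K0 A) : Qb) := rfl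

theorem inclA_injective : Function.Injective (inclA A) := by
  intro x y h
  apply Subtype.ext
  apply Subtype.ext
  exact congrArg (fun z : A => (z : Qb)) h

theorem isUnit_A0_iff {x : A0 A} : IsUnit x ↔ A.valuation ((x : K0 A) : Qb) = 1 := by
  constructor
  · intro h
    have := h.map (inclA A)
    exact (A.valuation_eq_one_iff _).1 this
  · intro h
    have hx0 : (x : K0 A) ≠ 0 := by
      intro h0
      rw [h0] at h
      simp at h
    have hinv : ((x : K0 A))⁻¹ ∈ A0 A := by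
      rw [mem_A0, ← A.valuation_le_one_iff]
      rw [IntermediateField.coe_inv, map_inv₀, h, inv_one]
    exact IsUnit.of_mul_eq_one ⟨_, hinv⟩ (Subtype.ext (mul_inv_cancel₀ hx0))

theorem val_q_lt (hA : A.LiesOverPrime q) : A.valuation (q : Qb) < 1 := hA

/-- every nonzero element of `K₀` is a power of `q` times a unit -/
theorem exists_zpow_mul_unit (hq : q.Prime) (hA : A.LiesOverPrime q) {x : K0 A} (hx0 : x ≠ 0) :
    ∃ (n : ℤ) (u : (A0 A)ˣ), x = (q : K0 A) ^ n * ((u : A0 A) : K0 A) := by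
  obtain ⟨n, u, hu, huv, h⟩ := exists_unit_mul hq hA x.2 (by simpa using hx0)
  have hu' : IsUnit (⟨⟨u, hu⟩, by
    rw [mem_A0, ← A.valuation_le_one_iff]; exact huv.le⟩ : A0 A) := isUnit_A0_iff.2 huv
  refine ⟨n, hu'.unit, ?_⟩
  apply Subtype.ext
  rw [h, IsUnit.unit_spec]
  push_cast
  rfl

theorem not_isUnit_q (hA : A.LiesOverPrime q) : ¬ IsUnit ((q : ℕ) : A0 A) := by
  rw [isUnit_A0_iff]
  push_cast
  exact (val_q_lt hA).ne

theorem val_zpow_mul_unit (n : ℤ) (u : (A0 A)ˣ) :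
    A.valuation (((q : K0 A) ^ n * ((u : A0 A) : K0 A) : K0 A) : Qb) = A.valuation (q : Qb) ^ n := by
  have h := isUnit_A0_iff.1 u.isUnit
  have h2 : (((q : K0 A) ^ n : K0 A) : Qb) = (q : Qb) ^ n := by
    have := map_zpow₀ (algebraMap (K0 A) Qb) (q : K0 A) n
    rw [map_natCast] at this
    exact this
  rw [MulMemClass.coe_mul, map_mul, h, mul_one, h2, map_zpow₀]

theorem hasUnitMulPow (hq : q.Prime) (hA : A.LiesOverPrime q) :
    IsDiscreteValuationRing.HasUnitMulPowIrreducibleFactorization (A0 A) := by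
  have hqv := val_q_lt hA
  have hq0 : (q : K0 A) ≠ 0 := by exact_mod_cast hq.ne_zero
  have hqA0 : ((q : ℕ) : A0 A) ≠ 0 := by exact_mod_cast hq.ne_zero
  have hqQ : (q : Qb) ≠ 0 := by exact_mod_cast hq.ne_zero
  have hqv0 : 0 < A.valuation (q : Qb) := (Valuation.pos_iff _).2 hqQ
  have hmem : ∀ (n : ℤ) (u : (A0 A)ˣ), ((q : K0 A) ^ n * ((u : A0 A) : K0 A)) ∈ A0 A → 0 ≤ n := by
    intro n u h
    rw [mem_A0, ← A.valuation_le_one_iff, val_zpow_mul_unit] at h
    by_contra hn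
    rw [not_le] at hn
    have h1 : (1 : A.ValueGroup) < A.valuation (q : Qb) ^ n := by
      obtain ⟨m, rfl⟩ : ∃ m : ℕ, n = -((m : ℤ) + 1) := ⟨(-n - 1).toNat, by omega⟩
      rw [zpow_neg, one_lt_inv₀ (zero_lt_iff.2 (zpow_ne_zero _ hqv0.ne'))]
      have : ((m : ℤ) + 1) = ((m + 1 : ℕ) : ℤ) := by push_cast; ring
      rw [this, zpow_natCast]
      exact pow_lt_one₀ zero_le hqv (Nat.succ_ne_zero m)
    exact absurd h (not_le.2 h1)
  refine ⟨((q : ℕ) : A0 A), ⟨not_isUnit_q hA, ?_⟩, ?_⟩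
  · -- irreducible
    intro a b hab
    have ha0 : (a : K0 A) ≠ 0 := by
      intro h0
      have : a = 0 := Subtype.ext h0
      rw [this, zero_mul] at hab
      exact hqA0 hab
    have hb0 : (b : K0 A) ≠ 0 := by
      intro h0
      have : b = 0 := Subtype.ext h0
      rw [this, mul_zero] at hab
      exact hqA0 hab
    obtain ⟨n, u, hn⟩ := exists_zpow_mul_unit hq hA ha0
    obtain ⟨m, v, hm⟩ := exists_zpow_mul_unit hq hA hb0
    have hn0 : 0 ≤ n := hmem n u (hn ▸ a.2)
    have hm0 : 0 ≤ m := hmem m v (hm ▸ b.2)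
    have hva : A.valuation ((a : K0 A) : Qb) = A.valuation (q : Qb) ^ n := by
      rw [hn, val_zpow_mul_unit]
    have hvb : A.valuation ((b : K0 A) : Qb) = A.valuation (q : Qb) ^ m := by
      rw [hm, val_zpow_mul_unit]
    by_cases h1 : n = 0
    · left
      rw [isUnit_A0_iff, hva, h1, zpow_zero]
    by_cases h2 : m = 0
    · right
      rw [isUnit_A0_iff, hvb, h2, zpow_zero]
    exfalso
    have h3 : A.valuation (q : Qb) = A.valuation (q : Qb) ^ n * A.valuation (q : Qb) ^ m := by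
      rw [← hva, ← hvb, ← map_mul]
      congr 1
      have := congrArg (fun z : A0 A => ((z : K0 A) : Qb)) hab
      simpa using this
    obtain ⟨n', rfl⟩ : ∃ n' : ℕ, n = (n' : ℤ) + 1 := ⟨(n - 1).toNat, by omega⟩
    obtain ⟨m', rfl⟩ : ∃ m' : ℕ, m = (m' : ℤ) + 1 := ⟨(m - 1).toNat, by omega⟩
    rw [← zpow_add₀ hqv0.ne'] at h3
    have h4 : ((n' : ℤ) + 1 + ((m' : ℤ) + 1)) = ((n' + m' + 2 : ℕ) : ℤ) := by push_cast; ring
    rw [h4, zpow_natCast] at h3
    have h5 : A.valuation (q : Qb) ^ (n' + m' + 2) < A.valuation (q : Qb) := by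
      conv_rhs => rw [← pow_one (A.valuation (q : Qb))]
      exact pow_lt_pow_right_of_lt_one₀ hqv0 hqv (by omega)
    rw [← h3] at h5
    exact lt_irrefl _ h5
  · intro x hx
    have hx0 : (x : K0 A) ≠ 0 := fun h0 => hx (Subtype.ext h0)
    obtain ⟨n, u, hn⟩ := exists_zpow_mul_unit hq hA hx0
    have hn0 : 0 ≤ n := hmem n u (hn ▸ x.2)
    obtain ⟨m, rfl⟩ := Int.eq_ofNat_of_zero_le hn0
    refine ⟨m, u, ?_⟩
    apply Subtype.ext
    rw [hn]
    push_cast
    rw [zpow_natCast]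

theorem dvr_A0 (hq : q.Prime) (hA : A.LiesOverPrime q) : IsDiscreteValuationRing (A0 A) :=
  IsDiscreteValuationRing.ofHasUnitMulPowIrreducibleFactorization (hasUnitMulPow hq hA)

/-- `q` is a uniformizer of `A₀` -/
theorem irreducible_q (hq : q.Prime) (hA : A.LiesOverPrime q) : Irreducible ((q : ℕ) : A0 A) := by
  haveI := dvr_A0 hq hA
  obtain ⟨ϖ, hϖ⟩ := IsDiscreteValuationRing.exists_irreducible (A0 A)
  have hϖ0 : (ϖ : K0 A) ≠ 0 := fun h0 => hϖ.ne_zero (Subtype.ext h0)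
  obtain ⟨n, u, hn⟩ := exists_zpow_mul_unit hq hA hϖ0
  have hqA0 : ((q : ℕ) : A0 A) ≠ 0 := by exact_mod_cast hq.ne_zero
  obtain ⟨m, v, hv⟩ := IsDiscreteValuationRing.associated_pow_irreducible hqA0 hϖ
  -- `q v = ϖ ^ m`, `ϖ = q ^ n u`
  have h1 : A.valuation ((ϖ : K0 A) : Qb) = A.valuation (q : Qb) ^ n := by
    rw [hn, val_zpow_mul_unit]
  have h2 : A.valuation (q : Qb) = A.valuation ((ϖ : K0 A) : Qb) ^ m := by
    have := congrArg (fun z : A0 A => A.valuation ((z : K0 A) : Qb)) hv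
    simp only [MulMemClass.coe_mul, SubmonoidClass.coe_pow, map_mul, map_pow] at this
    rw [← this]
    have h3 := isUnit_A0_iff.1 v.isUnit
    rw [h3, mul_one]
    rfl
  have hqQ : (q : Qb) ≠ 0 := by exact_mod_cast hq.ne_zero
  have hqv0 : 0 < A.valuation (q : Qb) := (Valuation.pos_iff _).2 hqQ
  have hqv := val_q_lt hA
  have hϖv : A.valuation ((ϖ : K0 A) : Qb) < 1 := by
    refine lt_of_le_of_ne ((A.valuation_le_one_iff _).2 ϖ.2) ?_
    intro h
    exact hϖ.not_isUnit (isUnit_A0_iff.2 h)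
  have hϖv0 : 0 < A.valuation ((ϖ : K0 A) : Qb) := (Valuation.pos_iff _).2 (by simpa using hϖ0)
  -- `n = 1`
  have hn1 : 0 < n := by
    by_contra hn0
    rw [not_lt] at hn0
    have : (1 : A.ValueGroup) ≤ A.valuation (q : Qb) ^ n := by
      obtain ⟨k, rfl⟩ : ∃ k : ℕ, n = -(k : ℤ) := ⟨(-n).toNat, by omega⟩
      rw [zpow_neg, one_le_inv₀ (zero_lt_iff.2 (zpow_ne_zero _ hqv0.ne')), zpow_natCast]
      exact pow_le_one₀ zero_le hqv.le
    rw [← h1] at this
    exact absurd hϖv (not_lt.2 this)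
  have hm1 : m ≠ 0 := by
    rintro rfl
    rw [pow_zero] at h2
    rw [h2] at hqv
    exact lt_irrefl _ hqv
  obtain ⟨k, rfl⟩ := Int.eq_ofNat_of_zero_le hn1.le
  have h4 : A.valuation (q : Qb) = A.valuation (q : Qb) ^ (k * m) := by
    conv_lhs => rw [h2, h1]
    rw [zpow_natCast, pow_mul]
  have hk1 : k * m = 1 := by
    by_contra hne
    have hk : 2 ≤ k * m := by
      have : 0 < k * m := Nat.mul_pos (by omega) (Nat.pos_of_ne_zero hm1)
      omega
    have h5 : A.valuation (q : Qb) ^ (k * m) < A.valuation (q : Qb) := by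
      conv_rhs => rw [← pow_one (A.valuation (q : Qb))]
      exact pow_lt_pow_right_of_lt_one₀ hqv0 hqv (by omega)
    rw [← h4] at h5
    exact lt_irrefl _ h5
  have hk : k = 1 := Nat.eq_one_of_mul_eq_one_right hk1
  subst hk
  have h6 : Associated ((q : ℕ) : A0 A) ϖ := by
    refine ⟨u, ?_⟩
    apply Subtype.ext
    rw [hn]
    push_cast
    rw [zpow_one]
  exact h6.symm.irreducible hϖ

end Fermat.Agent.Carayol
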