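import Fermat.Agent.Carayol.Inst

/-!
# Carayol's theorem over the inertia field
-/

set_option autoImplicit false
set_option linter.unusedSectionVars false
set_option linter.style.haveILetI false
set_option synthInstance.maxHeartbeats 400000

noncomputable section

namespace Fermat.Agent.Carayol

open ModularCurve Fermat.Agent.GoodRed Fermat.Agent.ModFun Fermat.Agent.GenusX0
open Fermat.Agent.Models IsLocalRing Polynomial IntermediateField Fermat.Agent.SSMod
open AlgebraicCurve Fermat.Agent.Curves Fermat.Agent.AnJac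

local notation "Qb" => AlgebraicClosure ℚ

variable {A : ValuationSubring Qb} {q : ℕ}

theorem residue_galois (σ : Qb ≃ₐ[K0 A] Qb) (a : A) (h : σ (a : Qb) ∈ A) :
    residue A (⟨σ (a : Qb), h⟩ : A) = residue A a := by
  rw [← sub_eq_zero, ← map_sub, residue_eq_zero_iff]
  exact (A.valuation_lt_one_iff _).2 (K0_val σ a.2)

theorem mkSit_hasGal {M' : ℕ} [NeZero q] [NeZero M'] (hq : q.Prime) (hA : A.LiesOverPrime q)
    (hM : Nat.Coprime q M') (h4 : q ≠ 2 → 4 ∣ M') (h9 : q = 2 → 9 ∣ M') :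
    (mkSit hq hA hM h4 h9).HasGal := by
  intro i hi
  obtain ⟨σ, hσ⟩ := exists_galois hq hA (exists_root hq).choose_spec hi
  refine ⟨(σ : Qb →+* Qb), fun c => σ.commutes c, hσ, fun a => ?_⟩
  exact ⟨(K0_mem_iff σ _).2 a.2, residue_galois σ a _⟩

theorem mkSit_hasParam {M' : ℕ} [NeZero q] [NeZero M'] (hq : q.Prime) (hA : A.LiesOverPrime q)
    (hM : Nat.Coprime q M') (h4 : q ≠ 2 → 4 ∣ M') (h9 : q = 2 → 9 ∣ M') :
    (mkSit hq hA hM h4 h9).HasParam := by
  refine (mkSit hq hA hM h4 h9).hasParam ?_ ?_ ?_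
  · exact (goodCharts hq hA hM h4 h9 _ _).1
  · apply nuTwo_eq_zero
    by_cases h2 : q = 2
    · exact Or.inr ((by norm_num : 3 ∣ 9).trans (h9 h2))
    · exact Or.inl (h4 h2)
  · apply nuThree_eq_zero
    by_cases h2 : q = 2
    · exact Or.inr (h9 h2)
    · exact Or.inl ((by norm_num : 2 ∣ 4).trans (h4 h2))

theorem mkSit_divBy {M' : ℕ} [NeZero q] [NeZero M'] (hq : q.Prime) (hA : A.LiesOverPrime q)
    (hM : Nat.Coprime q M') (h4 : q ≠ 2 → 4 ∣ M') (h9 : q = 2 → 9 ∣ M') {m : ℕ}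
    (hm : Nat.Coprime q m) : (mkSit hq hA hM h4 h9).DivBy m := fun _ hc => divBy_K0 hq hA hm hc

/-- **Carayol's theorem over the inertia field.** -/
theorem carayolK0 : CarayolK0 := by
  intro q M' N _ _ _ hq hM h4 h9 hN h1 h2 A hA
  subst hN
  refine ⟨12 * (q - 1) * (q ^ 2 - 1) * ((q - 1) * (q ^ 2 - 1)), ?_, ?_⟩
  · have hq2 := hq.two_le
    have h3 : 2 ^ 2 ≤ q ^ 2 := Nat.pow_le_pow_left hq2 2
    have h5 : 0 < q - 1 := by omega
    have h6 : 0 < q ^ 2 - 1 := by omega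
    positivity
  · intro m hm hqm u hu hV hA' hB'
    exact (mkSit hq hA hM h4 h9).main (mkSit_hasGal hq hA hM h4 h9)
      (mkSit_hasParam hq hA hM h4 h9) hm hqm (mkSit_divBy hq hA hM h4 h9 hqm) hu hV hA' hB'

end Fermat.Agent.Carayol
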