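import Fermat.Agent.Carayol.Fin

/-!
# The theorem for a situation, II
-/

set_option autoImplicit false
set_option linter.unusedSectionVars false
set_option linter.style.haveILetI false

noncomputable section

namespace Fermat.Agent.Carayol

open ModularCurve Fermat.Agent.GoodRed Fermat.Agent.ModFun Fermat.Agent.GenusX0
open Fermat.Agent.Models IsLocalRing Polynomial IntermediateField Fermat.Agent.SSMod
open AlgebraicCurve Fermat.Agent.Curves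

namespace Sit

variable {k₀ K κ : Type} [Field k₀] [Field K] [Field κ] [Algebra k₀ K] {q M' : ℕ}
  [NeZero q] [NeZero M'] (S : Sit k₀ K κ q M')

/-- constants are `m`-th powers up to powers of `q` -/
def DivBy (_ : Sit k₀ K κ q M') (m : ℕ) : Prop :=
  ∀ c : k₀, c ≠ 0 → ∃ (a : ℤ) (b : k₀), b ≠ 0 ∧ c = (q : k₀) ^ a * b ^ m

variable {S}

theorem isP_const {m : ℕ} (hD : S.DivBy m) {c : k₀} (hc : c ≠ 0) :
    S.IsP m (algebraMap k₀ S.F c) := by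
  obtain ⟨a, b, hb, rfl⟩ := hD c hc
  refine ⟨a, algebraMap k₀ S.F b, (_root_.map_ne_zero _).2 hb, ?_⟩
  rw [map_mul, map_zpow₀, map_pow]

theorem isP_of_bK {m : ℕ} (hm : 0 < m) (hD : S.DivBy m) {v : S.F} (hv : v ≠ 0)
    {n : FF K (q ^ 2 * M')} (hn : S.bK v = n ^ m) : S.IsP m v := by
  obtain ⟨c, hc, x, hx⟩ := S.exists_descent_pow hm hv hn
  rw [hx]
  refine (isP_const hD hc).mul (isP_pow m ?_)
  rintro rfl
  rw [zero_pow hm.ne', mul_zero] at hx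
  exact hv hx

theorem bK_NmA (x : S.F) : S.bK (S.NmA x) = inc K h_inc (normAlong (inc K h_inc) (S.bK x)) := by
  rw [← S.bc_norm, NmA_apply]
  apply Subtype.ext
  rw [coe_bc, coe_inc, coe_inc, coe_bc]

theorem bK_NmB (x : S.F) : S.bK (S.NmB x) = exN K q h_ex (normAlong (exN K q h_ex) (S.bK x)) := by
  haveI : Fact q.Prime := ⟨S.hq⟩
  haveI := S.charZeroK
  haveI : IsAlgClosed K := S.acK
  obtain ⟨w', hw'⟩ := S.exists_wK
  have h1 : S.bK (S.NmB x) = w' (S.bK (S.NmA (S.w x))) := S.hw.bc S.hq hw' S.cK _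
  have h2 : S.bK (S.w x) = w' (S.bK x) := S.hw.bc S.hq hw' S.cK _
  rw [h1, bK_NmA, h2, hw'.inc_al S.ι S.hM]
  congr 1
  let b : FF K (q ^ 2 * M') ≃+* FF K (q ^ 2 * M') :=
    { w' with
      invFun := w'
      left_inv := fun y => hw'.invol S.hq y
      right_inv := fun y => hw'.invol S.hq y }
  have hb : ∀ y, b y = w' y := fun y => rfl
  have h3 := normAlong_equiv (inc K (h_inc (q := q) (M' := M'))) (exN K q h_ex) (al S.ι S.hM) b
    (fun y => by rw [hb]; exact hw'.inc_al S.ι S.hM y) (w' (S.bK x))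
  rw [h3, hb, hw'.invol S.hq]

theorem isUnit_m {m : ℕ} (hm : 0 < m) (hqm : Nat.Coprime q m) : IsUnit ((m : ℕ) : S.A₀) := by
  haveI := S.charP
  haveI := S.charZero₀
  have hm0 : ((m : ℕ) : k₀) ≠ 0 := by exact_mod_cast hm.ne'
  have hπ : S.π₀ ((m : ℕ) : S.A₀) ≠ 0 := by
    rw [map_natCast]
    intro h
    rw [CharP.cast_eq_zero_iff κ q] at h
    have := S.hq.two_le
    have h2 := Nat.Coprime.eq_one_of_dvd hqm h
    omega
  have hπq : S.π₀ ((q : ℕ) : S.A₀) = 0 := by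
    rw [map_natCast, CharP.cast_eq_zero]
  obtain ⟨n, u, hu⟩ := S.dvr _ hm0
  have hq0 := S.q_ne
  rcases lt_trichotomy n 0 with hn | hn | hn
  · exfalso
    obtain ⟨j, hj⟩ : ∃ j : ℕ, n = -(j + 1 : ℤ) := ⟨(-n - 1).toNat, by omega⟩
    have h1 : ((q : ℕ) : S.A₀) ^ (j + 1) * ((m : ℕ) : S.A₀) = (u : S.A₀) := by
      apply Subtype.ext
      push_cast
      have hu' : ((m : ℕ) : k₀) = (q : k₀) ^ n * ((u : S.A₀) : k₀) := hu
      rw [hu', hj, zpow_neg, ← mul_assoc]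
      have : ((q : k₀) ^ ((j : ℤ) + 1)) = (q : k₀) ^ (j + 1) := by
        rw [← zpow_natCast]; push_cast; rfl
      rw [this, mul_inv_cancel₀ (pow_ne_zero _ hq0), one_mul]
    have h2 := congrArg S.π₀ h1
    rw [map_mul, map_pow, hπq, zero_pow (Nat.succ_ne_zero _), zero_mul] at h2
    have h3 : IsUnit (S.π₀ (u : S.A₀)) := u.isUnit.map _
    rw [← h2] at h3
    exact not_isUnit_zero h3
  · subst hn
    have h1 : ((m : ℕ) : S.A₀) = (u : S.A₀) := by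
      apply Subtype.ext
      push_cast
      rw [hu, zpow_zero, one_mul]
    rw [h1]
    exact u.isUnit
  · exfalso
    obtain ⟨j, hj⟩ : ∃ j : ℕ, n = (j + 1 : ℤ) := ⟨(n - 1).toNat, by omega⟩
    have h1 : ((m : ℕ) : S.A₀) = ((q : ℕ) : S.A₀) ^ (j + 1) * (u : S.A₀) := by
      apply Subtype.ext
      push_cast
      have hu' : ((m : ℕ) : k₀) = (q : k₀) ^ n * ((u : S.A₀) : k₀) := hu
      rw [hu', hj]
      congr 1
      rw [← zpow_natCast]; push_cast; rfl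
    apply hπ
    rw [h1, map_mul, map_pow, hπq, zero_pow (Nat.succ_ne_zero _), zero_mul]

theorem O_w {w : S.F} {n : ℤ} (hG : S.HasGal) :
    (S.O 0 w n → S.O 2 (S.w w) n) ∧ (S.O 1 w n → S.O 1 (S.w w) n) ∧
      (S.O 2 w n → S.O 0 (S.w w) n) := by
  have e : S.w w * S.ϖF ^ (-n) = S.w (w * S.ϖF ^ (-n)) := by
    rw [map_mul, map_zpow₀, S.hw.const]
  refine ⟨fun h => ?_, fun h => ?_, fun h => ?_⟩
  · rw [O, IsOrd, e, (C0_w (Res.mem_of_r_ne_zero h)).2]; exact h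
  · rw [O, IsOrd, e, (C1_w hG (Res.mem_of_r_ne_zero h)).2]; exact h
  · rw [O, IsOrd, e, (C2_w (Res.mem_of_r_ne_zero h)).2]; exact h

set_option synthInstance.maxHeartbeats 400000 in
set_option maxHeartbeats 1000000 in
/-- **The theorem for a situation.** -/
theorem main (hG : S.HasGal) (hpar : S.HasParam) {m : ℕ} (hm : 0 < m) (hqm : Nat.Coprime q m)
    (hD : S.DivBy m) {u : S.F} (hu0 : u ≠ 0)
    (hh : ∀ V : ValuationSubring S.F, (∀ c : k₀, algebraMap k₀ S.F c ∈ V) → V ≠ ⊤ →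
      ∃ y : S.F, y ≠ 0 ∧ u * y ^ m ∈ V ∧ (u * y ^ m)⁻¹ ∈ V)
    (hA : ∃ n : FF K (q * M'), normAlong (inc K h_inc) (S.bK u) = n ^ m)
    (hB : ∃ n : FF K (q * M'), normAlong (exN K q h_ex) (S.bK u) = n ^ m) :
    ∃ c : k₀, c ≠ 0 ∧ ∃ x : S.F, x ≠ 0 ∧
      u ^ (12 * (q - 1) * (q ^ 2 - 1) * ((q - 1) * (q ^ 2 - 1))) =
        algebraMap k₀ S.F c * x ^ m := by
  have hq2 := S.hq.two_le
  have hwu : S.w u ≠ 0 := (_root_.map_ne_zero _).2 hu0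
  -- the norms
  have PA : S.IsP m (S.NmA u) := by
    obtain ⟨n, hn⟩ := hA
    refine isP_of_bK hm hD (S.NmA_ne hu0) (n := inc K h_inc n) ?_
    rw [bK_NmA, hn, map_pow]
  have PB : S.IsP m (S.NmB u) := by
    obtain ⟨n, hn⟩ := hB
    have hne : S.NmB u ≠ 0 := by
      rw [NmB_apply]; exact (_root_.map_ne_zero S.w).2 (S.NmA_ne hwu)
    refine isP_of_bK hm hD hne (n := exN K q h_ex n) ?_
    rw [bK_NmB, hn, map_pow]
  -- orders
  have hn : ∀ i, ∃ n, S.O i (u ^ (q - 1)) n := fun i => S.exists_O i hu0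
  choose n hn using hn
  have c1 : (m : ℤ) ∣ n 0 + (q - 1) * n 1 - q * n 2 :=
    congr_of_norm hG hn (by rw [map_pow]; exact PA.pow _)
  have c2 : (m : ℤ) ∣ n 2 + (q - 1) * n 1 - q * n 0 := by
    have hn' : ∀ i, S.O i (S.w (u ^ (q - 1))) (![n 2, n 1, n 0] i) := by
      intro i
      fin_cases i
      · exact (O_w hG).2.2 (hn 2)
      · exact (O_w hG).2.1 (hn 1)
      · exact (O_w hG).1 (hn 0)
    have h := congr_of_norm hG hn' (by
      have : S.NmA (S.w (u ^ (q - 1))) = S.w (S.NmB (u ^ (q - 1))) := by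
        rw [NmB_apply, w_w]
      rw [this, map_pow]
      exact (PB.pow _).w)
    exact h
  have hqZ : ((q ^ 2 - 1 : ℕ) : ℤ) = (q : ℤ) ^ 2 - 1 := by
    have : 1 ≤ q ^ 2 := Nat.one_le_pow _ _ S.hq.pos
    push_cast [Nat.cast_sub this]
    ring
  have hqZ1 : ((q - 1 : ℕ) : ℤ) = (q : ℤ) - 1 := by
    push_cast [Nat.cast_sub (by omega : 1 ≤ q)]
    ring
  obtain ⟨k0, hk0⟩ : (m : ℤ) ∣ ((q ^ 2 - 1 : ℕ) : ℤ) * (n 0 - n 2) := by
    have e : ((q ^ 2 - 1 : ℕ) : ℤ) * (n 0 - n 2) = ((q : ℤ) - 1) *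
        ((n 0 + (q - 1) * n 1 - q * n 2) - (n 2 + (q - 1) * n 1 - q * n 0)) := by
      rw [hqZ]; ring
    rw [e]
    exact Dvd.dvd.mul_left (dvd_sub c1 c2) _
  obtain ⟨k1, hk1⟩ : (m : ℤ) ∣ ((q ^ 2 - 1 : ℕ) : ℤ) * (n 1 - n 2) := by
    have e : ((q ^ 2 - 1 : ℕ) : ℤ) * (n 1 - n 2) = ((q : ℤ) + 1) *
        (n 0 + (q - 1) * n 1 - q * n 2) -
        ((n 0 + (q - 1) * n 1 - q * n 2) - (n 2 + (q - 1) * n 1 - q * n 0)) := by
      rw [hqZ]; ring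
    rw [e]
    exact dvd_sub (Dvd.dvd.mul_left c1 _) (dvd_sub c1 c2)
  -- the normalised element
  obtain ⟨H, hH⟩ : ∃ H : ℕ, H = q ^ 2 - 1 := ⟨_, rfl⟩
  rw [← hH] at hk0 hk1
  obtain ⟨e, he⟩ : ∃ e : ℤ, e = 12 * (-(H * n 2)) := ⟨_, rfl⟩
  obtain ⟨y, hy⟩ : ∃ y : S.F, y = S.δ2 ^ (-k0) * S.cc ^ (-k1) := ⟨_, rfl⟩
  have hy0 : y ≠ 0 := by
    rw [hy]; exact mul_ne_zero (zpow_ne_zero _ S.δ2_ne) (zpow_ne_zero _ S.cc_ne)
  obtain ⟨u2, hu2⟩ : ∃ u2 : S.F, u2 = ((u ^ (q - 1)) ^ H) ^ 12 * S.ϖF ^ e * y ^ m := ⟨_, rfl⟩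
  have o0 : S.O 0 u2 0 := by
    have h := S.O_mul (S.O_mul (S.O_pow (S.O_pow (hn 0) H) 12) (S.O_ϖ 0 e))
      (S.O_pow (S.O_mul (S.O_zpow S.O_δ2.1 (-k0)) (S.O_zpow S.O_cc.1 (-k1))) m)
    rw [hu2, hy]
    convert h using 1
    rw [he]
    push_cast
    linear_combination (-12 : ℤ) * hk0
  have o1 : S.O 1 u2 0 := by
    have h := S.O_mul (S.O_mul (S.O_pow (S.O_pow (hn 1) H) 12) (S.O_ϖ 1 e))
      (S.O_pow (S.O_mul (S.O_zpow S.O_δ2.2.1 (-k0)) (S.O_zpow S.O_cc.2.1 (-k1))) m)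
    rw [hu2, hy]
    convert h using 1
    rw [he]
    push_cast
    linear_combination (-12 : ℤ) * hk1
  have o2 : S.O 2 u2 0 := by
    have h := S.O_mul (S.O_mul (S.O_pow (S.O_pow (hn 2) H) 12) (S.O_ϖ 2 e))
      (S.O_pow (S.O_mul (S.O_zpow S.O_δ2.2.2 (-k0)) (S.O_zpow S.O_cc.2.2 (-k1))) m)
    rw [hu2, hy]
    convert h using 1
    rw [he]
    push_cast
    ring
  have hu2n : ∀ i, S.O i u2 0 := by
    intro i
    fin_cases i
    · exact o0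
    · exact o1
    · exact o2
  have PA2 : S.IsP m (S.NmA u2) := by
    rw [hu2, map_mul, map_mul, map_pow, map_pow, map_pow, map_pow, S.NmA_zpow S.ϖ_ne, NmA_ϖ]
    refine ((((PA.pow _).pow _).pow _).mul ?_).mul (isP_pow m (S.NmA_ne hy0))
    have := (isP_ϖ (S := S) m 1).pow q
    rw [zpow_one] at this
    exact this.zpow e
  have PB2 : S.IsP m (S.NmB u2) := by
    have h1 : S.NmB u2 = ((S.NmB u ^ (q - 1)) ^ H) ^ 12 * (S.ϖF ^ q) ^ e * S.NmB y ^ m := by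
      have hϖ : S.NmB (S.ϖF ^ e) = (S.ϖF ^ q) ^ e := by
        rw [NmB_apply, map_zpow₀, S.hw.const, S.NmA_zpow S.ϖ_ne, NmA_ϖ, map_zpow₀, map_pow,
          S.hw.const]
      rw [hu2, map_mul, map_mul, map_pow, map_pow, map_pow, map_pow, hϖ]
    rw [h1]
    refine ((((PB.pow _).pow _).pow _).mul ?_).mul (isP_pow m ?_)
    · have := (isP_ϖ (S := S) m 1).pow q
      rw [zpow_one] at this
      exact this.zpow e
    · rw [NmB_apply]
      exact (_root_.map_ne_zero _).2 (S.NmA_ne ((_root_.map_ne_zero _).2 hy0))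
  have hNA := isNormA hG
  have hNB := isNormB hG
  have hr : ∀ i, (S.C i).r u2 ≠ 0 := fun i => S.O_zero.1 (hu2n i)
  obtain ⟨na, hna0, hna⟩ := PA2.root (i := 0) (by decide) (by
    rw [O_zero, hNA.r_a u2 (Res.mem_of_r_ne_zero (hr 0)) (Res.mem_of_r_ne_zero (hr 1))]
    exact mul_ne_zero (hr 0) (pow_ne_zero _ (hr 1)))
  obtain ⟨nb, hnb0, hnb⟩ := PB2.root (i := 2) (by decide) (by
    rw [O_zero, hNB.r_a u2 (Res.mem_of_r_ne_zero (hr 2)) (Res.mem_of_r_ne_zero (hr 1))]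
    exact mul_ne_zero (hr 2) (pow_ne_zero _ (hr 1)))
  -- the hypothesis on valuation rings
  have hh2 : ∀ V : ValuationSubring S.F, (∀ c : k₀, algebraMap k₀ S.F c ∈ V) → V ≠ ⊤ →
      ∃ y : S.F, y ≠ 0 ∧ u2 * y ^ m ∈ V ∧ (u2 * y ^ m)⁻¹ ∈ V := by
    intro V hV hVt
    obtain ⟨z, hz0, hz1, hz2⟩ := hh V hV hVt
    have hϖV : ∀ j : ℤ, S.ϖF ^ j ∈ V := fun j => by
      have := hV (S.ϖ ^ j)
      rwa [map_zpow₀] at this
    refine ⟨z ^ ((q - 1) * H * 12) * y⁻¹, mul_ne_zero (pow_ne_zero _ hz0) (inv_ne_zero hy0), ?_⟩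
    have e1 : u2 * (z ^ ((q - 1) * H * 12) * y⁻¹) ^ m =
        (u * z ^ m) ^ ((q - 1) * H * 12) * S.ϖF ^ e := by
      have a1 : y ^ m * y⁻¹ ^ m = 1 := by
        rw [← mul_pow, mul_inv_cancel₀ hy0, one_pow]
      rw [hu2, mul_pow, mul_pow, ← pow_mul, ← pow_mul, ← pow_mul, ← pow_mul,
        mul_comm m ((q - 1) * H * 12)]
      calc _ = u ^ ((q - 1) * H * 12) * z ^ ((q - 1) * H * 12 * m) * S.ϖF ^ e *
            (y ^ m * y⁻¹ ^ m) := by ring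
        _ = _ := by rw [a1, mul_one]
    rw [e1]
    refine ⟨mul_mem (pow_mem hz1 _) (hϖV e), ?_⟩
    rw [mul_inv, ← inv_pow, ← zpow_neg]
    exact mul_mem (pow_mem hz2 _) (hϖV _)
  -- the main theorem
  haveI : Fact q.Prime := ⟨S.hq⟩
  haveI := S.charP
  haveI : IsAlgClosed κ := S.acκ
  haveI : CharP S.𝓕 q := charP_of_injective_algebraMap (algebraMap κ S.𝓕).injective q
  haveI := tower_A (F := S.F) S.A₀
  obtain ⟨c, hc, x, hx⟩ := (S.setup hpar).main hm (isUnit_m hm hqm) hqm hr hh2 hNA hNB hna hnb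
  have hu20 : u2 ≠ 0 := Res.ne_zero_of_r (hr 0)
  have hx0 : x ≠ 0 := by
    rintro rfl
    rw [zero_pow hm.ne', mul_zero] at hx
    exact pow_ne_zero _ hu20 hx
  obtain ⟨E, hE⟩ : ∃ E, E = (q - 1) * (q ^ 2 - 1) := ⟨_, rfl⟩
  rw [← hE] at hx
  refine ⟨c * (S.ϖ ^ e) ^ (-(E : ℤ)), mul_ne_zero hc (zpow_ne_zero _ (zpow_ne_zero _ S.q_ne)),
    x * (y ^ E)⁻¹, mul_ne_zero hx0 (inv_ne_zero (pow_ne_zero _ hy0)), ?_⟩
  rw [← hE, ← hH]
  have e1 : u2 ^ E = u ^ (12 * (q - 1) * H * E) * (S.ϖF ^ e) ^ E * (y ^ E) ^ m := by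
    rw [hu2, mul_pow, mul_pow, ← pow_mul, ← pow_mul, ← pow_mul, ← pow_mul y m, ← pow_mul y E,
      mul_comm m E]
    congr 3
    ring
  have hϖE : (S.ϖF ^ e) ^ E ≠ 0 := pow_ne_zero _ (zpow_ne_zero _ S.ϖ_ne)
  have hyE : (y ^ E) ^ m ≠ 0 := pow_ne_zero _ (pow_ne_zero _ hy0)
  rw [e1] at hx
  rw [map_mul, map_zpow₀, map_zpow₀, zpow_neg, zpow_natCast, mul_pow, inv_pow]
  change _ = algebraMap k₀ S.F c * ((S.ϖF ^ e) ^ E)⁻¹ * _
  have h3 : u ^ (12 * (q - 1) * H * E) = (algebraMap k₀ S.F c * x ^ m) * ((S.ϖF ^ e) ^ E)⁻¹ *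
      ((y ^ E) ^ m)⁻¹ := by
    rw [← hx, mul_assoc (u ^ _), mul_comm ((S.ϖF ^ e) ^ E), ← mul_assoc, mul_inv_cancel_right₀ hϖE,
      mul_inv_cancel_right₀ hyE]
  rw [h3]
  ring

end Sit

end Fermat.Agent.Carayol
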