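import Fermat.Agent.Carayol.Set1
import Fermat.Agent.AnJac.Descent

/-!
# The `Δ`-units
-/

set_option autoImplicit false
set_option linter.unusedSectionVars false
set_option linter.style.haveILetI false
set_option synthInstance.maxHeartbeats 400000

noncomputable section

namespace Fermat.Agent.Carayol

open ModularCurve Fermat.Agent.GoodRed Fermat.Agent.ModFun Fermat.Agent.GenusX0
open Fermat.Agent.Models IsLocalRing Polynomial IntermediateField Fermat.Agent.SSMod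
open AlgebraicCurve Fermat.Agent.Curves

/-- descent of functions -/
theorem mem_FF_of_coeffs {k : Type*} [Field k] (ι : k →+* ℂ) {N : ℕ} [NeZero N]
    {w : LaurentSeries k} (h : coeffMap ι w ∈ FF ℂ N) : w ∈ FF k N := by
  letI : Algebra k ℂ := ι.toAlgebra
  exact Fermat.Agent.AnJac.mem_of_coeffs h

/-- `Δ(z)/Δ(qz)` -/
def dSer (k : Type*) [CommRing k] (q : ℕ) [NeZero q] : LaurentSeries k :=
  DeltaSer k * qExpand k q (DeltaInvSer k)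

theorem coeffMap_dSer {k K : Type*} [CommRing k] [CommRing K] (f : k →+* K) (q : ℕ) [NeZero q] :
    coeffMap f (dSer k q) = dSer K q := by
  rw [dSer, map_mul, coeffMap_qExpand, coeffMap_DeltaSer, coeffMap_DeltaInvSer, dSer]

theorem dSer_ne (k : Type*) [Field k] (q : ℕ) [NeZero q] : dSer k q ≠ 0 := by
  refine mul_ne_zero (DeltaSer_ne_zero (k := k)) ((map_ne_zero_iff _ (qExpand_injective q)).mpr ?_)
  rw [DeltaInvSer_eq]
  exact inv_ne_zero (DeltaSer_ne_zero (k := k))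

/-- `Δ(qz)/Δ(z)` -/
def eSer (k : Type*) [CommRing k] (q : ℕ) [NeZero q] : LaurentSeries k :=
  qExpand k q (DeltaSer k) * DeltaInvSer k

theorem coeffMap_eSer {k K : Type*} [CommRing k] [CommRing K] (f : k →+* K) (q : ℕ) [NeZero q] :
    coeffMap f (eSer k q) = eSer K q := by
  rw [eSer, map_mul, coeffMap_qExpand, coeffMap_DeltaSer, coeffMap_DeltaInvSer, eSer]

theorem dSer_mul_eSer (k : Type*) [CommRing k] (q : ℕ) [NeZero q] : dSer k q * eSer k q = 1 := by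
  have h1 := DeltaSer_mul_inv k
  have h2 : qExpand k q (DeltaSer k) * qExpand k q (DeltaInvSer k) = 1 := by
    rw [← map_mul, h1, map_one]
  rw [dSer, eSer]
  linear_combination h1 + (DeltaSer k * DeltaInvSer k) * h2

theorem eSer_eq (k : Type*) [Field k] (q : ℕ) [NeZero q] : eSer k q = (dSer k q)⁻¹ :=
  eq_inv_of_mul_eq_one_right (dSer_mul_eSer k q)

/-- in characteristic `q` the element `Δ(z)/Δ(qz)` is a power of `Δ` -/
theorem qExpand_eSer {κ : Type*} [Field κ] {q : ℕ} [NeZero q] (hq : q.Prime) [CharP κ q] :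
    qExpand κ q (eSer κ q) = (dSer κ q)⁻¹ ^ q := by
  haveI : Fact q.Prime := ⟨hq⟩
  rw [← eSer_eq, pow_eq_qExpand, coeffMap_eSer]

theorem h_inc {q M' : ℕ} : q * M' ∣ q ^ 2 * M' := mul_dvd_mul (dvd_pow_self q two_ne_zero) dvd_rfl
theorem h_ex {q M' : ℕ} : q * (q * M') ∣ q ^ 2 * M' := by rw [sq, mul_assoc]

section KK

variable {K : Type*} [Field K] [IsAlgClosed K] [CharZero K] (ι : K →+* ℂ) {q M' : ℕ} [NeZero q]
  [NeZero M'] [hq : Fact q.Prime] (hqM : Nat.Coprime q M')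


theorem alpha_jel (d : ℕ) [NeZero d] (hd : d ∣ M') :
    alpha K q M' (jel K d hd) = jel K d (hd.trans (Dvd.intro_left _ rfl)) :=
  Subtype.ext (coe_alpha _)

theorem beta_jel (d : ℕ) [NeZero d] (hd : d ∣ M') :
    beta K q M' (jel K d hd) = jel K (q * d) (mul_dvd_mul_left q hd) := by
  apply Subtype.ext
  rw [coe_beta, coe_jel, coe_jel, qExpand_qExpand]

/-- the involution of level `q² M'` on functions of level `q M'` -/
theorem IsW.inc_al {w : FF K (q ^ 2 * M') →+* FF K (q ^ 2 * M')} (hw : IsW w)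
    (f : FF K (q * M')) :
    w (Carayol.inc K h_inc f) = Carayol.exN K q h_ex (al ι hqM f) := by
  have : w.comp (Carayol.inc K h_inc) = (Carayol.exN K q h_ex).comp (al ι hqM : _ →+* _) := by
    refine ext_gen (fun c => ?_) fun d _ hd => ?_
    · rw [RingHom.comp_apply, RingHom.comp_apply, inc_const, hw.const]
      change _ = Carayol.exN K q h_ex (al ι hqM _)
      rw [al_const, exN_const]
    · obtain ⟨a, d₀, ha, hd₀, hda⟩ := dvd_cases' hq.out hd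
      haveI := neZero_of_dvd hd₀
      rw [RingHom.comp_apply, RingHom.comp_apply, inc_jel]
      change _ = Carayol.exN K q h_ex (al ι hqM _)
      rcases Nat.lt_or_ge a 1 with h | h
      · have : a = 0 := by omega
        subst this
        rw [pow_zero, one_mul] at hda
        subst hda
        rw [← alpha_jel (q := q) d hd₀, al_alpha, beta_jel, exN_jel]
        exact hw.gen 0 d d (q * (q * d)) _ _ (by norm_num) hd₀ (by rw [pow_zero, one_mul])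
          (by rw [Nat.sub_zero]; ring)
      · have : a = 1 := by omega
        subst this
        rw [pow_one] at hda
        subst hda
        rw [← beta_jel d₀ hd₀, al_beta, alpha_jel, exN_jel]
        exact hw.gen 1 d₀ (q * d₀) (q * d₀) _ _ (by norm_num) hd₀ (by rw [pow_one])
          (by rw [show 2 - 1 = 1 from rfl, pow_one])
  exact congrArg (fun g => g f) this

theorem uM_icr : uM K q M' ∈ icr K (jA K q M') := by
  obtain ⟨U, h1, h2⟩ := exists_U' K q M'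
  exact mem_icr.2 ⟨U, h1, eval₂_of_ev h2⟩

theorem jB_icr : jB K q M' ∈ icr K (jA K q M') := by
  obtain ⟨P, h1, -, h2, -⟩ := exists_Phi' K q M'
  exact mem_icr.2 ⟨P, h1, eval₂_of_ev h2⟩

theorem al_uM_icr : al ι hqM (uM K q M') ∈ icr K (jA K q M') := by
  obtain ⟨U, h1, h2⟩ := exists_U' K q M'
  have h3 := congrArg (al ι hqM) h2
  rw [al_ev, map_zero, al_jA] at h3
  exact icr_le jB_icr (mem_icr.2 ⟨U, h1, eval₂_of_ev h3⟩)

end KK

namespace Sit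

variable {k₀ K κ : Type} [Field k₀] [Field K] [Field κ] [Algebra k₀ K] {q M' : ℕ}
  [NeZero q] [NeZero M'] (S : Sit k₀ K κ q M')

/-- the embedding of `k₀` -/
abbrev ι₀ : k₀ →+* ℂ := S.ι.comp (algebraMap k₀ K)

include S in
theorem dSer_mem : dSer k₀ q ∈ FF k₀ (q ^ 2 * M') := by
  haveI : Fact q.Prime := ⟨S.hq⟩
  apply mem_FF_of_coeffs S.ι₀
  rw [coeffMap_dSer]
  have h1 := (inc ℂ (h_inc (q := q) (M' := M')) (al (RingHom.id ℂ) S.hM (uM ℂ q M'))).2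
  rw [coe_inc, al_uM] at h1
  exact h1

/-- `Δ(z)/Δ(qz)` -/
def δ1 : S.F := ⟨dSer k₀ q, S.dSer_mem⟩

/-- `q¹² Δ(q²z)/Δ(qz)` -/
def δ2 : S.F := S.w S.δ1

theorem w_δ1 : S.w S.δ1 = S.δ2 := rfl
theorem w_δ2 : S.w S.δ2 = S.δ1 := by rw [δ2, w_w]

theorem δ1_ne : S.δ1 ≠ 0 := fun h => dSer_ne k₀ q (congrArg Subtype.val h)
theorem δ2_ne : S.δ2 ≠ 0 := (_root_.map_ne_zero _).2 S.δ1_ne

theorem bK_δ1 : haveI : Fact q.Prime := ⟨S.hq⟩
    haveI := S.charZeroK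
    haveI : IsAlgClosed K := S.acK
    S.bK S.δ1 = inc K h_inc (al S.ι S.hM (uM K q M')) := by
  haveI : Fact q.Prime := ⟨S.hq⟩
  haveI := S.charZeroK
  haveI : IsAlgClosed K := S.acK
  apply Subtype.ext
  rw [coe_bc, coe_inc, al_uM]
  exact coeffMap_dSer _ q

include S in
theorem exists_wK : ∃ w : FF K (q ^ 2 * M') →+* FF K (q ^ 2 * M'), IsW w := by
  obtain ⟨w, h1, h2⟩ := exists_w (k := K) (M' := M') S.ι S.hq S.hM
  exact ⟨w, h1, h2⟩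

theorem φ0_δ1 : S.φ 0 S.δ1 = dSer K q := coeffMap_dSer _ q

theorem φ1_δ1 : S.φ 1 S.δ1 = dSer K q := by
  haveI : Fact q.Prime := ⟨S.hq⟩
  haveI := S.charZeroK
  haveI : IsAlgClosed K := S.acK
  have h := S.bK_δ1
  rw [φ1]
  change S.s (S.bK S.δ1) = _
  rw [h, S.hs.inc, al_uM]
  rfl

theorem φ0_δ2 : S.φ 0 S.δ2 = algebraMap K _ ((q : K) ^ 12) * qExpand K q (eSer K q) := by
  haveI : Fact q.Prime := ⟨S.hq⟩
  haveI := S.charZeroK
  haveI : IsAlgClosed K := S.acK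
  obtain ⟨w', hw'⟩ := S.exists_wK
  have h1 : S.bK S.δ2 = exN K q h_ex (uM K q M') := by
    change bc S.cK _ (S.w S.δ1) = _
    rw [S.hw.bc S.hq hw']
    have h := S.bK_δ1
    change w' (S.bK S.δ1) = _
    rw [h, hw'.inc_al S.ι S.hM, al_al]
  have h2 : S.φ 0 S.δ2 = ((S.bK S.δ2 : FF K (q ^ 2 * M')) : LaurentSeries K) := rfl
  rw [h2, h1, coe_exN, coe_uM, uSer, eSer, mul_assoc, map_mul, ← ModFun.C_eq_algebraMap]
  congr 1
  exact qExpand_C _ _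

theorem φ1_δ2 : S.φ 1 S.δ2 = twist S.ζ (dSer K q) := by
  haveI : Fact q.Prime := ⟨S.hq⟩
  haveI := S.charZeroK
  haveI : IsAlgClosed K := S.acK
  obtain ⟨w', hw'⟩ := S.exists_wK
  obtain ⟨s', h1, h2, h3⟩ := exists_sig (K := K) (M' := M') S.ι S.hq S.hM S.ζ⁻¹ (by
    rw [Units.val_inv_eq_inv_val]; exact S.hζ.inv)
  have hs' : IsSig S.ζ⁻¹ s' := ⟨h1, h2, h3⟩
  rw [φ1]
  change S.s (bc S.cK _ (S.w S.δ1)) = _
  rw [S.hw.bc S.hq hw', S.hs.comp_w S.hq (Units.ext (by push_cast; exact S.hζ.pow_eq_one)) hs' hw']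
  congr 1
  have h := S.bK_δ1
  change s' (S.bK S.δ1) = _
  rw [h, hs'.inc, al_uM]
  rfl

/-- the residue -/
abbrev dκ (_ : Sit k₀ K κ q M') : LaurentSeries κ := dSer κ q

theorem R_dSer : LR S.π (dSer K q) S.dκ := by
  have h := S.R_cZ (dSer ℤ q)
  rwa [cZ, cZ, coeffMap_dSer, coeffMap_dSer] at h

theorem R0_δ1 : (S.P 0).R S.δ1 S.dκ := by rw [P_R, φ0_δ1]; exact S.R_dSer
theorem R1_δ1 : (S.P 1).R S.δ1 S.dκ := by rw [P_R, φ1_δ1]; exact S.R_dSer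
theorem R1_δ2 : (S.P 1).R S.δ2 S.dκ := by rw [P_R, φ1_δ2]; exact S.R_twist S.R_dSer
theorem R2_δ2 : (S.P 2).R S.δ2 S.dκ := by rw [P2_R, w_δ2]; exact S.R0_δ1

/-- `q^{-12} δ₂` is a unit at the component `0` -/
theorem R0_δ2 : (S.P 0).R ((algebraMap k₀ S.F S.ϖ)⁻¹ ^ 12 * S.δ2) (S.dκ⁻¹ ^ q) := by
  haveI := S.charP
  rw [P_R, map_mul, map_pow, map_inv₀, φ_const, φ0_δ2, map_natCast, ← mul_assoc, map_pow,
    inv_pow, inv_mul_cancel₀, one_mul]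
  · have h := S.R_cZ (qExpand ℤ q (eSer ℤ q))
    rw [cZ, cZ, coeffMap_qExpand, coeffMap_qExpand, coeffMap_eSer, coeffMap_eSer,
      qExpand_eSer (κ := κ) S.hq] at h
    exact h
  · exact pow_ne_zero _ ((_root_.map_ne_zero _).2 S.q_ne')

theorem R2_δ1 : (S.P 2).R ((algebraMap k₀ S.F S.ϖ)⁻¹ ^ 12 * S.δ1) (S.dκ⁻¹ ^ q) := by
  rw [P2_R, map_mul, map_pow, map_inv₀, S.hw.const, w_δ1]
  exact S.R0_δ2

theorem dκ_ne : S.dκ ≠ 0 := dSer_ne κ q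

/-! ### integrality -/

theorem inc_jA : inc K (h_inc (q := q) (M' := M')) (jA K q M') = S.bK S.j1 := by
  haveI : Fact q.Prime := ⟨S.hq⟩
  haveI := S.charZeroK
  haveI : IsAlgClosed K := S.acK
  apply Subtype.ext
  rw [coe_inc, coe_jA, bK_j1, coe_jel, qExpand_one_apply]

theorem inc_icr {f : FF K (q * M')} (hf : f ∈ icr K (jA K q M')) :
    inc K (h_inc (q := q) (M' := M')) f ∈ icr K (S.bK S.j1) := by
  rw [← S.inc_jA]
  exact icr_map (RingHom.id K) (inc K h_inc) (fun a => inc_const _ a) hf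

theorem δ1_icr : S.δ1 ∈ icr k₀ S.j1 := by
  haveI : Fact q.Prime := ⟨S.hq⟩
  haveI := S.charZeroK
  haveI : IsAlgClosed K := S.acK
  haveI : Algebra.IsIntegral k₀ K := S.intK
  refine icr_descend (bc S.cK (q ^ 2 * M')) (bc_const S.cK) ?_
  have h := S.bK_δ1
  change S.bK S.δ1 ∈ _
  rw [h]
  exact S.inc_icr (al_uM_icr S.ι S.hM)

theorem δ1i_icr : S.δ1⁻¹ ∈ icr k₀ S.j1 := by
  haveI : Fact q.Prime := ⟨S.hq⟩
  haveI := S.charZeroK
  haveI : IsAlgClosed K := S.acK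
  haveI : Algebra.IsIntegral k₀ K := S.intK
  refine icr_descend (bc S.cK (q ^ 2 * M')) (bc_const S.cK) ?_
  have h := S.bK_δ1
  change S.bK S.δ1⁻¹ ∈ _
  have h1 := uM_mul_al (K := K) S.ι S.hM
  have h2 : S.bK S.δ1⁻¹ = algebraMap K _ ((q : K) ^ 12)⁻¹ * inc K h_inc (uM K q M') := by
    rw [map_inv₀, h, ← map_inv₀]
    have h3 : (q : K) ^ 12 ≠ 0 := pow_ne_zero _ S.q_ne'
    have h4 : (al S.ι S.hM (uM K q M'))⁻¹ = algebraMap K _ ((q : K) ^ 12)⁻¹ * uM K q M' := by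
      have h5 : uM K q M' * al S.ι S.hM (uM K q M') ≠ 0 := by
        rw [h1]
        exact (_root_.map_ne_zero _).2 h3
      have h6 := right_ne_zero_of_mul h5
      rw [inv_eq_iff_eq_inv, eq_comm, inv_eq_of_mul_eq_one_right]
      rw [mul_assoc, h1, ← map_mul, inv_mul_cancel₀ h3, map_one]
    rw [h4, map_mul, inc_const]
  rw [h2]
  exact mul_mem (const_mem_icr _ _) (S.inc_icr uM_icr)

theorem δ2_icr : S.δ2 ∈ icr k₀ S.j1 := by
  have h := S.w_icr S.δ1_icr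
  rw [w_j1] at h
  exact icr_le S.j2_int h

theorem δ2i_icr : S.δ2⁻¹ ∈ icr k₀ S.j1 := by
  have h := S.w_icr S.δ1i_icr
  rw [w_j1, map_inv₀] at h
  exact icr_le S.j2_int h

/-! ### the elements of the chart -/

theorem δ1_memC (i : Fin 3) : S.δ1 ∈ (S.C i).O := by
  rw [mem_C]
  fin_cases i
  · exact ⟨_, S.R0_δ1⟩
  · exact ⟨_, S.R1_δ1⟩
  · have h := mul_mem (pow_mem (S.ϖ_mem 2) 12) (show _ ∈ (S.P 2).O from ⟨_, S.R2_δ1⟩)
    rw [← mul_assoc, ← mul_pow, mul_inv_cancel₀ S.ϖ_ne, one_pow, one_mul] at h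
    exact h

theorem δ2_memC (i : Fin 3) : S.δ2 ∈ (S.C i).O := by
  rw [mem_C]
  fin_cases i
  · have h := mul_mem (pow_mem (S.ϖ_mem 0) 12) (show _ ∈ (S.P 0).O from ⟨_, S.R0_δ2⟩)
    rw [← mul_assoc, ← mul_pow, mul_inv_cancel₀ S.ϖ_ne, one_pow, one_mul] at h
    exact h
  · exact ⟨_, S.R1_δ2⟩
  · exact ⟨_, S.R2_δ2⟩

theorem δ1_B0 : S.δ1 ∈ S.B0 := S.mem_B0.2 ⟨S.δ1_icr, S.δ1_memC⟩
theorem δ2_B0 : S.δ2 ∈ S.B0 := S.mem_B0.2 ⟨S.δ2_icr, S.δ2_memC⟩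

theorem dκ_mem : S.dκ ∈ FF κ M' := S.R_mem S.R0_δ1

/-- the residue as a function -/
def dR : S.𝓕 := ⟨S.dκ, S.dκ_mem⟩

theorem dR_ne : S.dR ≠ 0 := fun h => S.dκ_ne (congrArg Subtype.val h)

theorem r0_δ1 : (S.C 0).r S.δ1 = S.dR := C_r (z := S.dR) S.R0_δ1
theorem r1_δ1 : (S.C 1).r S.δ1 = S.dR := C_r (z := S.dR) S.R1_δ1
theorem r1_δ2 : (S.C 1).r S.δ2 = S.dR := C_r (z := S.dR) S.R1_δ2
theorem r2_δ2 : (S.C 2).r S.δ2 = S.dR := C_r (z := S.dR) S.R2_δ2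

theorem r0_δ2' : (S.C 0).r ((algebraMap k₀ S.F S.ϖ)⁻¹ ^ 12 * S.δ2) = S.dR⁻¹ ^ q :=
  C_r (z := S.dR⁻¹ ^ q) S.R0_δ2
theorem r2_δ1' : (S.C 2).r ((algebraMap k₀ S.F S.ϖ)⁻¹ ^ 12 * S.δ1) = S.dR⁻¹ ^ q :=
  C_r (z := S.dR⁻¹ ^ q) S.R2_δ1

theorem r_ϖ (i : Fin 3) : (S.C i).r (algebraMap k₀ S.F S.ϖ) = 0 := C_r (S.R_ϖ i)

/-- the third unit -/
def cc : S.F := algebraMap k₀ S.F S.ϖ ^ 12 * (S.δ1 * S.δ2)⁻¹

theorem cc_icr : S.cc ∈ icr k₀ S.j1 := by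
  rw [cc, mul_inv]
  refine mul_mem (pow_mem (const_mem_icr _ _) _) (mul_mem S.δ1i_icr S.δ2i_icr)

theorem cc_ne : S.cc ≠ 0 :=
  mul_ne_zero (pow_ne_zero _ S.ϖ_ne) (inv_ne_zero (mul_ne_zero S.δ1_ne S.δ2_ne))

theorem cc_spec : S.δ1 * S.δ2 * S.cc = algebraMap k₀ S.F S.ϖ ^ 12 := by
  rw [cc]
  have h1 := S.δ1_ne
  have h2 := S.δ2_ne
  field_simp

theorem w_cc : S.w S.cc = S.cc := by
  rw [cc, map_mul, map_pow, S.hw.const, map_inv₀, map_mul, w_δ1, w_δ2, mul_comm S.δ2]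

theorem r0_cc : S.cc ∈ (S.C 0).O ∧ (S.C 0).r S.cc = S.dR ^ (q - 1) := by
  have h1 : S.cc = (S.δ1 * ((algebraMap k₀ S.F S.ϖ)⁻¹ ^ 12 * S.δ2))⁻¹ := by
    rw [cc, mul_inv, mul_inv, mul_inv, inv_pow, inv_inv]; ring
  have h2 : (S.C 0).r (S.δ1 * ((algebraMap k₀ S.F S.ϖ)⁻¹ ^ 12 * S.δ2)) = S.dR * S.dR⁻¹ ^ q := by
    rw [Res.r_mul (S.δ1_memC 0) (mem_C.2 ⟨_, S.R0_δ2⟩), r0_δ1, r0_δ2']
  have h3 : S.dR * S.dR⁻¹ ^ q ≠ 0 := mul_ne_zero S.dR_ne (pow_ne_zero _ (inv_ne_zero S.dR_ne))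
  rw [← h2] at h3
  rw [h1]
  refine ⟨Res.inv_mem_of_r h3, ?_⟩
  rw [Res.r_inv h3, h2]
  have h4 := S.dR_ne
  have h5 : S.dR ^ q = S.dR ^ (q - 1) * S.dR := (pow_sub_one_mul (NeZero.ne q) _).symm
  rw [inv_pow, h5]
  field_simp

theorem r2_cc : S.cc ∈ (S.C 2).O ∧ (S.C 2).r S.cc = S.dR ^ (q - 1) := by
  rw [C_w, C_r_w, w_cc]
  exact S.r0_cc

theorem r1_cc : S.cc ∈ (S.C 1).O ∧ (S.C 1).r S.cc = 0 := by
  have h1 : (S.C 1).r (S.δ1 * S.δ2) = S.dR * S.dR := by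
    rw [Res.r_mul (S.δ1_memC 1) (S.δ2_memC 1), r1_δ1, r1_δ2]
  have h2 : (S.C 1).r (S.δ1 * S.δ2) ≠ 0 := by
    rw [h1]; exact mul_ne_zero S.dR_ne S.dR_ne
  have h3 := Res.inv_mem_of_r h2
  have h4 : algebraMap k₀ S.F S.ϖ ∈ (S.C 1).O := mem_C.2 (S.ϖ_mem 1)
  refine ⟨mul_mem (pow_mem h4 _) h3, ?_⟩
  rw [cc, Res.r_mul (pow_mem h4 _) h3, Res.r_pow h4, r_ϖ, zero_pow (by norm_num), zero_mul]

theorem cc_B0 : S.cc ∈ S.B0 := by
  refine S.mem_B0.2 ⟨S.cc_icr, fun i => ?_⟩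
  fin_cases i
  · exact S.r0_cc.1
  · exact S.r1_cc.1
  · exact S.r2_cc.1

end Sit

end Fermat.Agent.Carayol
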