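import Fermat.Agent.Carayol.Theta
import Fermat.Agent.Carayol.Delta
import Fermat.Agent.GoodRed.ModKL

/-!
# Local parameters on the special fibre
-/

set_option autoImplicit false
set_option linter.unusedSectionVars false
set_option linter.style.haveILetI false

noncomputable section

namespace Fermat.Agent.Carayol

open ModularCurve Fermat.Agent.GoodRed Fermat.Agent.ModFun Fermat.Agent.GenusX0
open Fermat.Agent.Models IsLocalRing Polynomial IntermediateField Fermat.Agent.SSMod
open AlgebraicCurve Fermat.Agent.Curves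

section Gen

variable {K κ : Type*} [Field K] [Field κ] [IsAlgClosed K] [IsAlgClosed κ] {A : ValuationSubring K}
  {π : A →+* κ} [IsLocalHom π]
  {F Fb : Type*} [Field F] [Field Fb] [Algebra K F] [Algebra κ Fb]
  [IsFunctionField K F] [IsFunctionField κ Fb] {G : GaussRed A π F Fb} {t : F} {tb : Fb}

/-- lifts of local parameters -/
theorem exists_param_of (hC : GoodChart G t tb) {Q : Place κ Fb}
    (hQ : tb ∈ Q.toValuationSubring) {sb : Fb} (hsb : sb ∈ affineRing κ tb) (hsb0 : sb ≠ 0)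
    (hQsb : Q.ord sb = 1)
    (hsb' : ∀ Q' : Place κ Fb, Q' ≠ Q → 0 < Q'.ord (tb - algebraMap κ Fb (value Q tb)) →
      Q'.ord sb = 0) : ∃ s : F, s ∈ affineRing K t ∧ G.R s sb ∧
      ∀ P : Place K F, SpecTo G t tb P Q → P.ord (s - algebraMap K F (value P s)) = 1 := by
  classical
  obtain ⟨s, hs, hsR⟩ := hC.lift sb hsb
  have hval : value Q sb = 0 := by
    rw [value_eq_zero_iff Q (hsb Q hQ), val_lt_one_iff]
    right; omega
  refine ⟨s, hs, hsR, fun P hP => ?_⟩
  have hPd := hP.inDisc hC.toChart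
  obtain ⟨a, ha, ha'⟩ := hP.2.2 s hs sb hsR
  rw [hval] at ha'
  set x := s - algebraMap K F (value P s) with hx
  have hxR : G.R x sb := by
    have := hsR.sub (GaussRed.R.const G a)
    rwa [ha', map_zero, sub_zero, ha] at this
  have hx0 : x ≠ 0 := hxR.ne_zero hsb0
  have hxaff : x ∈ affineRing K t :=
    (affineRing K t).sub_mem hs (algebraMap_mem_affineRing t _)
  have hsum := hC.toChart.sum_ord_disc hC.hπ hxR hsb0 (value Q tb)
  have hQmem : Q ∈ (finite_zeros (k := κ) (tb - algebraMap κ Fb (value Q tb))).toFinset := by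
    rw [Set.Finite.mem_toFinset]
    exact (ord_sub_pos_iff hC.trb hQ _).mpr rfl
  rw [Finset.sum_eq_single_of_mem Q hQmem (fun Q' hQ' hne => by
    have h1 := (Set.Finite.mem_toFinset _).1 hQ'
    exact hsb' Q' hne h1), hQsb] at hsum
  set S := (finite_support (k := K) x).toFinset.filter
    (fun w => InDisc π w t (value Q tb)) with hS
  have hPpos : 0 < P.ord x := by
    have h1 : P.adicValuation x < 1 := by
      rw [← value_eq_zero_iff P (hxaff P hPd.mem), hx, value_sub P (hs P hPd.mem)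
        (P.algebraMap_mem' _), value_algebraMap, sub_self]
    exact ((val_lt_one_iff P).1 h1).resolve_left hx0
  have hPmem : P ∈ S := by
    rw [hS, Finset.mem_filter, Set.Finite.mem_toFinset]
    exact ⟨hPpos.ne', hPd⟩
  have hnn : ∀ w ∈ S, 0 ≤ w.ord x := fun w hw =>
    (mem_iff_ord w hx0).1 (hxaff w (Finset.mem_filter.1 hw).2.mem)
  have hle := Finset.single_le_sum hnn hPmem
  omega

end Gen

/-- `Δ(z)/Δ(qz)` modulo `q` -/
theorem dSer_eq {κ : Type*} [Field κ] {q : ℕ} [NeZero q] (hq : q.Prime) [CharP κ q] :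
    dSer κ q = (DeltaSer κ)⁻¹ ^ (q - 1) := by
  haveI : Fact q.Prime := ⟨hq⟩
  have h1 : qExpand κ q (DeltaInvSer κ) = (DeltaSer κ)⁻¹ ^ q := by
    rw [← DeltaInvSer_eq, pow_eq_qExpand, coeffMap_DeltaInvSer]
  rw [dSer, h1, ← pow_sub_one_mul hq.ne_zero]
  have := DeltaSer_ne_zero (k := κ)
  field_simp

set_option maxHeartbeats 1000000 in
set_option synthInstance.maxHeartbeats 400000 in
/-- local parameters with non-vanishing derivative -/
theorem exists_unif_theta {κ : Type*} [Field κ] [IsAlgClosed κ] {M' : ℕ} [NeZero M']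
    [IsFunctionField κ (FF κ M')] (htrb : Transcendental κ (je κ M')) {Q : Place κ (FF κ M')}
    (hQ : je κ M' ∈ Q.toValuationSubring) :
    ∃ sb : FF κ M', sb ∈ affineRing κ (je κ M') ∧ sb ≠ 0 ∧
      Q.ord sb = 1 ∧ (∀ Q' : Place κ (FF κ M'), Q' ≠ Q →
        0 < Q'.ord (je κ M' - algebraMap κ _ (value Q (je κ M'))) → Q'.ord sb = 0) ∧
      thetaFun (sb : LaurentSeries κ) ≠ 0 := by
  have hθj : thetaFun (jqModC κ) ≠ 0 := thetaFun_ne_zero_of_coeff (by
    rw [ModularCurve.coeff_jqModC_neg_one]; exact one_ne_zero)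
  obtain ⟨sb, hsb, hsb0, hQsb, hsb'⟩ := exists_unif htrb hQ
  by_cases hθ : thetaFun (sb : LaurentSeries κ) = 0
  swap
  · exact ⟨sb, hsb, hsb0, hQsb, hsb', hθ⟩
  obtain ⟨c, hc⟩ : ∃ c, c = value Q (je κ M') := ⟨_, rfl⟩
  obtain ⟨tc, htc⟩ : ∃ tc : FF κ M', tc = je κ M' - algebraMap κ _ c := ⟨_, rfl⟩
  rw [← hc, ← htc] at hsb' ⊢
  have htc0 : tc ≠ 0 := htc ▸ sub_algebraMap_ne_zero htrb c
  have htcm : tc ∈ affineRing κ (je κ M') := htc ▸
    (affineRing κ (je κ M')).sub_mem (self_mem_affineRing _) (algebraMap_mem_affineRing _ _)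
  have hfac : sb + sb ^ 2 * tc = sb * (1 + sb * tc) := by ring
  have hunit : ∀ Q' : Place κ (FF κ M'), 0 < Q'.ord tc → je κ M' ∈ Q'.toValuationSubring →
      Q'.ord (1 + sb * tc) = 0 ∧ 1 + sb * tc ≠ 0 := by
    intro Q' hQ' hj
    have h1 : 0 < Q'.ord (sb * tc) := by
      have := (mem_iff_ord Q' hsb0).1 (hsb Q' hj)
      rw [Q'.ord_mul hsb0 htc0]
      omega
    have h2 : Q'.adicValuation (sb * tc) < 1 :=
      (val_lt_one_iff Q').2 (Or.inr h1)
    have h3 : Q'.adicValuation (1 + sb * tc) = 1 := by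
      have := Valuation.map_add_eq_of_lt_right Q'.adicValuation (x := sb * tc) (y := 1)
        (by rw [map_one]; exact h2)
      rw [add_comm, this, map_one]
    have h4 : 1 + sb * tc ≠ 0 := by
      intro h0
      rw [h0, map_zero] at h3
      exact zero_ne_one h3
    exact ⟨(val_eq_one_iff Q' h4).1 h3, h4⟩
  have hQtc : 0 < Q.ord tc := by
    rw [htc]; exact (ord_sub_pos_iff htrb hQ c).2 hc.symm
  have h0' := (hunit Q hQtc hQ).2
  refine ⟨sb + sb ^ 2 * tc, ?_, ?_, ?_, ?_, ?_⟩
  · exact (affineRing κ (je κ M')).add_mem hsb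
      ((affineRing κ (je κ M')).mul_mem ((affineRing κ (je κ M')).pow_mem hsb 2) htcm)
  · rw [hfac]; exact mul_ne_zero hsb0 h0'
  · rw [hfac, Q.ord_mul hsb0 h0', hQsb, (hunit Q hQtc hQ).1, add_zero]
  · intro Q' hne hpos
    have hj : je κ M' ∈ Q'.toValuationSubring := mem_place_of_ord_pos (c := c) (by rw [← htc]; exact hpos)
    rw [hfac, Q'.ord_mul hsb0 h0', hsb' Q' hne hpos, (hunit Q' hpos hj).1, add_zero]
  · have e : ((sb + sb ^ 2 * tc : FF κ M') : LaurentSeries κ) = (sb : LaurentSeries κ) +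
        (sb : LaurentSeries κ) * (sb : LaurentSeries κ) *
          (jqModC κ + -HahnSeries.C c) := by
      rw [htc]
      push_cast
      have e1 : ((je κ M' : FF κ M') : LaurentSeries κ) = jqModC κ := rfl
      rw [e1, ← ModFun.C_eq_algebraMap]
      ring
    rw [e, thetaFun_add, thetaFun_mul, thetaFun_mul, hθ, ← map_neg HahnSeries.C, thetaFun_add,
      thetaFun_C]
    simp only [mul_zero, add_zero, zero_add]
    exact mul_ne_zero (mul_ne_zero (fun h => hsb0 (Subtype.ext h))
      (fun h => hsb0 (Subtype.ext h))) hθj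

namespace Sit

variable {k₀ K κ : Type} [Field k₀] [Field K] [Field κ] [Algebra k₀ K] {q M' : ℕ}
  [NeZero q] [NeZero M'] (S : Sit k₀ K κ q M')

/-- existence of local parameters whose derivative does not vanish -/
def HasParam : Prop :=
  ∀ Q : Place κ (FF κ M'), S.jR ∈ Q.toValuationSubring →
    ∃ g : FF κ M', g ∈ S.R0 ∧ thetaFun (g : LaurentSeries κ) ≠ 0 ∧
      ∀ ψ : FF κ M', (ψ : LaurentSeries κ) =
        thetaFun (g : LaurentSeries κ) ^ (12 * (q - 1)) * (S.dκ * S.dκ) → Q.ord ψ = 0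

include S in
theorem ffK : IsFunctionField K (FF K M') := by
  haveI := S.charZeroK
  haveI : IsAlgClosed K := S.acK
  exact isFunctionField_fullC K M' (by exact_mod_cast NeZero.ne M')

include S in
theorem ffκ : IsFunctionField κ (FF κ M') := by
  haveI : IsAlgClosed κ := S.acκ
  exact isFunctionField_fullC κ M' S.M_ne

include S in
theorem M_neK : (M' : K) ≠ 0 := by
  haveI := S.charZeroK
  exact_mod_cast NeZero.ne M'

set_option maxHeartbeats 1000000 in
set_option synthInstance.maxHeartbeats 400000 in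
theorem hasParam
    (hG : haveI : IsAlgClosed K := S.acK
      haveI : IsAlgClosed κ := S.acκ
      haveI := isFunctionField_fullC K M' S.M_neK
      haveI := isFunctionField_fullC κ M' S.M_ne
      GoodChart (modGauss S.π M' S.πs S.M_neK S.M_ne) (je K M') (je κ M'))
    (h2 : nuTwo M' = 0) (h3 : nuThree M' = 0) : S.HasParam := by
  classical
  haveI := S.charZeroK
  haveI := S.charP
  haveI : Fact q.Prime := ⟨S.hq⟩
  haveI : IsAlgClosed K := S.acK
  haveI : IsAlgClosed κ := S.acκ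
  haveI := isFunctionField_fullC K M' S.M_neK
  haveI := isFunctionField_fullC κ M' S.M_ne
  intro Q hQ
  have hθj : thetaFun (jqModC κ) ≠ 0 := S.theta_jb_ne
  obtain ⟨sb, hsb, hsb0, hQsb, hsb', hθ⟩ := exists_unif_theta hG.trb hQ
  obtain ⟨s, hs, hsR, hP⟩ := exists_param_of hG hQ hsb hsb0 hQsb hsb'
  have hsLR : LR S.π (s : LaurentSeries K) (sb : LaurentSeries κ) := (modGauss_R S.π M').1 hsR
  refine ⟨sb, icr_iff_affine.2 hsb, hθ, fun ψ hψ => ?_⟩
  -- transcendence
  have htr : Transcendental K s := by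
    rcases transcendental_or (k := K) s with h | ⟨c, hc⟩
    · exact h
    · exfalso
      apply hθ
      have h1 := LR_theta hsLR
      have h2 : thetaFun (s : LaurentSeries K) = 0 := by
        rw [hc]
        have : ((algebraMap K (FF K M') c : FF K M') : LaurentSeries K) = HahnSeries.C c := by
          rw [ModFun.C_eq_algebraMap]; rfl
        rw [this, thetaFun_C]
      rw [h2] at h1
      exact (LR.unique (LR.zero S.π) h1).symm
  obtain ⟨Ψ, hΨ0, hΨ, hΨord⟩ := exists_Psi S.ι h2 h3 s htr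
  -- the reduction
  have hΔ : LR S.π (DeltaSer K) (DeltaSer κ) := by
    have h := S.R_cZ (DeltaSer ℤ)
    rwa [cZ, cZ, coeffMap_DeltaSer, coeffMap_DeltaSer] at h
  have hΨLR : LR S.π (Ψ : LaurentSeries K)
      (thetaFun (sb : LaurentSeries κ) ^ 6 * (DeltaSer κ)⁻¹) := by
    have h1 := (SSMod.LR.pow (LR_theta hsLR) 6).mul (hΔ.inv (DeltaSer_ne_zero (k := κ)))
    rw [← hΨ, mul_assoc, mul_inv_cancel₀ (DeltaSer_ne_zero (k := K)), mul_one] at h1
    exact h1
  have hψ0 : ψ ≠ 0 := by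
    intro h
    rw [h] at hψ
    exact mul_ne_zero (pow_ne_zero _ hθ) (mul_ne_zero S.dκ_ne S.dκ_ne) hψ.symm
  have hR : (modGauss S.π M' S.πs S.M_neK S.M_ne).R (Ψ ^ (2 * (q - 1))) ψ := by
    rw [modGauss_R]
    have h1 := SSMod.LR.pow hΨLR (2 * (q - 1))
    have e : (thetaFun (sb : LaurentSeries κ) ^ 6 * (DeltaSer κ)⁻¹) ^ (2 * (q - 1)) =
        (ψ : LaurentSeries κ) := by
      rw [hψ, dκ, dSer_eq S.hq, mul_pow, ← pow_mul, ← pow_add]
      congr 2
      · ring
      · ring
    rw [e] at h1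
    exact h1
  rw [hG.ord_red hQ hR hψ0]
  refine Finset.sum_eq_zero fun P hPm => ?_
  have hPs := (Finset.mem_filter.1 hPm).2
  rw [ord_pow, hΨord P _ hPs.1 (hP P hPs), mul_zero]

end Sit

end Fermat.Agent.Carayol
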