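import Fermat.Agent.Carayol.Meet
import Fermat.Agent.Carayol.Param

/-!
# Local generators of the vertical primes on the first chart
-/

set_option autoImplicit false
set_option linter.unusedSectionVars false
set_option linter.style.haveILetI false

noncomputable section

namespace Fermat.Agent.Carayol

open ModularCurve Fermat.Agent.GoodRed Fermat.Agent.ModFun Fermat.Agent.GenusX0
open Fermat.Agent.Models IsLocalRing Polynomial IntermediateField Fermat.Agent.SSMod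
open AlgebraicCurve Fermat.Agent.Curves

theorem mem_of_pow_mem {F : Type*} [Field F] {V : ValuationSubring F} {x : F} {n : ℕ} (hn : 0 < n)
    (h : x ^ n ∈ V) : x ∈ V := by
  rcases V.mem_or_inv_mem x with h1 | h1
  · exact h1
  · rcases eq_or_ne x 0 with rfl | hx
    · exact zero_mem _
    obtain ⟨k, rfl⟩ := Nat.exists_eq_succ_of_ne_zero hn.ne'
    have : x = x ^ (k + 1) * x⁻¹ ^ k := by
      rw [pow_succ', mul_assoc, ← mul_pow, mul_inv_cancel₀ hx, one_pow, mul_one]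
    rw [this]
    exact mul_mem h (pow_mem h1 _)

namespace Sit

variable {k₀ K κ : Type} [Field k₀] [Field K] [Field κ] [Algebra k₀ K] {q M' : ℕ}
  [NeZero q] [NeZero M'] (S : Sit k₀ K κ q M')

theorem nil_one {x : S.F} (i : Fin 3) (hx : x ∈ (S.C i).O) (h : (S.C i).r x = 0) :
    x ^ (q - 1) * (algebraMap k₀ S.F S.ϖ)⁻¹ ∈ (S.C i).O := by
  have h1 := C_div hx h
  have hq2 := S.hq.two_le
  fin_cases i
  · change (algebraMap k₀ S.F S.ϖ)⁻¹ * x ∈ (S.C 0).O at h1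
    obtain ⟨n, hn⟩ : ∃ n, q - 1 = n + 1 := ⟨q - 2, by omega⟩
    rw [hn, pow_succ, mul_assoc, mul_comm x]
    exact mul_mem (pow_mem hx n) h1
  · change (S.e01)⁻¹ * x ∈ (S.C 1).O at h1
    have h2 : x ^ (q - 1) * (algebraMap k₀ S.F S.ϖ)⁻¹ =
        ((algebraMap k₀ S.F S.ϖ)⁻¹ * S.e01 ^ (q - 1)) * (S.e01⁻¹ * x) ^ (q - 1) := by
      have := S.e01_ne
      rw [mul_pow, inv_pow]
      have h3 := pow_ne_zero (q - 1) this
      field_simp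
    rw [h2]
    exact mul_mem (mem_C.2 S.far1) (pow_mem h1 _)
  · change (algebraMap k₀ S.F S.ϖ)⁻¹ * x ∈ (S.C 2).O at h1
    obtain ⟨n, hn⟩ : ∃ n, q - 1 = n + 1 := ⟨q - 2, by omega⟩
    rw [hn, pow_succ, mul_assoc, mul_comm x]
    exact mul_mem (pow_mem hx n) h1

/-- an element of the other primes, off the maximal ideal -/
theorem exists_off {t : S.F} {R : Subring S.𝓕}
    (hB : Chart (icr S.A₀ t) S.C R (algebraMap S.A₀ S.F ((q : ℕ) : S.A₀)))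
    {𝔪 : Ideal (icr S.A₀ t)} (hp : 𝔪.IsPrime) (i : Fin 3)
    (hP : ∀ k, k ≠ i → ¬ hB.P k ≤ 𝔪) : ∃ s : icr S.A₀ t, s ∉ 𝔪 ∧
      ∀ k, k ≠ i → (S.C k).r (s : S.F) = 0 := by
  classical
  have h1 : ∀ k, ∃ x, (k ≠ i → x ∈ hB.P k) ∧ x ∉ 𝔪 := fun k => by
    by_cases hk : k = i
    · exact ⟨1, fun h => absurd hk h, hp.one_notMem⟩
    · by_contra h
      push Not at h
      exact hP k hk fun x hx => h x fun _ => hx
  choose x hx hxm using h1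
  refine ⟨∏ k, x k, fun h => ?_, fun k hk => ?_⟩
  · obtain ⟨k, -, hk⟩ := (hp.prod_mem_iff).1 h
    exact hxm k hk
  · rw [← hB.mem_P]
    exact Ideal.mem_of_dvd _ (Finset.dvd_prod_of_mem x (Finset.mem_univ k)) (hx k hk)

theorem xF_eq (i : Fin 3) (hi : i ≠ 1) : S.xF i = algebraMap k₀ S.F S.ϖ := by
  fin_cases i
  · rfl
  · exact absurd rfl hi
  · rfl

theorem locGen_key {s b : S.F} (i : Fin 3) (hi : i ≠ 1) (hs : ∀ k, s ∈ (S.C k).O)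
    (hsk : ∀ k, k ≠ i → (S.C k).r s = 0) (hb : ∀ k, b ∈ (S.C k).O) (hb' : (S.C i).r b = 0)
    (k : Fin 3) : s ^ (q - 1) * b * (algebraMap k₀ S.F S.ϖ)⁻¹ ∈ (S.C k).O := by
  by_cases hk : k = i
  · subst hk
    have h2 := C_div (hb k) hb'
    rw [S.xF_eq k hi] at h2
    rw [mul_assoc, mul_comm b]
    exact mul_mem (pow_mem (hs k) _) h2
  · have h2 := S.nil_one k (hs k) (hsk k hk)
    rw [mul_right_comm]
    exact mul_mem h2 (hb k)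

/-- away from the other components `q` generates the primes of the reduced components -/
theorem locGen_ϖ {t : S.F} {R : Subring S.𝓕}
    (hB : Chart (icr S.A₀ t) S.C R (algebraMap S.A₀ S.F ((q : ℕ) : S.A₀)))
    (hmem : ∀ x : S.F, x ∈ icr S.A₀ t ↔ x ∈ icr k₀ t ∧ ∀ i, x ∈ (S.C i).O)
    {𝔪 : Ideal (icr S.A₀ t)} (h𝔪 : 𝔪.IsMaximal) (i : Fin 3) (hi : i ≠ 1)
    (hP : ∀ k, k ≠ i → ¬ hB.P k ≤ 𝔪) : hB.LocGen 𝔪 i ⟨_, hB.ϖ_mem⟩ := by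
  have hp := h𝔪.isPrime
  obtain ⟨s, hsm, hsk⟩ := S.exists_off hB hp i hP
  refine ⟨fun h => hB.ϖ_ne (congrArg Subtype.val h), (hB.mem_P).2 (hB.r_ϖ i), fun b hb => ?_⟩
  have hϖ : algebraMap S.A₀ S.F ((q : ℕ) : S.A₀) = algebraMap k₀ S.F S.ϖ := S.algebraMap_ϖ
  have hb' := (hB.mem_P).1 hb
  have hsF := (hmem s).1 s.2
  have hbF := (hmem b).1 b.2
  have key : (s : S.F) ^ (q - 1) * b * (algebraMap k₀ S.F S.ϖ)⁻¹ ∈ icr S.A₀ t :=
    (hmem _).2 ⟨mul_mem (mul_mem (pow_mem hsF.1 _) hbF.1) (S.ϖ_inv_icr _),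
      S.locGen_key i hi hsF.2 hsk hbF.2 hb'⟩
  refine ⟨s ^ (q - 1), fun h => hsm (hp.mem_of_pow_mem _ h), ⟨_, key⟩, Subtype.ext ?_⟩
  have e : (s : S.F) ^ (q - 1) * b = (s : S.F) ^ (q - 1) * b * (algebraMap k₀ S.F S.ϖ)⁻¹ *
      algebraMap k₀ S.F S.ϖ := by
    rw [inv_mul_cancel_right₀ S.ϖ_ne]
  change (s : S.F) ^ (q - 1) * b = (s : S.F) ^ (q - 1) * b * (algebraMap k₀ S.F S.ϖ)⁻¹ *
    algebraMap S.A₀ S.F ((q : ℕ) : S.A₀)
  rw [hϖ]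
  exact e

section Nu

variable {S} {f : FF k₀ M'} {g : FF κ M'} (hfg : S.RM f (g : LaurentSeries κ))

/-- the difference -/
def xx (S : Sit k₀ K κ q M') (f : FF k₀ M') : S.F := S.inM f - S.exM f

/-- the local unit -/
def nu (S : Sit k₀ K κ q M') (f : FF k₀ M') : S.F :=
  ((algebraMap k₀ S.F S.ϖ)⁻¹ * S.xx f ^ (q - 1)) ^ 12 * (S.δ1 * S.δ2)

theorem φ1_xx (f : FF k₀ M') : S.φ 1 (S.xx f) = coeffMap S.cK (f : LaurentSeries k₀) -
    twist S.ζ (coeffMap S.cK (f : LaurentSeries k₀)) := by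
  rw [xx, map_sub, φ1, φ1, bc_inM, bc_exM, S.hs.inc', S.hs.exN2, coe_bc]

include hfg in
theorem R1_xx : (S.P 1).R (S.xx f) 0 := S.R1_diff (φ1_xx f) hfg

include hfg in
theorem R1_xx_pow : (S.P 1).R ((algebraMap k₀ S.F S.ϖ)⁻¹ * S.xx f ^ (q - 1))
    (-(thetaFun (g : LaurentSeries κ)) ^ (q - 1)) := S.R1_diff_pow (φ1_xx f) hfg

include hfg in
theorem R1_nu : (S.P 1).R (S.nu f)
    (thetaFun (g : LaurentSeries κ) ^ (12 * (q - 1)) * (S.dκ * S.dκ)) := by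
  have h := (S.P 1).mul (R_pow _ (R1_xx_pow hfg) 12) ((S.P 1).mul S.R1_δ1 S.R1_δ2)
  have e : (-(thetaFun (g : LaurentSeries κ)) ^ (q - 1)) ^ 12 =
      thetaFun (g : LaurentSeries κ) ^ (12 * (q - 1)) := by
    rw [neg_pow, ← pow_mul, mul_comm (q - 1)]
    norm_num
  rw [e] at h
  exact h

include hfg in
theorem xx_mem (i : Fin 3) : S.xx f ∈ (S.C i).O :=
  mem_C.2 (sub_mem (S.in_mem hfg i) (S.ex_mem hfg i))

theorem xx_icr (hf : f ∈ icr k₀ (je k₀ M')) : S.xx f ∈ icr k₀ S.j1 :=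
  sub_mem (S.inM_icr hf) (S.exM_icr hf)

include hfg in
theorem xx_B0 (hf : f ∈ icr k₀ (je k₀ M')) : S.xx f ∈ S.B0 :=
  S.mem_B0.2 ⟨xx_icr hf, fun i => xx_mem hfg i⟩

theorem nu_eq0 (f : FF k₀ M') : S.nu f = S.xx f ^ (12 * (q - 1)) *
    (S.δ1 * ((algebraMap k₀ S.F S.ϖ)⁻¹ ^ 12 * S.δ2)) := by
  rw [nu, mul_pow, ← pow_mul, mul_comm (q - 1)]; ring

theorem nu_eq2 (f : FF k₀ M') : S.nu f = S.xx f ^ (12 * (q - 1)) *
    (S.δ2 * ((algebraMap k₀ S.F S.ϖ)⁻¹ ^ 12 * S.δ1)) := by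
  rw [nu, mul_pow, ← pow_mul, mul_comm (q - 1)]; ring

include hfg in
theorem nu_B0 (hf : f ∈ icr k₀ (je k₀ M')) : S.nu f ∈ S.B0 := by
  refine S.mem_B0.2 ⟨?_, fun i => ?_⟩
  · rw [nu]
    exact mul_mem (pow_mem (mul_mem (S.ϖ_inv_icr _) (pow_mem (xx_icr hf) _)) _)
      (mul_mem S.δ1_icr S.δ2_icr)
  · fin_cases i
    · change S.nu f ∈ (S.C 0).O
      rw [nu_eq0]
      exact mul_mem (pow_mem (xx_mem hfg 0) _) (mul_mem (S.δ1_memC 0) (mem_C.2 ⟨_, S.R0_δ2⟩))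
    · exact mem_C.2 ⟨_, R1_nu hfg⟩
    · change S.nu f ∈ (S.C 2).O
      rw [nu_eq2]
      exact mul_mem (pow_mem (xx_mem hfg 2) _) (mul_mem (S.δ2_memC 2) (mem_C.2 ⟨_, S.R2_δ1⟩))

include hfg in
theorem xx_ne (hθ : thetaFun (g : LaurentSeries κ) ≠ 0) : S.xx f ≠ 0 := by
  intro h
  have h1 := R1_xx_pow hfg
  have hq1 : q - 1 ≠ 0 := by have := S.hq.two_le; omega
  rw [h, zero_pow hq1, mul_zero] at h1
  exact neg_ne_zero.2 (pow_ne_zero (q - 1) hθ) ((S.P 1).unique h1 (S.P 1).zero)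

include hfg in
/-- division by the local generator -/
theorem xx_div (hθ : thetaFun (g : LaurentSeries κ) ≠ 0) {b : S.F} (hb : b ∈ (S.C 1).O)
    (hb0 : (S.C 1).r b = 0) : b * (S.xx f)⁻¹ ∈ (S.C 1).O := by
  have hx0 := xx_ne hfg hθ
  have hq1 : 0 < q - 1 := by have := S.hq.two_le; omega
  have h1 : S.e01⁻¹ * b ∈ (S.C 1).O := C_div hb hb0
  have h2 : S.e01 * (S.xx f)⁻¹ ∈ (S.C 1).O := by
    apply mem_of_pow_mem hq1
    have h3 : (S.e01 * (S.xx f)⁻¹) ^ (q - 1) =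
        ((algebraMap k₀ S.F S.ϖ)⁻¹ * S.e01 ^ (q - 1)) *
          ((algebraMap k₀ S.F S.ϖ)⁻¹ * S.xx f ^ (q - 1))⁻¹ := by
      rw [mul_pow, mul_inv, inv_inv, inv_pow]
      have h3 := S.ϖ_ne
      have h4 := pow_ne_zero (q - 1) hx0
      field_simp
    rw [h3]
    exact mul_mem (mem_C.2 S.far1) (mem_C.2 (inv_mem_of_R _ (R1_xx_pow hfg)
      (neg_ne_zero.2 (pow_ne_zero _ hθ))))
  have h4 : b * (S.xx f)⁻¹ = (S.e01 * (S.xx f)⁻¹) * (S.e01⁻¹ * b) := by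
    have := S.e01_ne
    field_simp
  rw [h4]
  exact mul_mem h2 h1

include hfg in
theorem locGen_xx (hf : f ∈ icr k₀ (je k₀ M')) (hθ : thetaFun (g : LaurentSeries κ) ≠ 0)
    {𝔪 : Ideal S.B0} (hν : (⟨S.nu f, nu_B0 hfg hf⟩ : S.B0) ∉ 𝔪) :
    S.two.c0.LocGen 𝔪 1 ⟨S.xx f, xx_B0 hfg hf⟩ := by
  have hx0 := xx_ne hfg hθ
  have hq1 : 0 < q - 1 := by have := S.hq.two_le; omega
  refine ⟨fun h => hx0 (congrArg Subtype.val h), (S.two.c0.mem_P).2 (C_r (R1_xx hfg)),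
    fun b hb => ⟨_, hν, ?_⟩⟩
  have hb' := (S.two.c0.mem_P).1 hb
  have hbF := S.mem_B0.1 b.2
  obtain ⟨n, hn⟩ : ∃ n, 12 * (q - 1) = n + 1 := ⟨12 * (q - 1) - 1, by omega⟩
  have key : S.nu f * b * (S.xx f)⁻¹ ∈ S.B0 := by
    refine S.mem_B0.2 ⟨?_, fun i => ?_⟩
    · rw [nu_eq0, hn, pow_succ]
      have e : S.xx f ^ n * S.xx f * (S.δ1 * ((algebraMap k₀ S.F S.ϖ)⁻¹ ^ 12 * S.δ2)) * b *
          (S.xx f)⁻¹ = S.xx f ^ n * (S.δ1 * ((algebraMap k₀ S.F S.ϖ)⁻¹ ^ 12 * S.δ2)) * b := by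
        field_simp
      rw [e]
      exact mul_mem (mul_mem (pow_mem (xx_icr hf) _) (mul_mem S.δ1_icr
        (mul_mem (pow_mem (S.ϖ_inv_icr _) _) S.δ2_icr))) hbF.1
    · fin_cases i
      · change S.nu f * b * (S.xx f)⁻¹ ∈ (S.C 0).O
        rw [nu_eq0, hn, pow_succ]
        have e : S.xx f ^ n * S.xx f * (S.δ1 * ((algebraMap k₀ S.F S.ϖ)⁻¹ ^ 12 * S.δ2)) * b *
            (S.xx f)⁻¹ = S.xx f ^ n * (S.δ1 * ((algebraMap k₀ S.F S.ϖ)⁻¹ ^ 12 * S.δ2)) * b := by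
          field_simp
        rw [e]
        exact mul_mem (mul_mem (pow_mem (xx_mem hfg 0) _) (mul_mem (S.δ1_memC 0)
          (mem_C.2 ⟨_, S.R0_δ2⟩))) (hbF.2 0)
      · change S.nu f * b * (S.xx f)⁻¹ ∈ (S.C 1).O
        rw [mul_assoc]
        exact mul_mem (mem_C.2 ⟨_, R1_nu hfg⟩) (xx_div hfg hθ (hbF.2 1) hb')
      · change S.nu f * b * (S.xx f)⁻¹ ∈ (S.C 2).O
        rw [nu_eq2, hn, pow_succ]
        have e : S.xx f ^ n * S.xx f * (S.δ2 * ((algebraMap k₀ S.F S.ϖ)⁻¹ ^ 12 * S.δ1)) * b *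
            (S.xx f)⁻¹ = S.xx f ^ n * (S.δ2 * ((algebraMap k₀ S.F S.ϖ)⁻¹ ^ 12 * S.δ1)) * b := by
          field_simp
        rw [e]
        exact mul_mem (mul_mem (pow_mem (xx_mem hfg 2) _) (mul_mem (S.δ2_memC 2)
          (mem_C.2 ⟨_, S.R2_δ1⟩))) (hbF.2 2)
  refine ⟨⟨_, key⟩, ?_⟩
  apply Subtype.ext
  change S.nu f * b = S.nu f * b * (S.xx f)⁻¹ * S.xx f
  rw [inv_mul_cancel_right₀ hx0]

end Nu

/-- places attached to ideals of the ring of the component -/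
theorem exists_place_R0 (𝔫 : Ideal S.R0) (h𝔫 : 𝔫 ≠ ⊤) : ∃ Q : Place κ (FF κ M'),
    S.jR ∈ Q.toValuationSubring ∧ ∀ y ∈ 𝔫, Q.adicValuation (y : S.𝓕) < 1 := by
  haveI : IsAlgClosed κ := S.acκ
  haveI := S.ffκ
  let h : affineRing κ S.jR →+* S.R0 :=
    { toFun := fun x => ⟨x.1, icr_iff_affine.2 x.2⟩
      map_one' := rfl
      map_mul' := fun _ _ => rfl
      map_zero' := rfl
      map_add' := fun _ _ => rfl }
  have hI : 𝔫.comap h ≠ ⊤ := by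
    intro htop
    apply h𝔫
    rw [Ideal.eq_top_iff_one]
    have h1 : (1 : affineRing κ S.jR) ∈ 𝔫.comap h := htop ▸ Submodule.mem_top
    rw [Ideal.mem_comap, map_one] at h1
    exact h1
  obtain ⟨Q, hQ, hQ'⟩ := exists_place_of_ideal S.tr_jR (𝔫.comap h) hI
  refine ⟨Q, hQ, fun y hy => ?_⟩
  have hy' : (y : S.𝓕) ∈ affineRing κ S.jR := icr_iff_affine.1 y.2
  exact hQ' ⟨y, hy'⟩ hy

/-- **Local generators on the first chart.** -/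
theorem gen0 (hpar : S.HasParam) (𝔪 : Ideal S.B0) (h𝔪 : 𝔪.IsMaximal)
    (hϖ : (⟨algebraMap S.A₀ S.F ((q : ℕ) : S.A₀), S.two.c0.ϖ_mem⟩ : S.B0) ∈ 𝔪) :
    ∃ i x, S.two.c0.P i ≤ 𝔪 ∧ S.two.c0.LocGen 𝔪 i x := by
  have hp := h𝔪.isPrime
  haveI := h𝔪
  by_cases h1 : S.two.c0.P 1 ≤ 𝔪
  · -- the non-reduced component
    obtain ⟨Q, hQ, hQ𝔫⟩ := S.exists_place_R0 (𝔪.map (S.two.c0.rho 1))
      (S.two.c0.map_rho_ne_top h1)
    obtain ⟨g, hg, hθ, hψ⟩ := hpar Q hQ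
    obtain ⟨f, hf, hfg⟩ := S.lift0 g hg
    have hfg' : S.RM f (g : LaurentSeries κ) := hfg
    refine ⟨1, ⟨S.xx f, xx_B0 hfg' hf⟩, h1, locGen_xx hfg' hf hθ ?_⟩
    intro hmem
    have h2 := (S.mem_iff_rho h1 _).1 hmem
    have h3 := hQ𝔫 _ h2
    have h4 : ((S.two.c0.rho 1 ⟨S.nu f, nu_B0 hfg' hf⟩ : S.𝓕) : LaurentSeries κ) =
        thetaFun (g : LaurentSeries κ) ^ (12 * (q - 1)) * (S.dκ * S.dκ) := by
      rw [S.two.c0.rho_apply]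
      exact C_coe (R1_nu hfg')
    have h5 := hψ _ h4
    rw [val_lt_one_iff, h5] at h3
    rcases h3 with h3 | h3
    · rw [h3] at h4
      exact mul_ne_zero (pow_ne_zero _ hθ) (mul_ne_zero S.dκ_ne S.dκ_ne) h4.symm
    · exact lt_irrefl _ h3
  · -- a reduced component
    obtain ⟨i, hi⟩ := S.two.c0.exists_P_le hp hϖ
    have hi1 : i ≠ 1 := by rintro rfl; exact h1 hi
    refine ⟨i, _, hi, S.locGen_ϖ S.two.c0 (fun x => S.mem_B0) h𝔪 i hi1 fun k hk hk' => ?_⟩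
    exact h1 (S.all_of_two h𝔪 hk hk' hi 1)

end Sit

end Fermat.Agent.Carayol
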