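import Fermat.Agent.Carayol.Gen0

/-!
# Local generators of the vertical primes on the second chart
-/

set_option autoImplicit false
set_option linter.unusedSectionVars false
set_option linter.style.haveILetI false

noncomputable section

namespace Fermat.Agent.Carayol

open ModularCurve Fermat.Agent.GoodRed Fermat.Agent.ModFun Fermat.Agent.GenusX0
open Fermat.Agent.Models IsLocalRing Polynomial IntermediateField Fermat.Agent.SSMod
open AlgebraicCurve Fermat.Agent.Curves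

section Poly

variable {κ : Type*} [Field κ] {q : ℕ} [NeZero q]

/-- `Δ(z)/Δ(qz)` modulo `q` is a polynomial in `j` -/
theorem exists_dSer_jev (hq : q.Prime) [CharP κ q] : ∃ P : Polynomial κ, jev κ P = dSer κ q := by
  classical
  haveI : Fact q.Prime := ⟨hq⟩
  obtain ⟨P, hP⟩ := exists_U_aux q
  have hroot : Polynomial.eval₂ (Int.castRingHom κ) 1 (Polynomial.cyclotomic q ℤ) = 0 := by
    have h1 : Polynomial.eval₂ (Int.castRingHom κ) (Int.castRingHom κ 1)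
        (Polynomial.cyclotomic q ℤ) = Int.castRingHom κ ((Polynomial.cyclotomic q ℤ).eval 1) :=
      Polynomial.eval₂_at_apply _ _
    rw [map_one, Polynomial.eval_one_cyclotomic_prime] at h1
    rw [h1]
    simp
  let f : Rz q →+* κ := AdjoinRoot.lift (Int.castRingHom κ) 1 hroot
  have hf : f (zr q) = 1 := AdjoinRoot.lift_root hroot
  have hu : Units.map (f : Rz q →* κ) (zu q) = 1 := by
    ext
    exact hf
  have h1 := transport_aux q P f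
  rw [hP, map_prodPoly] at h1
  have h2 : (fun i => coeffMap f (gfam q (Rz q) (zu q) i)) =
      fun i : Option (ZMod q) => (match i with | none => 0 | some _ => dSer κ q) := by
    funext i
    rw [coeffMap_gfam, hu]
    cases i with
    | none =>
      simp only [gfam]
      rw [CharP.cast_eq_zero, zero_pow (by norm_num), map_zero, zero_mul, zero_mul]
    | some b =>
      simp only [gfam]
      rw [one_pow, twist_one, dSer]
  rw [h2] at h1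
  have h3 : prodPoly (fun i : Option (ZMod q) => (match i with | none => 0 | some _ => dSer κ q)) =
      X * (X - C (dSer κ q)) ^ q := by
    rw [prodPoly, Fintype.prod_option]
    simp only [map_zero, sub_zero]
    rw [Finset.prod_const, Finset.card_univ, ZMod.card]
  rw [h3] at h1
  haveI : CharP (LaurentSeries κ) q := charP_of_injective_algebraMap
    (algebraMap κ (LaurentSeries κ)).injective q
  have h4 := congrArg (fun R => Polynomial.coeff R 1) h1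
  simp only [Polynomial.coeff_map] at h4
  rw [Polynomial.coeff_X_mul, sub_pow_char, Polynomial.coeff_sub, Polynomial.coeff_X_pow,
    if_neg hq.ne_zero.symm, ← map_pow, Polynomial.coeff_C_zero, zero_sub] at h4
  refine ⟨-((P.map (Polynomial.mapRingHom f)).coeff 1), ?_⟩
  have h5 : (dSer κ q) ^ q = qExpand κ q (dSer κ q) := by
    rw [pow_eq_qExpand, coeffMap_dSer]
  apply qExpand_injective q
  rw [map_neg, map_neg, ← h5]
  rw [Polynomial.coeff_map, neg_eq_iff_eq_neg]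
  exact h4

theorem ld_dSer (hq : q.Prime) [CharP κ q] : Ld (-((q - 1 : ℕ) : ℤ)) (dSer κ q) 1 := by
  rw [dSer_eq hq, ← DeltaInvSer_eq]
  have := Ld.pow' (ld_DeltaInv κ) (q - 1)
  rw [one_pow] at this
  convert this using 1
  ring

theorem exists_dSer_poly (hq : q.Prime) [CharP κ q] : ∃ P : Polynomial κ,
    jev κ P = dSer κ q ∧ P.natDegree ≤ q - 1 := by
  obtain ⟨P, hP⟩ := exists_dSer_jev (κ := κ) hq
  refine ⟨P, hP, ?_⟩
  by_contra hcon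
  push Not at hcon
  have h1 := jev_coeff_natDegree κ P
  rw [hP, (ld_dSer hq).1 _ (by omega)] at h1
  have h2 := Polynomial.leadingCoeff_eq_zero.1 h1.symm
  rw [h2, Polynomial.natDegree_zero] at hcon
  omega

end Poly

theorem key_aux {L : Type*} [Field L] {j z d : L} (hj : j ≠ 0) {n : ℕ}
    (h : z ^ 6 * d = (j ^ 4 * (j - 1728) ^ 3) ^ n) :
    (j⁻¹ ^ n * z) ^ 6 * (j⁻¹ ^ n * d) = (1 - 1728 * j⁻¹) ^ (3 * n) := by
  have e1 : (j⁻¹ ^ n * z) ^ 6 * (j⁻¹ ^ n * d) = (j⁻¹ ^ 7) ^ n * (z ^ 6 * d) := by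
    rw [mul_pow, ← pow_mul j⁻¹ 7, ← pow_mul j⁻¹ n]
    have : 7 * n = n * 6 + n := by ring
    rw [this, pow_add]
    ring
  rw [e1, h, ← mul_pow, pow_mul]
  congr 1
  field_simp

theorem pow_aux {L : Type*} [Field L] {j e : L} (hj : j ≠ 0) {n : ℕ} (hn : n ≠ 0) :
    j⁻¹ ^ n * j = j⁻¹ ^ (n - 1) ∧ j⁻¹ * e = j ^ (n - 1) * (j⁻¹ ^ n * e) := by
  obtain ⟨m, rfl⟩ := Nat.exists_eq_succ_of_ne_zero hn
  have hj' := pow_ne_zero m hj
  rw [Nat.succ_sub_one, pow_succ, inv_pow]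
  constructor
  · field_simp
  · field_simp

namespace Sit

variable {k₀ K κ : Type} [Field k₀] [Field K] [Field κ] [Algebra k₀ K] {q M' : ℕ}
  [NeZero q] [NeZero M'] (S : Sit k₀ K κ q M')

/-- `Δ(z)/Δ(qz)` has a pole of order at most `q - 1` at the cusps -/
theorem dR_cusp : S.jR⁻¹ ^ (q - 1) * S.dR ∈ S.R1 := by
  haveI := S.charP
  obtain ⟨P, hP, hdeg⟩ := exists_dSer_poly (κ := κ) S.hq
  have h1 : S.dR = aeval S.jR P := by
    apply Subtype.ext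
    change dSer κ q = _
    rw [← hP, jev_eq_aeval]
    exact (Polynomial.aeval_algebraMap_apply (LaurentSeries κ) S.jR P)
  have hj := S.jR_ne
  rw [h1, aeval_eq_sum_range, Finset.mul_sum]
  refine sum_mem fun i hi => ?_
  rw [Finset.mem_range] at hi
  have h2 : S.jR⁻¹ ^ (q - 1) * P.coeff i • S.jR ^ i =
      algebraMap κ S.𝓕 (P.coeff i) * S.jR⁻¹ ^ (q - 1 - i) := by
    obtain ⟨m, hm⟩ : ∃ m, q - 1 = m + i := ⟨q - 1 - i, by omega⟩
    rw [hm, Nat.add_sub_cancel, Algebra.smul_def, pow_add, inv_pow S.jR i]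
    have := pow_ne_zero i hj
    field_simp
  rw [h2]
  exact mul_mem (const_mem_icr _ _) (pow_mem (self_mem_icr _) _)

/-- the residue of the parameter of the second component -/
abbrev zR : S.𝓕 := (S.C 1).r ((algebraMap k₀ S.F S.ϖ)⁻¹ * S.e01 ^ (q - 1))

theorem coe_zR : (S.zR : LaurentSeries κ) = -(thetaFun S.jb) ^ (q - 1) := C_coe S.R1_e01_pow

include S in
theorem theta_jκ : thetaFun (jqModC κ) ^ 6 =
    jqModC κ ^ 4 * (jqModC κ - 1728) ^ 3 * DeltaSer κ := by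
  have hΔ : LR S.π (DeltaSer K) (DeltaSer κ) := by
    have h := S.R_cZ (DeltaSer ℤ)
    rwa [cZ, cZ, coeffMap_DeltaSer, coeffMap_DeltaSer] at h
  have hj : LR S.π (jqModC K) (jqModC κ) := by
    have h := S.R_cZ (jqModC ℤ)
    rwa [cZ, cZ, coeffMap_jqModC, coeffMap_jqModC] at h
  have h1728 : LR S.π (1728 : LaurentSeries K) (1728 : LaurentSeries κ) := by
    have h := S.R_cZ (1728 : LaurentSeries ℤ)
    have e1 : cZ K (1728 : LaurentSeries ℤ) = 1728 := map_ofNat _ _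
    have e2 : cZ κ (1728 : LaurentSeries ℤ) = 1728 := map_ofNat _ _
    rwa [e1, e2] at h
  have h1 := SSMod.LR.pow (LR_theta hj) 6
  have h2 : LR S.π (jqModC K - 1728) (jqModC κ - 1728) := by
    rw [sub_eq_add_neg, sub_eq_add_neg]; exact hj.add h1728.neg
  have h3 := ((SSMod.LR.pow hj 4).mul (SSMod.LR.pow h2 3)).mul hΔ
  rw [← theta_j S.ι] at h3
  exact LR.unique h1 h3

theorem zR_pow : S.zR ^ 6 * S.dR = (S.jR ^ 4 * (S.jR - 1728) ^ 3) ^ (q - 1) := by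
  haveI := S.charP
  apply Subtype.ext
  push_cast
  rw [coe_zR]
  have e1 : ((S.dR : S.𝓕) : LaurentSeries κ) = (DeltaSer κ)⁻¹ ^ (q - 1) := dSer_eq S.hq
  have e2 : ((S.jR : S.𝓕) : LaurentSeries κ) = jqModC κ := rfl
  have e3 : (((1728 : S.𝓕)) : LaurentSeries κ) = 1728 := rfl
  have hΔ := DeltaSer_ne_zero (k := κ)
  have e4 : (-thetaFun S.jb ^ (q - 1)) ^ 6 = (thetaFun (jqModC κ) ^ 6) ^ (q - 1) := by
    rw [neg_pow, ← pow_mul, ← pow_mul, mul_comm (q - 1)]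
    norm_num
  rw [e1, e2, e3, e4, S.theta_jκ, ← mul_pow, mul_inv_cancel_right₀ hΔ]

theorem zR_key : (S.jR⁻¹ ^ (q - 1) * S.zR) ^ 6 * (S.jR⁻¹ ^ (q - 1) * S.dR) =
    (1 - 1728 * S.jR⁻¹) ^ (3 * (q - 1)) := key_aux S.jR_ne S.zR_pow

/-! ### the parameter -/

/-- the exponent -/
abbrev EE (_ : Sit k₀ K κ q M') : ℕ := q ^ 2 * (q ^ 2 * M')

/-- the local parameter at the cusps -/
def x1 : S.F := (1 - S.s2) ^ S.EE * (1 - S.j2 * S.j1⁻¹)

theorem x1_eq : S.x1 = (1 - S.s2) ^ S.EE * (S.j1⁻¹ * S.e01) := by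
  rw [x1, e01]
  have := S.j1_ne
  congr 1
  field_simp

theorem x1_memC (i : Fin 3) : S.x1 ∈ (S.C i).O :=
  mul_mem (pow_mem (sub_mem (one_mem _) (S.s2_memC i)) _)
    (sub_mem (one_mem _) (mul_mem (S.j2_memC i) (S.j1i_memC i)))

theorem x1_place (v : Place K (FF K (q ^ 2 * M'))) (hv : v.ord (S.bK S.j1) < 0) :
    S.bK S.x1 ∈ v.toValuationSubring := by
  haveI := S.charZeroK
  haveI : IsAlgClosed K := S.acK
  haveI := S.isFF
  have hv' : v.ord (je K (q ^ 2 * M')) < 0 := by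
    rw [je_eq, ← S.bK_j1]; exact hv
  have hj1 : S.bK S.j1 ≠ 0 := (_root_.map_ne_zero _).2 S.j1_ne
  have hj2 : S.bK S.j2 ≠ 0 := (_root_.map_ne_zero _).2 S.j2_ne
  have hj1i : S.bK S.j1⁻¹ ∈ v.toValuationSubring := by
    rw [map_inv₀]
    rw [mem_iff_ord v (inv_ne_zero ((_root_.map_ne_zero _).2 S.j1_ne)), v.ord_inv]
    omega
  have hs2 : S.bK (1 - S.s2) ∈ v.toValuationSubring := by
    rw [map_sub, map_one]
    exact sub_mem (one_mem _) (S.mem_place S.s2_int v hj1i)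
  rcases cusp_T2 (K := K) (M' := M') S.ι S.hq v hv' with h | h
  · rw [x1_eq, map_mul, map_pow]
    rcases eq_or_ne (S.bK (1 - S.s2)) 0 with h0 | h0
    · rw [h0, zero_pow (by
        have := pow_pos S.hq.pos 2
        have h2 := Nat.pos_of_ne_zero (NeZero.ne M')
        exact (Nat.mul_pos this (Nat.mul_pos this h2)).ne'), zero_mul]
      exact zero_mem _
    have e1 : S.bK (1 - S.s2) = -(jK2 K q M' / jK1 K q M' ^ q ^ 2 - 1) := by
      rw [map_sub, map_one, map_mul, map_pow, map_inv₀, bK_j1, bK_j2, inv_pow, div_eq_mul_inv,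
        mul_comm (jK1 K q M' ^ q ^ 2)⁻¹, neg_sub]
    have h1 : v.adicValuation (S.bK (1 - S.s2)) < 1 := by
      rw [e1, Valuation.map_neg]; exact h
    rw [val_lt_one_iff, or_iff_right h0] at h1
    have h2 := neg_ord_je_le v S.ι
    rw [je_eq, ← S.bK_j1] at h2
    have h3 := S.mem_place S.s2_int v hj1i
    have h4 : S.bK S.s2 ≠ 0 := by
      rw [_root_.map_ne_zero]
      exact mul_ne_zero (pow_ne_zero _ (inv_ne_zero S.j1_ne)) S.j2_ne
    rw [mem_iff_ord v h4, map_mul, map_pow, map_inv₀,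
      v.ord_mul (pow_ne_zero _ (inv_ne_zero hj1)) hj2, ord_pow, v.ord_inv] at h3
    -- `j1^{-q²} e01` is regular
    have h5 : S.bK (S.j1⁻¹ ^ q ^ 2 * S.e01) ∈ v.toValuationSubring := by
      rw [e01, mul_sub, map_sub]
      refine sub_mem ?_ (S.mem_place S.s2_int v hj1i)
      rw [(pow_aux (e := 0) S.j1_ne (pow_pos S.hq.pos 2).ne').1, map_pow]
      exact pow_mem hj1i _
    have h6 : S.bK (S.j1⁻¹ * S.e01) = S.bK S.j1 ^ (q ^ 2 - 1) * S.bK (S.j1⁻¹ ^ q ^ 2 * S.e01) := by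
      rw [← map_pow, ← map_mul]
      exact congrArg S.bK (pow_aux S.j1_ne (pow_pos S.hq.pos 2).ne').2
    rw [h6, ← mul_assoc]
    refine mul_mem ?_ h5
    rw [mem_iff_ord v (mul_ne_zero (pow_ne_zero _ h0) (pow_ne_zero _ hj1)),
      v.ord_mul (pow_ne_zero _ h0) (pow_ne_zero _ hj1), ord_pow, ord_pow]
    set a := v.ord (S.bK (1 - S.s2))
    set b := v.ord (S.bK S.j1)
    have h7 : ((q ^ 2 - 1 : ℕ) : ℤ) ≤ (q : ℤ) ^ 2 := by
      have : q ^ 2 - 1 ≤ q ^ 2 := Nat.sub_le _ _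
      exact_mod_cast this
    have h8 : (0 : ℤ) ≤ ((q ^ 2 - 1 : ℕ) : ℤ) := by positivity
    have h9 : (q : ℤ) ^ 2 * b ≤ ((q ^ 2 - 1 : ℕ) : ℤ) * b := by nlinarith
    have h10 : (0 : ℤ) ≤ (q : ℤ) ^ 2 := by positivity
    push_cast at h2
    have h11 : (q : ℤ) ^ 2 * -b ≤ q ^ 2 * (q ^ 2 * M') := mul_le_mul_of_nonneg_left h2 h10
    have h12 : (0 : ℤ) ≤ q ^ 2 * (q ^ 2 * M') := by positivity
    have h13 : (q : ℤ) ^ 2 * (q ^ 2 * M') * 1 ≤ q ^ 2 * (q ^ 2 * M') * a :=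
      mul_le_mul_of_nonneg_left (by omega) h12
    have h14 : ((S.EE : ℕ) : ℤ) = q ^ 2 * (q ^ 2 * M') := by push_cast; ring
    rw [h14]
    nlinarith
  · have e : S.bK S.x1 = S.bK (1 - S.s2) ^ S.EE * (1 - S.bK (S.j2 * S.j1⁻¹)) := by
      rw [x1, map_mul, map_pow, map_sub S.bK 1 (S.j2 * S.j1⁻¹), map_one]
    rw [e]
    refine mul_mem (pow_mem hs2 _) (sub_mem (one_mem _) ?_)
    have e1 : S.bK (S.j2 * S.j1⁻¹) = jK2 K q M' / jK1 K q M' := by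
      rw [map_mul, map_inv₀, bK_j1, bK_j2, div_eq_mul_inv]
    rw [e1, mem_iff_ord v]
    · exact h
    · exact div_ne_zero (jel_ne_zero _) (jel_ne_zero _)

theorem x1_icr : S.x1 ∈ icr k₀ S.j1⁻¹ := by
  refine S.icr_of_place fun v hv => ?_
  rcases S.place_cases v hv with h | h
  · exact S.x1_place v h
  · have h1 := S.mem_place S.j2_int v h
    have h3 := S.mem_place S.s2_int v hv
    have e : S.bK S.x1 = (1 - S.bK S.s2) ^ S.EE * (1 - S.bK S.j2 * S.bK S.j1⁻¹) := by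
      rw [x1, map_mul, map_pow, map_sub S.bK 1 (S.j2 * S.j1⁻¹), map_sub S.bK 1 S.s2, map_one,
        map_mul S.bK S.j2]
    rw [e]
    exact mul_mem (pow_mem (sub_mem (one_mem _) h3) _) (sub_mem (one_mem _) (mul_mem h1 hv))

theorem x1_B1 : S.x1 ∈ S.B1 := S.mem_B1.2 ⟨S.x1_icr, S.x1_memC⟩

/-- the residue of `1 - s₂` -/
abbrev uR : S.𝓕 := 1 - S.jR⁻¹ ^ q ^ 2 * S.jR

theorem r1_us2 : (S.C 1).r (1 - S.s2) = S.uR := by
  rw [Res.r_sub (one_mem _) (S.s2_memC 1), Res.r_one, C_r_s2, C_r_j1_1, C_r_j2_1]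

theorem uR_ne : S.uR ≠ 0 := by
  intro h
  have hj := S.jR_ne
  have hq2 := S.hq.two_le
  obtain ⟨n, hn⟩ : ∃ n, q ^ 2 = n + 1 := ⟨q ^ 2 - 1, by
    have : 0 < q ^ 2 := pow_pos S.hq.pos 2
    omega⟩
  have hn1 : 0 < n := by
    have : 2 ^ 2 ≤ q ^ 2 := Nat.pow_le_pow_left hq2 2
    omega
  rw [uR, hn, pow_succ, mul_assoc, inv_mul_cancel₀ hj, mul_one, sub_eq_zero] at h
  have h1 : S.jR ^ n = 1 := by
    rw [inv_pow] at h
    exact (inv_eq_one.1 h.symm)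
  apply S.tr_jR
  exact ⟨X ^ n - 1, (monic_X_pow_sub_C (1 : κ) hn1.ne').ne_zero, by simp [h1]⟩

/-- the residue of the power of the parameter -/
theorem r1_x1 : (algebraMap k₀ S.F S.ϖ)⁻¹ * S.x1 ^ (q - 1) ∈ (S.C 1).O ∧
    (S.C 1).r ((algebraMap k₀ S.F S.ϖ)⁻¹ * S.x1 ^ (q - 1)) =
      (S.uR ^ S.EE) ^ (q - 1) * (S.jR⁻¹ ^ (q - 1) * S.zR) := by
  have e1 : (algebraMap k₀ S.F S.ϖ)⁻¹ * S.x1 ^ (q - 1) =
      ((1 - S.s2) ^ S.EE) ^ (q - 1) * (S.j1⁻¹ ^ (q - 1) *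
        ((algebraMap k₀ S.F S.ϖ)⁻¹ * S.e01 ^ (q - 1))) := by
    rw [x1_eq, mul_pow, mul_pow]; ring
  have m1 : (1 - S.s2) ∈ (S.C 1).O := sub_mem (one_mem _) (S.s2_memC 1)
  have m2 : (algebraMap k₀ S.F S.ϖ)⁻¹ * S.e01 ^ (q - 1) ∈ (S.C 1).O := mem_C.2 S.far1
  rw [e1]
  refine ⟨mul_mem (pow_mem (pow_mem m1 _) _) (mul_mem (pow_mem (S.j1i_memC 1) _) m2), ?_⟩
  rw [Res.r_mul (pow_mem (pow_mem m1 _) _) (mul_mem (pow_mem (S.j1i_memC 1) _) m2),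
    Res.r_mul (pow_mem (S.j1i_memC 1) _) m2, Res.r_pow (pow_mem m1 _), Res.r_pow m1,
    Res.r_pow (S.j1i_memC 1), Res.r_inv (S.r_j1_ne 1), C_r_j1_1, r1_us2]

theorem zR_ne : S.zR ≠ 0 := by
  intro h
  have := S.coe_zR
  rw [h] at this
  exact neg_ne_zero.2 (pow_ne_zero _ S.theta_jb_ne) this.symm

theorem x1_ne : S.x1 ≠ 0 := by
  intro h
  have h1 := S.r1_x1.2
  have hq1 : q - 1 ≠ 0 := by have := S.hq.two_le; omega
  rw [h, zero_pow hq1, mul_zero, Res.r_zero] at h1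
  exact mul_ne_zero (pow_ne_zero _ (pow_ne_zero _ S.uR_ne))
    (mul_ne_zero (pow_ne_zero _ (inv_ne_zero S.jR_ne)) S.zR_ne) h1.symm

theorem r1_x1_zero : (S.C 1).r S.x1 = 0 := by
  have m1 : (1 - S.s2) ∈ (S.C 1).O := sub_mem (one_mem _) (S.s2_memC 1)
  rw [x1, Res.r_mul (pow_mem m1 _) (sub_mem (one_mem _) (mul_mem (S.j2_memC 1) (S.j1i_memC 1))),
    Res.r_sub (one_mem _) (mul_mem (S.j2_memC 1) (S.j1i_memC 1)), Res.r_one,
    Res.r_mul (S.j2_memC 1) (S.j1i_memC 1), Res.r_inv (S.r_j1_ne 1), C_r_j1_1, C_r_j2_1,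
    mul_inv_cancel₀ S.jR_ne, sub_self, mul_zero]

/-- division by the parameter -/
theorem x1_div {b : S.F} (hb : b ∈ (S.C 1).O) (hb0 : (S.C 1).r b = 0) :
    b * S.x1⁻¹ ∈ (S.C 1).O := by
  have h1 : S.e01⁻¹ * b ∈ (S.C 1).O := C_div hb hb0
  have m1 : (1 - S.s2) ∈ (S.C 1).O := sub_mem (one_mem _) (S.s2_memC 1)
  have h2 : S.e01 * S.x1⁻¹ ∈ (S.C 1).O := by
    have e : S.e01 * S.x1⁻¹ = ((1 - S.s2) ^ S.EE * S.j1⁻¹)⁻¹ := by
      rw [x1_eq, ← mul_assoc, mul_inv _ S.e01]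
      have := S.e01_ne
      field_simp
    rw [e]
    apply Res.inv_mem_of_r
    rw [Res.r_mul (pow_mem m1 _) (S.j1i_memC 1), Res.r_pow m1, r1_us2, Res.r_inv (S.r_j1_ne 1),
      C_r_j1_1]
    exact mul_ne_zero (pow_ne_zero _ S.uR_ne) (inv_ne_zero S.jR_ne)
  have h4 : b * S.x1⁻¹ = (S.e01 * S.x1⁻¹) * (S.e01⁻¹ * b) := by
    have := S.e01_ne
    field_simp
  rw [h4]
  exact mul_mem h2 h1

section Loc

variable {S} {s : S.F}

theorem nu1_mem (hs : s ∈ S.B1) (hsk : ∀ k, k ≠ (1 : Fin 3) → (S.C k).r s = 0) :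
    s ^ (q - 1) * ((algebraMap k₀ S.F S.ϖ)⁻¹ * S.x1 ^ (q - 1)) ∈ S.B1 := by
  have hs' := S.mem_B1.1 hs
  refine S.mem_B1.2 ⟨mul_mem (pow_mem hs'.1 _) (mul_mem (S.ϖ_inv_icr _) (pow_mem S.x1_icr _)),
    fun k => ?_⟩
  by_cases hk : k = 1
  · subst hk
    exact mul_mem (pow_mem (hs'.2 1) _) S.r1_x1.1
  · rw [← mul_assoc]
    exact mul_mem (S.nil_one k (hs'.2 k) (hsk k hk)) (pow_mem (S.x1_memC k) _)

theorem nu1_div (hs : s ∈ S.B1) (hsk : ∀ k, k ≠ (1 : Fin 3) → (S.C k).r s = 0) {b : S.F}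
    (hb : b ∈ S.B1) (hb0 : (S.C 1).r b = 0) :
    s ^ (q - 1) * ((algebraMap k₀ S.F S.ϖ)⁻¹ * S.x1 ^ (q - 1)) * b * S.x1⁻¹ ∈ S.B1 := by
  have hs' := S.mem_B1.1 hs
  have hb' := S.mem_B1.1 hb
  have hq2 := S.hq.two_le
  obtain ⟨n, hn⟩ : ∃ n, q - 1 = n + 1 := ⟨q - 2, by omega⟩
  have hx := S.x1_ne
  have e : s ^ (q - 1) * ((algebraMap k₀ S.F S.ϖ)⁻¹ * S.x1 ^ (q - 1)) * b * S.x1⁻¹ =
      s ^ (q - 1) * (algebraMap k₀ S.F S.ϖ)⁻¹ * (S.x1 ^ n * b) := by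
    rw [hn, pow_succ S.x1]
    field_simp
  refine S.mem_B1.2 ⟨?_, fun k => ?_⟩
  · rw [e]
    exact mul_mem (mul_mem (pow_mem hs'.1 _) (S.ϖ_inv_icr _)) (mul_mem (pow_mem S.x1_icr _) hb'.1)
  · by_cases hk : k = 1
    · subst hk
      rw [mul_assoc _ b]
      exact mul_mem (mul_mem (pow_mem (hs'.2 1) _) S.r1_x1.1) (S.x1_div (hb'.2 1) hb0)
    · rw [e]
      exact mul_mem (S.nil_one k (hs'.2 k) (hsk k hk))
        (mul_mem (pow_mem (S.x1_memC k) _) (hb'.2 k))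

end Loc

/-- **Local generators on the second chart.** -/
theorem gen1 (𝔪 : Ideal S.B1) (h𝔪 : 𝔪.IsMaximal)
    (hϖ : (⟨algebraMap S.A₀ S.F ((q : ℕ) : S.A₀), S.two.c1.ϖ_mem⟩ : S.B1) ∈ 𝔪)
    (ht : (⟨S.j1⁻¹, S.two.t_mem'⟩ : S.B1) ∈ 𝔪) :
    ∃ i x, S.two.c1.P i ≤ 𝔪 ∧ S.two.c1.LocGen 𝔪 i x := by
  have hp := h𝔪.isPrime
  obtain ⟨i, hi⟩ := S.two.c1.exists_P_le hp hϖ
  have hne : ∀ k, k ≠ i → ¬ S.two.c1.P k ≤ 𝔪 := fun k hk h => hk (S.meet1 𝔪 h𝔪 ht k i h hi)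
  by_cases hi1 : i = 1
  swap
  · exact ⟨i, _, hi, S.locGen_ϖ S.two.c1 (fun x => S.mem_B1) h𝔪 i hi1 hne⟩
  subst hi1
  obtain ⟨s, hsm, hsk⟩ := S.exists_off S.two.c1 hp 1 hne
  refine ⟨1, ⟨S.x1, S.x1_B1⟩, hi, fun h => S.x1_ne (congrArg Subtype.val h),
    (S.two.c1.mem_P).2 S.r1_x1_zero, fun b hb => ?_⟩
  have hb0 := (S.two.c1.mem_P).1 hb
  obtain ⟨ν, hν⟩ : ∃ ν : S.B1, (ν : S.F) =
      (s : S.F) ^ (q - 1) * ((algebraMap k₀ S.F S.ϖ)⁻¹ * S.x1 ^ (q - 1)) :=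
    ⟨⟨_, nu1_mem s.2 hsk⟩, rfl⟩
  refine ⟨ν, fun hνm => ?_, ⟨_, nu1_div s.2 hsk b.2 hb0⟩, ?_⟩
  · -- the element `ν` is not in `𝔪`
    obtain ⟨D, hD, hDr⟩ := S.surj1 1 _ S.dR_cusp
    obtain ⟨u, hu⟩ : ∃ u : S.B1, u = 1 - ⟨S.s2, S.s2_mem⟩ := ⟨_, rfl⟩
    obtain ⟨c, hc⟩ : ∃ c : S.B1, c = 1 - 1728 * ⟨S.j1⁻¹, S.two.t_mem'⟩ := ⟨_, rfl⟩
    have hu' : (u : S.F) = 1 - S.s2 := by rw [hu]; rfl
    have hc' : (c : S.F) = 1 - 1728 * S.j1⁻¹ := by rw [hc]; rfl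
    have hum : u ∉ 𝔪 := by
      intro h
      have h1 := 𝔪.add_mem h (S.m_P1 ht hi).2
      rw [hu, sub_add_cancel] at h1
      exact hp.one_notMem h1
    have hcm : c ∉ 𝔪 := by
      intro h
      have h1 := 𝔪.add_mem h (𝔪.mul_mem_left 1728 ht)
      rw [hc, sub_add_cancel] at h1
      exact hp.one_notMem h1
    have key : ν ^ 6 * ⟨D, hD⟩ - (s ^ (q - 1)) ^ 6 * ((u ^ S.EE) ^ (q - 1)) ^ 6 *
        c ^ (3 * (q - 1)) ∈ S.two.c1.P 1 := by
      rw [S.two.c1.mem_P]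
      push_cast
      have hsO := (S.mem_B1.1 s.2).2 1
      have hνO := (S.mem_B1.1 ν.2).2 1
      have hDO := (S.mem_B1.1 hD).2 1
      have huO := (S.mem_B1.1 u.2).2 1
      have hcO := (S.mem_B1.1 c.2).2 1
      have hνr : (S.C 1).r (ν : S.F) = (S.C 1).r (s : S.F) ^ (q - 1) *
          ((S.uR ^ S.EE) ^ (q - 1) * (S.jR⁻¹ ^ (q - 1) * S.zR)) := by
        rw [hν, Res.r_mul (pow_mem hsO _) S.r1_x1.1, Res.r_pow hsO, S.r1_x1.2]
      have hur : (S.C 1).r (u : S.F) = S.uR := by rw [hu', r1_us2]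
      have hcr : (S.C 1).r (c : S.F) = 1 - 1728 * S.jR⁻¹ := by
        have h1728 : (1728 : S.F) ∈ (S.C 1).O := ofNat_mem _ _
        have hr : (S.C 1).r (1728 : S.F) = 1728 := by
          have h := S.C_r_const 1 (1728 : S.A₀)
          rw [map_ofNat, map_ofNat, map_ofNat] at h
          exact h
        rw [hc', Res.r_sub (one_mem _) (mul_mem h1728 (S.j1i_memC 1)), Res.r_one,
          Res.r_mul h1728 (S.j1i_memC 1), hr, Res.r_inv (S.r_j1_ne 1), C_r_j1_1]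
      rw [Res.r_sub (mul_mem (pow_mem hνO _) hDO) (mul_mem (mul_mem (pow_mem (pow_mem hsO _) _)
          (pow_mem (pow_mem (pow_mem huO _) _) _)) (pow_mem hcO _)),
        Res.r_mul (pow_mem hνO _) hDO, Res.r_pow hνO, hDr, hνr,
        Res.r_mul (mul_mem (pow_mem (pow_mem hsO _) _)
          (pow_mem (pow_mem (pow_mem huO _) _) _)) (pow_mem hcO _),
        Res.r_mul (pow_mem (pow_mem hsO _) _) (pow_mem (pow_mem (pow_mem huO _) _) _),
        Res.r_pow (pow_mem hsO _), Res.r_pow hsO, Res.r_pow (pow_mem (pow_mem huO _) _),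
        Res.r_pow (pow_mem huO _), Res.r_pow huO, Res.r_pow hcO, hur, hcr, ← S.zR_key]
      ring
    have h1 := hi key
    have h2 : ν ^ 6 * ⟨D, hD⟩ ∈ 𝔪 :=
      𝔪.mul_mem_right _ (𝔪.pow_mem_of_mem hνm 6 (by norm_num))
    have h3 := 𝔪.sub_mem h2 h1
    rw [sub_sub_cancel] at h3
    rcases hp.mem_or_mem h3 with h4 | h4
    · rcases hp.mem_or_mem h4 with h5 | h5
      · exact hsm (hp.mem_of_pow_mem _ (hp.mem_of_pow_mem _ h5))
      · exact hum (hp.mem_of_pow_mem _ (hp.mem_of_pow_mem _ (hp.mem_of_pow_mem _ h5)))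
    · exact hcm (hp.mem_of_pow_mem _ h4)
  · apply Subtype.ext
    change (ν : S.F) * (b : S.F) = (s : S.F) ^ (q - 1) *
      ((algebraMap k₀ S.F S.ϖ)⁻¹ * S.x1 ^ (q - 1)) * b * S.x1⁻¹ * S.x1
    rw [inv_mul_cancel_right₀ S.x1_ne, hν]

end Sit

end Fermat.Agent.Carayol
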