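import Fermat.Agent.Carayol.Local
import Mathlib.RingTheory.Ideal.KrullsHeightTheorem

/-!
# The vertical primes in a maximal ideal
-/

set_option autoImplicit false
set_option linter.unusedSectionVars false
set_option linter.style.haveILetI false

noncomputable section

namespace Fermat.Agent.Carayol

open Fermat.Agent.Models

variable {F 𝓕 : Type*} [Field F] [Field 𝓕] {ι : Type*} [Fintype ι]

namespace Chart

variable {B : Subring F} {C : ι → Res F 𝓕} {R : Subring 𝓕} {ϖ : F} (hB : Chart B C R ϖ)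

include hB

/-- a prime containing `ϖ` contains a vertical prime -/
theorem exists_P_le {p : Ideal B} (hp : p.IsPrime) (hϖ : (⟨ϖ, hB.ϖ_mem⟩ : B) ∈ p) :
    ∃ i, hB.P i ≤ p := by
  classical
  by_contra hcon
  push Not at hcon
  have h1 : ∀ i, ∃ x ∈ hB.P i, x ∉ p := fun i => by
    by_contra h
    push Not at h
    exact hcon i h
  choose x hx hxp using h1
  obtain ⟨e, he⟩ := hB.nil
  have h2 : ∀ i, (C i).r ((∏ j, x j : B) : F) = 0 := by
    intro i
    rw [← hB.mem_P]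
    exact Ideal.mem_of_dvd _ (Finset.dvd_prod_of_mem x (Finset.mem_univ i)) (hx i)
  have h3 := he _ (∏ j, x j : B).2 h2
  have h4 : (∏ j, x j) ^ e = (⟨_, h3⟩ : B) * ⟨ϖ, hB.ϖ_mem⟩ := by
    apply Subtype.ext
    push_cast
    have := hB.ϖ_ne
    field_simp
  have h5 : (∏ j, x j) ^ e ∈ p := by
    rw [h4]; exact p.mul_mem_left _ hϖ
  have h6 := hp.mem_of_pow_mem _ h5
  obtain ⟨i, -, hi⟩ := (hp.prod_mem_iff).1 h6
  exact hxp i hi

/-- divisors of powers of `ϖ` -/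
theorem P_le_of_mem {𝔪 : Ideal B} (h𝔪 : 𝔪.IsPrime) {y : B} (hy : y ∈ 𝔪) {n : ℕ}
    (hyn : y ∣ (⟨ϖ, hB.ϖ_mem⟩ : B) ^ n) {k : ι} (hr : ∀ i, i ≠ k → (C i).r (y : F) ≠ 0) :
    hB.P k ≤ 𝔪 := by
  haveI := hB.noeth
  have h1 : Ideal.span {y} ≤ 𝔪 := (Ideal.span_singleton_le_iff_mem _).2 hy
  obtain ⟨p, hp, hpm⟩ := Ideal.exists_minimalPrimes_le h1
  haveI hp1 : p.IsPrime := hp.1.1
  have hyp : y ∈ p := hp.1.2 (Ideal.mem_span_singleton_self y)
  have h2 : p.height ≤ 1 :=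
    Ideal.height_le_one_of_isPrincipal_of_mem_minimalPrimes (Ideal.span {y}) p hp
  have hϖp : (⟨ϖ, hB.ϖ_mem⟩ : B) ∈ p := by
    obtain ⟨c, hc⟩ := hyn
    have : (⟨ϖ, hB.ϖ_mem⟩ : B) ^ n ∈ p := by
      rw [hc]; exact p.mul_mem_right _ hyp
    exact hp1.mem_of_pow_mem _ this
  obtain ⟨j, hj⟩ := hB.exists_P_le hp1 hϖp
  haveI := hB.P_prime j
  have hne : (⊥ : Ideal B) < hB.P j := by
    rw [bot_lt_iff_ne_bot]
    intro h
    have h3 : (⟨ϖ, hB.ϖ_mem⟩ : B) ∈ hB.P j := (hB.mem_P).2 (hB.r_ϖ j)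
    rw [h, Ideal.mem_bot] at h3
    exact hB.ϖ_ne (congrArg Subtype.val h3)
  have heq : hB.P j = p := by
    by_contra hcon
    have hlt : hB.P j < p := lt_of_le_of_ne hj hcon
    haveI : (⊥ : Ideal B).IsPrime := Ideal.isPrime_bot
    have h4 := Ideal.height_add_one_le_of_lt_of_isPrime hne
    have h5 := Ideal.height_add_one_le_of_lt_of_isPrime hlt
    have h6 : (1 : ℕ∞) ≤ (hB.P j).height := le_trans (by simp) h4
    have h7 : (1 : ℕ∞) + 1 ≤ 1 := (add_le_add_left h6 1).trans (h5.trans h2)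
    exact absurd h7 (by decide)
  have hjk : j = k := by
    by_contra hne'
    apply hr j hne'
    rw [← hB.mem_P, heq]
    exact hyp
  rw [← hjk, heq]
  exact hpm

end Chart

end Fermat.Agent.Carayol
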