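import Fermat.Agent.Carayol.Cht1
import Fermat.Agent.Carayol.Krull

/-!
# Easy properties of the charts
-/

set_option autoImplicit false
set_option linter.unusedSectionVars false
set_option linter.style.haveILetI false

noncomputable section

namespace Fermat.Agent.Carayol

open ModularCurve Fermat.Agent.GoodRed Fermat.Agent.ModFun Fermat.Agent.GenusX0
open Fermat.Agent.Models IsLocalRing Polynomial IntermediateField Fermat.Agent.SSMod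
open AlgebraicCurve Fermat.Agent.Curves

namespace Sit

variable {k₀ K κ : Type} [Field k₀] [Field K] [Field κ] [Algebra k₀ K] {q M' : ℕ}
  [NeZero q] [NeZero M'] (S : Sit k₀ K κ q M')

theorem e02_icr : S.e02 ∈ icr k₀ S.j1 := sub_mem (self_mem_icr _) (pow_mem S.j2_int _)
theorem e20_icr : S.e20 ∈ icr k₀ S.j1 := sub_mem S.j2_int (pow_mem (self_mem_icr _) _)
theorem e01_icr : S.e01 ∈ icr k₀ S.j1 := sub_mem (self_mem_icr _) S.j2_int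

theorem sF_B0 (i : Fin 3) : S.sF i ∈ S.B0 := by
  refine S.mem_B0.2 ⟨?_, fun k => ?_⟩
  · fin_cases i
    · exact mul_mem (pow_mem S.e01_icr _) S.e02_icr
    · exact mul_mem S.e20_icr S.e02_icr
    · exact mul_mem (pow_mem S.e01_icr _) S.e20_icr
  · rw [mem_C]
    fin_cases i
    · exact mul_mem (pow_mem (S.e01_mem k) _) (S.e02_mem k)
    · exact mul_mem (S.e20_mem k) (S.e02_mem k)
    · exact mul_mem (pow_mem (S.e01_mem k) _) (S.e20_mem k)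

theorem r_sF_ne (i : Fin 3) : (S.C i).r (S.sF i) ≠ 0 := by
  intro h
  have h1 : (S.P i).R (S.sF i) (S.sbF i) := S.comps.s_R i
  rw [C_zero_iff ⟨_, h1⟩] at h
  exact S.comps.sb_ne i ((S.P i).unique h1 h)

theorem r_sF_zero {i k : Fin 3} (h : k ≠ i) : (S.C k).r (S.sF i) = 0 := by
  have h1 : (algebraMap k₀ S.F S.ϖ)⁻¹ * S.sF i ∈ (S.P k).O := S.comps.s_far i k h
  have h2 : S.sF i = algebraMap k₀ S.F S.ϖ * ((algebraMap k₀ S.F S.ϖ)⁻¹ * S.sF i) := by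
    rw [mul_inv_cancel_left₀ S.ϖ_ne]
  have h3 := R_zero_mul (S.P k) (S.R_ϖ k) h1
  rw [← h2] at h3
  exact C_r h3

theorem inc0 (i j : Fin 3) (h : i ≠ j) : ∃ x : S.F, x ∈ S.B0 ∧ (S.C j).r x = 0 ∧
    (S.C i).r x ≠ 0 := ⟨S.sF i, S.sF_B0 i, S.r_sF_zero h.symm, S.r_sF_ne i⟩

theorem inc1 (i j : Fin 3) (h : i ≠ j) : ∃ x : S.F, x ∈ S.B1 ∧ (S.C j).r x = 0 ∧
    (S.C i).r x ≠ 0 := by
  obtain ⟨x, hx, h1, h2⟩ := S.inc0 i j h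
  obtain ⟨n, hn⟩ := S.two.ov0 x hx
  refine ⟨_, hn, ?_, ?_⟩
  · rw [Res.r_mul (pow_mem (S.j1i_memC j) _) ((S.mem_B0.1 hx).2 j), h1, mul_zero]
  · rw [Res.r_mul (pow_mem (S.j1i_memC i) _) ((S.mem_B0.1 hx).2 i), Res.r_pow (S.j1i_memC i),
      Res.r_inv (S.r_j1_ne i)]
    exact mul_ne_zero (pow_ne_zero _ (inv_ne_zero (S.r_j1_ne i))) h2

theorem res_aux {t : S.F} {𝔪 : Ideal (icr S.A₀ t)}
    (hϖ : (⟨algebraMap S.A₀ S.F ((q : ℕ) : S.A₀), const_mem_icr _ _⟩ : icr S.A₀ t) ∈ 𝔪) (a : S.A₀)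
    (ha : S.π₀ a = 0) : (⟨algebraMap S.A₀ S.F a, const_mem_icr t a⟩ : icr S.A₀ t) ∈ 𝔪 := by
  have h1 := S.div_q a a.2 ha
  have h2 : (⟨algebraMap S.A₀ S.F a, const_mem_icr t a⟩ : icr S.A₀ t) =
      ⟨algebraMap S.A₀ S.F ⟨_, h1⟩, const_mem_icr t _⟩ *
        ⟨algebraMap S.A₀ S.F ((q : ℕ) : S.A₀), const_mem_icr _ _⟩ := by
    apply Subtype.ext
    change algebraMap S.A₀ S.F a = algebraMap S.A₀ S.F ⟨_, h1⟩ * algebraMap S.A₀ S.F (q : S.A₀)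
    rw [← map_mul]
    congr 1
    apply Subtype.ext
    push_cast
    rw [mul_comm, mul_inv_cancel_left₀ S.q_ne]
  rw [h2]
  exact 𝔪.mul_mem_left _ hϖ

theorem res0 (𝔪 : Ideal S.B0) (h𝔪 : 𝔪.IsMaximal)
    (hϖ : (⟨algebraMap S.A₀ S.F ((q : ℕ) : S.A₀), S.two.c0.ϖ_mem⟩ : S.B0) ∈ 𝔪) (b : S.B0) :
    ∃ a : S.A₀, b - ⟨algebraMap S.A₀ S.F a, S.two.A_mem0 a⟩ ∈ 𝔪 := by
  haveI : IsAlgClosed κ := S.acκ
  exact icr_residue S.π₀s h𝔪 (S.res_aux hϖ) b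

theorem res1 (𝔪 : Ideal S.B1) (h𝔪 : 𝔪.IsMaximal)
    (hϖ : (⟨algebraMap S.A₀ S.F ((q : ℕ) : S.A₀), S.two.c1.ϖ_mem⟩ : S.B1) ∈ 𝔪) (b : S.B1) :
    ∃ a : S.A₀, b - ⟨algebraMap S.A₀ S.F a, S.two.A_mem1 a⟩ ∈ 𝔪 := by
  haveI : IsAlgClosed κ := S.acκ
  exact icr_residue S.π₀s h𝔪 (S.res_aux hϖ) b

/-! ### the second chart at the cusps -/

section Meet1

variable {𝔪 : Ideal S.B1} (h𝔪 : 𝔪.IsPrime)
  (ht : (⟨S.j1⁻¹, S.two.t_mem'⟩ : S.B1) ∈ 𝔪)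

theorem mem_P1 {i : Fin 3} {x : S.B1} : x ∈ S.two.c1.P i ↔ (S.C i).r (x : S.F) = 0 :=
  S.two.c1.mem_P

include ht in
theorem m_P0 (h : S.two.c1.P 0 ≤ 𝔪) : (⟨S.s1, S.s1_mem⟩ : S.B1) - 1 ∈ 𝔪 ∧
    (⟨S.s2, S.s2_mem⟩ : S.B1) - 1 ∈ 𝔪 := by
  have hj := S.jR_ne
  constructor
  · apply h
    rw [mem_P1]
    push_cast
    rw [Res.r_sub (S.s1_memC 0) (one_mem _), Res.r_one, C_r_s1, C_r_j1_0, ← mul_pow,
      inv_mul_cancel₀ hj, one_pow, sub_self]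
  · apply h
    rw [mem_P1]
    push_cast
    rw [Res.r_sub (S.s2_memC 0) (one_mem _), Res.r_one, C_r_s2, C_r_j1_0, C_r_j2_0, ← mul_pow,
      inv_mul_cancel₀ hj, one_pow, sub_self]

include ht in
theorem m_P1 (h : S.two.c1.P 1 ≤ 𝔪) : (⟨S.s1, S.s1_mem⟩ : S.B1) - 1 ∈ 𝔪 ∧
    (⟨S.s2, S.s2_mem⟩ : S.B1) ∈ 𝔪 := by
  have hj := S.jR_ne
  have hq2 := S.hq.two_le
  constructor
  · apply h
    rw [mem_P1]
    push_cast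
    rw [Res.r_sub (S.s1_memC 1) (one_mem _), Res.r_one, C_r_s1, C_r_j1_1, ← mul_pow,
      inv_mul_cancel₀ hj, one_pow, sub_self]
  · have h1 : (⟨S.s2, S.s2_mem⟩ : S.B1) - (⟨S.j1⁻¹, S.two.t_mem'⟩ : S.B1) ^ (q ^ 2 - 1) ∈ 𝔪 := by
      apply h
      rw [mem_P1]
      push_cast
      rw [Res.r_sub (S.s2_memC 1) (pow_mem (S.j1i_memC 1) _), Res.r_pow (S.j1i_memC 1),
        Res.r_inv (S.r_j1_ne 1), C_r_s2, C_r_j1_1, C_r_j2_1]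
      obtain ⟨n, hn⟩ : ∃ n, q ^ 2 = n + 1 := ⟨q ^ 2 - 1, by
        have : 0 < q ^ 2 := pow_pos S.hq.pos 2
        omega⟩
      rw [hn, Nat.add_sub_cancel, pow_succ, mul_assoc, inv_mul_cancel₀ hj, mul_one, sub_self]
    have h2 := 𝔪.add_mem h1 (𝔪.pow_mem_of_mem ht (q ^ 2 - 1) (by
      have : 2 ^ 2 ≤ q ^ 2 := Nat.pow_le_pow_left hq2 2
      omega))
    rwa [sub_add_cancel] at h2

include ht h𝔪 in
theorem m_P2 (h : S.two.c1.P 2 ≤ 𝔪) : (⟨S.s1, S.s1_mem⟩ : S.B1) ∈ 𝔪 := by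
  have hj := S.jR_ne
  have hq2 := S.hq.two_le
  have h1 : (⟨S.s1, S.s1_mem⟩ : S.B1) ^ q - (⟨S.j1⁻¹, S.two.t_mem'⟩ : S.B1) ^ (q ^ 2 - 1) ∈ 𝔪 := by
    apply h
    rw [mem_P1]
    push_cast
    rw [Res.r_sub (pow_mem (S.s1_memC 2) _) (pow_mem (S.j1i_memC 2) _), Res.r_pow (S.j1i_memC 2),
      Res.r_pow (S.s1_memC 2),
      Res.r_inv (S.r_j1_ne 2), C_r_s1, C_r_j1_2, sub_eq_zero, mul_pow, ← pow_mul, ← pow_mul]
    obtain ⟨n, hn⟩ : ∃ n, q ^ 2 = n + 1 := ⟨q ^ 2 - 1, by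
      have : 0 < q ^ 2 := pow_pos S.hq.pos 2
      omega⟩
    rw [← sq, hn, Nat.add_sub_cancel, pow_succ _ n, mul_assoc, inv_mul_cancel₀ (pow_ne_zero _ hj),
      mul_one]
  have h2 := 𝔪.add_mem h1 (𝔪.pow_mem_of_mem ht (q ^ 2 - 1) (by
    have : 2 ^ 2 ≤ q ^ 2 := Nat.pow_le_pow_left hq2 2
    omega))
  rw [sub_add_cancel] at h2
  exact h𝔪.mem_of_pow_mem _ h2

end Meet1

theorem meet1 (𝔪 : Ideal S.B1) (h𝔪 : 𝔪.IsMaximal)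
    (ht : (⟨S.j1⁻¹, S.two.t_mem'⟩ : S.B1) ∈ 𝔪) (i j : Fin 3) (hi : S.two.c1.P i ≤ 𝔪)
    (hj : S.two.c1.P j ≤ 𝔪) : i = j := by
  have hp := h𝔪.isPrime
  have h01 : ¬ (S.two.c1.P 0 ≤ 𝔪 ∧ S.two.c1.P 1 ≤ 𝔪) := by
    rintro ⟨h0, h1⟩
    have a := (S.m_P0 ht h0).2
    have b := (S.m_P1 ht h1).2
    have := 𝔪.sub_mem b a
    rw [sub_sub_cancel] at this
    exact hp.one_notMem this
  have h02 : ¬ (S.two.c1.P 0 ≤ 𝔪 ∧ S.two.c1.P 2 ≤ 𝔪) := by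
    rintro ⟨h0, h1⟩
    have a := (S.m_P0 ht h0).1
    have b := S.m_P2 hp ht h1
    have := 𝔪.sub_mem b a
    rw [sub_sub_cancel] at this
    exact hp.one_notMem this
  have h12 : ¬ (S.two.c1.P 1 ≤ 𝔪 ∧ S.two.c1.P 2 ≤ 𝔪) := by
    rintro ⟨h0, h1⟩
    have a := (S.m_P1 ht h0).1
    have b := S.m_P2 hp ht h1
    have := 𝔪.sub_mem b a
    rw [sub_sub_cancel] at this
    exact hp.one_notMem this
  fin_cases i <;> fin_cases j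
  · rfl
  · exact absurd ⟨hi, hj⟩ h01
  · exact absurd ⟨hi, hj⟩ h02
  · exact absurd ⟨hj, hi⟩ h01
  · rfl
  · exact absurd ⟨hi, hj⟩ h12
  · exact absurd ⟨hj, hi⟩ h02
  · exact absurd ⟨hj, hi⟩ h12
  · rfl

end Sit

end Fermat.Agent.Carayol
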