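import Fermat.Agent.Carayol.Delta

/-!
# The crossing points of the components
-/

set_option autoImplicit false
set_option linter.unusedSectionVars false
set_option linter.style.haveILetI false

noncomputable section

namespace Fermat.Agent.Carayol

open ModularCurve Fermat.Agent.GoodRed Fermat.Agent.ModFun Fermat.Agent.GenusX0
open Fermat.Agent.Models IsLocalRing Polynomial IntermediateField Fermat.Agent.SSMod
open AlgebraicCurve Fermat.Agent.Curves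

namespace Sit

variable {k₀ K κ : Type} [Field k₀] [Field K] [Field κ] [Algebra k₀ K] {q M' : ℕ}
  [NeZero q] [NeZero M'] (S : Sit k₀ K κ q M')

/-- `q` in the first chart -/
abbrev qB0 : S.B0 := ⟨algebraMap S.A₀ S.F ((q : ℕ) : S.A₀), S.two.c0.ϖ_mem⟩
/-- `δ₁` in the first chart -/
abbrev d1 : S.B0 := ⟨S.δ1, S.δ1_B0⟩
/-- `δ₂` in the first chart -/
abbrev d2 : S.B0 := ⟨S.δ2, S.δ2_B0⟩
/-- the third unit in the first chart -/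
abbrev d3 : S.B0 := ⟨S.cc, S.cc_B0⟩

theorem d_mul : S.d1 * S.d2 * S.d3 = S.qB0 ^ 12 := by
  apply Subtype.ext
  change S.δ1 * S.δ2 * S.cc = (algebraMap S.A₀ S.F ((q : ℕ) : S.A₀)) ^ 12
  rw [S.cc_spec, S.algebraMap_ϖ]

theorem r2_δ1 : (S.C 2).r S.δ1 = 0 := by
  have h1 : S.δ1 = algebraMap k₀ S.F S.ϖ ^ 12 * ((algebraMap k₀ S.F S.ϖ)⁻¹ ^ 12 * S.δ1) := by
    rw [← mul_assoc, ← mul_pow, mul_inv_cancel₀ S.ϖ_ne, one_pow, one_mul]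
  rw [h1, Res.r_mul (pow_mem (mem_C.2 (S.ϖ_mem 2)) _) (mem_C.2 ⟨_, S.R2_δ1⟩),
    Res.r_pow (mem_C.2 (S.ϖ_mem 2)), r_ϖ, zero_pow (by norm_num), zero_mul]

theorem r0_δ2 : (S.C 0).r S.δ2 = 0 := by
  have h1 : S.δ2 = algebraMap k₀ S.F S.ϖ ^ 12 * ((algebraMap k₀ S.F S.ϖ)⁻¹ ^ 12 * S.δ2) := by
    rw [← mul_assoc, ← mul_pow, mul_inv_cancel₀ S.ϖ_ne, one_pow, one_mul]
  rw [h1, Res.r_mul (pow_mem (mem_C.2 (S.ϖ_mem 0)) _) (mem_C.2 ⟨_, S.R0_δ2⟩),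
    Res.r_pow (mem_C.2 (S.ϖ_mem 0)), r_ϖ, zero_pow (by norm_num), zero_mul]

section M

variable {𝔪 : Ideal S.B0}

theorem P2_iff (h𝔪 : 𝔪.IsPrime) : S.two.c0.P 2 ≤ 𝔪 ↔ S.d1 ∈ 𝔪 := by
  constructor
  · intro h
    exact h ((S.two.c0.mem_P).2 S.r2_δ1)
  · intro h
    refine S.two.c0.P_le_of_mem h𝔪 h (n := 12) ⟨S.d2 * S.d3, ?_⟩ fun i hi => ?_
    · rw [← mul_assoc]; exact S.d_mul.symm
    · fin_cases i
      · change (S.C 0).r S.δ1 ≠ 0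
        rw [r0_δ1]; exact S.dR_ne
      · change (S.C 1).r S.δ1 ≠ 0
        rw [r1_δ1]; exact S.dR_ne
      · exact absurd rfl hi

theorem P0_iff (h𝔪 : 𝔪.IsPrime) : S.two.c0.P 0 ≤ 𝔪 ↔ S.d2 ∈ 𝔪 := by
  constructor
  · intro h
    exact h ((S.two.c0.mem_P).2 S.r0_δ2)
  · intro h
    refine S.two.c0.P_le_of_mem h𝔪 h (n := 12) ⟨S.d1 * S.d3, ?_⟩ fun i hi => ?_
    · rw [← mul_assoc, mul_comm S.d2]; exact S.d_mul.symm
    · fin_cases i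
      · exact absurd rfl hi
      · change (S.C 1).r S.δ2 ≠ 0
        rw [r1_δ2]; exact S.dR_ne
      · change (S.C 2).r S.δ2 ≠ 0
        rw [r2_δ2]; exact S.dR_ne

theorem P1_iff (h𝔪 : 𝔪.IsPrime) : S.two.c0.P 1 ≤ 𝔪 ↔ S.d3 ∈ 𝔪 := by
  constructor
  · intro h
    exact h ((S.two.c0.mem_P).2 S.r1_cc.2)
  · intro h
    refine S.two.c0.P_le_of_mem h𝔪 h (n := 12) ⟨S.d1 * S.d2, ?_⟩ fun i hi => ?_
    · rw [mul_comm]; exact S.d_mul.symm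
    · fin_cases i
      · change (S.C 0).r S.cc ≠ 0
        rw [S.r0_cc.2]; exact pow_ne_zero _ S.dR_ne
      · exact absurd rfl hi
      · change (S.C 2).r S.cc ≠ 0
        rw [S.r2_cc.2]; exact pow_ne_zero _ S.dR_ne

theorem mem_iff_rho [𝔪.IsMaximal] {i : Fin 3} (h : S.two.c0.P i ≤ 𝔪) (b : S.B0) :
    b ∈ 𝔪 ↔ S.two.c0.rho i b ∈ 𝔪.map (S.two.c0.rho i) :=
  ⟨fun hb => Ideal.mem_map_of_mem _ hb, fun hb => S.two.c0.mem_of_rho_mem h hb⟩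

/-- the residue in the ring of the component -/
abbrev dB : S.R0 := S.two.c0.rho 0 S.d1

theorem rho1_d1 : S.two.c0.rho 1 S.d1 = S.dB := Subtype.ext (by
  rw [S.two.c0.rho_apply, S.two.c0.rho_apply]
  change (S.C 1).r S.δ1 = (S.C 0).r S.δ1
  rw [r1_δ1, r0_δ1])
theorem rho1_d2 : S.two.c0.rho 1 S.d2 = S.dB := Subtype.ext (by
  rw [S.two.c0.rho_apply, S.two.c0.rho_apply]
  change (S.C 1).r S.δ2 = (S.C 0).r S.δ1
  rw [r1_δ2, r0_δ1])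
theorem rho2_d2 : S.two.c0.rho 2 S.d2 = S.dB := Subtype.ext (by
  rw [S.two.c0.rho_apply, S.two.c0.rho_apply]
  change (S.C 2).r S.δ2 = (S.C 0).r S.δ1
  rw [r2_δ2, r0_δ1])
theorem rho0_d3 : S.two.c0.rho 0 S.d3 = S.dB ^ (q - 1) := Subtype.ext (by
  rw [SubmonoidClass.coe_pow, S.two.c0.rho_apply, S.two.c0.rho_apply]
  change (S.C 0).r S.cc = (S.C 0).r S.δ1 ^ (q - 1)
  rw [S.r0_cc.2, r0_δ1])

theorem q_sub_one_ne (_ : Sit k₀ K κ q M') (hq : q.Prime) : q - 1 ≠ 0 := by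
  have := hq.two_le; omega

/-- two components meet only where all three meet -/
theorem all_of_two (h𝔪 : 𝔪.IsMaximal) {i j : Fin 3} (hij : i ≠ j) (hi : S.two.c0.P i ≤ 𝔪)
    (hj : S.two.c0.P j ≤ 𝔪) (k : Fin 3) : S.two.c0.P k ≤ 𝔪 := by
  haveI := h𝔪
  have hp := h𝔪.isPrime
  have hq1 : q - 1 ≠ 0 := by have := S.hq.two_le; omega
  have h01 : S.two.c0.P 0 ≤ 𝔪 → S.two.c0.P 1 ≤ 𝔪 → S.two.c0.P 2 ≤ 𝔪 := by
    intro h0 h1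
    have a := (S.mem_iff_rho h0 _).1 ((S.P1_iff hp).1 h1)
    rw [rho0_d3] at a
    have hn : (𝔪.map (S.two.c0.rho 0)).IsPrime := by
      have hmax : (𝔪.map (S.two.c0.rho 0)).IsMaximal :=
        (Ideal.map_eq_top_or_isMaximal_of_surjective _ (S.two.c0.rho_surjective 0) h𝔪).resolve_left
          (S.two.c0.map_rho_ne_top h0)
      exact hmax.isPrime
    exact (S.P2_iff hp).2 ((S.mem_iff_rho h0 _).2 (hn.mem_of_pow_mem _ a))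
  have h02 : S.two.c0.P 0 ≤ 𝔪 → S.two.c0.P 2 ≤ 𝔪 → S.two.c0.P 1 ≤ 𝔪 := by
    intro h0 h2
    have a := (S.mem_iff_rho h0 _).1 ((S.P2_iff hp).1 h2)
    refine (S.P1_iff hp).2 ((S.mem_iff_rho h0 _).2 ?_)
    rw [rho0_d3]
    exact Ideal.pow_mem_of_mem _ a _ (Nat.pos_of_ne_zero hq1)
  have h12 : S.two.c0.P 1 ≤ 𝔪 → S.two.c0.P 2 ≤ 𝔪 → S.two.c0.P 0 ≤ 𝔪 := by
    intro h1 h2
    have a := (S.mem_iff_rho h1 _).1 ((S.P2_iff hp).1 h2)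
    refine (S.P0_iff hp).2 ((S.mem_iff_rho h1 _).2 ?_)
    rwa [rho1_d2, ← rho1_d1]
  have key : S.two.c0.P 0 ≤ 𝔪 ∧ S.two.c0.P 1 ≤ 𝔪 ∧ S.two.c0.P 2 ≤ 𝔪 := by
    fin_cases i <;> fin_cases j
    · exact absurd rfl hij
    · exact ⟨hi, hj, h01 hi hj⟩
    · exact ⟨hi, h02 hi hj, hj⟩
    · exact ⟨hj, hi, h01 hj hi⟩
    · exact absurd rfl hij
    · exact ⟨h12 hi hj, hi, hj⟩
    · exact ⟨hj, h02 hj hi, hi⟩
    · exact ⟨h12 hj hi, hj, hi⟩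
    · exact absurd rfl hij
  fin_cases k
  · exact key.1
  · exact key.2.1
  · exact key.2.2

theorem exists_lift0 (y : S.R0) : ∃ f : FF k₀ M', S.RM f (y : S.𝓕) ∧ S.inM f ∈ S.B0 ∧
    S.exM f ∈ S.B0 := by
  obtain ⟨f, hf, hfy⟩ := S.lift0 y y.2
  exact ⟨f, hfy, inM_B0 hf hfy, exM_B0 hf hfy⟩

theorem meet0 (h𝔪 : 𝔪.IsMaximal) :
    (∀ i j, S.two.c0.P i ≤ 𝔪 → S.two.c0.P j ≤ 𝔪 → i = j) ∨
    ∃ 𝔫 : Ideal S.R0, ∀ i (b : S.B0), b ∈ 𝔪 ↔ S.two.c0.rho i b ∈ 𝔫 := by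
  haveI := h𝔪
  by_cases h : ∀ i j, S.two.c0.P i ≤ 𝔪 → S.two.c0.P j ≤ 𝔪 → i = j
  · exact Or.inl h
  right
  push Not at h
  obtain ⟨i, j, hi, hj, hij⟩ := h
  have hall := S.all_of_two h𝔪 hij hi hj
  refine ⟨𝔪.map (S.two.c0.rho 1), fun k b => ?_⟩
  rw [S.mem_iff_rho (hall k) b]
  -- comparison of the ideals
  obtain ⟨f, hf, hin, hex⟩ := S.exists_lift0 (S.two.c0.rho k b)
  have a0 : S.two.c0.rho 0 ⟨_, hin⟩ = S.two.c0.rho k b := Subtype.ext (C_r (R0_in hf))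
  have a1 : S.two.c0.rho 1 ⟨_, hin⟩ = S.two.c0.rho k b := Subtype.ext (C_r (R1_in hf))
  have b1 : S.two.c0.rho 1 ⟨_, hex⟩ = S.two.c0.rho k b := Subtype.ext (C_r (R1_ex hf))
  have b2 : S.two.c0.rho 2 ⟨_, hex⟩ = S.two.c0.rho k b := Subtype.ext (C_r (R2_ex hf))
  have e0 : S.two.c0.rho k b ∈ 𝔪.map (S.two.c0.rho 0) ↔
      S.two.c0.rho k b ∈ 𝔪.map (S.two.c0.rho 1) := by
    rw [← a0, ← S.mem_iff_rho (hall 0), a0, ← a1, ← S.mem_iff_rho (hall 1)]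
  have e2 : S.two.c0.rho k b ∈ 𝔪.map (S.two.c0.rho 2) ↔
      S.two.c0.rho k b ∈ 𝔪.map (S.two.c0.rho 1) := by
    rw [← b2, ← S.mem_iff_rho (hall 2), b2, ← b1, ← S.mem_iff_rho (hall 1)]
  fin_cases k
  · exact e0
  · exact Iff.rfl
  · exact e2

end M

end Sit

end Fermat.Agent.Carayol
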