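import Fermat.Agent.Carayol.Emb

/-!
# Identities between the embeddings
-/

set_option autoImplicit false
set_option linter.unusedSectionVars false
set_option linter.unusedVariables false
set_option linter.style.haveILetI false

noncomputable section

namespace Fermat.Agent.Carayol

open ModularCurve IntermediateField Fermat.Agent.GenusX0 Fermat.Agent.ModFun

theorem twist_const {k : Type*} [Field k] (c : kˣ) (a : k) :
    twist c (algebraMap k (LaurentSeries k) a) = algebraMap k (LaurentSeries k) a := by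
  rw [← ModFun.C_eq_algebraMap, twist_C]

theorem qExpand_congr {k : Type*} [Field k] {d d' : ℕ} [hd : NeZero d] [hd' : NeZero d']
    (e : d = d') (x : LaurentSeries k) : qExpand k d x = qExpand k d' x := by
  subst e
  rfl

section W

variable {k : Type*} [Field k] {q M' : ℕ} [NeZero q] [NeZero M']

/-- the Atkin–Lehner involution -/
structure IsW (w : FF k (q ^ 2 * M') →+* FF k (q ^ 2 * M')) : Prop where
  const : ∀ c : k, w (algebraMap k _ c) = algebraMap k _ c
  gen : ∀ (a d₀ d d' : ℕ) [NeZero d] [NeZero d'] (hd : d ∣ q ^ 2 * M') (hd' : d' ∣ q ^ 2 * M'),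
        a ≤ 2 → d₀ ∣ M' → d = q ^ a * d₀ → d' = q ^ (2 - a) * d₀ →
        w (jel k d hd) = jel k d' hd'

/-- the embeddings over `F_{q M'}` -/
structure IsSig (ζ : kˣ) (s : FF k (q ^ 2 * M') →+* LaurentSeries k) : Prop where
  const : ∀ c : k, s (algebraMap k _ c) = algebraMap k _ c
  gen1 : ∀ (d : ℕ) [NeZero d] (hd : d ∣ q ^ 2 * M'), d ∣ q * M' →
        s (jel k d hd) = qExpand k d (jqModC k)
  gen2 : ∀ (d₀ d : ℕ) [NeZero d₀] [NeZero d] (hd : d ∣ q ^ 2 * M'), d₀ ∣ M' → d = q ^ 2 * d₀ →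
        s (jel k d hd) = twist ζ (qExpand k d₀ (jqModC k))

theorem neZero_of_dvd {a : ℕ} (h : a ∣ M') : NeZero a :=
  ⟨by rintro rfl; exact NeZero.ne M' (zero_dvd_iff.1 h)⟩

theorem neZero_q_pow (a : ℕ) : NeZero (q ^ a) := ⟨pow_ne_zero _ (NeZero.ne q)⟩

variable {w : FF k (q ^ 2 * M') →+* FF k (q ^ 2 * M')}

theorem dvd_pow_mul {a d₀ : ℕ} (ha : a ≤ 2) (h : d₀ ∣ M') : q ^ a * d₀ ∣ q ^ 2 * M' :=
  mul_dvd_mul (pow_dvd_pow q ha) h

theorem IsW.invol (hq : q.Prime) (hw : IsW w) (x : FF k (q ^ 2 * M')) : w (w x) = x := by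
  have : w.comp w = RingHom.id _ := by
    refine ext_gen (fun c => ?_) fun d _ hd => ?_
    · rw [RingHom.comp_apply, hw.const, hw.const, RingHom.id_apply]
    · obtain ⟨a, d₀, ha, hd₀, rfl⟩ := dvd_cases hq hd
      haveI := neZero_of_dvd hd₀
      haveI : NeZero (q ^ (2 - a)) := neZero_q_pow _
      rw [RingHom.comp_apply, RingHom.id_apply,
        hw.gen a d₀ _ (q ^ (2 - a) * d₀) hd (dvd_pow_mul (Nat.sub_le 2 a) hd₀) ha hd₀ rfl rfl,
        hw.gen (2 - a) d₀ _ (q ^ a * d₀) _ hd (Nat.sub_le 2 a) hd₀ rfl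
          (by rw [Nat.sub_sub_self ha])]
  exact congrArg (fun f => f x) this

theorem dvd_M : M' ∣ q ^ 2 * M' := Dvd.intro_left _ rfl

theorem IsW.inc (hw : IsW w) (f : FF k M') (h : M' ∣ q ^ 2 * M') (h' : q ^ 2 * M' ∣ q ^ 2 * M') :
    w (inc k h f) = exN k (q ^ 2) h' f := by
  have : w.comp (Carayol.inc k h) = exN k (q ^ 2) h' := by
    refine ext_gen (fun c => ?_) fun d _ hd => ?_
    · rw [RingHom.comp_apply, inc_const, hw.const, exN_const]
    · rw [RingHom.comp_apply, inc_jel, exN_jel]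
      exact hw.gen 0 d d (q ^ 2 * d) _ _ (Nat.zero_le _) hd (by rw [pow_zero, one_mul])
        (by rw [Nat.sub_zero])
  exact congrArg (fun g => g f) this

theorem IsW.exN2 (hw : IsW w) (f : FF k M') (h : M' ∣ q ^ 2 * M') (h' : q ^ 2 * M' ∣ q ^ 2 * M') :
    w (exN k (q ^ 2) h' f) = Carayol.inc k h f := by
  have : w.comp (exN k (q ^ 2) h') = Carayol.inc k h := by
    refine ext_gen (fun c => ?_) fun d _ hd => ?_
    · rw [RingHom.comp_apply, inc_const, exN_const, hw.const]
    · rw [RingHom.comp_apply, inc_jel, exN_jel]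
      exact hw.gen 2 d (q ^ 2 * d) d _ _ le_rfl hd rfl (by rw [Nat.sub_self, pow_zero, one_mul])
  exact congrArg (fun g => g f) this

theorem IsW.exN1 (hw : IsW w) (f : FF k M') (h' : q * M' ∣ q ^ 2 * M') :
    w (exN k q h' f) = exN k q h' f := by
  have : w.comp (exN k q h') = exN k q h' := by
    refine ext_gen (fun c => ?_) fun d _ hd => ?_
    · rw [RingHom.comp_apply, exN_const, hw.const]
    · rw [RingHom.comp_apply, exN_jel]
      exact hw.gen 1 d (q * d) (q * d) _ _ (by norm_num) hd (by rw [pow_one]) (by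
        rw [show 2 - 1 = 1 from rfl, pow_one])
  exact congrArg (fun g => g f) this

/-- `w` on level `qM'` has expansions in `T^q` -/
theorem IsW.inc_q (hq : q.Prime) (hw : IsW w) (f : FF k (q * M')) (h : q * M' ∣ q ^ 2 * M') :
    ∃ y : LaurentSeries k, ((w (Carayol.inc k h f) : FF k (q ^ 2 * M')) : LaurentSeries k) =
      qExpand k q y := by
  have hc : ∀ c : k, ∃ y, qExpand k q y =
      ((algebraMap (FF k (q ^ 2 * M')) (LaurentSeries k)).comp (w.comp (Carayol.inc k h)))
        (algebraMap k (FF k (q * M')) c) := by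
    intro c
    refine ⟨algebraMap k _ c, ?_⟩
    rw [RingHom.comp_apply, RingHom.comp_apply, inc_const, hw.const, qExpand_algebraMap]
    rfl
  obtain ⟨f', hf'⟩ := exists_factor ((algebraMap (FF k (q ^ 2 * M')) (LaurentSeries k)).comp
    (w.comp (Carayol.inc k h))) (qExpand k q) hc (by
      intro d _ hd
      obtain ⟨a, d₀, ha, hd₀, rfl⟩ := dvd_cases' hq hd
      haveI := neZero_of_dvd hd₀
      haveI : NeZero (q ^ (1 - a)) := neZero_q_pow _
      haveI : NeZero (q ^ (2 - a)) := neZero_q_pow _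
      refine ⟨qExpand k (q ^ (1 - a) * d₀) (jqModC k), ?_⟩
      rw [RingHom.comp_apply, RingHom.comp_apply, inc_jel,
        hw.gen a d₀ _ (q ^ (2 - a) * d₀) (hd.trans h) (dvd_pow_mul (Nat.sub_le 2 a) hd₀)
          (ha.trans one_le_two) hd₀ rfl rfl]
      refine Eq.trans ?_ (coe_jel (k := k) (dvd_pow_mul (Nat.sub_le 2 a) hd₀)).symm
      rw [qExpand_qExpand]
      refine qExpand_congr ?_ _
      rw [← mul_assoc, ← pow_succ']
      congr 2
      omega)
  exact ⟨f' f, (hf' f).symm⟩

end W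

section WK

variable {k K : Type*} [Field k] [Field K] {q M' : ℕ} [NeZero q] [NeZero M']

/-- the involution is compatible with base change -/
theorem IsW.bc (hq : q.Prime) {w : FF k (q ^ 2 * M') →+* FF k (q ^ 2 * M')}
    {w' : FF K (q ^ 2 * M') →+* FF K (q ^ 2 * M')} (hw : IsW w) (hw' : IsW w') (f : k →+* K)
    (x : FF k (q ^ 2 * M')) : Carayol.bc f _ (w x) = w' (Carayol.bc f _ x) := by
  have : (Carayol.bc f _).comp w = w'.comp (Carayol.bc f (q ^ 2 * M')) := by
    refine ext_gen (fun c => ?_) fun d _ hd => ?_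
    · rw [RingHom.comp_apply, RingHom.comp_apply, hw.const, bc_const, hw'.const]
    · obtain ⟨a, d₀, ha, hd₀, rfl⟩ := dvd_cases hq hd
      haveI := neZero_of_dvd hd₀
      haveI : NeZero (q ^ (2 - a)) := neZero_q_pow _
      rw [RingHom.comp_apply, RingHom.comp_apply, bc_jel,
        hw.gen a d₀ _ (q ^ (2 - a) * d₀) hd (dvd_pow_mul (Nat.sub_le 2 a) hd₀) ha hd₀ rfl rfl,
        hw'.gen a d₀ _ (q ^ (2 - a) * d₀) hd (dvd_pow_mul (Nat.sub_le 2 a) hd₀) ha hd₀ rfl rfl,
        bc_jel]
  exact congrArg (fun g => g x) this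

end WK

section Sig

variable {K : Type*} [Field K] {q M' : ℕ} [NeZero q] [NeZero M'] {ζ : Kˣ}
  {s : FF K (q ^ 2 * M') →+* LaurentSeries K}

theorem IsSig.inc (hs : IsSig ζ s) (f : FF K (q * M')) (h : q * M' ∣ q ^ 2 * M') :
    s (Carayol.inc K h f) = f := by
  have : s.comp (Carayol.inc K h) = algebraMap (FF K (q * M')) (LaurentSeries K) := by
    refine ext_gen (fun c => ?_) fun d _ hd => ?_
    · rw [RingHom.comp_apply, inc_const, hs.const]
      rfl
    · rw [RingHom.comp_apply, inc_jel, hs.gen1 _ _ hd]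
      exact (coe_jel hd).symm
  exact congrArg (fun g => g f) this

theorem IsSig.inc' (hs : IsSig ζ s) (f : FF K M') (h : M' ∣ q ^ 2 * M') :
    s (Carayol.inc K h f) = f := by
  have : s.comp (Carayol.inc K h) = algebraMap (FF K M') (LaurentSeries K) := by
    refine ext_gen (fun c => ?_) fun d _ hd => ?_
    · rw [RingHom.comp_apply, inc_const, hs.const]
      rfl
    · rw [RingHom.comp_apply, inc_jel, hs.gen1 _ _ (hd.trans (Dvd.intro_left _ rfl))]
      exact (coe_jel hd).symm
  exact congrArg (fun g => g f) this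

theorem IsSig.exN2 (hs : IsSig ζ s) (f : FF K M') (h' : q ^ 2 * M' ∣ q ^ 2 * M') :
    s (exN K (q ^ 2) h' f) = twist ζ f := by
  have : s.comp (exN K (q ^ 2) h') = (twist ζ).comp (algebraMap (FF K M') (LaurentSeries K)) := by
    refine ext_gen (fun c => ?_) fun d _ hd => ?_
    · rw [RingHom.comp_apply, exN_const, hs.const, RingHom.comp_apply]
      exact (twist_const ζ c).symm
    · rw [RingHom.comp_apply, exN_jel, hs.gen2 d _ _ hd rfl, RingHom.comp_apply]
      exact congrArg _ (coe_jel hd).symm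
  exact congrArg (fun g => g f) this

/-- composition with the involution -/
theorem IsSig.comp_w (hq : q.Prime) (hs : IsSig ζ s) (hζ : ζ ^ q = 1)
    {s' : FF K (q ^ 2 * M') →+* LaurentSeries K} (hs' : IsSig ζ⁻¹ s')
    {w : FF K (q ^ 2 * M') →+* FF K (q ^ 2 * M')} (hw : IsW w) (x : FF K (q ^ 2 * M')) :
    s (w x) = twist ζ (s' x) := by
  have : s.comp w = (twist ζ).comp s' := by
    refine ext_gen (fun c => ?_) fun d _ hd => ?_
    · rw [RingHom.comp_apply, RingHom.comp_apply, hw.const, hs.const, hs'.const, twist_const]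
    · obtain ⟨a, d₀, ha, hd₀, rfl⟩ := dvd_cases hq hd
      haveI := neZero_of_dvd hd₀
      haveI : NeZero (q ^ (2 - a)) := neZero_q_pow _
      rw [RingHom.comp_apply, RingHom.comp_apply,
        hw.gen a d₀ _ (q ^ (2 - a) * d₀) hd (dvd_pow_mul (Nat.sub_le 2 a) hd₀) ha hd₀ rfl rfl]
      rcases Nat.lt_or_ge a 1 with h | h
      · have : a = 0 := by omega
        subst this
        rw [hs.gen2 d₀ _ _ hd₀ rfl, hs'.gen1 (q ^ 0 * d₀) hd (by
          rw [pow_zero, one_mul]; exact hd₀.trans (Dvd.intro_left _ rfl))]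
        congr 1
        exact qExpand_congr (by rw [pow_zero, one_mul]) _
      · rcases Nat.lt_or_ge a 2 with h2 | h2
        · have : a = 1 := by omega
          subst this
          rw [hs.gen1 (q ^ (2 - 1) * d₀) _ (mul_dvd_mul (by rw [show 2 - 1 = 1 from rfl, pow_one])
              hd₀), hs'.gen1 (q ^ 1 * d₀) hd (mul_dvd_mul (by rw [pow_one]) hd₀),
            twist_qExpand ζ (q ^ 1 * d₀) (by rw [pow_one, pow_mul, hζ, one_pow])]
        · have : a = 2 := by omega
          subst this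
          rw [hs'.gen2 d₀ _ hd hd₀ rfl, twist_twist, mul_inv_cancel, twist_one,
            hs.gen1 (q ^ (2 - 2) * d₀) _ (by
              rw [show 2 - 2 = 0 from rfl, pow_zero, one_mul]
              exact hd₀.trans (Dvd.intro_left _ rfl))]
          exact qExpand_congr (by rw [show 2 - 2 = 0 from rfl, pow_zero, one_mul]) _
  exact congrArg (fun g => g x) this

/-- Galois conjugation of the embeddings -/
theorem IsSig.galois {k : Type*} [Field k] (hq : q.Prime) (hs : IsSig ζ s) (τ : K →+* K)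
    (f : k →+* K) (hf : ∀ c, τ (f c) = f c)
    {s' : FF K (q ^ 2 * M') →+* LaurentSeries K} (hs' : IsSig (Units.map (τ : K →* K) ζ) s')
    (x : FF k (q ^ 2 * M')) :
    coeffMap τ (s (Carayol.bc f _ x)) = s' (Carayol.bc f _ x) := by
  have : ((coeffMap τ).comp s).comp (Carayol.bc f (q ^ 2 * M')) =
      s'.comp (Carayol.bc f (q ^ 2 * M')) := by
    refine ext_gen (fun c => ?_) fun d _ hd => ?_
    · rw [RingHom.comp_apply, RingHom.comp_apply, RingHom.comp_apply, bc_const, hs.const,
        hs'.const, coeffMap_algebraMap, hf]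
    · rw [RingHom.comp_apply, RingHom.comp_apply, RingHom.comp_apply, bc_jel]
      obtain ⟨a, d₀, ha, hd₀, hda⟩ := dvd_cases hq hd
      haveI := neZero_of_dvd hd₀
      rcases Nat.lt_or_ge a 2 with h | h
      · have h1 : d ∣ q * M' := by
          rw [hda]
          exact mul_dvd_mul ((pow_dvd_pow q (by omega : a ≤ 1)).trans (by rw [pow_one])) hd₀
        rw [hs.gen1 d hd h1, hs'.gen1 d hd h1, coeffMap_gen']
      · have : a = 2 := le_antisymm ha h
        subst this
        rw [hs.gen2 d₀ d hd hd₀ hda, hs'.gen2 d₀ d hd hd₀ hda, coeffMap_twist, coeffMap_gen']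
  exact congrArg (fun g => g x) this

end Sig

end Fermat.Agent.Carayol
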