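import Fermat.Agent.Carayol.Setup

/-!
# The abstract theorem
-/

set_option autoImplicit false
set_option linter.unusedSectionVars false
set_option linter.style.haveILetI false

noncomputable section

namespace Fermat.Agent.Carayol

open Fermat.Agent.Models Polynomial

theorem exists_root_of_coprime {k : Type*} [Field k] {q m : ℕ} (h : Nat.Coprime q m) {x y : k}
    (hx : x ≠ 0) (hxy : x ^ q = y ^ m) : ∃ z : k, z ^ m = x := by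
  have h1 := Nat.gcd_eq_gcd_ab q m
  rw [Nat.Coprime.gcd_eq_one h] at h1
  have hy : y ≠ 0 ∨ m = 0 := by
    by_contra hcon
    push Not at hcon
    rw [hcon.1, zero_pow hcon.2] at hxy
    exact pow_ne_zero q hx hxy
  rcases hy with hy | rfl
  · refine ⟨y ^ (Nat.gcdA q m) * x ^ (Nat.gcdB q m), ?_⟩
    rw [mul_pow, ← zpow_natCast, ← zpow_natCast, ← zpow_mul, ← zpow_mul, mul_comm (Nat.gcdA q m),
      zpow_mul, zpow_natCast, ← hxy, ← zpow_natCast x q, ← zpow_mul, ← zpow_add₀ hx,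
      mul_comm (Nat.gcdB q m)]
    have : (q : ℤ) * Nat.gcdA q m + m * Nat.gcdB q m = 1 := by
      rw [← h1]; rfl
    rw [this, zpow_one]
  · rw [Nat.coprime_zero_right] at h
    subst h
    rw [pow_one, pow_zero] at hxy
    exact ⟨1, by rw [hxy, pow_zero]⟩

variable {F 𝓕 : Type*} [Field F] [Field 𝓕]

/-- the local lifting at a point on a single component -/
theorem Chart.lift_single {ι : Type*} [Fintype ι] {B : Subring F} {C : ι → Res F 𝓕}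
    {R : Subring 𝓕} {ϖ : F} (hB : Chart B C R ϖ)
    (hR : ∀ (y : 𝓕) (n : ℕ), 0 < n → y ^ n ∈ R → y ∈ R) {q : ℕ} [Fact q.Prime] [CharP 𝓕 q]
    (hinc : ∀ i j, i ≠ j → ∃ x : F, x ∈ B ∧ (C j).r x = 0 ∧ (C i).r x ≠ 0)
    {𝔪 : Ideal B} (h𝔪 : 𝔪.IsMaximal) {m : ℕ} (hm : 0 < m) {u : F} {g : ι → 𝓕}
    (hg0 : ∀ i, g i ≠ 0) (hg : ∀ i, (C i).r u = g i ^ m) {i : ι} (hi : hB.P i ≤ 𝔪)
    (huniq : ∀ j, hB.P j ≤ 𝔪 → j = i)
    {h : F} {y : B} (hy : y ∉ 𝔪) (hhy : h ^ m * u = y) :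
    ∃ N : ℕ, ∃ b ∉ 𝔪, ∃ h' : F, h' ^ m * u ^ q ^ N ∈ B ∧
      ∀ i, (C i).r h' * g i ^ q ^ N = (C i).r ((b : B) : F) := by
  have hu : ∀ i, (C i).r u ≠ 0 := fun i => by rw [hg]; exact pow_ne_zero m (hg0 i)
  have hhO : h ∈ (C i).O := hB.mem_O_of_pow (hu i) hm (hhy ▸ y.2)
  have h1 : (g i * (C i).r h) ^ m = (C i).r (y : F) := by
    rw [← hhy, Res.r_mul (pow_mem hhO m) (Res.mem_of_r_ne_zero (hu i)), Res.r_pow hhO, hg,
      mul_pow, mul_comm]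
  have h2 : g i * (C i).r h ∈ R := hR _ m hm (by rw [h1]; exact hB.mem_R i _ y.2)
  obtain ⟨c, hcB, hc⟩ := hB.surj i _ h2
  have hc𝔪 : (⟨c, hcB⟩ : B) ∉ 𝔪 := by
    intro hc'
    apply hy
    have h3 : y - ⟨c, hcB⟩ ^ m ∈ hB.P i := by
      rw [hB.mem_P]
      push_cast
      rw [Res.r_sub (hB.le i _ y.2) (pow_mem (hB.le i _ hcB) m), Res.r_pow (hB.le i _ hcB), hc,
        h1, sub_self]
    have h4 := 𝔪.add_mem (hi h3) (𝔪.pow_mem_of_mem hc' m hm)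
    rwa [sub_add_cancel] at h4
  refine hB.lift_local hinc h𝔪 hm hg0 hg hhy ⟨c, hcB⟩ hc𝔪 fun j hj => ⟨0, 𝔪.zero_mem, ?_⟩
  rw [huniq j hj]
  change _ = (C i).r c + (C i).r ((0 : B) : F)
  rw [hc, Subring.coe_zero, Res.r_zero, add_zero]

variable {A₀ K₀ κ : Type*} [CommRing A₀] [IsDomain A₀] [IsDiscreteValuationRing A₀] [Field K₀]
  [Algebra A₀ K₀] [IsFractionRing A₀ K₀] [Algebra K₀ F] [Algebra A₀ F]
  [IsScalarTower A₀ K₀ F] [Field κ] [Algebra κ 𝓕]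

namespace Setup

variable {C : Fin 3 → Res F 𝓕} {B0 B1 : Subring F} {R0 R1 : Subring 𝓕} {t : F} {ϖ₀ : A₀}
  {π : A₀ →+* κ}

theorem K_le_of (hS : Setup K₀ κ C B0 B1 R0 R1 t ϖ₀ π) {V : Subring F}
    (hA : ∀ a : A₀, algebraMap A₀ F a ∈ V) (hϖ : (algebraMap A₀ F ϖ₀)⁻¹ ∈ V) (c : K₀) :
    algebraMap K₀ F c ∈ V := by
  obtain ⟨a, b, hb, rfl⟩ := IsFractionRing.div_surjective (A := A₀) c
  have hb0 : b ≠ 0 := nonZeroDivisors.ne_zero hb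
  obtain ⟨n, v, hv⟩ := IsDiscreteValuationRing.associated_pow_irreducible hb0 hS.irr
  have hinj : Function.Injective (algebraMap A₀ K₀) := IsFractionRing.injective A₀ K₀
  have hbK : algebraMap A₀ K₀ b ≠ 0 := fun h => hb0 (hinj (by rw [h, map_zero]))
  have hϖ0 : algebraMap A₀ K₀ ϖ₀ ≠ 0 := fun h => hS.irr.ne_zero (hinj (by rw [h, map_zero]))
  have h1 : algebraMap A₀ K₀ a / algebraMap A₀ K₀ b =
      algebraMap A₀ K₀ (a * v) * ((algebraMap A₀ K₀ ϖ₀)⁻¹) ^ n := by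
    rw [map_mul, inv_pow, ← map_pow, ← hv, map_mul]
    have : algebraMap A₀ K₀ (v : A₀) ≠ 0 := fun h => v.ne_zero (hinj (by rw [h, map_zero]))
    field_simp
  rw [h1, map_mul, map_pow, map_inv₀, ← IsScalarTower.algebraMap_apply,
    ← IsScalarTower.algebraMap_apply]
  exact V.mul_mem (hA _) (V.pow_mem hϖ n)

variable (hS : Setup K₀ κ C B0 B1 R0 R1 t ϖ₀ π)

include hS

/-- the point of the first chart corresponding to a point of the second chart with `t⁻¹ ≠ 0` -/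
theorem transfer {𝔪 : Ideal B1} (h𝔪 : 𝔪.IsMaximal)
    (hϖ : (⟨algebraMap A₀ F ϖ₀, hS.c1.ϖ_mem⟩ : B1) ∈ 𝔪) (ht : (⟨t⁻¹, hS.t_mem'⟩ : B1) ∉ 𝔪) :
    ∃ 𝔪₀ : Ideal B0, 𝔪₀.IsMaximal ∧ (⟨algebraMap A₀ F ϖ₀, hS.c0.ϖ_mem⟩ : B0) ∈ 𝔪₀ ∧
      ∀ (b : B0) (n : ℕ) (h : t⁻¹ ^ n * (b : F) ∈ B1), (⟨_, h⟩ : B1) ∈ 𝔪 → b ∈ 𝔪₀ := by
  have hp := h𝔪.isPrime
  let τ : B1 := ⟨t⁻¹, hS.t_mem'⟩
  have hτ : ∀ n, τ ^ n ∉ 𝔪 := fun n h => ht (hp.mem_of_pow_mem n h)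
  have hup : ∀ (b : F) (n k : ℕ) (h : t⁻¹ ^ n * b ∈ B1), (⟨_, h⟩ : B1) ∈ 𝔪 →
      ∃ h' : t⁻¹ ^ (n + k) * b ∈ B1, (⟨_, h'⟩ : B1) ∈ 𝔪 := by
    intro b n k h hm
    have e : t⁻¹ ^ (n + k) * b = ((τ ^ k * ⟨_, h⟩ : B1) : F) := by
      push_cast
      change _ = t⁻¹ ^ k * (t⁻¹ ^ n * b)
      rw [pow_add]; ring
    have h' : t⁻¹ ^ (n + k) * b ∈ B1 := by rw [e]; exact Subtype.mem _
    refine ⟨h', ?_⟩
    have : (⟨_, h'⟩ : B1) = τ ^ k * ⟨_, h⟩ := Subtype.ext e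
    rw [this]; exact 𝔪.mul_mem_left _ hm
  let 𝔪₀ : Ideal B0 :=
    { carrier := {b | ∃ (n : ℕ) (h : t⁻¹ ^ n * (b : F) ∈ B1), (⟨_, h⟩ : B1) ∈ 𝔪}
      zero_mem' := by
        have h : t⁻¹ ^ 0 * ((0 : B0) : F) ∈ B1 := by simp
        refine ⟨0, h, ?_⟩
        have : (⟨_, h⟩ : B1) = 0 := Subtype.ext (by simp)
        rw [this]; exact 𝔪.zero_mem
      add_mem' := by
        rintro a b ⟨n, h, hm⟩ ⟨k, h', hm'⟩
        obtain ⟨h1, hm1⟩ := hup _ n k h hm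
        obtain ⟨h2, hm2⟩ := hup _ k n h' hm'
        have e : t⁻¹ ^ (n + k) * ((a + b : B0) : F) = t⁻¹ ^ (n + k) * (a : F) +
            t⁻¹ ^ (k + n) * (b : F) := by rw [add_comm k n]; push_cast; ring
        have h3 : t⁻¹ ^ (n + k) * ((a + b : B0) : F) ∈ B1 := by rw [e]; exact B1.add_mem h1 h2
        refine ⟨n + k, h3, ?_⟩
        have : (⟨_, h3⟩ : B1) = ⟨_, h1⟩ + ⟨_, h2⟩ := Subtype.ext e
        rw [this]; exact 𝔪.add_mem hm1 hm2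
      smul_mem' := by
        rintro c b ⟨n, h, hm⟩
        obtain ⟨k, hk⟩ := hS.ov0 _ c.2
        have e : t⁻¹ ^ (k + n) * ((c • b : B0) : F) = t⁻¹ ^ k * (c : F) * (t⁻¹ ^ n * (b : F)) := by
          rw [smul_eq_mul]; push_cast; rw [pow_add]; ring
        have h3 : t⁻¹ ^ (k + n) * ((c • b : B0) : F) ∈ B1 := by rw [e]; exact B1.mul_mem hk h
        refine ⟨k + n, h3, ?_⟩
        have : (⟨_, h3⟩ : B1) = ⟨_, hk⟩ * ⟨_, h⟩ := Subtype.ext e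
        rw [this]; exact 𝔪.mul_mem_left _ hm }
  have hmem : ∀ b : B0, b ∈ 𝔪₀ ↔ ∃ (n : ℕ) (h : t⁻¹ ^ n * (b : F) ∈ B1), (⟨_, h⟩ : B1) ∈ 𝔪 :=
    fun b => Iff.rfl
  have hunit : ∀ a : A₀, (⟨algebraMap A₀ F a, hS.A_mem1 a⟩ : B1) ∉ 𝔪 → IsUnit a := by
    intro a ha
    by_contra hna
    apply ha
    have h1 : a ∈ IsLocalRing.maximalIdeal A₀ := (IsLocalRing.mem_maximalIdeal a).2 hna
    rw [hS.irr.maximalIdeal_eq, Ideal.mem_span_singleton'] at h1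
    obtain ⟨c, rfl⟩ := h1
    have : (⟨algebraMap A₀ F (c * ϖ₀), hS.A_mem1 _⟩ : B1) =
        ⟨algebraMap A₀ F c, hS.A_mem1 c⟩ * ⟨algebraMap A₀ F ϖ₀, hS.c1.ϖ_mem⟩ :=
      Subtype.ext (map_mul _ _ _)
    rw [this]; exact 𝔪.mul_mem_left _ hϖ
  refine ⟨𝔪₀, ?_, ?_, fun b n h hm => (hmem b).2 ⟨n, h, hm⟩⟩
  · rw [Ideal.isMaximal_iff]
    constructor
    · rw [hmem]
      rintro ⟨n, h, hm⟩
      apply hτ n
      have : (⟨_, h⟩ : B1) = τ ^ n := Subtype.ext (by push_cast; rw [mul_one])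
      rwa [this] at hm
    · intro J x hJ hx hxJ
      obtain ⟨n, hn⟩ := hS.ov0 _ x.2
      obtain ⟨a, ha⟩ := hS.res1 𝔪 h𝔪 hϖ ⟨_, hn⟩
      obtain ⟨a', ha'⟩ := hS.res1 𝔪 h𝔪 hϖ (τ ^ n)
      have hxn : (⟨_, hn⟩ : B1) ∉ 𝔪 := fun h => hx ((hmem x).2 ⟨n, hn, h⟩)
      obtain ⟨ua, hua⟩ := hunit a (fun h => hxn (by
        have := 𝔪.add_mem ha h; rwa [sub_add_cancel] at this))
      -- `x * (a' a⁻¹) - 1 ∈ 𝔪₀`
      let c : A₀ := a' * ((ua⁻¹ : A₀ˣ) : A₀)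
      have hc : c * a = a' := by
        change a' * ((ua⁻¹ : A₀ˣ) : A₀) * a = a'
        rw [mul_assoc, ← hua, Units.inv_mul, mul_one]
      let z : B0 := ⟨algebraMap A₀ F c, hS.A_mem0 c⟩ * x - 1
      have hz : z ∈ 𝔪₀ := by
        rw [hmem]
        have e : t⁻¹ ^ n * (z : F) = ((⟨algebraMap A₀ F c, hS.A_mem1 c⟩ *
            (⟨_, hn⟩ - ⟨algebraMap A₀ F a, hS.A_mem1 a⟩) -
            (τ ^ n - ⟨algebraMap A₀ F a', hS.A_mem1 a'⟩) : B1) : F) := by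
          push_cast
          change t⁻¹ ^ n * (algebraMap A₀ F c * x - 1) = algebraMap A₀ F c *
            (t⁻¹ ^ n * (x : F) - algebraMap A₀ F a) - (t⁻¹ ^ n - algebraMap A₀ F a')
          have hcF : algebraMap A₀ F c * algebraMap A₀ F a = algebraMap A₀ F a' := by
            rw [← map_mul, hc]
          linear_combination hcF
        have h3 : t⁻¹ ^ n * (z : F) ∈ B1 := by rw [e]; exact Subtype.mem _
        refine ⟨n, h3, ?_⟩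
        have h4 : (⟨_, h3⟩ : B1) = _ := Subtype.ext e
        rw [h4]
        exact 𝔪.sub_mem (𝔪.mul_mem_left _ ha) ha'
      have h5 := J.sub_mem (J.mul_mem_left ⟨algebraMap A₀ F c, hS.A_mem0 c⟩ hxJ) (hJ hz)
      have h6 : (⟨algebraMap A₀ F c, hS.A_mem0 c⟩ : B0) * x - z = 1 := by
        simp only [z]; ring
      rwa [h6] at h5
  · rw [hmem]
    have h : t⁻¹ ^ 0 * algebraMap A₀ F ϖ₀ ∈ B1 := by simpa using hS.c1.ϖ_mem
    refine ⟨0, h, ?_⟩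
    have : (⟨_, h⟩ : B1) = ⟨algebraMap A₀ F ϖ₀, hS.c1.ϖ_mem⟩ := Subtype.ext (by simp)
    rw [this]; exact hϖ

/-- **Main theorem (abstract form).** -/
theorem main [IsAlgClosed κ] {q : ℕ} [Fact q.Prime] [CharP 𝓕 q] {m : ℕ} (hm : 0 < m)
    (hmu : IsUnit (m : A₀)) (hqm : Nat.Coprime q m) {u : F} (hu : ∀ i, (C i).r u ≠ 0)
    (hh : ∀ V : ValuationSubring F, (∀ c : K₀, algebraMap K₀ F c ∈ V) → V ≠ ⊤ →
      ∃ y : F, y ≠ 0 ∧ u * y ^ m ∈ V ∧ (u * y ^ m)⁻¹ ∈ V)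
    {Nα Nβ : F →* F} (hα : IsNorm C B0 q Nα 0 2) (hβ : IsNorm C B0 q Nβ 2 0)
    {na nb : F} (hna : Nα u = na ^ m) (hnb : Nβ u = nb ^ m) :
    ∃ c : K₀, c ≠ 0 ∧ ∃ x : F, u ^ ((q - 1) * (q ^ 2 - 1)) = algebraMap K₀ F c * x ^ m := by
  have hq : q.Prime := Fact.out
  have huO : ∀ i, u ∈ (C i).O := fun i => Res.mem_of_r_ne_zero (hu i)
  have hu0 : u ≠ 0 := Res.ne_zero_of_r (hu 0)
  -- values of roots
  have hroot : ∀ (i : Fin 3) (v n : F), (C i).r v ≠ 0 → v = n ^ m → (C i).r n ^ m = (C i).r v := by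
    intro i v n hv hvn
    have hn0 : n ≠ 0 := by
      rintro rfl
      rw [hvn, zero_pow hm.ne'] at hv
      exact hv Res.r_zero
    have h1 : n ∈ (C i).O := by
      rcases (C i).O.mem_or_inv_mem n with h | h
      · exact h
      · have h2 : n ^ m ∈ (C i).O := hvn ▸ Res.mem_of_r_ne_zero hv
        have h3 : n = n ^ m * n⁻¹ ^ (m - 1) := by
          obtain ⟨k, rfl⟩ := Nat.exists_eq_succ_of_ne_zero hm.ne'
          rw [Nat.succ_sub_one, pow_succ', mul_assoc, ← mul_pow, mul_inv_cancel₀ hn0, one_pow,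
            mul_one]
        rw [h3]; exact mul_mem h2 (pow_mem h _)
    rw [hvn, Res.r_pow h1]
  have hα2 := hα.r_b u (huO 2)
  have hα0 := hα.r_a u (huO 0) (huO 1)
  have hβ0 := hβ.r_b u (huO 0)
  obtain ⟨g₂, hg₂⟩ : ∃ z : 𝓕, z ^ m = (C 2).r u := by
    refine exists_root_of_coprime hqm (hu 2) (y := (C 2).r na) ?_
    rw [hroot 2 _ na (by rw [hα2]; exact pow_ne_zero _ (hu 2)) hna, hα2]
  obtain ⟨g₀, hg₀⟩ : ∃ z : 𝓕, z ^ m = (C 0).r u := by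
    refine exists_root_of_coprime hqm (hu 0) (y := (C 0).r nb) ?_
    rw [hroot 0 _ nb (by rw [hβ0]; exact pow_ne_zero _ (hu 0)) hnb, hβ0]
  have hg₂0 : g₂ ≠ 0 := by
    rintro rfl
    rw [zero_pow hm.ne'] at hg₂
    exact hu 2 hg₂.symm
  have hg₀0 : g₀ ≠ 0 := by
    rintro rfl
    rw [zero_pow hm.ne'] at hg₀
    exact hu 0 hg₀.symm
  set g₁ : 𝓕 := (C 0).r na / g₀ with hg₁
  have hna0 : (C 0).r na ^ m = (C 0).r u * (C 1).r u ^ (q - 1) := by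
    rw [hroot 0 _ na (by rw [hα0]; exact mul_ne_zero (hu 0) (pow_ne_zero _ (hu 1))) hna, hα0]
  have hg₁m : g₁ ^ m = (C 1).r u ^ (q - 1) := by
    rw [hg₁, div_pow, hna0, hg₀, mul_div_cancel_left₀ _ (hu 0)]
  have hg₁0 : g₁ ≠ 0 := by
    intro h0
    rw [h0, zero_pow hm.ne'] at hg₁m
    exact pow_ne_zero _ (hu 1) hg₁m.symm
  -- the new unit
  set v : F := u ^ (q - 1) with hv
  let g : Fin 3 → 𝓕 := ![g₀ ^ (q - 1), g₁, g₂ ^ (q - 1)]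
  have hg0 : ∀ i, g i ≠ 0 := by
    intro i
    fin_cases i
    · exact pow_ne_zero _ hg₀0
    · exact hg₁0
    · exact pow_ne_zero _ hg₂0
  have hg : ∀ i, (C i).r v = g i ^ m := by
    intro i
    rw [hv, Res.r_pow (huO i)]
    fin_cases i
    · change (C 0).r u ^ (q - 1) = (g₀ ^ (q - 1)) ^ m
      rw [← hg₀, ← pow_mul, ← pow_mul, mul_comm]
    · change (C 1).r u ^ (q - 1) = g₁ ^ m
      rw [hg₁m]
    · change (C 2).r u ^ (q - 1) = (g₂ ^ (q - 1)) ^ m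
      rw [← hg₂, ← pow_mul, ← pow_mul, mul_comm]
  have hv0 : v ≠ 0 := pow_ne_zero _ hu0
  obtain ⟨μ, hμm, hμ⟩ := hS.glue hq.two_le hα hβ hm hg0 hg (na := na ^ (q - 1))
    (nb := nb ^ (q - 1)) (by rw [hv, map_pow, hna, ← pow_mul, ← pow_mul, mul_comm])
    (by rw [hv, map_pow, hnb, ← pow_mul, ← pow_mul, mul_comm])
  have hμ0 : ∀ i, μ i ≠ 0 := fun i h => by
    have := hμm i
    rw [h, zero_pow hm.ne'] at this
    exact zero_ne_one this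
  -- the final unit
  set w : F := v ^ (q ^ 2 - 1) with hw
  let g' : Fin 3 → 𝓕 := fun i => algebraMap κ 𝓕 (μ i) * g i ^ (q ^ 2 - 1)
  have hg0' : ∀ i, g' i ≠ 0 := fun i =>
    mul_ne_zero (by simpa using hμ0 i) (pow_ne_zero _ (hg0 i))
  have hvr : ∀ i, (C i).r v ≠ 0 := fun i => by rw [hg]; exact pow_ne_zero m (hg0 i)
  have hg' : ∀ i, (C i).r w = g' i ^ m := by
    intro i
    rw [hw, Res.r_pow (Res.mem_of_r_ne_zero (hvr i)), hg, mul_pow, ← map_pow, hμm, map_one,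
      one_mul, ← pow_mul, ← pow_mul, mul_comm]
  have hwr : ∀ i, (C i).r w ≠ 0 := fun i => by rw [hg']; exact pow_ne_zero m (hg0' i)
  -- local roots of `v`
  have hloc : ∀ {B : Subring F} {R : Subring 𝓕} (hB : Chart B C R (algebraMap A₀ F ϖ₀))
      (hAB : ∀ a : A₀, algebraMap A₀ F a ∈ B)
      {𝔪 : Ideal B} (h𝔪 : 𝔪.IsMaximal) (hϖ : (⟨algebraMap A₀ F ϖ₀, hB.ϖ_mem⟩ : B) ∈ 𝔪)
      {i : Fin 3} {x : B} (hi : hB.P i ≤ 𝔪) (hx : hB.LocGen 𝔪 i x),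
      ∃ h : F, h ≠ 0 ∧ ∃ y : B, y ∉ 𝔪 ∧ h ^ m * v = y := by
    intro B R hB hAB 𝔪 h𝔪 hϖ i x hi hx
    refine hB.local_root h𝔪 hi hx hϖ hm hv0 (fun i => ⟨1, one_ne_zero, ?_⟩) fun V hBV hϖV hV => ?_
    · rw [one_pow, mul_one]; exact hvr i
    · obtain ⟨y, hy0, hy1, hy2⟩ := hh V
        (fun c => hS.K_le_of (V := V.toSubring) (fun a => hBV _ (hAB a)) hϖV c) hV
      refine ⟨y ^ (q - 1), pow_ne_zero _ hy0, ?_, ?_⟩
      · have : v * (y ^ (q - 1)) ^ m = (u * y ^ m) ^ (q - 1) := by rw [hv]; ring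
        rw [this]; exact pow_mem hy1 _
      · have : (v * (y ^ (q - 1)) ^ m)⁻¹ = ((u * y ^ m)⁻¹) ^ (q - 1) := by
          rw [hv, inv_pow]; congr 1; ring
        rw [this]; exact pow_mem hy2 _
  -- local lifting in the first chart
  have hL0 : ∀ 𝔪 : Ideal B0, 𝔪.IsMaximal →
      (⟨algebraMap A₀ F ϖ₀, hS.c0.ϖ_mem⟩ : B0) ∈ 𝔪 →
      ∃ N : ℕ, ∃ b ∉ 𝔪, ∃ h' : F, h' ^ m * w ^ q ^ N ∈ B0 ∧
        ∀ i, (C i).r h' * g' i ^ q ^ N = (C i).r ((b : B0) : F) := by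
    intro 𝔪 h𝔪 hϖ
    obtain ⟨i, x, hi, hx⟩ := hS.gen0 𝔪 h𝔪 hϖ
    obtain ⟨h, hh0, y, hy, hhy⟩ := hloc hS.c0 hS.A_mem0 h𝔪 hϖ hi hx
    have hhy' : (h ^ (q ^ 2 - 1)) ^ m * w = ((y ^ (q ^ 2 - 1) : B0) : F) := by
      push_cast
      rw [← hhy, hw]; ring
    have hy' : y ^ (q ^ 2 - 1) ∉ 𝔪 := fun h => hy (h𝔪.isPrime.mem_of_pow_mem _ h)
    rcases hS.meet0 𝔪 h𝔪 hϖ with huniq | ⟨𝔫, h𝔫⟩
    · exact hS.c0.lift_single hS.R_closed0 hS.inc0 h𝔪 hm hg0' hg' hi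
        (fun j hj => huniq j i hj hi) hy' hhy'
    · obtain ⟨ev, hev, hevc⟩ := hS.exists_ev h𝔪 hϖ h𝔫
      have hhB : h ^ m * v ∈ B0 := hhy ▸ y.2
      have hhO : ∀ i, h ∈ (C i).O := fun i => hS.c0.mem_O_of_pow (hvr i) hm hhB
      have hγm : ∀ i, (g i * (C i).r h) ^ m = (C i).r (y : F) := by
        intro i
        rw [← hhy, Res.r_mul (pow_mem (hhO i) m) (Res.mem_of_r_ne_zero (hvr i)),
          Res.r_pow (hhO i), hg, mul_pow, mul_comm]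
      have hγR : ∀ i, g i * (C i).r h ∈ R0 := fun i =>
        hS.R_closed0 _ m hm (by rw [hγm]; exact hS.c0.mem_R i _ y.2)
      let γ : Fin 3 → R0 := fun i => ⟨_, hγR i⟩
      have hevγ : ∀ i, ev (γ i) ≠ 0 := by
        intro i h0
        apply hy
        rw [h𝔫 i, ← hev]
        have : hS.c0.rho i y = γ i ^ m := by
          apply Subtype.ext
          rw [hS.c0.rho_apply]
          push_cast
          exact (hγm i).symm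
        rw [this, map_pow, h0, zero_pow hm.ne']
      have hrel := hμ 𝔪 h𝔪 hϖ 𝔫 h𝔫 ev hev hevc h hhB γ (fun i => rfl) hevγ
      obtain ⟨a, ha⟩ := hS.π_surj (ev (γ 2) ^ (q ^ 2 - 1))
      have hcR : ∀ c : κ, algebraMap κ 𝓕 c ∈ R0 := by
        intro c
        obtain ⟨a, rfl⟩ := hS.π_surj c
        rw [← hS.r_alg 0]
        exact hS.c0.mem_R 0 _ (hS.A_mem0 a)
      have hevκ : ∀ c : κ, ev ⟨_, hcR c⟩ = c := by
        intro c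
        obtain ⟨a, rfl⟩ := hS.π_surj c
        exact hevc a _
      have hra : ∀ i, hS.c0.rho i ⟨algebraMap A₀ F a, hS.A_mem0 a⟩ =
          ⟨algebraMap κ 𝓕 (π a), hcR _⟩ := fun i => Subtype.ext (hS.r_alg i a)
      refine hS.c0.lift_local hS.inc0 h𝔪 hm hg0' hg' hhy' ⟨algebraMap A₀ F a, hS.A_mem0 a⟩ ?_ ?_
      · rw [h𝔫 0, ← hev, hra, hevκ, ha]
        exact pow_ne_zero _ (hevγ 2)
      · intro j _
        let z : R0 := ⟨_, hcR (μ j)⟩ * γ j ^ (q ^ 2 - 1) - ⟨algebraMap κ 𝓕 (π a), hcR _⟩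
        have hz : ev z = 0 := by
          simp only [z]
          rw [map_sub, map_mul, map_pow, hevκ, hevκ, hrel j, ha, sub_self]
        obtain ⟨n, hn⟩ := hS.c0.rho_surjective j z
        refine ⟨n, ?_, ?_⟩
        · rw [h𝔫 j, hn, ← hev, hz]
        · have e1 : (C j).r (n : F) = algebraMap κ 𝓕 (μ j) * (g j * (C j).r h) ^ (q ^ 2 - 1) -
              algebraMap κ 𝓕 (π a) := by
            rw [← hS.c0.rho_apply, hn]; rfl
          have e2 : (C j).r (algebraMap A₀ F a) = algebraMap κ 𝓕 (π a) := hS.r_alg j a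
          change g' j * (C j).r (h ^ (q ^ 2 - 1)) = (C j).r (algebraMap A₀ F a) + (C j).r (n : F)
          rw [e1, e2, Res.r_pow (hhO j)]
          change algebraMap κ 𝓕 (μ j) * g j ^ (q ^ 2 - 1) * (C j).r h ^ (q ^ 2 - 1) = _
          rw [mul_pow]; ring
  -- local lifting in the second chart
  have hL1 : ∀ 𝔪 : Ideal B1, 𝔪.IsMaximal →
      (⟨algebraMap A₀ F ϖ₀, hS.c1.ϖ_mem⟩ : B1) ∈ 𝔪 →
      ∃ N : ℕ, ∃ b ∉ 𝔪, ∃ h' : F, h' ^ m * w ^ q ^ N ∈ B1 ∧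
        ∀ i, (C i).r h' * g' i ^ q ^ N = (C i).r ((b : B1) : F) := by
    intro 𝔪 h𝔪 hϖ
    by_cases ht : (⟨t⁻¹, hS.t_mem'⟩ : B1) ∈ 𝔪
    · obtain ⟨i, x, hi, hx⟩ := hS.gen1 𝔪 h𝔪 hϖ ht
      obtain ⟨h, hh0, y, hy, hhy⟩ := hloc hS.c1 hS.A_mem1 h𝔪 hϖ hi hx
      have hhy' : (h ^ (q ^ 2 - 1)) ^ m * w = ((y ^ (q ^ 2 - 1) : B1) : F) := by
        push_cast
        rw [← hhy, hw]; ring
      have hy' : y ^ (q ^ 2 - 1) ∉ 𝔪 := fun h => hy (h𝔪.isPrime.mem_of_pow_mem _ h)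
      exact hS.c1.lift_single hS.R_closed1 hS.inc1 h𝔪 hm hg0' hg' hi
        (fun j hj => hS.meet1 𝔪 h𝔪 hϖ ht j i hj hi) hy' hhy'
    · obtain ⟨𝔪₀, h𝔪₀, hϖ₀, htr⟩ := hS.transfer h𝔪 hϖ ht
      obtain ⟨N, b, hb, h', hh', hr⟩ := hL0 𝔪₀ h𝔪₀ hϖ₀
      obtain ⟨n₁, hn₁⟩ := hS.ov0 _ b.2
      obtain ⟨n₂, hn₂⟩ := hS.ov0 _ hh'
      set n := n₁ + n₂ with hn
      have hbB1 : t⁻¹ ^ n * (b : F) ∈ B1 := by
        have : t⁻¹ ^ n * (b : F) = t⁻¹ ^ n₂ * (t⁻¹ ^ n₁ * (b : F)) := by rw [hn, pow_add]; ring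
        rw [this]; exact B1.mul_mem (B1.pow_mem hS.t_mem' _) hn₁
      refine ⟨N, ⟨_, hbB1⟩, fun h => hb (htr b n hbB1 h), t⁻¹ ^ n * h', ?_, fun i => ?_⟩
      · obtain ⟨l, rfl⟩ := Nat.exists_eq_succ_of_ne_zero hm.ne'
        have : (t⁻¹ ^ n * h') ^ l.succ * w ^ q ^ N =
            t⁻¹ ^ (n * l + n₁) * (t⁻¹ ^ n₂ * (h' ^ l.succ * w ^ q ^ N)) := by
          rw [mul_pow, ← pow_mul, Nat.mul_succ, pow_add, pow_add, hn, pow_add]; ring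
        rw [this]
        exact B1.mul_mem (B1.pow_mem hS.t_mem' _) hn₂
      · have hwrN : (C i).r (w ^ q ^ N) ≠ 0 := Res.r_pow_ne_zero (hwr i) _
        have h'O : h' ∈ (C i).O := hS.c0.mem_O_of_pow hwrN hm hh'
        have htO := pow_mem (hS.c1.le i _ hS.t_mem') n
        rw [Res.r_mul htO h'O, mul_assoc, hr, ← Res.r_mul htO (hS.c0.le i _ b.2)]
  obtain ⟨N₀, hN₀⟩ := hS.c0.lift_global (q := q) hm hg0' hg' hL0
  obtain ⟨N₁, hN₁⟩ := hS.c1.lift_global (q := q) hm hg0' hg' hL1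
  obtain ⟨h₀, hh₀, hr₀⟩ := hN₀ (max N₀ N₁) (le_max_left _ _)
  obtain ⟨h₁, hh₁, hr₁⟩ := hN₁ (max N₀ N₁) (le_max_right _ _)
  set Q := q ^ max N₀ N₁ with hQ
  have hgQ : ∀ i, g' i ^ Q ≠ 0 := fun i => pow_ne_zero _ (hg0' i)
  obtain ⟨x, hx0, c, hc⟩ := hS.toTwoCharts.kl hm hmu (U := w ^ Q)
    (fun i => Res.r_pow_ne_zero (hwr i) _) hh₀ hh₁ (fun i => by
      rw [Res.r_pow (Res.mem_of_r_ne_zero (hwr i)), hg', ← pow_mul, mul_comm m, pow_mul,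
        ← mul_pow, hr₀, one_pow]) (fun i => by
      apply mul_right_cancel₀ (hgQ i)
      rw [hr₀, hr₁])
  -- conclusion
  have hw0 : w ≠ 0 := Res.ne_zero_of_r (hwr 0)
  have hc0 : c ≠ 0 := by
    rintro rfl
    rw [map_zero] at hc
    exact mul_ne_zero (pow_ne_zero _ hx0) (pow_ne_zero _ hw0) hc
  have hwuv : w = u ^ ((q - 1) * (q ^ 2 - 1)) := by rw [hw, hv, ← pow_mul]
  rw [← hwuv]
  have hcop : Nat.Coprime Q m := Nat.Coprime.pow_left _ hqm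
  have h1 := Nat.gcd_eq_gcd_ab Q m
  rw [Nat.Coprime.gcd_eq_one hcop] at h1
  have h1' : (Q : ℤ) * Nat.gcdA Q m + m * Nat.gcdB Q m = 1 := by rw [← h1]; rfl
  refine ⟨c ^ Nat.gcdA Q m, zpow_ne_zero _ hc0, (x⁻¹) ^ Nat.gcdA Q m * w ^ Nat.gcdB Q m, ?_⟩
  have hwQ : w ^ Q = algebraMap K₀ F c * (x⁻¹) ^ m := by
    rw [← hc, inv_pow]
    have := pow_ne_zero m hx0
    field_simp
  calc w = w ^ ((Q : ℤ) * Nat.gcdA Q m + m * Nat.gcdB Q m) := by rw [h1', zpow_one]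
    _ = (w ^ Q) ^ Nat.gcdA Q m * (w ^ Nat.gcdB Q m) ^ m := by
      rw [zpow_add₀ hw0, zpow_mul, zpow_natCast, mul_comm (m : ℤ), zpow_mul, zpow_natCast]
    _ = _ := by
      rw [hwQ, mul_zpow, map_zpow₀, mul_pow, ← zpow_natCast ((x⁻¹) ^ Nat.gcdA Q m), ← zpow_mul,
        mul_comm _ (m : ℤ), zpow_mul, zpow_natCast]
      ring

end Setup

end Fermat.Agent.Carayol
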