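import Fermat.Agent.Carayol.Norm2
import Fermat.Agent.Carayol.Main

/-!
# The two norm maps and the setup
-/

set_option autoImplicit false
set_option linter.unusedSectionVars false
set_option linter.style.haveILetI false

noncomputable section

namespace Fermat.Agent.Carayol

open ModularCurve Fermat.Agent.GoodRed Fermat.Agent.ModFun Fermat.Agent.GenusX0
open Fermat.Agent.Models IsLocalRing Polynomial IntermediateField Fermat.Agent.SSMod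
open AlgebraicCurve Fermat.Agent.Curves

/-- integrality of the norm -/
theorem norm_icr {k E F : Type*} [Field k] [Field E] [Field F] [Algebra k E] [Algebra k F]
    (f : E →+* F) (hfk : ∀ c, f (algebraMap k E c) = algebraMap k F c) {t : E} {x : F}
    (hx : x ∈ icr k (f t)) : normAlong f x ∈ icr k t := by
  letI := f.toAlgebra
  letI : Algebra k[X] F := pAlg k (f t)
  letI : Algebra k[X] E := pAlg k t
  haveI : IsScalarTower k[X] E F := IsScalarTower.of_algebraMap_eq fun p => by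
    change aeval (f t) p = f (aeval t p)
    rw [aeval_def, aeval_def, hom_eval₂]
    congr 1
    ext c
    exact (hfk c).symm
  rw [mem_icr'] at hx ⊢
  exact Algebra.isIntegral_norm E hx

namespace Sit

variable {k₀ K κ : Type} [Field k₀] [Field K] [Field κ] [Algebra k₀ K] {q M' : ℕ}
  [NeZero q] [NeZero M'] (S : Sit k₀ K κ q M')

theorem norm_inc_icr {t : FF k₀ (q * M')} {x : FF k₀ (q ^ 2 * M')}
    (hx : x ∈ icr k₀ (inc k₀ h_inc t)) : normAlong (inc k₀ h_inc) x ∈ icr k₀ t :=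
  norm_icr (k := k₀) (inc k₀ h_inc) (fun c => inc_const h_inc c) hx

theorem inc_icr_aux {t : FF k₀ (q * M')} {j x : S.F} (h1 : inc k₀ h_inc t = j)
    (hx : x ∈ icr k₀ j) : S.NmA x ∈ icr k₀ j := by
  subst h1
  have h2 := norm_inc_icr hx
  have h3 := icr_map (R' := k₀) (RingHom.id k₀) (inc k₀ (h_inc (q := q) (M' := M')))
    (fun a => inc_const _ a) h2
  rw [NmA_apply]
  exact h3

theorem NmA_icr {x : S.F} (hx : x ∈ icr k₀ S.j1) : S.NmA x ∈ icr k₀ S.j1 :=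
  S.inc_icr_aux (inc_jel (one_dvd (q * M')) h_inc) hx

theorem w_icr' {x : S.F} (hx : x ∈ icr k₀ S.j1) : S.w x ∈ icr k₀ S.j1 := by
  have h := S.w_icr hx
  rw [w_j1] at h
  exact icr_le S.j2_int h

section Gal

variable {S} (hG : S.HasGal)

include hG in
theorem C1_w {x : S.F} (hx : x ∈ (S.C 1).O) : S.w x ∈ (S.C 1).O ∧
    (S.C 1).r (S.w x) = (S.C 1).r x := by
  have h1 := C_spec (mem_C.1 hx)
  have h2 := R1_w hG h1
  exact ⟨mem_C.2 ⟨_, h2⟩, C_r h2⟩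

theorem C0_w {x : S.F} (hx : x ∈ (S.C 0).O) : S.w x ∈ (S.C 2).O ∧
    (S.C 2).r (S.w x) = (S.C 0).r x := by
  have h1 : S.w x ∈ (S.C 2).O := by rw [C_w, w_w]; exact hx
  refine ⟨h1, ?_⟩
  rw [C_r_w, w_w]

theorem C2_w {x : S.F} (hx : x ∈ (S.C 2).O) : S.w x ∈ (S.C 0).O ∧
    (S.C 0).r (S.w x) = (S.C 2).r x := ⟨C_w.1 hx, C_r_w.symm⟩

include hG in
theorem w_memC {x : S.F} (hx : ∀ i, x ∈ (S.C i).O) (i : Fin 3) : S.w x ∈ (S.C i).O := by
  fin_cases i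
  · exact (C2_w (hx 2)).1
  · exact (C1_w hG (hx 1)).1
  · exact (C0_w (hx 0)).1

include hG in
theorem w_B0 {x : S.F} (hx : x ∈ S.B0) : S.w x ∈ S.B0 :=
  S.mem_B0.2 ⟨S.w_icr' (S.mem_B0.1 hx).1, w_memC hG (S.mem_B0.1 hx).2⟩

include hG in
theorem NmA_r0 {x : S.F} (h₀ : x ∈ (S.C 0).O) (h₁ : x ∈ (S.C 1).O) : S.NmA x ∈ (S.C 0).O ∧
    (S.C 0).r (S.NmA x) = (S.C 0).r x * (S.C 1).r x ^ (q - 1) := by
  have h := S.R0_NmA hG (C_spec (mem_C.1 h₀)) (C_spec (mem_C.1 h₁))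
  exact ⟨mem_C.2 ⟨_, h⟩, C_r (z := (S.C 0).r x * (S.C 1).r x ^ (q - 1)) h⟩

theorem NmA_r2 {x : S.F} (h : x ∈ (S.C 2).O) : S.NmA x ∈ (S.C 2).O ∧
    (S.C 2).r (S.NmA x) = (S.C 2).r x ^ q := by
  have h := S.R2_NmA (C_spec (mem_C.1 h))
  exact ⟨mem_C.2 ⟨_, h⟩, C_r (z := (S.C 2).r x ^ q) h⟩

include hG in
theorem NmA_B0 {x : S.F} (hx : x ∈ S.B0) : S.NmA x ∈ S.B0 := by
  have hx' := S.mem_B0.1 hx
  refine S.mem_B0.2 ⟨S.NmA_icr hx'.1, fun i => ?_⟩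
  have h0 := (NmA_r0 hG (hx'.2 0) (hx'.2 1)).1
  fin_cases i
  · exact h0
  · obtain ⟨z, hz⟩ := mem_C.1 h0
    exact mem_C.2 ⟨z, R1_NmA S hz⟩
  · exact (NmA_r2 (hx'.2 2)).1

include hG in
theorem isNormA : Setup.IsNorm S.C S.B0 q S.NmA 0 2 where
  mem _ hx := NmA_B0 hG hx
  memO _ h0 h1 h2 := ⟨(NmA_r0 hG h0 h1).1, (NmA_r2 h2).1⟩
  r_a _ h0 h1 := (NmA_r0 hG h0 h1).2
  r_b _ h2 := (NmA_r2 h2).2

include hG in
theorem isNormB : Setup.IsNorm S.C S.B0 q S.NmB 2 0 where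
  mem _ hx := w_B0 hG (NmA_B0 hG (w_B0 hG hx))
  memO x h2 h1 h0 := by
    have a0 := C2_w h2
    have a1 := C1_w hG h1
    have a2 := C0_w h0
    exact ⟨(C0_w (NmA_r0 hG a0.1 a1.1).1).1, (C2_w (NmA_r2 a2.1).1).1⟩
  r_a x h2 h1 := by
    have a0 := C2_w h2
    have a1 := C1_w hG h1
    have b := NmA_r0 hG a0.1 a1.1
    rw [NmB_apply, (C0_w b.1).2, b.2, a0.2, a1.2]
  r_b x h0 := by
    have a2 := C0_w h0
    have b := NmA_r2 a2.1
    rw [NmB_apply, (C2_w b.1).2, b.2, a2.2]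

end Gal

/-- **the setup** -/
theorem setup (hpar : S.HasParam) :
    Setup k₀ κ S.C S.B0 S.B1 S.R0 S.R1 S.j1 ((q : ℕ) : S.A₀) S.π₀ where
  toTwoCharts := S.two
  π_surj := S.π₀s
  r_alg i a := S.C_r_const i a
  inc0 := S.inc0
  inc1 := S.inc1
  R_closed0 _ _ hn h := icr_root hn h
  R_closed1 _ _ hn h := icr_root hn h
  res0 := S.res0
  res1 := S.res1
  gen0 := S.gen0 hpar
  gen1 := S.gen1
  meet0 _ h𝔪 _ := S.meet0 h𝔪
  meet1 𝔪 h𝔪 _ ht := S.meet1 𝔪 h𝔪 ht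

end Sit

end Fermat.Agent.Carayol
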