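import Fermat.Agent.Carayol.Cusps
import Fermat.Agent.GoodRed.Inst

/-!
# The two charts
-/

set_option autoImplicit false
set_option linter.unusedSectionVars false
set_option linter.style.haveILetI false

noncomputable section

namespace Fermat.Agent.Carayol

open ModularCurve Fermat.Agent.GoodRed Fermat.Agent.ModFun Fermat.Agent.GenusX0
open Fermat.Agent.Models IsLocalRing Polynomial IntermediateField Fermat.Agent.SSMod

theorem fin_of_finrank {k F : Type*} [Field k] [Field F] [Algebra k F] (E : IntermediateField k F)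
    (h : 0 < Module.finrank E F) : FiniteDimensional E F := Module.finite_of_finrank_pos h

theorem sep_of_char0 {k F : Type*} [Field k] [Field F] [Algebra k F] [CharZero k]
    (E : IntermediateField k F) (h : FiniteDimensional E F) : Algebra.IsSeparable E F := by
  haveI : CharZero E := charZero_of_injective_algebraMap (algebraMap k E).injective
  infer_instance

theorem tower_A {k F : Type*} [Field k] [Field F] [Algebra k F] (A : ValuationSubring k) :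
    IsScalarTower A k F := IsScalarTower.of_algebraMap_eq fun _ => rfl

namespace Sit

variable {k₀ K κ : Type} [Field k₀] [Field K] [Field κ] [Algebra k₀ K] {q M' : ℕ}
  [NeZero q] [NeZero M'] (S : Sit k₀ K κ q M')

theorem const_C (i : Fin 3) (a : S.A₀) : algebraMap S.A₀ S.F a ∈ (S.C i).O := by
  rw [mem_C]
  exact const_mem_O (P := S.P i) a.2

theorem C_r_const (i : Fin 3) (a : S.A₀) :
    (S.C i).r (algebraMap S.A₀ S.F a) = algebraMap κ S.𝓕 (S.π₀ a) :=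
  C_r ((S.P i).const a)

/-- the first chart -/
abbrev B0 : Subring S.F := icr S.A₀ S.j1
/-- the second chart -/
abbrev B1 : Subring S.F := icr S.A₀ S.j1⁻¹

/-- `j` on the components -/
abbrev jR (_ : Sit k₀ K κ q M') : FF κ M' := je κ M'

/-- the first chart of the components -/
abbrev R0 : Subring S.𝓕 := icr κ S.jR
/-- the second chart of the components -/
abbrev R1 : Subring S.𝓕 := icr κ S.jR⁻¹

theorem coe_jR : (S.jR : LaurentSeries κ) = S.jb := rfl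

theorem C_r_j1_0 : (S.C 0).r S.j1 = S.jR := C_r S.R0_j1
theorem C_r_j1_1 : (S.C 1).r S.j1 = S.jR := C_r S.R1_j1
theorem C_r_j1_2 : (S.C 2).r S.j1 = S.jR ^ q ^ 2 := C_r S.R2_j1

theorem j1_memC (i : Fin 3) : S.j1 ∈ (S.C i).O := mem_C.2 (S.j1_mem i)
theorem j2_memC (i : Fin 3) : S.j2 ∈ (S.C i).O := mem_C.2 (S.j2_mem i)
theorem jq_memC (i : Fin 3) : S.jq' ∈ (S.C i).O := mem_C.2 (S.jq_mem i)

theorem jR_ne : S.jR ≠ 0 := by
  intro h
  have h1 := S.tr_jb
  rw [← coe_jR, h] at h1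
  exact h1 (by rw [ZeroMemClass.coe_zero]; exact isAlgebraic_zero)

theorem r_j1_ne (i : Fin 3) : (S.C i).r S.j1 ≠ 0 := by
  fin_cases i
  · change (S.C 0).r S.j1 ≠ 0
    rw [C_r_j1_0]; exact S.jR_ne
  · change (S.C 1).r S.j1 ≠ 0
    rw [C_r_j1_1]; exact S.jR_ne
  · change (S.C 2).r S.j1 ≠ 0
    rw [C_r_j1_2]; exact pow_ne_zero _ S.jR_ne

theorem j1i_memC (i : Fin 3) : S.j1⁻¹ ∈ (S.C i).O := Res.inv_mem_of_r (S.r_j1_ne i)

theorem mem_B0 {x : S.F} : x ∈ S.B0 ↔ x ∈ icr k₀ S.j1 ∧ ∀ i, x ∈ (S.C i).O := by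
  constructor
  · intro h
    exact ⟨icr_map (algebraMap S.A₀ k₀) (RingHom.id S.F) (fun _ => rfl) h,
      fun i => icr_le_val (S.const_C i) (S.j1_memC i) h⟩
  · rintro ⟨h1, h2⟩
    exact mem_icr'.2 (isIntegral_of_mem0 h2 (mem_icr'.1 h1))

theorem mem_B1 {x : S.F} : x ∈ S.B1 ↔ x ∈ icr k₀ S.j1⁻¹ ∧ ∀ i, x ∈ (S.C i).O := by
  constructor
  · intro h
    exact ⟨icr_map (algebraMap S.A₀ k₀) (RingHom.id S.F) (fun _ => rfl) h,
      fun i => icr_le_val (S.const_C i) (S.j1i_memC i) h⟩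
  · rintro ⟨h1, h2⟩
    exact mem_icr'.2 (isIntegral_of_mem1 h2 (mem_icr'.1 h1))

theorem tr_jR : Transcendental κ S.jR := by
  intro h
  apply S.tr_jb
  rw [← coe_jR]
  exact h.algHom (FF κ M').val

theorem icr_pow {k F : Type*} [Field k] [Field F] [Algebra k F] {t : F} {n : ℕ} (hn : 0 < n) :
    icr k (t ^ n) = icr k t := by
  apply le_antisymm
  · exact fun x hx => icr_le (pow_mem (self_mem_icr t) n) hx
  · exact fun x hx => icr_le (icr_root hn (self_mem_icr (t ^ n))) hx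

theorem mem_R0 (i : Fin 3) {x : S.F} (hx : x ∈ S.B0) : (S.C i).r x ∈ S.R0 := by
  have h := icr_res (C := S.C i) (π := S.π₀) (S.const_C i) (S.C_r_const i) (S.j1_memC i) hx
  fin_cases i
  · change (S.C 0).r x ∈ icr κ ((S.C 0).r S.j1) at h
    rwa [C_r_j1_0] at h
  · change (S.C 1).r x ∈ icr κ ((S.C 1).r S.j1) at h
    rwa [C_r_j1_1] at h
  · change (S.C 2).r x ∈ icr κ ((S.C 2).r S.j1) at h
    rwa [C_r_j1_2, icr_pow (pow_pos S.hq.pos 2)] at h

theorem mem_R1 (i : Fin 3) {x : S.F} (hx : x ∈ S.B1) : (S.C i).r x ∈ S.R1 := by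
  have h := icr_res (C := S.C i) (π := S.π₀) (S.const_C i) (S.C_r_const i) (S.j1i_memC i) hx
  rw [Res.r_inv (S.r_j1_ne i)] at h
  fin_cases i
  · change (S.C 0).r x ∈ icr κ ((S.C 0).r S.j1)⁻¹ at h
    rwa [C_r_j1_0] at h
  · change (S.C 1).r x ∈ icr κ ((S.C 1).r S.j1)⁻¹ at h
    rwa [C_r_j1_1] at h
  · change (S.C 2).r x ∈ icr κ ((S.C 2).r S.j1)⁻¹ at h
    rwa [C_r_j1_2, ← inv_pow, icr_pow (pow_pos S.hq.pos 2)] at h

theorem inM_je : S.inM (je k₀ M') = S.j1 := by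
  apply Subtype.ext
  rw [coe_inc, coe_jel, qExpand_one_apply]
  rfl

theorem exM_je : S.exM (je k₀ M') = S.j2 := by
  apply Subtype.ext
  rw [coe_exN, coe_jel]
  rfl

theorem inM_const (c : k₀) : S.inM (algebraMap k₀ _ c) = algebraMap k₀ _ c := inc_const _ c
theorem exM_const (c : k₀) : S.exM (algebraMap k₀ _ c) = algebraMap k₀ _ c := exN_const _ _ c

theorem inM_icr {f : FF k₀ M'} (h : f ∈ icr k₀ (je k₀ M')) : S.inM f ∈ icr k₀ S.j1 := by
  have := icr_map (RingHom.id k₀) S.inM (fun a => S.inM_const a) h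
  rwa [inM_je] at this

theorem inM_icr' {f : FF k₀ M'} (h : f ∈ icr k₀ (je k₀ M')⁻¹) : S.inM f ∈ icr k₀ S.j1⁻¹ := by
  have := icr_map (RingHom.id k₀) S.inM (fun a => S.inM_const a) h
  rwa [map_inv₀, inM_je] at this

theorem exM_icr2 {f : FF k₀ M'} (h : f ∈ icr k₀ (je k₀ M')) : S.exM f ∈ icr k₀ S.j2 := by
  have := icr_map (RingHom.id k₀) S.exM (fun a => S.exM_const a) h
  rwa [exM_je] at this

theorem exM_icr2' {f : FF k₀ M'} (h : f ∈ icr k₀ (je k₀ M')⁻¹) : S.exM f ∈ icr k₀ S.j2⁻¹ := by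
  have := icr_map (RingHom.id k₀) S.exM (fun a => S.exM_const a) h
  rwa [map_inv₀, exM_je] at this

theorem exM_icr {f : FF k₀ M'} (h : f ∈ icr k₀ (je k₀ M')) : S.exM f ∈ icr k₀ S.j1 :=
  icr_le S.j2_int (S.exM_icr2 h)

variable {S} in
theorem inM_B0 {f : FF k₀ M'} (h : f ∈ icr k₀ (je k₀ M')) {y : LaurentSeries κ} (hy : S.RM f y) :
    S.inM f ∈ S.B0 := S.mem_B0.2 ⟨S.inM_icr h, fun i => mem_C.2 (S.in_mem hy i)⟩

variable {S} in
theorem exM_B0 {f : FF k₀ M'} (h : f ∈ icr k₀ (je k₀ M')) {y : LaurentSeries κ} (hy : S.RM f y) :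
    S.exM f ∈ S.B0 := S.mem_B0.2 ⟨S.exM_icr h, fun i => mem_C.2 (S.ex_mem hy i)⟩

theorem surj0 (i : Fin 3) (y : S.𝓕) (hy : y ∈ S.R0) : ∃ x ∈ S.B0, (S.C i).r x = y := by
  obtain ⟨f, hf, hfy⟩ := S.lift0 y hy
  fin_cases i
  · exact ⟨_, inM_B0 hf hfy, C_r (R0_in hfy)⟩
  · exact ⟨_, inM_B0 hf hfy, C_r (R1_in hfy)⟩
  · exact ⟨_, exM_B0 hf hfy, C_r (R2_ex hfy)⟩

include S in
theorem charZero₀ : CharZero k₀ :=
  ⟨fun m n h => by
    have := congrArg (S.ι.comp (algebraMap k₀ K)) h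
    rw [map_natCast, map_natCast] at this
    exact_mod_cast this⟩

theorem finF : FiniteDimensional k₀⟮S.j1⟯ S.F := by
  apply fin_of_finrank
  rw [finrank_F]
  exact Nat.mul_pos (Nat.add_pos_right _ S.hq.pos)
    (Nat.pos_of_ne_zero (dedekindPsi_pos (NeZero.ne M')))

theorem sepF : Algebra.IsSeparable k₀⟮S.j1⟯ S.F := by
  haveI := S.charZero₀
  exact sep_of_char0 _ S.finF

theorem finF' : FiniteDimensional k₀⟮S.j1⁻¹⟯ S.F := by
  rw [S.adjoin_inv]; exact S.finF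

theorem sepF' : Algebra.IsSeparable k₀⟮S.j1⁻¹⟯ S.F := by
  rw [S.adjoin_inv]; exact S.sepF

theorem fin𝓕 : FiniteDimensional κ⟮S.jR⟯ S.𝓕 := by
  haveI : IsAlgClosed κ := S.acκ
  apply fin_of_finrank
  refine lt_of_lt_of_eq ?_ (Curves.finrank_fullC κ M' S.M_ne).symm
  exact Nat.pos_of_ne_zero (dedekindPsi_pos (NeZero.ne M'))

theorem sep𝓕 : Algebra.IsSeparable κ⟮S.jR⟯ S.𝓕 := by
  haveI : IsAlgClosed κ := S.acκ
  exact isSeparable_of_theta M' S.M_ne S.tr_jR (thetaFun_ne_zero_of_coeff (by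
    rw [coe_jR, jb, ModularCurve.coeff_jqModC_neg_one]; exact one_ne_zero))

theorem nil_aux {x : S.F} (hx : ∀ i, x ∈ (S.C i).O) (h : ∀ i, (S.C i).r x = 0) (i : Fin 3) :
    x ^ (q - 1) * (algebraMap k₀ S.F S.ϖ)⁻¹ ∈ (S.C i).O := by
  have h1 := C_div (hx i) (h i)
  have hq2 := S.hq.two_le
  fin_cases i
  · change (algebraMap k₀ S.F S.ϖ)⁻¹ * x ∈ (S.C 0).O at h1
    obtain ⟨n, hn⟩ : ∃ n, q - 1 = n + 1 := ⟨q - 2, by omega⟩
    rw [hn, pow_succ, mul_assoc, mul_comm x]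
    exact mul_mem (pow_mem (hx 0) n) h1
  · change (S.e01)⁻¹ * x ∈ (S.C 1).O at h1
    have h2 : x ^ (q - 1) * (algebraMap k₀ S.F S.ϖ)⁻¹ =
        ((algebraMap k₀ S.F S.ϖ)⁻¹ * S.e01 ^ (q - 1)) * (S.e01⁻¹ * x) ^ (q - 1) := by
      have := S.e01_ne
      rw [mul_pow, inv_pow]
      have h3 := pow_ne_zero (q - 1) this
      field_simp
    rw [h2]
    exact mul_mem (mem_C.2 S.far1) (pow_mem h1 _)
  · change (algebraMap k₀ S.F S.ϖ)⁻¹ * x ∈ (S.C 2).O at h1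
    obtain ⟨n, hn⟩ : ∃ n, q - 1 = n + 1 := ⟨q - 2, by omega⟩
    rw [hn, pow_succ, mul_assoc, mul_comm x]
    exact mul_mem (pow_mem (hx 2) n) h1

theorem ϖ_inv_icr (t : S.F) : (algebraMap k₀ S.F S.ϖ)⁻¹ ∈ icr k₀ t := by
  rw [← map_inv₀]; exact const_mem_icr _ _

theorem algebraMap_ϖ : algebraMap S.A₀ S.F ((q : ℕ) : S.A₀) = algebraMap k₀ S.F S.ϖ := by
  rw [map_natCast, map_natCast]

theorem B0_le_icr {x : S.F} (hx : x ∈ S.B0) : x ∈ icr k₀ S.j1 := (S.mem_B0.1 hx).1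
theorem B1_le_icr {x : S.F} (hx : x ∈ S.B1) : x ∈ icr k₀ S.j1⁻¹ := (S.mem_B1.1 hx).1

theorem dedR0 : IsDedekindDomain S.R0 := icr_ded S.tr_jR S.fin𝓕 S.sep𝓕

theorem dedR1 : IsDedekindDomain S.R1 := by
  refine icr_ded (k := κ) (t := S.jR⁻¹) ?_ ?_ ?_
  · intro h
    apply S.tr_jR
    have := h.inv
    rwa [inv_inv] at this
  · have h := S.fin𝓕
    have : κ⟮S.jR⁻¹⟯ = κ⟮S.jR⟯ := by
      apply le_antisymm
      · rw [IntermediateField.adjoin_simple_le_iff]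
        exact inv_mem (IntermediateField.mem_adjoin_simple_self κ _)
      · rw [IntermediateField.adjoin_simple_le_iff]
        have := inv_mem (IntermediateField.mem_adjoin_simple_self κ S.jR⁻¹)
        rwa [inv_inv] at this
    rw [this]; exact h
  · have h := S.sep𝓕
    have : κ⟮S.jR⁻¹⟯ = κ⟮S.jR⟯ := by
      apply le_antisymm
      · rw [IntermediateField.adjoin_simple_le_iff]
        exact inv_mem (IntermediateField.mem_adjoin_simple_self κ _)
      · rw [IntermediateField.adjoin_simple_le_iff]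
        have := inv_mem (IntermediateField.mem_adjoin_simple_self κ S.jR⁻¹)
        rwa [inv_inv] at this
    rw [this]; exact h

/-- **the first chart** -/
theorem chart0 : Chart S.B0 S.C S.R0 (algebraMap S.A₀ S.F ((q : ℕ) : S.A₀)) where
  noeth := by
    haveI := tower_A (F := S.F) S.A₀
    exact icr_noeth (k := k₀) S.tr_j1 S.finF S.sepF
  ded := S.dedR0
  closed x n hn h := icr_root hn h
  frac x := by
    haveI := tower_A (F := S.F) S.A₀
    exact icr_frac (k := k₀) S.tr_j1 S.finF x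
  le i x hx := (S.mem_B0.1 hx).2 i
  mem_R i x hx := S.mem_R0 i hx
  surj := S.surj0
  ϖ_mem := const_mem_icr _ _
  ϖ_ne := by rw [S.algebraMap_ϖ]; exact S.ϖ_ne
  r_ϖ i := by rw [S.algebraMap_ϖ]; exact C_r (S.R_ϖ i)
  nil := by
    refine ⟨q - 1, fun x hx h => ?_⟩
    rw [S.algebraMap_ϖ]
    refine S.mem_B0.2 ⟨?_, fun i => S.nil_aux (S.mem_B0.1 hx).2 h i⟩
    exact mul_mem (pow_mem (S.B0_le_icr hx) _) (S.ϖ_inv_icr _)

end Sit

end Fermat.Agent.Carayol
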