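import Fermat.Agent.Carayol.Cht

/-!
# The second chart
-/

set_option autoImplicit false
set_option linter.unusedSectionVars false
set_option linter.style.haveILetI false

noncomputable section

namespace Fermat.Agent.Carayol

open ModularCurve Fermat.Agent.GoodRed Fermat.Agent.ModFun Fermat.Agent.GenusX0
open Fermat.Agent.Models IsLocalRing Polynomial IntermediateField Fermat.Agent.SSMod
open AlgebraicCurve Fermat.Agent.Curves

namespace Sit

variable {k₀ K κ : Type} [Field k₀] [Field K] [Field κ] [Algebra k₀ K] {q M' : ℕ}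
  [NeZero q] [NeZero M'] (S : Sit k₀ K κ q M')

/-- base change -/
abbrev bK : S.F →+* FF K (q ^ 2 * M') := bc S.cK (q ^ 2 * M')

include S in
theorem isFF : IsFunctionField K (FF K (q ^ 2 * M')) := by
  haveI := S.charZeroK
  haveI : IsAlgClosed K := S.acK
  refine isFunctionField_fullC K (q ^ 2 * M') ?_
  have h3 : q ^ 2 * M' ≠ 0 := mul_ne_zero (pow_ne_zero 2 (NeZero.ne q)) (NeZero.ne M')
  exact_mod_cast h3

theorem icr_of_place {t x : S.F} (h : ∀ v : Place K (FF K (q ^ 2 * M')),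
    S.bK t ∈ v.toValuationSubring → S.bK x ∈ v.toValuationSubring) : x ∈ icr k₀ t := by
  haveI := S.charZeroK
  haveI : IsAlgClosed K := S.acK
  haveI : Algebra.IsIntegral k₀ K := S.intK
  haveI := S.isFF
  exact icr_descend (bc S.cK (q ^ 2 * M')) (bc_const S.cK) (icr_iff_affine.2 h)

theorem mem_place {t x : S.F} (hx : x ∈ icr k₀ t) (v : Place K (FF K (q ^ 2 * M')))
    (ht : S.bK t ∈ v.toValuationSubring) : S.bK x ∈ v.toValuationSubring := by
  have h1 := icr_map (algebraMap k₀ K) (bc S.cK (q ^ 2 * M')) (bc_const S.cK) hx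
  exact icr_le_val (fun a => v.algebraMap_mem' a) ht h1

theorem je_eq : je K (q ^ 2 * M') = jK1 K q M' := by
  apply Subtype.ext
  rw [coe_jel, qExpand_one_apply]
  rfl

theorem bK_j1 : S.bK S.j1 = jK1 K q M' := bc_jel _ _
theorem bK_jq : S.bK S.jq' = jKq K q M' := bc_jel _ _
theorem bK_j2 : S.bK S.j2 = jK2 K q M' := bc_jel _ _

/-- the basic functions on the second chart -/
abbrev s1 : S.F := S.j1⁻¹ ^ q * S.jq'
abbrev s2 : S.F := S.j1⁻¹ ^ q ^ 2 * S.j2

theorem s1_memC (i : Fin 3) : S.s1 ∈ (S.C i).O := mul_mem (pow_mem (S.j1i_memC i) _) (S.jq_memC i)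
theorem s2_memC (i : Fin 3) : S.s2 ∈ (S.C i).O := mul_mem (pow_mem (S.j1i_memC i) _) (S.j2_memC i)

theorem s1_mem : S.s1 ∈ S.B1 := S.mem_B1.2 ⟨S.s1_int, S.s1_memC⟩
theorem s2_mem : S.s2 ∈ S.B1 := S.mem_B1.2 ⟨S.s2_int, S.s2_memC⟩

theorem C_r_jq (i : Fin 3) : (S.C i).r S.jq' = S.jR ^ q := by
  fin_cases i
  · exact C_r S.R0_jq
  · exact C_r S.R1_jq
  · exact C_r S.R2_jq

theorem C_r_j2_0 : (S.C 0).r S.j2 = S.jR ^ q ^ 2 := C_r S.R0_j2
theorem C_r_j2_1 : (S.C 1).r S.j2 = S.jR := C_r S.R1_j2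
theorem C_r_j2_2 : (S.C 2).r S.j2 = S.jR := C_r S.R2_j2

theorem C_r_s1 (i : Fin 3) : (S.C i).r S.s1 = ((S.C i).r S.j1)⁻¹ ^ q * S.jR ^ q := by
  rw [Res.r_mul (pow_mem (S.j1i_memC i) _) (S.jq_memC i), Res.r_pow (S.j1i_memC i),
    Res.r_inv (S.r_j1_ne i), C_r_jq]

theorem C_r_s2 (i : Fin 3) : (S.C i).r S.s2 = ((S.C i).r S.j1)⁻¹ ^ q ^ 2 * (S.C i).r S.j2 := by
  rw [Res.r_mul (pow_mem (S.j1i_memC i) _) (S.j2_memC i), Res.r_pow (S.j1i_memC i),
    Res.r_inv (S.r_j1_ne i)]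

/-- the behaviour at the cusps -/
theorem cusp_reg (n : ℕ) (v : Place K (FF K (q ^ 2 * M'))) (hv : v.ord (S.bK S.j1) < 0) :
    S.bK ((S.s1 - 1) ^ (n * q ^ 4 * (q ^ 2 * M') + 1) * (S.j2 ^ q ^ 2 * S.j1⁻¹) ^ n) ∈
      v.toValuationSubring := by
  haveI := S.charZeroK
  haveI : IsAlgClosed K := S.acK
  haveI := S.isFF
  have hv' : v.ord (je K (q ^ 2 * M')) < 0 := by
    rw [je_eq, ← S.bK_j1]; exact hv
  have hj1i : S.bK S.j1⁻¹ ∈ v.toValuationSubring := by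
    rw [map_inv₀]
    rw [mem_iff_ord v (inv_ne_zero ((_root_.map_ne_zero _).2 S.j1_ne)), v.ord_inv]
    omega
  have hs1 : S.bK (S.s1 - 1) ∈ v.toValuationSubring := by
    rw [map_sub, map_one]
    exact sub_mem (S.mem_place S.s1_int v hj1i) (one_mem _)
  rw [map_mul, map_pow, map_pow]
  rcases cusp_T1 (K := K) (M' := M') S.ι S.hq v hv' with h | h
  · rcases eq_or_ne (S.bK (S.s1 - 1)) 0 with h0 | h0
    · rw [h0, zero_pow (Nat.succ_ne_zero _), zero_mul]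
      exact zero_mem _
    have hj1 : S.bK S.j1 ≠ 0 := (_root_.map_ne_zero _).2 S.j1_ne
    have hj2 : S.bK S.j2 ≠ 0 := (_root_.map_ne_zero _).2 S.j2_ne
    have e1 : S.bK (S.s1 - 1) = jKq K q M' / jK1 K q M' ^ q - 1 := by
      rw [map_sub, map_one, map_mul, map_pow, map_inv₀, bK_j1, bK_jq, inv_pow, div_eq_mul_inv,
        mul_comm (jK1 K q M' ^ q)⁻¹]
    rw [← e1, val_lt_one_iff, or_iff_right h0] at h
    have h2 := neg_ord_je_le v S.ι
    rw [je_eq, ← S.bK_j1] at h2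
    have h3 := S.mem_place S.s2_int v hj1i
    have h4 : S.bK S.s2 ≠ 0 := by
      rw [_root_.map_ne_zero]
      exact mul_ne_zero (pow_ne_zero _ (inv_ne_zero S.j1_ne)) S.j2_ne
    rw [mem_iff_ord v h4, map_mul, map_pow, map_inv₀,
      v.ord_mul (pow_ne_zero _ (inv_ne_zero hj1)) hj2, ord_pow, v.ord_inv] at h3
    have hx0 : S.bK (S.j2 ^ q ^ 2 * S.j1⁻¹) ≠ 0 := by
      rw [_root_.map_ne_zero]
      exact mul_ne_zero (pow_ne_zero _ S.j2_ne) (inv_ne_zero S.j1_ne)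
    rw [mem_iff_ord v (mul_ne_zero (pow_ne_zero _ h0) (pow_ne_zero _ hx0)),
      v.ord_mul (pow_ne_zero _ h0) (pow_ne_zero _ hx0), ord_pow, ord_pow]
    have h5 : v.ord (S.bK (S.j2 ^ q ^ 2 * S.j1⁻¹)) = q ^ 2 * v.ord (S.bK S.j2) -
        v.ord (S.bK S.j1) := by
      rw [map_mul, map_pow, map_inv₀, v.ord_mul (pow_ne_zero _ hj2) (inv_ne_zero hj1), ord_pow,
        v.ord_inv]
      push_cast
      ring
    rw [h5]
    push_cast at h2 h3 ⊢
    set a := v.ord (S.bK (S.s1 - 1))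
    set b := v.ord (S.bK S.j1)
    set c := v.ord (S.bK S.j2)
    have h6 : (q : ℤ) ^ 2 * b ≤ c := by linarith
    have h7 : (0 : ℤ) ≤ (q : ℤ) ^ 2 := by positivity
    have h8 : (q : ℤ) ^ 4 * b ≤ q ^ 2 * c := by
      have := mul_le_mul_of_nonneg_left h6 h7
      nlinarith
    have h9 : (0 : ℤ) ≤ (q : ℤ) ^ 4 := by positivity
    have h10 : -((q : ℤ) ^ 4 * (q ^ 2 * M')) ≤ q ^ 2 * c := by
      have := mul_le_mul_of_nonneg_left h2 h9
      nlinarith
    have h11 : (0 : ℤ) ≤ n := by positivity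
    have h12 : (n : ℤ) * -((q : ℤ) ^ 4 * (q ^ 2 * M')) ≤ n * (q ^ 2 * c - b) :=
      mul_le_mul_of_nonneg_left (by linarith) h11
    have h13 : (0 : ℤ) ≤ n * q ^ 4 * (q ^ 2 * M') + 1 := by positivity
    have h14 : (n : ℤ) * q ^ 4 * (q ^ 2 * M') + 1 ≤ (n * q ^ 4 * (q ^ 2 * M') + 1) * a := by
      nlinarith
    nlinarith
  · refine mul_mem (pow_mem hs1 _) (pow_mem ?_ _)
    have e1 : S.bK (S.j2 ^ q ^ 2 * S.j1⁻¹) = jK2 K q M' ^ q ^ 2 / jK1 K q M' := by
      rw [map_mul, map_pow, map_inv₀, bK_j1, bK_j2, div_eq_mul_inv]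
    rw [e1, mem_iff_ord v]
    · exact h
    · exact div_ne_zero (pow_ne_zero _ (jel_ne_zero _)) (jel_ne_zero _)

/-- places of the second chart -/
theorem place_cases (v : Place K (FF K (q ^ 2 * M'))) (h : S.bK S.j1⁻¹ ∈ v.toValuationSubring) :
    v.ord (S.bK S.j1) < 0 ∨ (S.bK S.j1 ∈ v.toValuationSubring) := by
  rcases lt_or_ge (v.ord (S.bK S.j1)) 0 with h1 | h1
  · exact Or.inl h1
  · exact Or.inr ((mem_iff_ord v ((_root_.map_ne_zero _).2 S.j1_ne)).2 h1)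

theorem j2i_place (v : Place K (FF K (q ^ 2 * M'))) (h : v.ord (S.bK S.j1) < 0) :
    S.bK S.j2⁻¹ ∈ v.toValuationSubring := by
  rcases v.toValuationSubring.mem_or_inv_mem (S.bK S.j2) with h1 | h1
  · exfalso
    have h2 := S.mem_place S.j1_int' v h1
    rw [mem_iff_ord v ((_root_.map_ne_zero _).2 S.j1_ne)] at h2
    omega
  · rwa [map_inv₀]

theorem exM_place {f : FF k₀ M'} (hf : f ∈ icr k₀ (je k₀ M')⁻¹)
    (v : Place K (FF K (q ^ 2 * M'))) (h : v.ord (S.bK S.j1) < 0) :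
    S.bK (S.exM f) ∈ v.toValuationSubring :=
  S.mem_place (S.exM_icr2' hf) v (S.j2i_place v h)

include S in
theorem je_ne₀ : je k₀ M' ≠ 0 := by
  intro h
  have := S.inM_je
  rw [h, map_zero] at this
  exact S.j1_ne this.symm

/-- the surjectivity of the third residue map on the second chart -/
theorem surj1_2 (y : S.𝓕) (hy : y ∈ S.R1) : ∃ x ∈ S.B1, (S.C 2).r x = y := by
  obtain ⟨f, hf, hfy⟩ := S.lift1 y hy
  have hfy' : S.RM f y := hfy
  obtain ⟨n₀, hn₀⟩ := icr_overlap (inv_ne_zero S.je_ne₀) hf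
  rw [inv_inv] at hn₀
  -- make the exponent divisible by `q²`
  set n := n₀ with hn
  have hn1 : je k₀ M' ^ (q ^ 2 * n) * f ∈ icr k₀ (je k₀ M') := by
    have h1 : q ^ 2 * n = (q ^ 2 * n - n) + n := by
      have : n ≤ q ^ 2 * n := Nat.le_mul_of_pos_left _ (pow_pos S.hq.pos 2)
      omega
    rw [h1, pow_add, mul_assoc]
    exact mul_mem (pow_mem (self_mem_icr _) _) hn₀
  have hex : S.j2 ^ (q ^ 2 * n) * S.exM f ∈ icr k₀ S.j2 := by
    have := S.exM_icr2 hn1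
    rwa [map_mul, map_pow, exM_je] at this
  have hexC : ∀ i, S.exM f ∈ (S.C i).O := fun i => mem_C.2 (S.ex_mem hfy' i)
  -- the elements
  set N := n * q ^ 4 * (q ^ 2 * M') + 1 with hN
  set E := q * (q ^ 2 + 1) * n with hE
  set x₁ : S.F := (S.s1 - 1) ^ N * (S.j2 ^ q ^ 2 * S.j1⁻¹) ^ n * S.exM f with hx₁
  set x₂ : S.F := S.s2 ^ (q ^ 2 * n) * S.exM f with hx₂
  have hx₁B : x₁ ∈ S.B1 := by
    refine S.mem_B1.2 ⟨S.icr_of_place fun v hv => ?_, fun i => ?_⟩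
    · rcases S.place_cases v hv with h | h
      · rw [hx₁, map_mul]
        exact mul_mem (S.cusp_reg n v h) (S.exM_place hf v h)
      · have h1 := S.mem_place S.j2_int v h
        have h2 := S.mem_place hex v h1
        have h3 := S.mem_place S.s1_int v hv
        have e : x₁ = (S.s1 - 1) ^ N * S.j1⁻¹ ^ n * (S.j2 ^ (q ^ 2 * n) * S.exM f) := by
          rw [hx₁, mul_pow, ← pow_mul]; ring
        rw [e, map_mul, map_mul, map_pow, map_pow, map_sub, map_one]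
        exact mul_mem (mul_mem (pow_mem (sub_mem h3 (one_mem _)) _) (pow_mem hv _)) h2
    · exact mul_mem (mul_mem (pow_mem (sub_mem (S.s1_memC i) (one_mem _)) _)
        (pow_mem (mul_mem (pow_mem (S.j2_memC i) _) (S.j1i_memC i)) _)) (hexC i)
  have hx₂B : x₂ ∈ S.B1 := by
    refine S.mem_B1.2 ⟨S.icr_of_place fun v hv => ?_, fun i => ?_⟩
    · have h3 := S.mem_place S.s2_int v hv
      rcases S.place_cases v hv with h | h
      · rw [hx₂, map_mul, map_pow]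
        exact mul_mem (pow_mem h3 _) (S.exM_place hf v h)
      · have h1 := S.mem_place S.j2_int v h
        have h2 := S.mem_place hex v h1
        have e : x₂ = (S.j1⁻¹ ^ q ^ 2) ^ (q ^ 2 * n) * (S.j2 ^ (q ^ 2 * n) * S.exM f) := by
          rw [hx₂, mul_pow]; ring
        rw [e, map_mul, map_pow, map_pow]
        exact mul_mem (pow_mem (pow_mem hv _) _) h2
    · exact mul_mem (pow_mem (S.s2_memC i) _) (hexC i)
  have hcop : IsCoprime ((X - 1 : ℤ[X]) ^ N) (X ^ E) := by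
    have : IsCoprime (X - 1 : ℤ[X]) X := ⟨-1, 1, by ring⟩
    exact this.pow
  obtain ⟨a, b, hab⟩ := hcop
  have hs1C : ∀ i, (aeval S.s1 a : S.F) ∈ (S.C i).O ∧ (aeval S.s1 b : S.F) ∈ (S.C i).O := by
    intro i
    have h : ∀ p : ℤ[X], (aeval S.s1 p : S.F) ∈ (S.C i).O := by
      intro p
      rw [aeval_eq_sum_range]
      refine sum_mem fun j _ => ?_
      rw [zsmul_eq_mul]
      exact mul_mem (intCast_mem _ _) (pow_mem (S.s1_memC i) _)
    exact ⟨h a, h b⟩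
  have hs1B : ∀ p : ℤ[X], (aeval S.s1 p : S.F) ∈ S.B1 := by
    intro p
    rw [aeval_eq_sum_range]
    refine sum_mem fun j _ => ?_
    rw [zsmul_eq_mul]
    exact mul_mem (intCast_mem _ _) (pow_mem S.s1_mem _)
  refine ⟨aeval S.s1 a * x₁ + aeval S.s1 b * x₂,
    add_mem (mul_mem (hs1B a) hx₁B) (mul_mem (hs1B b) hx₂B), ?_⟩
  -- the residues
  have hry : (S.C 2).r (S.exM f) = y := C_r (R2_ex hfy')
  have hj1 := S.jR_ne
  have rs1 : (S.C 2).r S.s1 = (S.jR ^ q ^ 2)⁻¹ ^ q * S.jR ^ q := by rw [C_r_s1, C_r_j1_2]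
  have rs2 : (S.C 2).r S.s2 = (S.jR ^ q ^ 2)⁻¹ ^ q ^ 2 * S.jR := by
    rw [C_r_s2, C_r_j1_2, C_r_j2_2]
  have rx₁ : (S.C 2).r x₁ = ((S.C 2).r S.s1 - 1) ^ N * y := by
    rw [hx₁, Res.r_mul (mul_mem (pow_mem (sub_mem (S.s1_memC 2) (one_mem _)) _)
        (pow_mem (mul_mem (pow_mem (S.j2_memC 2) _) (S.j1i_memC 2)) _)) (hexC 2),
      Res.r_mul (pow_mem (sub_mem (S.s1_memC 2) (one_mem _)) _)
        (pow_mem (mul_mem (pow_mem (S.j2_memC 2) _) (S.j1i_memC 2)) _),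
      Res.r_pow (sub_mem (S.s1_memC 2) (one_mem _)), Res.r_sub (S.s1_memC 2) (one_mem _),
      Res.r_one, Res.r_pow (mul_mem (pow_mem (S.j2_memC 2) _) (S.j1i_memC 2)),
      Res.r_mul (pow_mem (S.j2_memC 2) _) (S.j1i_memC 2), Res.r_pow (S.j2_memC 2),
      Res.r_inv (S.r_j1_ne 2), C_r_j1_2, C_r_j2_2, mul_inv_cancel₀ (pow_ne_zero _ hj1), one_pow,
      mul_one, hry]
  have rx₂ : (S.C 2).r x₂ = (S.C 2).r S.s1 ^ E * y := by
    rw [hx₂, Res.r_mul (pow_mem (S.s2_memC 2) _) (hexC 2), Res.r_pow (S.s2_memC 2), hry, rs1, rs2]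
    congr 1
    rw [hE, mul_pow, mul_pow, inv_pow, inv_pow, inv_pow, inv_pow, ← pow_mul, ← pow_mul, ← pow_mul,
      ← pow_mul, ← pow_mul]
    have h1 : q ^ 2 * (q ^ 2 * (q ^ 2 * n)) + q * (q * (q ^ 2 + 1) * n) =
        q ^ 2 * (q * (q * (q ^ 2 + 1) * n)) + q ^ 2 * n := by ring
    have k1 := pow_ne_zero (q ^ 2 * (q ^ 2 * (q ^ 2 * n))) hj1
    have k2 := pow_ne_zero (q ^ 2 * (q * (q * (q ^ 2 + 1) * n))) hj1
    rw [inv_mul_eq_div, inv_mul_eq_div, div_eq_div_iff k1 k2, ← pow_add, ← pow_add]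
    congr 1
    linarith
  have hra : ∀ p : ℤ[X], (S.C 2).r (aeval S.s1 p : S.F) = aeval ((S.C 2).r S.s1) p := by
    intro p
    have hmemp : ∀ p : ℤ[X], (aeval S.s1 p : S.F) ∈ (S.C 2).O := fun p =>
      (S.mem_B1.1 (hs1B p)).2 2
    induction p using Polynomial.induction_on' with
    | add p p' hp hp' =>
      rw [map_add, map_add, Res.r_add (hmemp p) (hmemp p'), hp, hp']
    | monomial m c =>
      rw [aeval_monomial, aeval_monomial]
      have hc : algebraMap ℤ S.F c ∈ (S.C 2).O := by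
        rw [eq_intCast]; exact intCast_mem _ _
      rw [Res.r_mul hc (pow_mem (S.s1_memC 2) _), Res.r_pow (S.s1_memC 2)]
      congr 1
      rw [eq_intCast, eq_intCast]
      have h1 := S.C_r_const 2 (c : S.A₀)
      rw [map_intCast, map_intCast, map_intCast] at h1
      exact h1
  rw [Res.r_add (mul_mem (hs1C 2).1 ((S.mem_B1.1 hx₁B).2 2))
      (mul_mem (hs1C 2).2 ((S.mem_B1.1 hx₂B).2 2)),
    Res.r_mul (hs1C 2).1 ((S.mem_B1.1 hx₁B).2 2), Res.r_mul (hs1C 2).2 ((S.mem_B1.1 hx₂B).2 2),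
    rx₁, rx₂, hra, hra]
  have h1 := congrArg (aeval ((S.C 2).r S.s1)) hab
  rw [map_add, map_mul, map_mul, map_pow, map_pow, map_sub, aeval_X, map_one] at h1
  linear_combination y * h1

theorem surj1 (i : Fin 3) (y : S.𝓕) (hy : y ∈ S.R1) : ∃ x ∈ S.B1, (S.C i).r x = y := by
  have h01 : ∃ f : FF k₀ M', S.inM f ∈ S.B1 ∧ S.RM f y := by
    obtain ⟨f, hf, hfy⟩ := S.lift1 y hy
    exact ⟨f, S.mem_B1.2 ⟨S.inM_icr' hf, fun i => mem_C.2 (S.in_mem hfy i)⟩, hfy⟩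
  obtain ⟨f, hf, hfy⟩ := h01
  fin_cases i
  · exact ⟨_, hf, C_r (R0_in hfy)⟩
  · exact ⟨_, hf, C_r (R1_in hfy)⟩
  · exact S.surj1_2 y hy

/-- **the second chart** -/
theorem chart1 : Chart S.B1 S.C S.R1 (algebraMap S.A₀ S.F ((q : ℕ) : S.A₀)) where
  noeth := by
    haveI := tower_A (F := S.F) S.A₀
    exact icr_noeth (k := k₀) S.tr_j1_inv S.finF' S.sepF'
  ded := S.dedR1
  closed x n hn h := icr_root hn h
  frac x := by
    haveI := tower_A (F := S.F) S.A₀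
    exact icr_frac (k := k₀) S.tr_j1_inv S.finF' x
  le i x hx := (S.mem_B1.1 hx).2 i
  mem_R i x hx := S.mem_R1 i hx
  surj := S.surj1
  ϖ_mem := const_mem_icr _ _
  ϖ_ne := by rw [S.algebraMap_ϖ]; exact S.ϖ_ne
  r_ϖ i := by rw [S.algebraMap_ϖ]; exact C_r (S.R_ϖ i)
  nil := by
    refine ⟨q - 1, fun x hx h => ?_⟩
    rw [S.algebraMap_ϖ]
    refine S.mem_B1.2 ⟨?_, fun i => S.nil_aux (S.mem_B1.1 hx).2 h i⟩
    exact mul_mem (pow_mem (S.B1_le_icr hx) _) (S.ϖ_inv_icr _)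

/-- functions without poles -/
theorem const_of_icr {x : S.F} (h0 : x ∈ icr k₀ S.j1) (h1 : x ∈ icr k₀ S.j1⁻¹) :
    ∃ c : k₀, algebraMap k₀ S.F c = x := by
  haveI := S.charZeroK
  haveI : IsAlgClosed K := S.acK
  haveI := S.isFF
  obtain ⟨c, hc⟩ : ∃ c : K, S.bK x = algebraMap K _ c := by
    rcases transcendental_or (k := K) (S.bK x) with htr | ⟨c, hc⟩
    · exfalso
      have htr' : Transcendental K (S.bK x)⁻¹ := by
        intro h
        apply htr
        have := h.inv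
        rwa [inv_inv] at this
      obtain ⟨w, hw⟩ := exists_ord_pos_of_transcendental htr'
      rw [w.ord_inv] at hw
      have hx0 : S.bK x ≠ 0 := by
        intro h
        rw [h] at htr
        exact htr isAlgebraic_zero
      have h2 : S.bK x ∈ w.toValuationSubring := by
        rcases w.toValuationSubring.mem_or_inv_mem (S.bK S.j1) with h | h
        · exact S.mem_place h0 w h
        · rw [← map_inv₀] at h
          exact S.mem_place h1 w h
      rw [mem_iff_ord w hx0] at h2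
      omega
    · exact ⟨c, hc⟩
  -- the coefficients
  have h2 : coeffMap S.cK (x : LaurentSeries k₀) = HahnSeries.C c := by
    have := congrArg (Subtype.val) hc
    rw [ModFun.C_eq_algebraMap]
    exact this
  refine ⟨(x : LaurentSeries k₀).coeff 0, Subtype.ext ?_⟩
  rw [coe_const, ← ModFun.C_eq_algebraMap]
  ext n
  have h3 := congrArg (fun f : LaurentSeries K => f.coeff n) h2
  simp only [coeffMap_coeff] at h3
  rcases eq_or_ne n 0 with h | h
  · rw [h, HahnSeries.C_apply, HahnSeries.coeff_single_same]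
  · rw [HahnSeries.C_apply, HahnSeries.coeff_single_of_ne h] at h3 ⊢
    exact ((map_eq_zero_iff _ (algebraMap k₀ K).injective).1 h3).symm

/-- **the two charts** -/
theorem two : TwoCharts k₀ S.C S.B0 S.B1 S.R0 S.R1 S.j1 ((q : ℕ) : S.A₀) where
  irr := S.irr
  t_ne := S.j1_ne
  c0 := S.chart0
  c1 := S.chart1
  A_mem0 a := const_mem_icr _ _
  A_mem1 a := const_mem_icr _ _
  t_mem := self_mem_icr _
  t_mem' := self_mem_icr _
  fin0 := by
    haveI := tower_A (F := S.F) S.A₀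
    exact icr_fin (k := k₀) S.tr_j1 S.finF S.sepF
  fin1 := by
    haveI := tower_A (F := S.F) S.A₀
    exact icr_fin (k := k₀) S.tr_j1_inv S.finF' S.sepF'
  ov0 x hx := icr_overlap S.j1_ne hx
  ov1 x hx := by
    obtain ⟨n, hn⟩ := icr_overlap (inv_ne_zero S.j1_ne) hx
    rw [inv_inv] at hn
    exact ⟨n, hn⟩
  const x h0 h1 := S.const_of_icr (S.B0_le_icr h0) (S.B1_le_icr h1)

end Sit

end Fermat.Agent.Carayol
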