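import Fermat.Agent.Carayol.Lift
import Fermat.Agent.GoodRed.Gen
import Fermat.Agent.GoodRed.KL

/-!
# Kummer lifting over a discrete valuation ring
-/

set_option autoImplicit false
set_option linter.unusedSectionVars false
set_option linter.style.haveILetI false

noncomputable section

namespace Fermat.Agent.Carayol

open Fermat.Agent.Models Fermat.Agent.GoodRed Polynomial

section Gen

variable {A₀ K₀ F : Type*} [CommRing A₀] [IsDomain A₀] [Field K₀] [Algebra A₀ K₀]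
  [IsFractionRing A₀ K₀] [Field F] [Algebra K₀ F] [Algebra A₀ F] [IsScalarTower A₀ K₀ F]

/-- the `A₀[X]`-algebra structure given by `t` -/
@[reducible] def pAlg (A₀ : Type*) {F : Type*} [CommRing A₀] [Field F] [Algebra A₀ F] (t : F) :
    Algebra A₀[X] F := (aeval (R := A₀) t).toRingHom.toAlgebra

theorem pAlg_smul (t : F) (p : A₀[X]) (x : F) :
    letI := pAlg A₀ t
    p • x = aeval t p * x := by
  letI := pAlg A₀ t
  rw [Algebra.smul_def]; rfl

theorem mem_genPos_of_span {t : F} (ht0 : t ≠ 0) (s : Finset F) {x : F}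
    (hx : letI := pAlg A₀ t; x ∈ Submodule.span A₀[X] (s : Set F)) :
    x ∈ genPos A₀ (mulE K₀ t ht0) s := by
  letI := pAlg A₀ t
  induction hx using Submodule.span_induction with
  | mem y hy =>
    exact Submodule.subset_span ⟨0, y, hy, by
      rw [mulE_zpow_apply]; simp⟩
  | zero => exact zero_mem _
  | add y z _ _ hy hz => exact add_mem hy hz
  | smul p y _ hy =>
    rw [pAlg_smul]
    induction p using Polynomial.induction_on' with
    | add p q hp hq => rw [map_add, add_mul]; exact add_mem hp hq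
    | monomial n a =>
      rw [aeval_monomial, mul_assoc, ← Algebra.smul_def]
      refine Submodule.smul_mem _ _ ?_
      clear * - hy ht0
      unfold genPos at hy ⊢
      induction hy using Submodule.span_induction with
      | mem y hy =>
        obtain ⟨k, z, hz, rfl⟩ := hy
        refine Submodule.subset_span ⟨n + k, z, hz, ?_⟩
        rw [mulE_zpow_apply, mulE_zpow_apply]
        push_cast
        rw [zpow_add₀ ht0, zpow_natCast t n, mul_assoc]
      | zero => rw [mul_zero]; exact zero_mem _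
      | add y z _ _ hy hz => rw [mul_add]; exact add_mem hy hz
      | smul r y _ hy => rw [mul_smul_comm]; exact Submodule.smul_mem _ _ hy

theorem genNeg_eq' {t : F} (ht0 : t ≠ 0) (s : Finset F) :
    genPos A₀ (mulE K₀ t⁻¹ (inv_ne_zero ht0)) s = genNeg A₀ (mulE K₀ t ht0) s := by
  unfold genPos genNeg
  congr 1
  ext x
  simp only [mulE_zpow_apply, inv_zpow', Set.mem_ofPred_eq]

theorem zpow_mem_genAll' {t x : F} (ht0 : t ≠ 0) {s : Finset F}
    (hx : x ∈ genPos A₀ (mulE K₀ t ht0) s) (j : ℤ) :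
    t ^ j * x ∈ genAll A₀ (mulE K₀ t ht0) s := by
  unfold genPos at hx
  induction hx using Submodule.span_induction with
  | mem x hx =>
    obtain ⟨k, y, hy, rfl⟩ := hx
    refine Submodule.subset_span ⟨j + k, y, hy, ?_⟩
    rw [mulE_zpow_apply, mulE_zpow_apply, zpow_add₀ ht0, mul_assoc]
  | zero => rw [mul_zero]; exact Submodule.zero_mem _
  | add x y _ _ hx hy => rw [mul_add]; exact Submodule.add_mem _ hx hy
  | smul r x _ hx => rw [mul_smul_comm]; exact Submodule.smul_mem _ _ hx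

/-- finite generation of the module of roots -/
theorem exists_gen_rootMod [IsNoetherianRing A₀] {B : Subring F}
    (hcl : ∀ (x : F) (n : ℕ), 0 < n → x ^ n ∈ B → x ∈ B) {t : F} (ht0 : t ≠ 0)
    (hA : ∀ a : A₀, algebraMap A₀ F a ∈ B) (ht : t ∈ B)
    (hfin : letI := pAlg A₀ t
      ∃ N : Submodule A₀[X] F, N.FG ∧ ∀ x ∈ B, x ∈ N) {m : ℕ} (hm : 0 < m) {U h₀ : F} (hU : U ≠ 0)
    (hh₀ : h₀ ≠ 0) (hh : h₀ ^ m * U ∈ B) :
    ∃ s : Finset F, (∀ x ∈ s, x ^ m * U ∈ B) ∧
      ∀ x, x ^ m * U ∈ B → x ∈ genPos A₀ (mulE K₀ t ht0) s := by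
  letI := pAlg A₀ t
  obtain ⟨N, hN, hBN⟩ := hfin
  have haev : ∀ p : A₀[X], aeval t p ∈ B := by
    intro p
    induction p using Polynomial.induction_on' with
    | add p q hp hq => rw [map_add]; exact B.add_mem hp hq
    | monomial n a => rw [aeval_monomial]; exact B.mul_mem (hA a) (B.pow_mem ht n)
  let M : Submodule A₀[X] F :=
    { carrier := {x | x ^ m * U ∈ B}
      zero_mem' := (rootMod B hcl m hm U).zero_mem
      add_mem' := fun hx hy => (rootMod B hcl m hm U).add_mem hx hy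
      smul_mem' := fun p x hx => by
        change (p • x) ^ m * U ∈ B
        rw [pAlg_smul, mul_pow, mul_assoc]
        exact B.mul_mem (B.pow_mem (haev p) m) hx }
  have hc0 : h₀ ^ (m - 1) * U ≠ 0 := mul_ne_zero (pow_ne_zero _ hh₀) hU
  let φ : F →ₗ[A₀[X]] F :=
    { toFun := fun x => (h₀ ^ (m - 1) * U) * x
      map_add' := fun x y => mul_add _ _ _
      map_smul' := fun p x => by
        rw [pAlg_smul, RingHom.id_apply, pAlg_smul]; ring }
  have hφ : Function.Injective φ := fun x y h => mul_left_cancel₀ hc0 h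
  have hMφ : M.map φ ≤ N := by
    rintro _ ⟨x, hx, rfl⟩
    refine hBN _ (hcl _ m hm ?_)
    change ((h₀ ^ (m - 1) * U) * x) ^ m ∈ B
    have h1 : ((h₀ ^ (m - 1) * U) * x) ^ m = (h₀ ^ m * U) ^ (m - 1) * (x ^ m * U) := by
      obtain ⟨k, rfl⟩ := Nat.exists_eq_succ_of_ne_zero hm.ne'
      rw [Nat.succ_sub_one, mul_pow, mul_pow, mul_pow, ← pow_mul, ← pow_mul, mul_comm k,
        pow_succ U]
      ring
    rw [h1]
    exact B.mul_mem (B.pow_mem hh _) hx
  obtain ⟨s, hs⟩ := Submodule.fg_of_fg_map_injective φ hφ (Submodule.FG.of_le hN hMφ)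
  refine ⟨s, fun x hx => ?_, fun x hx => mem_genPos_of_span ht0 s ?_⟩
  · have : x ∈ M := by rw [← hs]; exact Submodule.subset_span hx
    exact this
  · rw [hs]; exact hx

end Gen

section Newton

variable {F 𝓕 : Type*} [Field F] [Field 𝓕] {ι : Type*} {C : ι → Res F 𝓕} {B : Subring F} {ϖ : F}

/-- Newton approximation in a chart -/
theorem newton (hle : ∀ i, ∀ x ∈ B, x ∈ (C i).O) (hϖB : ϖ ∈ B) (hϖ0 : ϖ ≠ 0)
    (hnil : ∃ e : ℕ, ∀ x ∈ B, (∀ i, (C i).r x = 0) → x ^ e * ϖ⁻¹ ∈ B) {m : ℕ}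
    {im : F} (him : im ∈ B) (hm' : (m : F) * im = 1) {U h₀ : F} (hh : h₀ ^ m * U ∈ B)
    (hr : ∀ i, (C i).r (h₀ ^ m * U) = 1) (hO : ∀ i, h₀ ∈ (C i).O) (K : ℕ) :
    ∃ w, w ^ m * U ∈ B ∧ (∀ i, (C i).r w = (C i).r h₀) ∧ ∃ c ∈ B, w ^ m * U = 1 + ϖ ^ K * c := by
  obtain ⟨e, he⟩ := hnil
  set j : F := h₀ ^ m * U - 1 with hj
  have hjB : j ∈ B := B.sub_mem hh B.one_mem
  have hjr : ∀ i, (C i).r j = 0 := fun i => by
    rw [hj, Res.r_sub (hle i _ hh) (one_mem _), hr, Res.r_one, sub_self]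
  have hje := he j hjB hjr
  obtain ⟨v, d, c, hv, hvc⟩ := exists_approx_root (B := B) m ⟨im, him⟩ (Subtype.ext (by
    push_cast; exact hm')) ⟨j, hjB⟩ 1 (e * K)
  have hvF := congrArg (fun x : B => (x : F)) hv
  have hvcF := congrArg (fun x : B => (x : F)) hvc
  push_cast at hvF hvcF
  rw [mul_one] at hvcF
  have h1 : (v * h₀ : F) ^ m * U = 1 + ϖ ^ K * ((j ^ e * ϖ⁻¹) ^ K * j * c) := by
    have h2 : ϖ ^ K * (j ^ e * ϖ⁻¹) ^ K = j ^ (e * K) := by
      rw [← mul_pow, mul_comm ϖ, mul_assoc, inv_mul_cancel₀ hϖ0, mul_one, ← pow_mul]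
    have h3 : (v * h₀ : F) ^ m * U = (v : F) ^ m * (1 + j) := by rw [hj]; ring
    rw [h3, hvcF, ← mul_assoc, ← mul_assoc, h2, pow_succ]
  have h4 : (j ^ e * ϖ⁻¹) ^ K * j * c ∈ B := B.mul_mem (B.mul_mem (B.pow_mem hje K) hjB) c.2
  refine ⟨v * h₀, ?_, fun i => ?_, _, h4, h1⟩
  · rw [h1]; exact B.add_mem B.one_mem (B.mul_mem (B.pow_mem hϖB K) h4)
  · have h5 : (C i).r (v : F) = 1 := by
      rw [hvF, Res.r_add (one_mem _) (mul_mem (hle i _ hjB) (hle i _ d.2)), Res.r_one,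
        Res.r_mul (hle i _ hjB) (hle i _ d.2), hjr, zero_mul, add_zero]
    rw [Res.r_mul (hle i _ v.2) (hO i), h5, one_mul]

/-- uniqueness of approximate roots -/
theorem approx_unique (hle : ∀ i, ∀ x ∈ B, x ∈ (C i).O) (hϖB : ϖ ∈ B) (hϖ0 : ϖ ≠ 0)
    (hcl : ∀ (x : F) (n : ℕ), 0 < n → x ^ n ∈ B → x ∈ B)
    (hnil : ∃ e : ℕ, ∀ x ∈ B, (∀ i, (C i).r x = 0) → x ^ e * ϖ⁻¹ ∈ B) {m : ℕ} (hm : 0 < m)
    {im : F} (him : im ∈ B) (hm' : (m : F) * im = 1) {U x y : F} {K : ℕ} {c c' : F}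
    (hc : c ∈ B) (hc' : c' ∈ B) (hx : x ^ m * U = 1 + ϖ ^ K * c)
    (hy : y ^ m * U = 1 + ϖ ^ K * c')
    (hr : ∀ i, (C i).r (x * y ^ (m - 1) * U) = 1) :
    ∃ z, z ^ m * U ∈ B ∧ x - y = ϖ ^ K * z := by
  obtain ⟨k, rfl⟩ := Nat.exists_eq_succ_of_ne_zero hm.ne'
  rw [Nat.succ_sub_one] at hr
  have hxB : x ^ k.succ * U ∈ B := by
    rw [hx]; exact B.add_mem B.one_mem (B.mul_mem (B.pow_mem hϖB K) hc)
  have hyB : y ^ k.succ * U ∈ B := by
    rw [hy]; exact B.add_mem B.one_mem (B.mul_mem (B.pow_mem hϖB K) hc')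
  set e : F := x * y ^ k * U with he
  have hem : e ^ k.succ = (x ^ k.succ * U) * (y ^ k.succ * U) ^ k := by
    rw [he, Nat.succ_eq_add_one]; ring
  have heB : e ∈ B := hcl _ k.succ hm (by rw [hem]; exact B.mul_mem hxB (B.pow_mem hyB k))
  -- `e ^ m = 1 + ϖ ^ K c''`
  obtain ⟨c₂, hc₂⟩ : ∃ c₂ : B, (1 + ϖ ^ K * c') ^ k = 1 + ϖ ^ K * (c₂ : F) := by
    have h1 : ∀ l : ℕ, ∃ c₂ : B, (1 + ϖ ^ K * c') ^ l = 1 + ϖ ^ K * (c₂ : F) := by
      intro l
      induction l with
      | zero => exact ⟨0, by simp⟩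
      | succ l ih =>
        obtain ⟨a, ha⟩ := ih
        refine ⟨a + ⟨c', hc'⟩ + ⟨ϖ, hϖB⟩ ^ K * a * ⟨c', hc'⟩, ?_⟩
        rw [pow_succ, ha]; push_cast; ring
    exact h1 k
  let z : B := ⟨e - 1, B.sub_mem heB B.one_mem⟩
  have hzr : ∀ i, (C i).r (z : F) = 0 := fun i => by
    change (C i).r (e - 1) = 0
    rw [Res.r_sub (hle i _ heB) (one_mem _), hr, Res.r_one, sub_self]
  obtain ⟨n, hn⟩ := hnil
  have hzn := hn z z.2 hzr
  let w : B := ⟨_, hzn⟩
  have hzw : (z : F) ^ n = ϖ * w := by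
    change (z : F) ^ n = ϖ * ((z : F) ^ n * ϖ⁻¹)
    field_simp
  -- `z * (m + z s) = ϖ ^ K c₃`
  obtain ⟨s, hs⟩ : ∃ s : B, ∑ i ∈ Finset.range k.succ, (1 + z) ^ i = (k.succ : B) + z * s := by
    have h1 : ∀ i : ℕ, ∃ s : B, (1 + z) ^ i = 1 + z * s := by
      intro i
      induction i with
      | zero => exact ⟨0, by simp⟩
      | succ i ih => obtain ⟨s, hs⟩ := ih; exact ⟨1 + s + z * s, by rw [pow_succ, hs]; ring⟩
    choose f hf using h1
    refine ⟨∑ i ∈ Finset.range k.succ, f i, ?_⟩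
    rw [Finset.sum_congr rfl fun i _ => hf i, Finset.sum_add_distrib, Finset.mul_sum]
    simp
  have h2 : (z : F) * ((k.succ : F) + z * s) = ϖ ^ K * (c + c₂ + ϖ ^ K * c * c₂) := by
    have h3 : (z : F) * ((∑ i ∈ Finset.range k.succ, (1 + z) ^ i : B) : F) = e ^ k.succ - 1 := by
      have h4 := mul_geom_sum (1 + z) k.succ
      rw [add_sub_cancel_left] at h4
      have h5 := congrArg (fun x : B => (x : F)) h4
      simp only [Subring.coe_mul, AddSubgroupClass.coe_sub, Subring.coe_pow, Subring.coe_add,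
        Subring.coe_one] at h5
      rw [h5]
      congr 2
      change 1 + (e - 1) = e
      ring
    rw [hs] at h3
    push_cast at h3
    rw [Nat.succ_eq_add_one]
    push_cast
    rw [h3, hem, hx, hy, hc₂]; ring
  -- geometric series
  let r : B := -(z * s * ⟨im, him⟩)
  have h6 : (z : F) * (1 - r) = ϖ ^ K * ((c + c₂ + ϖ ^ K * c * c₂) * im) := by
    have : (z : F) * (1 - r) = (z : F) * ((k.succ : F) + z * s) * im := by
      have hr' : (r : F) = -((z : F) * s * im) := rfl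
      rw [hr']
      have h7 : (z : F) = z * ((k.succ : F) * im) := by rw [hm', mul_one]
      linear_combination (1 : F) * h7
    rw [this, h2]; ring
  have h8 : (z : F) = ϖ ^ K * (((c + c₂ + ϖ ^ K * c * c₂) * im) *
      ((∑ i ∈ Finset.range (n * K), r ^ i : B) : F) +
      w ^ K * (z * (((-(s * ⟨im, him⟩)) ^ (n * K) : B) : F))) := by
    have h9 : (1 - (r : F)) * ((∑ i ∈ Finset.range (n * K), r ^ i : B) : F) = 1 - (r : F) ^ (n * K) := by
      have h10 := mul_neg_geom_sum r (n * K)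
      have h11 := congrArg (fun x : B => (x : F)) h10
      simpa only [Subring.coe_mul, AddSubgroupClass.coe_sub, Subring.coe_pow, Subring.coe_one] using h11
    have h12 : (r : F) ^ (n * K) = ϖ ^ K * w ^ K * (((-(s * ⟨im, him⟩)) ^ (n * K) : B) : F) := by
      have h13 : (r : F) = z * (((-(s * ⟨im, him⟩)) : B) : F) := by
        have h14 : r = z * (-(s * ⟨im, him⟩)) := by simp only [r]; ring
        rw [h14]; push_cast; rfl
      rw [h13, mul_pow, pow_mul (z : F), hzw, mul_pow, Subring.coe_pow]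
    have h15 : (z : F) = z * (1 - r) * ((∑ i ∈ Finset.range (n * K), r ^ i : B) : F) +
        z * (r : F) ^ (n * K) := by
      rw [mul_assoc, h9]; ring
    calc (z : F) = z * (1 - r) * ((∑ i ∈ Finset.range (n * K), r ^ i : B) : F) +
        z * (r : F) ^ (n * K) := h15
      _ = _ := by rw [h6, h12]; ring
  set z' : F := (((c + c₂ + ϖ ^ K * c * c₂) * im) *
      ((∑ i ∈ Finset.range (n * K), r ^ i : B) : F) +
      w ^ K * (z * (((-(s * ⟨im, him⟩)) ^ (n * K) : B) : F))) with hz'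
  have hz'B : z' ∈ B := by
    refine B.add_mem (B.mul_mem (B.mul_mem ?_ him) (Subtype.mem _))
      (B.mul_mem (B.pow_mem w.2 K) (B.mul_mem z.2 (Subtype.mem _)))
    exact B.add_mem (B.add_mem hc c₂.2) (B.mul_mem (B.mul_mem (B.pow_mem hϖB K) hc) c₂.2)
  refine ⟨z' * y - c' * x, ?_, ?_⟩
  · have h16 := (rootMod B hcl k.succ hm U).sub_mem
      ((rootMod B hcl k.succ hm U).smul_mem ⟨z', hz'B⟩ (show y ∈ _ from hyB))
      ((rootMod B hcl k.succ hm U).smul_mem ⟨c', hc'⟩ (show x ∈ _ from hxB))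
    exact h16
  · have h17 : e * y = x * (1 + ϖ ^ K * c') := by rw [← hy, he, Nat.succ_eq_add_one]; ring
    have h18 : e = 1 + ϖ ^ K * z' := by
      have : (z : F) = e - 1 := rfl
      rw [← h8, this]; ring
    rw [h18] at h17
    linear_combination (-1 : F) * h17

end Newton

end Fermat.Agent.Carayol
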