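import Fermat.Agent.GoodRed.PreRed
import Fermat.Agent.Carayol.KL

/-!
# Completeness of a finite set of residue maps
-/

set_option autoImplicit false
set_option linter.unusedSectionVars false
set_option linter.style.haveILetI false

noncomputable section

namespace Fermat.Agent.Carayol

open Fermat.Agent.GoodRed Polynomial IntermediateField Module

variable {K κ F Ω : Type*} [Field K] [Field κ] [Field F] [Field Ω] [Algebra K F] [Algebra κ Ω]
  {A : ValuationSubring K} {π : A →+* κ} [IsLocalHom π] {ι : Type*}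

section Basic

variable (P : PreRed A π F Ω)

theorem mem_O_of_R {x : F} {y : Ω} (h : P.R x y) : x ∈ P.O := ⟨y, h⟩

theorem const_mem_O {c : K} (hc : c ∈ A) : algebraMap K F c ∈ P.O := ⟨_, P.const ⟨c, hc⟩⟩

theorem R_const_zero {c : K} (hc : c ∉ A) : P.R (algebraMap K F c⁻¹) 0 := by
  have h1 : c⁻¹ ∈ A := (A.mem_or_inv_mem c).resolve_left hc
  have h2 : π ⟨c⁻¹, h1⟩ = 0 := by
    by_contra hne
    have hu : IsUnit (⟨c⁻¹, h1⟩ : A) := (isUnit_iff_ne_zero.2 hne).of_map π
    obtain ⟨v, hv⟩ := hu.exists_right_inv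
    have hc0 : c ≠ 0 := by rintro rfl; exact hc (zero_mem _)
    have h3 : c = v := by
      have := congrArg (fun z : A => (z : K)) hv
      simp only [MulMemClass.coe_mul, OneMemClass.coe_one] at this
      field_simp at this
      exact this.symm
    exact hc (h3 ▸ v.2)
  have := P.const ⟨c⁻¹, h1⟩
  rwa [h2, map_zero] at this

theorem mem_A_of_const_mem {c : K} (h : algebraMap K F c ∈ P.O) : c ∈ A := by
  by_contra hc
  have hc0 : c ≠ 0 := by rintro rfl; exact hc (zero_mem _)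
  obtain ⟨y, hy⟩ := h
  have h1 := P.mul hy (R_const_zero P hc)
  rw [← map_mul, mul_inv_cancel₀ hc0, map_one, mul_zero] at h1
  exact one_ne_zero (P.unique P.one h1)

theorem inv_mem_of_R {x : F} {y : Ω} (h : P.R x y) (hy : y ≠ 0) : x⁻¹ ∈ P.O := ⟨_, P.inv h hy⟩

theorem ne_zero_of_R {x : F} {y : Ω} (h : P.R x y) (hy : y ≠ 0) : x ≠ 0 := by
  rintro rfl
  exact hy (P.unique h P.zero)

/-- polynomials with a coordinate in the valuation ring are integral -/
theorem exists_of_aeval_mem {t : F} {tb : Ω} (ht : P.R t tb) (htr : Transcendental κ tb) {p : K[X]}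
    (hp : aeval t p ∈ P.O) : ∃ p' : A[X], p'.map A.subtype = p := by
  rcases eq_or_ne p 0 with rfl | hp0
  · exact ⟨0, by simp⟩
  obtain ⟨c, q, hc, hq, hq0⟩ := GaussRed.exists_scale_poly (π := π) p hp0
  have h1 := P.R_aeval ht q
  have h2 : aeval tb (q.map π) ≠ 0 := fun h => htr ⟨_, hq0, h⟩
  rw [hq, map_mul, aeval_C] at h1
  have h3 : algebraMap K F c⁻¹ ∈ P.O := by
    have h4 := inv_mem_of_R P h1 h2
    have h5 : aeval t p ≠ 0 := fun h0 => by
      rw [h0, mul_zero] at h1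
      exact h2 (P.unique h1 P.zero)
    have h6 : algebraMap K F c⁻¹ = aeval t p * (algebraMap K F c * aeval t p)⁻¹ := by
      have hc' : algebraMap K F c ≠ 0 := by simpa using hc
      rw [map_inv₀]
      field_simp
    rw [h6]
    exact mul_mem hp h4
  have h7 := mem_A_of_const_mem P h3
  refine ⟨C ⟨c⁻¹, h7⟩ * q, ?_⟩
  rw [Polynomial.map_mul, map_C, hq, ← mul_assoc, ← C_mul]
  change C (c⁻¹ * c) * p = p
  rw [inv_mul_cancel₀ hc, C_1, one_mul]

end Basic

variable (P : ι → PreRed A π F Ω)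

section Scale

variable {t : F} {tb : ι → Ω} (ht : ∀ i, (P i).R t (tb i)) (htr : ∀ i, Transcendental κ (tb i))

include ht htr

/-- scaling of elements of `K(t)`, simultaneously for all components -/
theorem exists_scale_adj {x : F} (hx : x ∈ K⟮t⟯) (hx0 : x ≠ 0) :
    ∃ c : K, c ≠ 0 ∧ ∀ i, ∃ y, y ≠ 0 ∧ (P i).R (algebraMap K F c * x) y := by
  rw [mem_adjoin_simple_iff] at hx
  obtain ⟨r, s, rfl⟩ := hx
  have hr0 : r ≠ 0 := by rintro rfl; simp at hx0
  have hs0 : s ≠ 0 := by rintro rfl; simp at hx0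
  obtain ⟨c, f, hc, hf, hf0⟩ := GaussRed.exists_scale_poly (π := π) r hr0
  obtain ⟨d, g, hd, hg, hg0⟩ := GaussRed.exists_scale_poly (π := π) s hs0
  refine ⟨c / d, div_ne_zero hc hd, fun i => ?_⟩
  have h1 := (P i).R_aeval (ht i) f
  have h2 := (P i).R_aeval (ht i) g
  have h3 : aeval (tb i) (f.map π) ≠ 0 := fun h => htr i ⟨_, hf0, h⟩
  have h4 : aeval (tb i) (g.map π) ≠ 0 := fun h => htr i ⟨_, hg0, h⟩
  refine ⟨_, mul_ne_zero h3 (inv_ne_zero h4), ?_⟩
  have h5 := (P i).mul h1 ((P i).inv h2 h4)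
  rw [hf, hg, map_mul, map_mul, aeval_C, aeval_C] at h5
  have h6 : algebraMap K F (c / d) * (aeval t r / aeval t s) =
      algebraMap K F c * aeval t r * (algebraMap K F d * aeval t s)⁻¹ := by
    rw [map_div₀, div_mul_div_comm, div_eq_mul_inv]
  rwa [h6]

/-- the common valuation ring of `K(t)` -/
def valL (i₀ : ι) : ValuationSubring K⟮t⟯ where
  carrier := {a | (a : F) ∈ (P i₀).O}
  mul_mem' := fun {a b} ha hb => by
    change ((a * b : K⟮t⟯) : F) ∈ (P i₀).O
    rw [IntermediateField.coe_mul]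
    exact (P i₀).O.mul_mem ha hb
  one_mem' := one_mem (P i₀).O
  add_mem' := fun {a b} ha hb => by
    change ((a + b : K⟮t⟯) : F) ∈ (P i₀).O
    rw [IntermediateField.coe_add]
    exact (P i₀).O.add_mem ha hb
  zero_mem' := zero_mem (P i₀).O
  neg_mem' := fun {a} ha => by
    change ((-a : K⟮t⟯) : F) ∈ (P i₀).O
    rw [IntermediateField.coe_neg]
    exact (P i₀).O.neg_mem ha
  mem_or_inv_mem' := by
    intro a
    rcases eq_or_ne a 0 with rfl | ha0
    · exact Or.inl (zero_mem (P i₀).O)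
    have ha0' : (a : F) ≠ 0 := by simpa using ha0
    obtain ⟨c, hc, h⟩ := exists_scale_adj P ht htr a.2 ha0'
    obtain ⟨y, hy, hR⟩ := h i₀
    have hc' : algebraMap K F c ≠ 0 := by simpa using hc
    rcases A.mem_or_inv_mem c with h1 | h1
    · right
      change (((a⁻¹ : K⟮t⟯)) : F) ∈ (P i₀).O
      have h2 : ((a⁻¹ : K⟮t⟯) : F) = algebraMap K F c * (algebraMap K F c * a)⁻¹ := by
        rw [IntermediateField.coe_inv]
        field_simp
      rw [h2]
      exact mul_mem (const_mem_O _ h1) (inv_mem_of_R _ hR hy)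
    · left
      change (a : F) ∈ (P i₀).O
      have h2 : (a : F) = algebraMap K F c⁻¹ * (algebraMap K F c * a) := by
        rw [map_inv₀]
        field_simp
      rw [h2]
      exact mul_mem (const_mem_O _ h1) (mem_O_of_R _ hR)

/-- integrality of an element of `K(t)` does not depend on the component -/
theorem mem_all_of_mem {x : F} (hx : x ∈ K⟮t⟯) {i₀ : ι} (h : x ∈ (P i₀).O) (i : ι) :
    x ∈ (P i).O := by
  rcases eq_or_ne x 0 with rfl | hx0
  · exact zero_mem _
  obtain ⟨c, hc, hR⟩ := exists_scale_adj P ht htr hx hx0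
  have hc' : algebraMap K F c ≠ 0 := by simpa using hc
  obtain ⟨y, hy, h1⟩ := hR i₀
  have h2 : algebraMap K F c⁻¹ ∈ (P i₀).O := by
    have h3 : algebraMap K F c⁻¹ = x * (algebraMap K F c * x)⁻¹ := by
      rw [map_inv₀]; field_simp
    rw [h3]
    exact mul_mem h (inv_mem_of_R _ h1 hy)
  have h4 := mem_A_of_const_mem _ h2
  obtain ⟨y', hy', h5⟩ := hR i
  have h6 : x = algebraMap K F c⁻¹ * (algebraMap K F c * x) := by
    rw [map_inv₀]; field_simp
  rw [h6]
  exact mul_mem (const_mem_O _ h4) (mem_O_of_R _ h5)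

/-- elements of `K(t)` outside of the valuation ring -/
theorem exists_of_not_mem {x : F} (hx : x ∈ K⟮t⟯) {i₀ : ι} (h : x ∉ (P i₀).O) :
    ∃ c : K, c ≠ 0 ∧ (∃ hc : c ∈ A, π ⟨c, hc⟩ = 0) ∧
      ∀ i, ∃ y, y ≠ 0 ∧ (P i).R (algebraMap K F c * x) y := by
  have hx0 : x ≠ 0 := by rintro rfl; exact h (zero_mem _)
  obtain ⟨c, hc, hR⟩ := exists_scale_adj P ht htr hx hx0
  have hc' : algebraMap K F c ≠ 0 := by simpa using hc
  obtain ⟨y, hy, h1⟩ := hR i₀
  have h2 : c⁻¹ ∉ A := by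
    intro h3
    apply h
    have h6 : x = algebraMap K F c⁻¹ * (algebraMap K F c * x) := by
      rw [map_inv₀]; field_simp
    rw [h6]
    exact mul_mem (const_mem_O _ h3) (mem_O_of_R _ h1)
  have h4 : c ∈ A := by
    have := (A.mem_or_inv_mem c⁻¹).resolve_left h2
    rwa [inv_inv] at this
  refine ⟨c, hc, ⟨h4, ?_⟩, hR⟩
  by_contra hne
  have hu : IsUnit (⟨c, h4⟩ : A) := (isUnit_iff_ne_zero.2 hne).of_map π
  obtain ⟨v, hv⟩ := hu.exists_right_inv
  have h3 : c⁻¹ = v := by
    have := congrArg (fun z : A => (z : K)) hv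
    simp only [MulMemClass.coe_mul, OneMemClass.coe_one] at this
    exact (eq_inv_of_mul_eq_one_right this).symm
  exact h2 (h3 ▸ v.2)

/-- common scaling of a family -/
theorem exists_scale_fam {J : Type*} [Fintype J] (a : J → F) (ha : ∀ j, a j ∈ K⟮t⟯)
    (h0 : ∃ j, a j ≠ 0) : ∃ j₀, a j₀ ≠ 0 ∧ ∀ j i, (a j₀)⁻¹ * a j ∈ (P i).O := by
  classical
  have h1 : ∀ j, ∃ c : K, (a j ≠ 0 → c ≠ 0 ∧ ∀ i, ∃ y, y ≠ 0 ∧ (P i).R (algebraMap K F c * a j) y) := by
    intro j
    by_cases hj : a j = 0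
    · exact ⟨1, fun h => absurd hj h⟩
    · obtain ⟨c, hc, h⟩ := exists_scale_adj P ht htr (ha j) hj
      exact ⟨c, fun _ => ⟨hc, h⟩⟩
  choose c hc using h1
  obtain ⟨j₀, -, hj₀, hall⟩ := GaussRed.exists_scale_finset (A := A) Finset.univ
    (fun j => if a j = 0 then 0 else (c j)⁻¹) (by
      obtain ⟨j, hj⟩ := h0
      exact ⟨j, Finset.mem_univ _, by rw [if_neg hj]; exact inv_ne_zero (hc j hj).1⟩)
  have hj₀' : a j₀ ≠ 0 := by
    intro h
    exact hj₀ (by rw [if_pos h])
  refine ⟨j₀, hj₀', fun j i => ?_⟩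
  by_cases hj : a j = 0
  · rw [hj, mul_zero]; exact zero_mem _
  have h2 := hall j (Finset.mem_univ _)
  rw [if_neg hj₀', if_neg hj, inv_inv] at h2
  obtain ⟨hc0, hR0⟩ := hc j₀ hj₀'
  obtain ⟨hc1, hR1⟩ := hc j hj
  obtain ⟨y, hy, hR0⟩ := hR0 i
  obtain ⟨y', hy', hR1⟩ := hR1 i
  have e0 : algebraMap K F (c j₀) ≠ 0 := by simpa using hc0
  have e1 : algebraMap K F (c j) ≠ 0 := by simpa using hc1
  have h3 : (a j₀)⁻¹ * a j = algebraMap K F (c j₀ * (c j)⁻¹) *
      ((algebraMap K F (c j) * a j) * (algebraMap K F (c j₀) * a j₀)⁻¹) := by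
    rw [map_mul, map_inv₀]
    field_simp
  rw [h3]
  exact mul_mem (const_mem_O _ h2) (mul_mem (mem_O_of_R _ hR1) (inv_mem_of_R _ hR0 hy))

end Scale

/-- horizontally integral elements which are integral at all components are integral -/
theorem isIntegral_of_complete' {K κ F Ω : Type*} [Field K] [Field κ] [Field F] [Field Ω]
    [Algebra K F] [Algebra κ Ω] {A : ValuationSubring K} {π : A →+* κ} [IsLocalHom π] {ι : Type*}
    (P : ι → PreRed A π F Ω) {t : F} {tb : ι → Ω} (ht : ∀ i, (P i).R t (tb i))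
    (htr : ∀ i, Transcendental κ (tb i)) {J : Type*} [Fintype J] (y : J → F)
    (hy : ∀ j i, y j ∈ (P i).O)
    (hcomp : ∀ x : F, (∀ i, x ∈ (P i).O) →
      ∃ a : J → F, (∀ j, a j ∈ K⟮t⟯) ∧ (∀ j i, a j ∈ (P i).O) ∧ x = ∑ j, a j * y j)
    [Nonempty ι] (htK : Transcendental K t) {x : F} (hx : ∀ i, x ∈ (P i).O)
    (hxK : letI := polyAlg K t; IsIntegral K[X] x) : letI := pAlg A t; IsIntegral A[X] x := by
  classical
  obtain ⟨i₀⟩ := ‹Nonempty ι›
  let O := valL P ht htr i₀
  have hO : ∀ {a : K⟮t⟯}, a ∈ O ↔ (a : F) ∈ (P i₀).O := Iff.rfl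
  -- integrality over `O`
  have hint : IsIntegral O x := by
    let S : Subalgebra O F :=
      { carrier := {z | ∀ i, z ∈ (P i).O}
        mul_mem' := fun ha hb i => mul_mem (ha i) (hb i)
        add_mem' := fun ha hb i => add_mem (ha i) (hb i)
        algebraMap_mem' := fun a i =>
          mem_all_of_mem P ht htr (a : K⟮t⟯).2 (hO.1 a.2) i }
    refine IsIntegral.of_mem_of_fg S ?_ x hx
    refine ⟨Finset.univ.image y, le_antisymm ?_ ?_⟩
    · rw [Submodule.span_le]
      intro z hz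
      obtain ⟨j, -, rfl⟩ := Finset.mem_image.1 (Finset.mem_coe.1 hz)
      exact fun i => hy j i
    · intro z hz
      have hz' : ∀ i, z ∈ (P i).O := hz
      obtain ⟨a, haL, haO, rfl⟩ := hcomp _ hz'
      refine Submodule.sum_mem _ fun j _ => ?_
      have : a j * y j = (⟨⟨a j, haL j⟩, haO j i₀⟩ : O) • y j := by
        rw [Algebra.smul_def]; rfl
      rw [this]
      exact Submodule.smul_mem _ _ (Submodule.subset_span (by simp))
  have h1 : minpoly K⟮t⟯ x = (minpoly O x).map (algebraMap O K⟮t⟯) :=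
    minpoly.isIntegrallyClosed_eq_field_fractions K⟮t⟯ F hint
  letI := polyAlg K t
  letI := polyAlgAdj K t
  haveI := polyAlg_tower K t
  haveI := polyAlgAdj_tower K t
  haveI := polyAlg_tower_adj K t
  haveI := isFractionRing_adj K htK
  have h2 : minpoly K⟮t⟯ x = (minpoly K[X] x).map (algebraMap K[X] K⟮t⟯) :=
    minpoly.isIntegrallyClosed_eq_field_fractions K⟮t⟯ F hxK
  have h3 : minpoly K[X] x ∈ lifts (mapRingHom A.subtype) := by
    rw [lifts_iff_coeff_lifts]
    intro n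
    have h4 : aeval t ((minpoly K[X] x).coeff n) ∈ (P i₀).O := by
      have h5 := congrArg (fun p => ((p.coeff n : K⟮t⟯) : F)) (h2.symm.trans h1)
      simp only [coeff_map] at h5
      have h6 : ((algebraMap K[X] K⟮t⟯ ((minpoly K[X] x).coeff n) : K⟮t⟯) : F) =
          aeval t ((minpoly K[X] x).coeff n) := by
        have := IsScalarTower.algebraMap_apply K[X] K⟮t⟯ F ((minpoly K[X] x).coeff n)
        exact this.symm
      rw [h6] at h5
      rw [h5]
      exact ((minpoly O x).coeff n).2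
    obtain ⟨p', hp'⟩ := exists_of_aeval_mem (P i₀) (ht i₀) (htr i₀) h4
    exact ⟨p', hp'⟩
  obtain ⟨Q, hQ, -, hQm⟩ := lifts_and_natDegree_eq_and_monic h3 (minpoly.monic hxK)
  refine ⟨Q, hQm, ?_⟩
  have h7 := minpoly.aeval K[X] x
  rw [← hQ, aeval_def, eval₂_map] at h7
  have e : (pAlg A t).algebraMap = (algebraMap K[X] F).comp (mapRingHom A.subtype) := by
    refine Polynomial.ringHom_ext (fun a => ?_) ?_
    · change aeval t (C a) = aeval t ((C a : A[X]).map A.subtype)
      rw [map_C, aeval_C, aeval_C]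
      rfl
    · change aeval t (X : A[X]) = aeval t ((X : A[X]).map A.subtype)
      rw [map_X, aeval_X, aeval_X]
  change eval₂ (pAlg A t).algebraMap x Q = 0
  rw [e]
  exact h7

section Main

variable {t : F} {tb : ι → Ω} (ht : ∀ i, (P i).R t (tb i)) (htr : ∀ i, Transcendental κ (tb i))
  {ϖ : K} {J : Type*} [Fintype J] [DecidableEq ι] (y : J → F) (comp : J → ι)
  (hϖ : ∀ c : K, ∀ hc : c ∈ A, π ⟨c, hc⟩ = 0 → ϖ⁻¹ * c ∈ A)
  (hy : ∀ j i, y j ∈ (P i).O)
  (hfar : ∀ j i, i ≠ comp j → (algebraMap K F ϖ)⁻¹ * y j ∈ (P i).O)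
  (horth : ∀ i, ∀ a : J → F, (∀ j, a j ∈ K⟮t⟯) → (∀ j i', a j ∈ (P i').O) →
    (algebraMap K F ϖ)⁻¹ * ∑ j ∈ Finset.univ.filter (fun j => comp j = i), a j * y j ∈ (P i).O →
    ∀ j, comp j = i → (P i).R (a j) 0)

include hfar horth in
theorem orth_all (a : J → F) (ha : ∀ j, a j ∈ K⟮t⟯) (haO : ∀ j i', a j ∈ (P i').O)
    (h : ∀ i, (algebraMap K F ϖ)⁻¹ * ∑ j, a j * y j ∈ (P i).O) (j : J) :
    (P (comp j)).R (a j) 0 := by
  refine horth (comp j) a ha haO ?_ j rfl
  have h1 : (algebraMap K F ϖ)⁻¹ * ∑ j' ∈ Finset.univ.filter (fun j' => comp j' = comp j),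
      a j' * y j' = (algebraMap K F ϖ)⁻¹ * ∑ j', a j' * y j' -
        ∑ j' ∈ Finset.univ.filter (fun j' => ¬ comp j' = comp j),
          a j' * ((algebraMap K F ϖ)⁻¹ * y j') := by
    rw [← Finset.sum_filter_add_sum_filter_not Finset.univ (fun j' => comp j' = comp j)
      (fun j' => a j' * y j'), mul_add, eq_sub_iff_add_eq, add_right_inj, Finset.mul_sum]
    refine Finset.sum_congr rfl fun j' _ => ?_
    ring
  rw [h1]
  refine sub_mem (h _) (sum_mem fun j' hj' => ?_)
  have hne : comp j' ≠ comp j := (Finset.mem_filter.1 hj').2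
  exact mul_mem (haO _ _) (hfar j' _ (Ne.symm hne))

include ht htr hϖ hfar horth

theorem linearIndependent_fam : LinearIndependent K⟮t⟯ y := by
  rw [Fintype.linearIndependent_iff]
  intro g hg
  by_contra! hcon
  obtain ⟨j₀, hj₀, hall⟩ := exists_scale_fam P ht htr (fun j => (g j : F)) (fun j => (g j).2) (by
    obtain ⟨j, hj⟩ := hcon
    exact ⟨j, by simpa using hj⟩)
  have h1 := orth_all P y comp hfar horth (fun j => ((g j₀ : F))⁻¹ * (g j : F))
    (fun j => mul_mem (inv_mem (g j₀).2) (g j).2) hall (by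
      intro i
      have h2 : ∑ j, ((g j₀ : F))⁻¹ * (g j : F) * y j = 0 := by
        have h3 : ∑ j, ((g j₀ : F))⁻¹ * (g j : F) * y j = (g j₀ : F)⁻¹ * ∑ j, g j • y j := by
          rw [Finset.mul_sum]
          refine Finset.sum_congr rfl fun j _ => ?_
          rw [Algebra.smul_def, mul_assoc]
          rfl
        rw [h3, hg, mul_zero]
      rw [h2, mul_zero]
      exact zero_mem _) j₀
  rw [inv_mul_cancel₀ hj₀] at h1
  exact one_ne_zero ((P _).unique (P _).one h1)

/-- **Completeness**: elements integral at all components are combinations of the family. -/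
theorem complete [Nonempty J] (hcard : Fintype.card J = finrank K⟮t⟯ F) {x : F}
    (hx : ∀ i, x ∈ (P i).O) :
    ∃ a : J → F, (∀ j, a j ∈ K⟮t⟯) ∧ (∀ j i, a j ∈ (P i).O) ∧ x = ∑ j, a j * y j := by
  have hli := linearIndependent_fam P ht htr y comp hϖ hfar horth
  haveI : FiniteDimensional K⟮t⟯ F :=
    FiniteDimensional.of_finrank_pos (by rw [← hcard]; exact Fintype.card_pos)
  let B := basisOfLinearIndependentOfCardEqFinrank hli hcard
  have hB : ∀ j, B j = y j := fun j => by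
    rw [coe_basisOfLinearIndependentOfCardEqFinrank]
  have hxB : x = ∑ j, (B.repr x j : F) * y j := by
    conv_lhs => rw [← B.sum_repr x]
    refine Finset.sum_congr rfl fun j _ => ?_
    rw [hB, Algebra.smul_def]
    rfl
  refine ⟨fun j => (B.repr x j : F), fun j => (B.repr x j).2, ?_, hxB⟩
  by_contra! hcon
  obtain ⟨j₁, i₁, hj₁⟩ := hcon
  have hne : ∃ j, ((B.repr x j : K⟮t⟯) : F) ≠ 0 := by
    refine ⟨j₁, ?_⟩
    intro h
    apply hj₁
    rw [h]; exact zero_mem _
  obtain ⟨j₀, hj₀, hall⟩ := exists_scale_fam P ht htr (fun j => ((B.repr x j : K⟮t⟯) : F))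
    (fun j => (B.repr x j).2) hne
  set b : F := ((B.repr x j₀ : K⟮t⟯) : F) with hb
  have hbL : b ∈ K⟮t⟯ := (B.repr x j₀).2
  have hbO : b ∉ (P i₁).O := by
    intro h
    apply hj₁
    have : ((B.repr x j₁ : K⟮t⟯) : F) = b * (b⁻¹ * ((B.repr x j₁ : K⟮t⟯) : F)) := by
      rw [← mul_assoc, mul_inv_cancel₀ hj₀, one_mul]
    rw [this]
    exact mul_mem h (hall j₁ i₁)
  obtain ⟨c, hc0, ⟨hcA, hcπ⟩, hR⟩ := exists_of_not_mem P ht htr hbL hbO
  have h1 := orth_all P y comp hfar horth (fun j => b⁻¹ * ((B.repr x j : K⟮t⟯) : F))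
    (fun j => mul_mem (inv_mem hbL) (B.repr x j).2) hall (by
      intro i
      have h2 : ∑ j, b⁻¹ * ((B.repr x j : K⟮t⟯) : F) * y j = b⁻¹ * x := by
        conv_rhs => rw [hxB]
        rw [Finset.mul_sum]
        refine Finset.sum_congr rfl fun j _ => ?_
        rw [mul_assoc]
      rw [h2]
      obtain ⟨z, hz, hRz⟩ := hR i
      have hc' : algebraMap K F c ≠ 0 := by simpa using hc0
      have h3 : (algebraMap K F ϖ)⁻¹ * (b⁻¹ * x) =
          algebraMap K F (ϖ⁻¹ * c) * ((algebraMap K F c * b)⁻¹ * x) := by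
        rw [map_mul, map_inv₀]
        field_simp
      rw [h3]
      exact mul_mem (const_mem_O _ (hϖ c hcA hcπ)) (mul_mem (inv_mem_of_R _ hRz hz) (hx i))) j₀
  rw [← hb, inv_mul_cancel₀ hj₀] at h1
  exact one_ne_zero ((P _).unique (P _).one h1)

include hy in
/-- horizontally integral elements which are integral at all components are integral -/
theorem isIntegral_of_complete [Nonempty J] [Nonempty ι] (htK : Transcendental K t)
    (hcard : Fintype.card J = finrank K⟮t⟯ F) {x : F} (hx : ∀ i, x ∈ (P i).O)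
    (hxK : letI := polyAlg K t; IsIntegral K[X] x) : letI := pAlg A t; IsIntegral A[X] x :=
  isIntegral_of_complete' P ht htr y hy
    (fun _ hz => complete P ht htr y comp hϖ hfar horth hcard hz) htK hx hxK

end Main

end Fermat.Agent.Carayol
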