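import Fermat.Agent.Carayol.Complete

/-!
# Completeness for components with tame multiplicities
-/

set_option autoImplicit false
set_option linter.unusedSectionVars false
set_option linter.style.haveILetI false

noncomputable section

namespace Fermat.Agent.Carayol

open Fermat.Agent.GoodRed Polynomial IntermediateField Module

variable {K κ F Ω : Type*} [Field K] [Field κ] [Field F] [Field Ω] [Algebra K F] [Algebra κ Ω]
  {A : ValuationSubring K} {π : A →+* κ} [IsLocalHom π] {ι : Type*}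

section One

variable (P : PreRed A π F Ω)

theorem R_pow {x : F} {y : Ω} (h : P.R x y) (n : ℕ) : P.R (x ^ n) (y ^ n) := by
  induction n with
  | zero => rw [pow_zero, pow_zero]; exact P.one
  | succ n ih => rw [pow_succ, pow_succ]; exact P.mul ih h

theorem R_zero_mul {x z : F} (h : P.R x 0) (hz : z ∈ P.O) : P.R (x * z) 0 := by
  obtain ⟨y, hy⟩ := hz
  have := P.mul h hy
  rwa [zero_mul] at this

theorem R_sub {x x' : F} {y y' : Ω} (h : P.R x y) (h' : P.R x' y') : P.R (x - x') (y - y') := by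
  rw [sub_eq_add_neg, sub_eq_add_neg]
  exact P.add h (P.neg h')

/-- extraction of coefficients -/
theorem R_coeff {x ϖ' : F} {e : ℕ} (hϖ0 : ϖ' ≠ 0) (hx : P.R x 0)
    (hxe : ϖ' * (x ^ e)⁻¹ ∈ P.O) {c : ℕ → F} (hc : ∀ n, c n ∈ P.O)
    (hc0 : ∀ n, P.R (c n) 0 → ϖ'⁻¹ * c n ∈ P.O) (hx0 : x ≠ 0)
    (hsum : ϖ'⁻¹ * ∑ n ∈ Finset.range e, x ^ n * c n ∈ P.O) : ∀ n < e, P.R (c n) 0 := by
  have hxO : x ∈ P.O := ⟨0, hx⟩
  intro n
  induction n using Nat.strong_induction_on with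
  | _ n ih =>
    intro hn
    have h1 : ϖ'⁻¹ * ∑ m ∈ Finset.range n, x ^ m * c m ∈ P.O := by
      rw [Finset.mul_sum]
      refine sum_mem fun m hm => ?_
      have h2 := hc0 m (ih m (Finset.mem_range.1 hm) ((Finset.mem_range.1 hm).trans hn))
      have h3 : ϖ'⁻¹ * (x ^ m * c m) = x ^ m * (ϖ'⁻¹ * c m) := by ring
      rw [h3]
      exact mul_mem (pow_mem hxO m) h2
    obtain ⟨d, rfl⟩ : ∃ d, e = n + (d + 1) := ⟨e - n - 1, by omega⟩
    have h2 : ∑ m ∈ Finset.range (n + (d + 1)), x ^ m * c m =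
        ∑ m ∈ Finset.range n, x ^ m * c m +
          x ^ n * (c n + x * ∑ m ∈ Finset.range d, x ^ m * c (n + (m + 1))) := by
      rw [Finset.sum_range_add, Finset.sum_range_succ', mul_add, Finset.mul_sum, Finset.mul_sum,
        add_comm (x ^ n * c n)]
      congr 2
      refine Finset.sum_congr rfl fun m _ => ?_
      rw [pow_add, pow_succ]; ring
    rw [h2, mul_add] at hsum
    have h3 := (P.O.add_mem_cancel_left h1).1 hsum
    set D := ∑ m ∈ Finset.range d, x ^ m * c (n + (m + 1)) with hD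
    have hDO : D ∈ P.O := sum_mem fun m _ => mul_mem (pow_mem hxO m) (hc _)
    have h4 : P.R (c n + x * D) 0 := by
      have h5 : c n + x * D = x * (x ^ d * (ϖ' * (x ^ (n + (d + 1)))⁻¹) *
          (ϖ'⁻¹ * (x ^ n * (c n + x * D)))) := by
        have h6 : x ^ (n + (d + 1)) = x ^ n * x ^ d * x := by rw [pow_add, pow_succ]; ring
        rw [h6]
        field_simp
      rw [h5]
      exact R_zero_mul P hx (mul_mem (mul_mem (pow_mem hxO _) hxe) h3)
    have h7 := R_sub P h4 (R_zero_mul P hx hDO)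
    rwa [add_sub_cancel_right, sub_zero] at h7

end One

variable (P : ι → PreRed A π F Ω) {t : F} {tb : ι → Ω}

section Adj

variable (ht : ∀ i, (P i).R t (tb i)) (htr : ∀ i, Transcendental κ (tb i))

include ht htr

/-- reductions of elements of `K(t)` -/
theorem adj_red {x : F} (hx : x ∈ K⟮t⟯) {i₀ : ι} (h : x ∈ (P i₀).O) :
    ∃ (c : A) (f g : κ[X]), f ≠ 0 ∧ g ≠ 0 ∧
      (∀ i, (P i).R x (algebraMap κ Ω (π c) * (aeval (tb i) f / aeval (tb i) g))) ∧
      ∃ x' : F, (∀ i, x' ∈ (P i).O) ∧ x = algebraMap K F c * x' := by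
  rcases eq_or_ne x 0 with rfl | hx0
  · refine ⟨0, 1, 1, one_ne_zero, one_ne_zero, fun i => ?_, 0, fun i => zero_mem _, by simp⟩
    rw [map_zero, map_zero, zero_mul]
    exact (P i).zero
  rw [mem_adjoin_simple_iff] at hx
  obtain ⟨r, s, rfl⟩ := hx
  have hr0 : r ≠ 0 := by rintro rfl; simp at hx0
  have hs0 : s ≠ 0 := by rintro rfl; simp at hx0
  obtain ⟨c, f, hc, hf, hf0⟩ := GaussRed.exists_scale_poly (π := π) r hr0
  obtain ⟨d, g, hd, hg, hg0⟩ := GaussRed.exists_scale_poly (π := π) s hs0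
  have hR : ∀ i, (P i).R (aeval t (f.map A.subtype) / aeval t (g.map A.subtype))
      (aeval (tb i) (f.map π) / aeval (tb i) (g.map π)) := by
    intro i
    have h1 := (P i).R_aeval (ht i) f
    have h2 := (P i).R_aeval (ht i) g
    have h4 : aeval (tb i) (g.map π) ≠ 0 := fun h => htr i ⟨_, hg0, h⟩
    rw [div_eq_mul_inv, div_eq_mul_inv]
    exact (P i).mul h1 ((P i).inv h2 h4)
  have hx1 : aeval t r / aeval t s = algebraMap K F (c⁻¹ * d) *
      (aeval t (f.map A.subtype) / aeval t (g.map A.subtype)) := by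
    rw [hf, hg, map_mul (aeval t), map_mul (aeval t), aeval_C, aeval_C, map_mul, map_inv₀]
    have hc' : algebraMap K F c ≠ 0 := by simpa using hc
    have hd' : algebraMap K F d ≠ 0 := by simpa using hd
    have hs' : aeval t s ≠ 0 := fun h => hx0 (by rw [h, div_zero])
    field_simp
  have hcd : c⁻¹ * d ∈ A := by
    apply mem_A_of_const_mem (P i₀)
    have h1 := (P i₀).inv (hR i₀) (div_ne_zero (fun h => htr i₀ ⟨_, hf0, h⟩)
      (fun h => htr i₀ ⟨_, hg0, h⟩))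
    have h2 : algebraMap K F (c⁻¹ * d) = aeval t r / aeval t s *
        (aeval t (f.map A.subtype) / aeval t (g.map A.subtype))⁻¹ := by
      rw [hx1, mul_assoc, mul_inv_cancel₀, mul_one]
      intro h0
      rw [h0, mul_zero] at hx1
      exact hx0 hx1
    rw [h2]
    exact mul_mem h ⟨_, h1⟩
  refine ⟨⟨_, hcd⟩, f.map π, g.map π, hf0, hg0, fun i => ?_, _, fun i => ⟨_, hR i⟩, hx1⟩
  rw [hx1]
  exact (P i).mul ((P i).const ⟨_, hcd⟩) (hR i)

theorem adj_zero {ϖ : K} (hϖ : ∀ c : K, ∀ hc : c ∈ A, π ⟨c, hc⟩ = 0 → ϖ⁻¹ * c ∈ A) {x : F}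
    (hx : x ∈ K⟮t⟯) {i₀ : ι} (h : (P i₀).R x 0) (i : ι) :
    (algebraMap K F ϖ)⁻¹ * x ∈ (P i).O := by
  obtain ⟨c, f, g, hf, hg, hR, x', hx', rfl⟩ := adj_red P ht htr hx ⟨0, h⟩
  have h1 := (P i₀).unique (hR i₀) h
  have h2 : π c = 0 := by
    have h3 : aeval (tb i₀) f / aeval (tb i₀) g ≠ 0 :=
      div_ne_zero (fun h => htr i₀ ⟨_, hf, h⟩) (fun h => htr i₀ ⟨_, hg, h⟩)
    have h4 := (mul_eq_zero.1 h1).resolve_right h3
    exact (map_eq_zero (algebraMap κ Ω)).1 h4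
  have h5 := hϖ c c.2 h2
  have h6 : (algebraMap K F ϖ)⁻¹ * (algebraMap K F c * x') = algebraMap K F (ϖ⁻¹ * c) * x' := by
    rw [map_mul, map_inv₀]; ring
  rw [h6]
  exact mul_mem (const_mem_O _ h5) (hx' i)

end Adj

/-- components with tame multiplicities -/
structure Comps (P : ι → PreRed A π F Ω) (t : F) (tb : ι → Ω) (ϖ : K) where
  ht : ∀ i, (P i).R t (tb i)
  htr : ∀ i, Transcendental κ (tb i)
  hϖ0 : ϖ ≠ 0
  hϖ : ∀ c : K, ∀ hc : c ∈ A, π ⟨c, hc⟩ = 0 → ϖ⁻¹ * c ∈ A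
  hϖR : ∀ i, (P i).R (algebraMap K F ϖ) 0
  hpow : ∀ i, ∀ z : F, ∃ N : ℕ, algebraMap K F ϖ ^ N * z ∈ (P i).O
  e : ι → ℕ
  e_pos : ∀ i, 0 < e i
  x : ι → F
  x_ne : ∀ i, x i ≠ 0
  x_mem : ∀ i k, x i ∈ (P k).O
  x_R : ∀ i, (P i).R (x i) 0
  x_e : ∀ i, algebraMap K F ϖ * (x i ^ e i)⁻¹ ∈ (P i).O
  s : ι → F
  sb : ι → Ω
  s_R : ∀ i, (P i).R (s i) (sb i)
  sb_ne : ∀ i, sb i ≠ 0
  s_far : ∀ i k, k ≠ i → (algebraMap K F ϖ)⁻¹ * s i ∈ (P k).O
  β : ι → Type
  [βfin : ∀ i, Fintype (β i)]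
  b : ∀ i, β i → F
  bb : ∀ i, β i → Ω
  b_mem : ∀ i n k, b i n ∈ (P k).O
  b_R : ∀ i n, (P i).R (b i n) (bb i n)
  b_li : ∀ i, LinearIndependent κ⟮tb i⟯ (bb i)

namespace Comps

variable {P} {ϖ : K} (D : Comps P t tb ϖ)

attribute [instance] Comps.βfin

/-- the index set -/
abbrev J : Type _ := Σ i : ι, Fin (D.e i) × D.β i

/-- the family -/
def y (j : D.J) : F := D.s j.1 * D.x j.1 ^ (j.2.1 : ℕ) * D.b j.1 j.2.2

theorem s_mem (i k : ι) : D.s i ∈ (P k).O := by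
  by_cases h : k = i
  · subst h
    exact ⟨_, D.s_R k⟩
  · have h1 : D.s i = algebraMap K F ϖ * ((algebraMap K F ϖ)⁻¹ * D.s i) := by
      rw [← mul_assoc, mul_inv_cancel₀, one_mul]
      simpa using D.hϖ0
    rw [h1]
    exact mul_mem ⟨_, D.hϖR k⟩ (D.s_far i k h)

theorem y_mem (j : D.J) (k : ι) : D.y j ∈ (P k).O :=
  mul_mem (mul_mem (D.s_mem _ _) (pow_mem (D.x_mem _ _) _)) (D.b_mem _ _ _)

theorem y_far (j : D.J) (k : ι) (h : k ≠ j.1) : (algebraMap K F ϖ)⁻¹ * D.y j ∈ (P k).O := by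
  have h1 : (algebraMap K F ϖ)⁻¹ * D.y j =
      ((algebraMap K F ϖ)⁻¹ * D.s j.1) * D.x j.1 ^ (j.2.1 : ℕ) * D.b j.1 j.2.2 := by
    rw [y]; ring
  rw [h1]
  exact mul_mem (mul_mem (D.s_far _ _ h) (pow_mem (D.x_mem _ _) _)) (D.b_mem _ _ _)

variable [Fintype ι] [DecidableEq ι]

theorem sum_filter (i : ι) (a : D.J → F) :
    ∑ j ∈ Finset.univ.filter (fun j : D.J => j.1 = i), a j =
      ∑ p : Fin (D.e i) × D.β i, a ⟨i, p⟩ := by
  classical
  rw [Finset.sum_filter, Fintype.sum_sigma, Finset.sum_eq_single i]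
  · refine Finset.sum_congr rfl fun p _ => by simp
  · intro i' _ h
    refine Finset.sum_eq_zero fun p _ => by simp [h]
  · simp

/-- independence of reductions -/
theorem coeff_zero (i : ι) (a : D.β i → F) (ha : ∀ n, a n ∈ K⟮t⟯) (haO : ∀ n, a n ∈ (P i).O)
    (h : (P i).R (∑ n, a n * D.b i n) 0) (n : D.β i) : (P i).R (a n) 0 := by
  have h1 : ∀ n, ∃ y : κ⟮tb i⟯, (P i).R (a n) y := by
    intro n
    obtain ⟨c, f, g, hf, hg, hR, -⟩ := adj_red P D.ht D.htr (ha n) (haO n)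
    refine ⟨⟨_, ?_⟩, hR i⟩
    refine mul_mem (IntermediateField.algebraMap_mem _ _) (div_mem ?_ ?_)
    · exact (mem_adjoin_simple_iff κ _).2 ⟨f, 1, by simp⟩
    · exact (mem_adjoin_simple_iff κ _).2 ⟨g, 1, by simp⟩
  choose y hy using h1
  have h2 : (P i).R (∑ n, a n * D.b i n) (∑ n, (y n : Ω) * D.bb i n) :=
    (P i).sum _ fun n _ => (P i).mul (hy n) (D.b_R i n)
  have h3 := (P i).unique h2 h
  have h4 := Fintype.linearIndependent_iff.1 (D.b_li i) y (by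
    rw [← h3]
    refine Finset.sum_congr rfl fun n _ => ?_
    rw [Algebra.smul_def]; rfl) n
  have := hy n
  rwa [h4] at this

theorem y_orth (i : ι) (a : D.J → F) (ha : ∀ j, a j ∈ K⟮t⟯) (haO : ∀ j i', a j ∈ (P i').O)
    (h : (algebraMap K F ϖ)⁻¹ * ∑ j ∈ Finset.univ.filter (fun j : D.J => j.1 = i),
      a j * D.y j ∈ (P i).O) (j : D.J) (hj : j.1 = i) : (P i).R (a j) 0 := by
  classical
  have hϖF : algebraMap K F ϖ ≠ 0 := by simpa using D.hϖ0
  rw [D.sum_filter i (fun j => a j * D.y j)] at h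
  let c : ℕ → F := fun n => if h : n < D.e i then ∑ k, a ⟨i, ⟨n, h⟩, k⟩ * D.b i k else 0
  have hs0 : D.s i ≠ 0 := ne_zero_of_R _ (D.s_R i) (D.sb_ne i)
  have h1 : ∑ p : Fin (D.e i) × D.β i, a ⟨i, p⟩ * D.y ⟨i, p⟩ =
      D.s i * ∑ n ∈ Finset.range (D.e i), D.x i ^ n * c n := by
    rw [Fintype.sum_prod_type, ← Fin.sum_univ_eq_sum_range (fun n => D.x i ^ n * c n),
      Finset.mul_sum]
    refine Finset.sum_congr rfl fun n _ => ?_
    have : c n = ∑ k, a ⟨i, n, k⟩ * D.b i k := by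
      simp only [c, n.2, dif_pos]
    rw [this, Finset.mul_sum, Finset.mul_sum]
    refine Finset.sum_congr rfl fun k _ => ?_
    rw [y]; ring
  rw [h1] at h
  have h2 : (algebraMap K F ϖ)⁻¹ * ∑ n ∈ Finset.range (D.e i), D.x i ^ n * c n ∈ (P i).O := by
    have h3 : (algebraMap K F ϖ)⁻¹ * ∑ n ∈ Finset.range (D.e i), D.x i ^ n * c n =
        (D.s i)⁻¹ * ((algebraMap K F ϖ)⁻¹ *
          (D.s i * ∑ n ∈ Finset.range (D.e i), D.x i ^ n * c n)) := by
      field_simp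
    rw [h3]
    exact mul_mem (inv_mem_of_R _ (D.s_R i) (D.sb_ne i)) h
  have hcO : ∀ n, c n ∈ (P i).O := by
    intro n
    by_cases hn : n < D.e i
    · simp only [c, hn, dif_pos]
      exact sum_mem fun k _ => mul_mem (haO _ _) (D.b_mem _ _ _)
    · simp only [c, hn, dif_neg, not_false_eq_true]
      exact zero_mem _
  have hc : ∀ n, (P i).R (c n) 0 → ∀ hn : n < D.e i, ∀ k, (P i).R (a ⟨i, ⟨n, hn⟩, k⟩) 0 := by
    intro n hR hn k
    simp only [c, hn, dif_pos] at hR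
    exact D.coeff_zero i (fun k => a ⟨i, ⟨n, hn⟩, k⟩) (fun k => ha _) (fun k => haO _ _) hR k
  have h5 := R_coeff (P i) hϖF (D.x_R i) (D.x_e i) hcO (fun n hR => by
    by_cases hn : n < D.e i
    · have h6 := hc n hR hn
      simp only [c, hn, dif_pos]
      rw [Finset.mul_sum]
      refine sum_mem fun k _ => ?_
      rw [← mul_assoc]
      exact mul_mem (adj_zero P D.ht D.htr D.hϖ (ha _) (h6 k) i) (D.b_mem _ _ _)
    · simp only [c, hn, dif_neg, not_false_eq_true, mul_zero]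
      exact zero_mem _) (D.x_ne i) h2
  obtain ⟨i', ⟨n, hn⟩, k⟩ := j
  change i' = i at hj
  subst hj
  exact hc n (h5 n hn) hn k

variable (hcard : Fintype.card D.J = finrank K⟮t⟯ F)

include hcard in
theorem complete [Nonempty D.J] {z : F} (hz : ∀ i, z ∈ (P i).O) :
    ∃ a : D.J → F, (∀ j, a j ∈ K⟮t⟯) ∧ (∀ j i, a j ∈ (P i).O) ∧ z = ∑ j, a j * D.y j :=
  Carayol.complete P D.ht D.htr D.y (fun j => j.1) D.hϖ (fun j k h => D.y_far j k h)
    (fun i a ha haO h j hj => D.y_orth i a ha haO h j hj) hcard hz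

include hcard in
theorem isIntegral [Nonempty D.J] [Nonempty ι] (htK : Transcendental K t) {z : F}
    (hz : ∀ i, z ∈ (P i).O) (hzK : letI := polyAlg K t; IsIntegral K[X] z) :
    letI := pAlg A t; IsIntegral A[X] z :=
  isIntegral_of_complete P D.ht D.htr D.y (fun j => j.1) D.hϖ D.y_mem
    (fun j k h => D.y_far j k h)
    (fun i a ha haO h j hj => D.y_orth i a ha haO h j hj) htK hcard hz hzK

include hcard in
theorem isIntegral' [Nonempty D.J] [Nonempty ι] {t' : F} (ht' : K⟮t'⟯ = K⟮t⟯) {tb' : ι → Ω}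
    (hR : ∀ i, (P i).R t' (tb' i)) (htr' : ∀ i, Transcendental κ (tb' i))
    (htK : Transcendental K t') {z : F}
    (hz : ∀ i, z ∈ (P i).O) (hzK : letI := polyAlg K t'; IsIntegral K[X] z) :
    letI := pAlg A t'; IsIntegral A[X] z :=
  isIntegral_of_complete' P hR htr' D.y D.y_mem
    (fun x hx => by rw [ht']; exact D.complete hcard hx) htK hz hzK

include hcard in
theorem exists_expansion [Nonempty D.J] {i : ι} {z : F} (hz : z ∈ (P i).O) :
    ∃ (N : ℕ) (a : D.J → F), (∀ j, a j ∈ K⟮t⟯) ∧ (∀ j i, a j ∈ (P i).O) ∧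
      D.s i ^ N * z = ∑ j, a j * D.y j := by
  have hϖF : algebraMap K F ϖ ≠ 0 := by simpa using D.hϖ0
  choose N hN using fun k => D.hpow k z
  obtain ⟨N₀, hN₀⟩ : ∃ N₀, ∀ k, N k ≤ N₀ := ⟨Finset.univ.sup N, fun k => Finset.le_sup (Finset.mem_univ k)⟩
  obtain ⟨a, h1, h2, h3⟩ := D.complete hcard (z := D.s i ^ N₀ * z) (by
    intro k
    by_cases h : k = i
    · subst h
      exact mul_mem (pow_mem (D.s_mem _ _) _) hz
    · have h1 : D.s i ^ N₀ * z = ((algebraMap K F ϖ)⁻¹ * D.s i) ^ N₀ *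
          algebraMap K F ϖ ^ (N₀ - N k) * (algebraMap K F ϖ ^ (N k) * z) := by
        have h4 : algebraMap K F ϖ ^ N₀ = algebraMap K F ϖ ^ (N₀ - N k) *
            algebraMap K F ϖ ^ (N k) := by
          rw [← pow_add, Nat.sub_add_cancel (hN₀ k)]
        have h5 : ((algebraMap K F ϖ)⁻¹ * D.s i) ^ N₀ * algebraMap K F ϖ ^ N₀ = D.s i ^ N₀ := by
          rw [← mul_pow]; congr 1; field_simp
        calc D.s i ^ N₀ * z = ((algebraMap K F ϖ)⁻¹ * D.s i) ^ N₀ * algebraMap K F ϖ ^ N₀ * z := by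
              rw [h5]
          _ = _ := by rw [h4]; ring
      rw [h1]
      have h6 : algebraMap K F ϖ ∈ (P k).O := ⟨_, D.hϖR k⟩
      exact mul_mem (mul_mem (pow_mem (D.s_far i k h) _) (pow_mem h6 _)) (hN k))
  exact ⟨N₀, a, h1, h2, h3⟩

include hcard in
/-- the residue field of a component -/
theorem res_mem [Nonempty D.J] {i : ι} {E : IntermediateField κ Ω} (htE : tb i ∈ E)
    (hsE : D.sb i ∈ E)
    (hbE : ∀ n, D.bb i n ∈ E) {z : F} {y : Ω} (hz : (P i).R z y) : y ∈ E := by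
  obtain ⟨N, a, ha, haO, hza⟩ := D.exists_expansion hcard (i := i) (z := z) ⟨y, hz⟩
  have h1 : ∀ j, ∃ w ∈ E, (P i).R (a j * D.y j) w := by
    intro j
    by_cases hj : i = j.1
    · obtain ⟨i', n, k⟩ := j
      change i = i' at hj
      subst hj
      obtain ⟨c, f, g, hf, hg, hR, -⟩ := adj_red P D.ht D.htr (ha ⟨i, n, k⟩) (haO _ i)
      have hle : κ⟮tb i⟯ ≤ E := by
        rw [IntermediateField.adjoin_simple_le_iff]; exact htE
      refine ⟨_, ?_, (P i).mul (hR i) ((P i).mul ((P i).mul (D.s_R i) (R_pow _ (D.x_R i) n))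
        (D.b_R i k))⟩
      refine mul_mem (hle (mul_mem (IntermediateField.algebraMap_mem _ _) (div_mem ?_ ?_)))
        (mul_mem (mul_mem hsE (pow_mem (zero_mem _) _)) (hbE k))
      · exact (mem_adjoin_simple_iff κ _).2 ⟨f, 1, by simp⟩
      · exact (mem_adjoin_simple_iff κ _).2 ⟨g, 1, by simp⟩
    · refine ⟨0, zero_mem _, ?_⟩
      have h2 : a j * D.y j = algebraMap K F ϖ * (a j * ((algebraMap K F ϖ)⁻¹ * D.y j)) := by
        have hϖF : algebraMap K F ϖ ≠ 0 := by simpa using D.hϖ0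
        field_simp
      rw [h2]
      exact R_zero_mul _ (D.hϖR i) (mul_mem (haO j i) (D.y_far j i hj))
  choose w hwE hw using h1
  have h2 : (P i).R (D.s i ^ N * z) (∑ j, w j) := by
    rw [hza]
    exact (P i).sum _ fun j _ => hw j
  have h3 := (P i).unique ((P i).mul (R_pow _ (D.s_R i) N) hz) h2
  have h4 : y = (D.sb i ^ N)⁻¹ * ∑ j, w j := by
    rw [← h3, ← mul_assoc, inv_mul_cancel₀ (pow_ne_zero _ (D.sb_ne i)), one_mul]
  rw [h4]
  exact mul_mem (inv_mem (pow_mem hsE _)) (sum_mem fun j _ => hwE j)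

include hcard in
/-- `x i` is a uniformizer -/
theorem div_mem_of_R_zero [Nonempty D.J] {i : ι} {z : F} (hz : (P i).R z 0) :
    (D.x i)⁻¹ * z ∈ (P i).O := by
  obtain ⟨N, a, ha, haO, hza⟩ := D.exists_expansion hcard (i := i) (z := z) ⟨0, hz⟩
  have hϖF : algebraMap K F ϖ ≠ 0 := by simpa using D.hϖ0
  have hxϖ : (D.x i)⁻¹ * algebraMap K F ϖ ∈ (P i).O := by
    obtain ⟨e, he⟩ := Nat.exists_eq_succ_of_ne_zero (D.e_pos i).ne'
    have h1 : (D.x i)⁻¹ * algebraMap K F ϖ = D.x i ^ e * (algebraMap K F ϖ * (D.x i ^ D.e i)⁻¹) := by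
      have := D.x_ne i
      rw [he, pow_succ]
      field_simp
    rw [h1]
    exact mul_mem (pow_mem (D.x_mem _ _) _) (D.x_e i)
  have hs0 : D.s i ≠ 0 := ne_zero_of_R _ (D.s_R i) (D.sb_ne i)
  -- the far terms
  have hfar : ∀ j : D.J, i ≠ j.1 → (D.x i)⁻¹ * (a j * D.y j) ∈ (P i).O := by
    intro j hj
    have h2 : (D.x i)⁻¹ * (a j * D.y j) =
        ((D.x i)⁻¹ * algebraMap K F ϖ) * (a j * ((algebraMap K F ϖ)⁻¹ * D.y j)) := by
      field_simp
    rw [h2]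
    exact mul_mem hxϖ (mul_mem (haO j i) (D.y_far j i hj))
  have hR : ∀ j : D.J, i ≠ j.1 → (P i).R (a j * D.y j) 0 := by
    intro j hj
    have h2 : a j * D.y j = D.x i * ((D.x i)⁻¹ * (a j * D.y j)) := by
      have := D.x_ne i
      field_simp
    rw [h2]
    exact R_zero_mul _ (D.x_R i) (hfar j hj)
  -- the near terms with positive exponent
  have hpos : ∀ (n : Fin (D.e i)) (k : D.β i), (n : ℕ) ≠ 0 →
      (D.x i)⁻¹ * (a ⟨i, n, k⟩ * D.y ⟨i, n, k⟩) ∈ (P i).O := by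
    intro n k hn
    obtain ⟨m, hm⟩ := Nat.exists_eq_succ_of_ne_zero hn
    have h2 : (D.x i)⁻¹ * (a ⟨i, n, k⟩ * D.y ⟨i, n, k⟩) =
        a ⟨i, n, k⟩ * (D.s i * D.x i ^ m * D.b i k) := by
      have := D.x_ne i
      rw [y]
      simp only
      rw [hm, pow_succ]
      field_simp
    rw [h2]
    exact mul_mem (haO _ _) (mul_mem (mul_mem (D.s_mem _ _) (pow_mem (D.x_mem _ _) _))
      (D.b_mem _ _ _))
  let n₀ : Fin (D.e i) := ⟨0, D.e_pos i⟩
  have hsplit : ∑ j, a j * D.y j = ∑ j ∈ Finset.univ.filter (fun j : D.J => ¬ j.1 = i), a j * D.y j +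
      (∑ k, a ⟨i, n₀, k⟩ * D.y ⟨i, n₀, k⟩ +
        ∑ n ∈ Finset.univ.erase n₀, ∑ k, a ⟨i, n, k⟩ * D.y ⟨i, n, k⟩) := by
    rw [Finset.add_sum_erase _ (fun n => ∑ k, a ⟨i, n, k⟩ * D.y ⟨i, n, k⟩) (Finset.mem_univ n₀),
      ← Fintype.sum_prod_type (fun p : Fin (D.e i) × D.β i => a ⟨i, p⟩ * D.y ⟨i, p⟩),
      ← D.sum_filter i (fun j => a j * D.y j), add_comm,
      Finset.sum_filter_add_sum_filter_not]
  have hzero : ∀ k, (P i).R (a ⟨i, n₀, k⟩) 0 := by
    have h1 : (P i).R (∑ k, a ⟨i, n₀, k⟩ * D.y ⟨i, n₀, k⟩) 0 := by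
      have h2 : ∑ k, a ⟨i, n₀, k⟩ * D.y ⟨i, n₀, k⟩ = D.s i ^ N * z -
          (∑ j ∈ Finset.univ.filter (fun j : D.J => ¬ j.1 = i), a j * D.y j) -
          (∑ n ∈ Finset.univ.erase n₀, ∑ k, a ⟨i, n, k⟩ * D.y ⟨i, n, k⟩) := by
        rw [hza, hsplit]; ring
      rw [h2]
      have h3 : (P i).R (D.s i ^ N * z) 0 := by
        rw [mul_comm]
        exact R_zero_mul _ hz (pow_mem (D.s_mem _ _) _)
      have h4 : (P i).R (∑ j ∈ Finset.univ.filter (fun j : D.J => ¬ j.1 = i), a j * D.y j) 0 := by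
        have := (P i).sum (Finset.univ.filter (fun j : D.J => ¬ j.1 = i))
          (x := fun j => a j * D.y j) (y := fun _ => 0)
          (fun j hj => hR j (Ne.symm (Finset.mem_filter.1 hj).2))
        rwa [Finset.sum_const_zero] at this
      have h5 : (P i).R (∑ n ∈ Finset.univ.erase n₀, ∑ k, a ⟨i, n, k⟩ * D.y ⟨i, n, k⟩) 0 := by
        have := (P i).sum (Finset.univ.erase n₀)
          (x := fun n => ∑ k, a ⟨i, n, k⟩ * D.y ⟨i, n, k⟩) (y := fun _ => 0) (fun n hn => by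
            have := (P i).sum Finset.univ
              (x := fun k => a ⟨i, n, k⟩ * D.y ⟨i, n, k⟩) (y := fun _ => 0) (fun k _ => by
                have hn' : (n : ℕ) ≠ 0 := by
                  intro h0
                  exact (Finset.mem_erase.1 hn).1 (Fin.ext h0)
                have h6 : a ⟨i, n, k⟩ * D.y ⟨i, n, k⟩ =
                    D.x i * ((D.x i)⁻¹ * (a ⟨i, n, k⟩ * D.y ⟨i, n, k⟩)) := by
                  have := D.x_ne i
                  field_simp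
                rw [h6]
                exact R_zero_mul _ (D.x_R i) (hpos n k hn'))
            rwa [Finset.sum_const_zero] at this)
        rwa [Finset.sum_const_zero] at this
      have := R_sub _ (R_sub _ h3 h4) h5
      rwa [sub_zero, sub_zero] at this
    have h2 : (P i).R (∑ k, a ⟨i, n₀, k⟩ * D.b i k) 0 := by
      have h3 : ∑ k, a ⟨i, n₀, k⟩ * D.b i k =
          (∑ k, a ⟨i, n₀, k⟩ * D.y ⟨i, n₀, k⟩) * (D.s i)⁻¹ := by
        rw [Finset.sum_mul]
        refine Finset.sum_congr rfl fun k _ => ?_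
        rw [y]
        change _ = a ⟨i, n₀, k⟩ * (D.s i * D.x i ^ 0 * D.b i k) * (D.s i)⁻¹
        rw [pow_zero]
        field_simp
      rw [h3]
      exact R_zero_mul _ h1 (inv_mem_of_R _ (D.s_R i) (D.sb_ne i))
    exact D.coeff_zero i (fun k => a ⟨i, n₀, k⟩) (fun k => ha _) (fun k => haO _ _) h2
  have hfin : (D.x i)⁻¹ * (D.s i ^ N * z) ∈ (P i).O := by
    rw [hza, hsplit, mul_add, mul_add, Finset.mul_sum, Finset.mul_sum, Finset.mul_sum]
    refine add_mem (sum_mem fun j hj => hfar j (Ne.symm (Finset.mem_filter.1 hj).2))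
      (add_mem (sum_mem fun k _ => ?_) (sum_mem fun n hn => ?_))
    · have h1 : (D.x i)⁻¹ * (a ⟨i, n₀, k⟩ * D.y ⟨i, n₀, k⟩) =
          ((D.x i)⁻¹ * algebraMap K F ϖ) * ((algebraMap K F ϖ)⁻¹ * a ⟨i, n₀, k⟩) *
            D.y ⟨i, n₀, k⟩ := by
        field_simp
      rw [h1]
      exact mul_mem (mul_mem hxϖ (adj_zero P D.ht D.htr D.hϖ (ha _) (hzero k) i)) (D.y_mem _ _)
    · rw [Finset.mul_sum]
      refine sum_mem fun k _ => hpos n k fun h0 => (Finset.mem_erase.1 hn).1 (Fin.ext h0)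
  have h1 : (D.x i)⁻¹ * z = (D.s i ^ N)⁻¹ * ((D.x i)⁻¹ * (D.s i ^ N * z)) := by
    have := pow_ne_zero N hs0
    field_simp
  rw [h1]
  have h2 := inv_mem_of_R _ (R_pow _ (D.s_R i) N) (pow_ne_zero N (D.sb_ne i))
  exact mul_mem h2 hfin

end Comps

end Fermat.Agent.Carayol
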