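import Fermat.Agent.Carayol.Sit
import Fermat.Prelude.Thm_ModularCurve_coeff_jqModC_neg_one

/-!
# The components of the modular curve of level `q² M'`
-/

set_option autoImplicit false
set_option linter.unusedSectionVars false
set_option linter.style.haveILetI false

noncomputable section

namespace Fermat.Agent.Carayol

open ModularCurve Fermat.Agent.GoodRed Fermat.Agent.ModFun Fermat.Agent.GenusX0
open Fermat.Agent.Models IsLocalRing Polynomial IntermediateField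

open scoped IntermediateField.algebraAdjoinAdjoin in
/-- powers are linearly independent over the field generated by a power -/
theorem li_pow {k Ω : Type*} [Field k] [Field Ω] [Algebra k Ω] {t : Ω} (ht : Transcendental k t)
    {N : ℕ} (hN : 0 < N) : LinearIndependent k⟮t ^ N⟯ (fun c : Fin N => t ^ (c : ℕ)) := by
  rw [← LinearIndependent.iff_fractionRing (Algebra.adjoin k {t ^ N}), linearIndependent_iff']
  intro s g hg i hi
  have h1 : ∀ c : Fin N, ∃ p : k[X], aeval (t ^ N) p = (g c : Ω) := by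
    intro c
    have h0 : ∀ z ∈ Algebra.adjoin k {t ^ N}, ∃ p : k[X], aeval (t ^ N) p = z := by
      intro z hz
      rw [Algebra.adjoin_singleton_eq_range_aeval] at hz
      exact hz
    exact h0 _ (g c).2
  choose p hp using h1
  have h2 : ∑ c ∈ s, expand k N (p c) * X ^ (c : ℕ) = 0 := by
    rw [transcendental_iff] at ht
    apply ht
    rw [map_sum, ← hg]
    refine Finset.sum_congr rfl fun c _ => ?_
    rw [map_mul, expand_aeval, hp, map_pow, aeval_X]
    rfl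
  have h3 : p i = 0 := by
    ext m
    have h4 := congrArg (fun f : k[X] => f.coeff (N * m + i)) h2
    simp only [finsetSum_coeff, coeff_mul_X_pow', coeff_zero] at h4
    rw [Finset.sum_eq_single i] at h4
    · rw [if_pos (Nat.le_add_left _ _), Nat.add_sub_cancel, coeff_expand_mul' hN] at h4
      rw [h4, coeff_zero]
    · intro c _ hc
      split_ifs with h5
      · rw [coeff_expand hN, if_neg]
        intro h6
        apply hc
        have h7 := c.2
        have h8 := i.2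
        obtain ⟨a, ha⟩ := h6
        have h9 : N * m + (i : ℕ) = N * a + c := by omega
        have h10 : (N * m + (i : ℕ)) % N = (N * a + c) % N := by rw [h9]
        rw [Nat.mul_add_mod, Nat.mul_add_mod, Nat.mod_eq_of_lt h7, Nat.mod_eq_of_lt h8] at h10
        exact Fin.ext h10.symm
      · rfl
    · intro h; exact absurd hi h
  apply Subtype.ext
  rw [← hp i, h3, map_zero]
  rfl

namespace Sit

variable {k₀ K κ : Type} [Field k₀] [Field K] [Field κ] [Algebra k₀ K] {q M' : ℕ}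
  [NeZero q] [NeZero M'] (S : Sit k₀ K κ q M')

/-- the uniformizer -/
abbrev ϖ (_ : Sit k₀ K κ q M') : k₀ := (q : k₀)

instance isLocalHom_π₀ : IsLocalHom S.π₀ := by
  refine ⟨fun a ha => ?_⟩
  have h1 : IsUnit (S.incA a) := IsUnit.of_map S.π _ ha
  obtain ⟨b, hb⟩ := h1.exists_right_inv
  have h2 : algebraMap k₀ K a * b = 1 := by
    rw [← S.hinc]
    exact congrArg Subtype.val hb
  have ha0 : (a : k₀) ≠ 0 := by
    intro h
    rw [h, map_zero, zero_mul] at h2
    exact zero_ne_one h2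
  have h3 : algebraMap k₀ K (a : k₀)⁻¹ = b := by
    rw [map_inv₀]
    exact inv_eq_of_mul_eq_one_right h2
  have h4 : (a : k₀)⁻¹ ∈ S.A₀ := S.mem_A₀ (by rw [h3]; exact b.2)
  exact IsUnit.of_mul_eq_one ⟨_, h4⟩ (Subtype.ext (mul_inv_cancel₀ ha0))

include S in
theorem q_ne : (q : k₀) ≠ 0 := by
  intro h
  have h1 := congrArg (algebraMap k₀ K) h
  rw [map_natCast, map_zero] at h1
  have h2 := congrArg S.ι h1
  rw [map_natCast, map_zero] at h2
  exact NeZero.ne q (by exact_mod_cast h2)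

include S in
theorem q_ne' : (q : K) ≠ 0 := by
  have := (_root_.map_ne_zero (algebraMap k₀ K)).2 S.q_ne
  rwa [map_natCast] at this

theorem π_q : S.π (q : S.A) = 0 := by
  haveI := S.charP
  rw [map_natCast, CharP.cast_eq_zero]

theorem π₀_q : S.π₀ (q : S.A₀) = 0 := by
  haveI := S.charP
  rw [map_natCast, CharP.cast_eq_zero]

theorem not_isUnit_q : ¬ IsUnit (q : S.A₀) := by
  intro h
  have := h.map S.π₀
  rw [S.π₀_q] at this
  exact not_isUnit_zero this

theorem div_q (c : k₀) (hc : c ∈ S.A₀) (h : S.π₀ ⟨c, hc⟩ = 0) : (q : k₀)⁻¹ * c ∈ S.A₀ := by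
  rcases eq_or_ne c 0 with rfl | hc0
  · rw [mul_zero]; exact zero_mem _
  obtain ⟨n, u, hu⟩ := S.dvr c hc0
  have hn : 0 < n := by
    by_contra hn
    push Not at hn
    have h1 : IsUnit (⟨c, hc⟩ : S.A₀) := by
      refine IsUnit.of_mul_eq_one (((u⁻¹ : S.A₀ˣ) : S.A₀) * (q : S.A₀) ^ (-n).toNat) ?_
      apply Subtype.ext
      push_cast
      have h2 : ((u : S.A₀) : k₀) * ((u⁻¹ : S.A₀ˣ) : S.A₀) = 1 := by
        have := congrArg (Subtype.val) (u.mul_inv)
        exact this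
      have h3 : (q : k₀) ^ n * (q : k₀) ^ (-n).toNat = 1 := by
        rw [← zpow_natCast, Int.toNat_of_nonneg (by omega), ← zpow_add₀ S.q_ne, add_neg_cancel,
          zpow_zero]
      rw [hu]
      linear_combination (((u : S.A₀) : k₀) * ((u⁻¹ : S.A₀ˣ) : S.A₀)) * h3 + h2
    have h4 := h1.map S.π₀
    rw [h] at h4
    exact not_isUnit_zero h4
  have h5 : (q : k₀)⁻¹ * c = (q : k₀) ^ (n - 1).toNat * ((u : S.A₀) : k₀) := by
    rw [hu, ← zpow_natCast, Int.toNat_of_nonneg (by omega), zpow_sub_one₀ S.q_ne]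
    ring
  rw [h5]
  exact mul_mem (pow_mem (_root_.natCast_mem _ _) _) (u : S.A₀).2

/-- elements vanishing on components -/
abbrev e01 : S.F := S.j1 - S.j2
abbrev e02 : S.F := S.j1 - S.j2 ^ q ^ 2
abbrev e20 : S.F := S.j2 - S.j1 ^ q ^ 2

theorem w_e02 : S.w S.e02 = S.e20 := by
  rw [e02, map_sub, map_pow, w_j1, w_j2]

theorem w_e20 : S.w S.e20 = S.e02 := by
  rw [e20, map_sub, map_pow, w_j1, w_j2]

theorem w_e01 : S.w S.e01 = -S.e01 := by
  rw [e01, map_sub, w_j1, w_j2, neg_sub]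

theorem R0_e01 : (S.P 0).R S.e01 (S.jb - S.jb ^ q ^ 2) := R_sub _ S.R0_j1 S.R0_j2

theorem R1_e01 : (S.P 1).R S.e01 0 := by
  have := R_sub _ S.R1_j1 S.R1_j2
  rwa [sub_self] at this

theorem R2_e01 : (S.P 2).R S.e01 (S.jb ^ q ^ 2 - S.jb) := R_sub _ S.R2_j1 S.R2_j2

theorem R0_e02 : (S.P 0).R S.e02 (S.jb - (S.jb ^ q ^ 2) ^ q ^ 2) :=
  R_sub _ S.R0_j1 (R_pow _ S.R0_j2 _)

theorem R1_e02 : (S.P 1).R S.e02 (S.jb - S.jb ^ q ^ 2) := R_sub _ S.R1_j1 (R_pow _ S.R1_j2 _)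

theorem R2_e02 : (S.P 2).R S.e02 0 := by
  have := R_sub _ S.R2_j1 (R_pow _ S.R2_j2 (q ^ 2))
  rwa [sub_self] at this

theorem R0_e20 : (S.P 0).R S.e20 0 := by
  have := R_sub _ S.R0_j2 (R_pow _ S.R0_j1 (q ^ 2))
  rwa [sub_self] at this

theorem R1_e20 : (S.P 1).R S.e20 (S.jb - S.jb ^ q ^ 2) := R_sub _ S.R1_j2 (R_pow _ S.R1_j1 _)

theorem R2_e20 : (S.P 2).R S.e20 (S.jb - (S.jb ^ q ^ 2) ^ q ^ 2) :=
  R_sub _ S.R2_j2 (R_pow _ S.R2_j1 _)

theorem far0 : (algebraMap k₀ S.F S.ϖ)⁻¹ * S.e20 ∈ (S.P 0).O := by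
  haveI := S.charP
  have h1 : cZ κ (qExpand ℤ (q ^ 2) (jqModC ℤ) - jqModC ℤ ^ q ^ 2) = 0 := by
    rw [map_sub, map_pow, cZ_gen, show cZ κ (jqModC ℤ) = jqModC κ from coeffMap_jqModC _,
      pow_jq2 S.hq, sub_self]
  obtain ⟨z', hz'⟩ := exists_div q h1
  refine ⟨cZ κ z', ?_⟩
  rw [P_R]
  have h2 : S.φ 0 S.e20 = cZ K (qExpand ℤ (q ^ 2) (jqModC ℤ) - jqModC ℤ ^ q ^ 2) := by
    rw [e20, map_sub, map_pow, φ0_J, φ0_J, map_sub, map_pow, qExpand_one_apply]
  have h3 : S.φ 0 ((algebraMap k₀ S.F S.ϖ)⁻¹ * S.e20) = cZ K z' := by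
    rw [map_mul, map_inv₀, φ_const, h2, hz', map_mul, map_natCast]
    have h4 : cZ K (HahnSeries.C (q : ℤ)) = algebraMap K (LaurentSeries K) (q : K) := by
      rw [cZ, coeffMap_C, ModFun.C_eq_algebraMap]
      simp
    rw [h4, inv_mul_cancel_left₀]
    exact (_root_.map_ne_zero _).2 S.q_ne'
  rw [h3]
  exact S.R_cZ z'

theorem far2 : (algebraMap k₀ S.F S.ϖ)⁻¹ * S.e02 ∈ (S.P 2).O := by
  obtain ⟨y, hy⟩ := S.far0
  refine ⟨y, ?_⟩
  rw [P2_R, map_mul, map_inv₀, S.hw.const, w_e02]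
  exact hy

/-- the product of the `1 - ζ^i` -/
theorem exists_eis : ∃ (z : S.Aˣ) (c : S.A), Units.map (S.A.subtype : S.A →* K) z = S.ζ ∧
    S.π z = 1 ∧ (1 - (z : S.A)) ≠ 0 ∧ (1 - (z : S.A)) ^ (q - 1) * c = (q : S.A) ∧ S.π c = -1 := by
  obtain ⟨z, hz, hz1⟩ := S.exists_ζA
  haveI := S.charP
  haveI : Fact q.Prime := ⟨S.hq⟩
  have hzK : ((z : S.A) : K) = S.ζ := by rw [← hz]; rfl
  have hzA : IsPrimitiveRoot (z : S.A) q := by
    refine IsPrimitiveRoot.of_map_of_injective (f := S.A.subtype) ?_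
      Subtype.val_injective
    change IsPrimitiveRoot ((z : S.A) : K) q
    rw [hzK]; exact S.hζ
  obtain ⟨n, hn⟩ := Nat.exists_eq_succ_of_ne_zero S.hq.ne_zero
  have hnA : IsPrimitiveRoot (z : S.A) (n + 1) := by
    have := hzA
    convert this using 1
    exact hn.symm
  choose c hc hπc using fun i : ℕ => exists_qint (π := S.π) hz1 (i + 1 : ℕ)
  refine ⟨z, ∏ i ∈ Finset.range n, c i, hz, hz1, ?_, ?_, ?_⟩
  · intro h
    have h1 : (z : S.A) = 1 := (sub_eq_zero.1 h).symm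
    rw [h1] at hzA
    have := hzA.unique (IsPrimitiveRoot.one)
    exact S.hq.one_lt.ne' this
  · have h1 : (1 - (z : S.A)) ^ (q - 1) = ∏ i ∈ Finset.range n, (1 - (z : S.A)) := by
      rw [Finset.prod_const, Finset.card_range]
      congr 1
      omega
    rw [h1, ← Finset.prod_mul_distrib]
    have h2 : ∏ k ∈ Finset.range n, (1 - (z : S.A) ^ (k + 1)) = n + 1 :=
      hnA.prod_one_sub_pow_eq_order
    have h3 : (q : S.A) = n + 1 := by
      have := congrArg (fun m : ℕ => (m : S.A)) hn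
      push_cast at this
      exact this
    rw [h3, ← h2]
    refine Finset.prod_congr rfl fun i _ => ?_
    rw [← hc]
    push_cast
    rfl
  · rw [map_prod]
    have h1 : ∏ i ∈ Finset.range n, S.π (c i) = ((Nat.factorial n : ℕ) : κ) := by
      rw [← Finset.prod_range_add_one_eq_factorial, Nat.cast_prod]
      refine Finset.prod_congr rfl fun i _ => ?_
      rw [hπc]
      push_cast
      rfl
    have h2 : ((Nat.factorial n : ℕ) : ZMod q) = -1 := by
      have h3 : n = q - 1 := by omega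
      rw [h3]
      exact ZMod.wilsons_lemma q
    have h3 := congrArg (ZMod.castHom (dvd_refl q) κ) h2
    rw [map_natCast, map_neg, map_one] at h3
    rw [h1, h3]

theorem φ1_e01 : S.φ 1 S.e01 = cZ K (jqModC ℤ) - twist S.ζ (cZ K (jqModC ℤ)) := by
  rw [e01, map_sub, φ1_j1, φ1_j2]

theorem R1_diff {x : S.F} {f : LaurentSeries K} {g : LaurentSeries κ}
    (hx : S.φ 1 x = f - twist S.ζ f) (hf : LR S.π f g) : (S.P 1).R x 0 := by
  rw [P_R, hx]
  have := hf.add (S.R_twist hf).neg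
  rwa [← sub_eq_add_neg, ← sub_eq_add_neg, sub_self] at this

/-- the leading term of a difference -/
theorem R1_diff_pow {x : S.F} {f : LaurentSeries K} {g : LaurentSeries κ}
    (hx : S.φ 1 x = f - twist S.ζ f) (hf : LR S.π f g) :
    (S.P 1).R ((algebraMap k₀ S.F S.ϖ)⁻¹ * x ^ (q - 1)) (-(thetaFun g) ^ (q - 1)) := by
  obtain ⟨z, c, hz, hz1, hz0, hzc, hπc⟩ := S.exists_eis
  have h1 := LR_diff hz1 hz0 hf
  rw [hz, ← hx] at h1
  have h2 : LR S.π ((HahnSeries.C ((1 - ((z : S.A) : K))⁻¹) * S.φ 1 x) ^ (q - 1))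
      ((thetaFun g) ^ (q - 1)) := by
    generalize q - 1 = n
    induction n with
    | zero => rw [pow_zero, pow_zero]; exact LR.one _
    | succ n ih => rw [pow_succ, pow_succ]; exact ih.mul h1
  have hcu : IsUnit c := by
    refine IsUnit.of_map S.π c ?_
    rw [hπc]; exact isUnit_one.neg
  obtain ⟨d, hd⟩ := hcu.exists_right_inv
  have hπd : S.π d = -1 := by
    have := congrArg S.π hd
    rw [map_mul, hπc, map_one] at this
    linear_combination -this
  have h3 := (LR.const S.π d).mul h2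
  rw [hπd, map_neg, map_one, neg_one_mul] at h3
  rw [P_R]
  refine LR_congr_left h3 ?_
  rw [map_mul, map_inv₀, φ_const, map_pow, mul_pow, ← mul_assoc]
  congr 1
  rw [← map_pow, ← ModFun.C_eq_algebraMap, ← ModFun.C_eq_algebraMap, ← map_mul, ← map_inv₀,
    map_natCast]
  congr 1
  have hδ : (1 - ((z : S.A) : K)) ≠ 0 := fun h0 => hz0 (Subtype.ext (by push_cast; exact h0))
  have h4 : (1 - ((z : S.A) : K)) ^ (q - 1) * c = q := by
    have := congrArg (Subtype.val) hzc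
    push_cast at this
    exact this
  have h5 : (c : K) * d = 1 := by
    have := congrArg (Subtype.val) hd
    exact this
  have h6 := pow_ne_zero (q - 1) hδ
  have hc0 : (c : K) ≠ 0 := left_ne_zero_of_mul_eq_one h5
  rw [← h4, eq_inv_of_mul_eq_one_right h5, inv_pow, mul_inv]
  ring

theorem theta_jb_ne : thetaFun S.jb ≠ 0 := by
  intro h
  have h1 := congrArg (fun f : LaurentSeries κ => f.coeff (-1)) h
  simp only [thetaFun_coeff, HahnSeries.coeff_zero] at h1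
  rw [jb, ModularCurve.coeff_jqModC_neg_one] at h1
  simp at h1

theorem R1_e01_pow : (S.P 1).R ((algebraMap k₀ S.F S.ϖ)⁻¹ * S.e01 ^ (q - 1))
    (-(thetaFun S.jb) ^ (q - 1)) := by
  have h := S.R_cZ (jqModC ℤ)
  rw [show cZ κ (jqModC ℤ) = jqModC κ from coeffMap_jqModC _] at h
  exact S.R1_diff_pow S.φ1_e01 h

theorem far1 : (algebraMap k₀ S.F S.ϖ)⁻¹ * S.e01 ^ (q - 1) ∈ (S.P 1).O := ⟨_, S.R1_e01_pow⟩

theorem far1' : algebraMap k₀ S.F S.ϖ * (S.e01 ^ (q - 1))⁻¹ ∈ (S.P 1).O := by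
  have := inv_mem_of_R _ S.R1_e01_pow (neg_ne_zero.2 (pow_ne_zero _ S.theta_jb_ne))
  rwa [mul_inv, inv_inv] at this

/-! ### level `M'` -/

/-- the inclusion of level `M'` -/
abbrev inM (_ : Sit k₀ K κ q M') : FF k₀ M' →+* FF k₀ (q ^ 2 * M') := inc k₀ dvd_M

/-- `f(z) ↦ f(q²z)` -/
abbrev exM (_ : Sit k₀ K κ q M') : FF k₀ M' →+* FF k₀ (q ^ 2 * M') := exN k₀ (q ^ 2) dvd_rfl

/-- reduction at level `M'` -/
def RM (f : FF k₀ M') (g : LaurentSeries κ) : Prop :=
  LR S.π (coeffMap S.cK (f : LaurentSeries k₀)) g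

variable {S}

theorem R0_in {f : FF k₀ M'} {g : LaurentSeries κ} (h : S.RM f g) : (S.P 0).R (S.inM f) g := by
  rw [P_R, φ0, coe_inc]; exact h

theorem bc_inM (f : FF k₀ M') : bc S.cK _ (S.inM f) = inc K dvd_M (bc S.cK _ f) := by
  apply Subtype.ext
  rw [coe_bc, coe_inc, coe_inc, coe_bc]

theorem bc_exM (f : FF k₀ M') : bc S.cK _ (S.exM f) = exN K (q ^ 2) dvd_rfl (bc S.cK _ f) := by
  apply Subtype.ext
  rw [coe_bc, coe_exN, coe_exN, coe_bc, coeffMap_qExpand]

theorem R1_in {f : FF k₀ M'} {g : LaurentSeries κ} (h : S.RM f g) : (S.P 1).R (S.inM f) g := by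
  rw [P_R, φ1, bc_inM, S.hs.inc']; exact h

theorem R0_ex {f : FF k₀ M'} {g : LaurentSeries κ} (h : S.RM f g) :
    (S.P 0).R (S.exM f) (qExpand κ (q ^ 2) g) := by
  rw [P_R, φ0, coe_exN, coeffMap_qExpand]; exact LR_qExpand _ h

theorem R1_ex {f : FF k₀ M'} {g : LaurentSeries κ} (h : S.RM f g) : (S.P 1).R (S.exM f) g := by
  rw [P_R, φ1, bc_exM, S.hs.exN2]; exact S.R_twist h

theorem R2_ex {f : FF k₀ M'} {g : LaurentSeries κ} (h : S.RM f g) : (S.P 2).R (S.exM f) g := by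
  rw [P2_R, S.hw.exN2 f dvd_M]; exact R0_in h

theorem R2_in {f : FF k₀ M'} {g : LaurentSeries κ} (h : S.RM f g) :
    (S.P 2).R (S.inM f) (qExpand κ (q ^ 2) g) := by
  rw [P2_R, S.hw.inc f dvd_M dvd_rfl]; exact R0_ex h

theorem w_in (f : FF k₀ M') : S.w (S.inM f) = S.exM f := S.hw.inc f dvd_M dvd_rfl
theorem w_ex (f : FF k₀ M') : S.w (S.exM f) = S.inM f := S.hw.exN2 f dvd_M dvd_rfl

theorem RM_cZ {y : LaurentSeries ℤ} (hy : y ∈ MonZ M') :
    S.RM ⟨cZ k₀ y, cZ_MonZ_mem k₀ hy⟩ (cZ κ y) := by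
  have h1 : coeffMap S.cK (cZ k₀ y) = cZ K y := cZ_comp y
  rw [RM, h1]
  exact S.R_cZ y

variable (S)

include S in
theorem M_ne : (M' : κ) ≠ 0 := by
  haveI := S.charP
  rw [Ne, CharP.cast_eq_zero_iff κ q]
  exact (Nat.Prime.coprime_iff_not_dvd S.hq).1 S.hM

include S in
theorem exists_basisM : ∃ y : Fin (dedekindPsi M') → LaurentSeries ℤ, (∀ i, y i ∈ MonZ M') ∧
    LinearIndependent κ⟮jqModC κ⟯ (fun i => cZ κ (y i)) := by
  have h1 := degN_eq_psi κ M' S.M_ne
  have h2 := exists_mon_basis κ M' (NeZero.ne M') (by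
    rw [h1]; exact dedekindPsi_pos (NeZero.ne M'))
  rwa [h1] at h2

theorem tr_j1 : Transcendental k₀ S.j1 := by
  intro h
  have h1 : ((S.j1 : S.F) : LaurentSeries k₀) = jqModC k₀ := by
    rw [coe_jel, qExpand_one_apply]
  apply Curves.transcendental_jqModC k₀
  rw [← h1]
  exact h.algHom (FF k₀ (q ^ 2 * M')).val

theorem finrank_F : Module.finrank k₀⟮S.j1⟯ S.F = (q ^ 2 + q) * dedekindPsi M' := by
  have h1 : ((S.j1 : S.F) : LaurentSeries k₀) = jqModC k₀ := by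
    rw [coe_jel, qExpand_one_apply]
  rw [Curves.finrank_adjoin_eq_relfinrank, h1, ← degN_eq', degN_eq_psi k₀ (q ^ 2 * M') (by
    intro h
    have h2 := congrArg (S.ι.comp (algebraMap k₀ K)) h
    rw [map_natCast, map_zero] at h2
    have h3 : q ^ 2 * M' ≠ 0 := mul_ne_zero (pow_ne_zero 2 (NeZero.ne q)) (NeZero.ne M')
    exact h3 (by exact_mod_cast h2))]
  have hqM : ¬ q ∣ M' := (Nat.Prime.coprime_iff_not_dvd S.hq).1 S.hM
  have e1 := dedekindPsi_step q S.hq 0 M' hqM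
  have e2 := dedekindPsi_step q S.hq 1 M' hqM
  rw [if_pos rfl, pow_zero, one_mul] at e1
  rw [if_neg one_ne_zero] at e2
  rw [e2, e1]
  ring

end Sit

end Fermat.Agent.Carayol
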