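import Fermat.Agent.Carayol.Conc

/-!
# The components of the modular curve of level `q² M'`: the three residue maps
-/

set_option autoImplicit false
set_option linter.unusedSectionVars false
set_option linter.style.haveILetI false

noncomputable section

namespace Fermat.Agent.Carayol

open ModularCurve Fermat.Agent.GoodRed Fermat.Agent.ModFun Fermat.Agent.GenusX0
open Fermat.Agent.Models IsLocalRing Polynomial IntermediateField

/-- multiplicities -/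
def eF (q : ℕ) (i : Fin 3) : ℕ := match i with
  | 0 => 1
  | 1 => q - 1
  | 2 => 1

/-- index sets -/
def βF (q M' : ℕ) (i : Fin 3) : Type := match i with
  | 0 => Fin (dedekindPsi M')
  | 1 => Fin (dedekindPsi M')
  | 2 => Fin (q ^ 2) × Fin (dedekindPsi M')

instance fintype_βF (q M' : ℕ) (i : Fin 3) : Fintype (βF q M' i) := match i with
  | 0 => inferInstanceAs (Fintype (Fin (dedekindPsi M')))
  | 1 => inferInstanceAs (Fintype (Fin (dedekindPsi M')))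
  | 2 => inferInstanceAs (Fintype (Fin (q ^ 2) × Fin (dedekindPsi M')))

namespace Sit

variable {k₀ K κ : Type} [Field k₀] [Field K] [Field κ] [Algebra k₀ K] {q M' : ℕ}
  [NeZero q] [NeZero M'] (S : Sit k₀ K κ q M')

/-- the basis -/
def yM (n : Fin (dedekindPsi M')) : LaurentSeries ℤ := S.exists_basisM.choose n

theorem yM_mem (n : Fin (dedekindPsi M')) : S.yM n ∈ MonZ M' := S.exists_basisM.choose_spec.1 n

theorem yM_li : LinearIndependent κ⟮jqModC κ⟯ (fun i => cZ κ (S.yM i)) :=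
  S.exists_basisM.choose_spec.2

/-- the basis over `k₀` -/
def bM (n : Fin (dedekindPsi M')) : FF k₀ M' := ⟨cZ k₀ (S.yM n), cZ_MonZ_mem k₀ (S.yM_mem n)⟩

theorem bM_R (n : Fin (dedekindPsi M')) : S.RM (S.bM n) (cZ κ (S.yM n)) := RM_cZ (S.yM_mem n)

/-- uniformizers -/
def xF (i : Fin 3) : S.F := match i with
  | 0 => algebraMap k₀ S.F S.ϖ
  | 1 => S.e01
  | 2 => algebraMap k₀ S.F S.ϖ

/-- elements vanishing on the other components -/
def sF (i : Fin 3) : S.F := match i with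
  | 0 => S.e01 ^ (q - 1) * S.e02
  | 1 => S.e20 * S.e02
  | 2 => S.e01 ^ (q - 1) * S.e20

/-- their reductions -/
def sbF (i : Fin 3) : LaurentSeries κ := match i with
  | 0 => (S.jb - S.jb ^ q ^ 2) ^ (q - 1) * (S.jb - (S.jb ^ q ^ 2) ^ q ^ 2)
  | 1 => (S.jb - S.jb ^ q ^ 2) * (S.jb - S.jb ^ q ^ 2)
  | 2 => (S.jb ^ q ^ 2 - S.jb) ^ (q - 1) * (S.jb - (S.jb ^ q ^ 2) ^ q ^ 2)

/-- the families -/
def bF (i : Fin 3) : βF q M' i → S.F := match i with
  | 0 => fun n => S.inM (S.bM n)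
  | 1 => fun n => S.inM (S.bM n)
  | 2 => fun p => S.j2 ^ (p.1 : ℕ) * S.exM (S.bM p.2)

/-- the reductions of the families -/
def bbF (i : Fin 3) : βF q M' i → LaurentSeries κ := match i with
  | 0 => fun n => cZ κ (S.yM n)
  | 1 => fun n => cZ κ (S.yM n)
  | 2 => fun p => S.jb ^ (p.1 : ℕ) * cZ κ (S.yM p.2)

theorem R_ϖ (i : Fin 3) : (S.P i).R (algebraMap k₀ S.F S.ϖ) 0 := by
  have h := (S.P i).const (q : S.A₀)
  rw [S.π₀_q, map_zero] at h
  have h1 : (((q : S.A₀) : k₀)) = (q : k₀) := by simp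
  rwa [h1] at h

theorem ϖ_ne : algebraMap k₀ S.F S.ϖ ≠ 0 := (_root_.map_ne_zero _).2 S.q_ne

theorem ϖ_mem (i : Fin 3) : algebraMap k₀ S.F S.ϖ ∈ (S.P i).O := ⟨0, S.R_ϖ i⟩

theorem mem_of_far {i : Fin 3} {x : S.F} (h : (algebraMap k₀ S.F S.ϖ)⁻¹ * x ∈ (S.P i).O) :
    x ∈ (S.P i).O := by
  have h1 : x = algebraMap k₀ S.F S.ϖ * ((algebraMap k₀ S.F S.ϖ)⁻¹ * x) := by
    rw [mul_inv_cancel_left₀ S.ϖ_ne]
  rw [h1]
  exact mul_mem (S.ϖ_mem i) h

theorem j1_mem (i : Fin 3) : S.j1 ∈ (S.P i).O := ⟨_, S.R_j1 i⟩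

theorem j2_mem (i : Fin 3) : S.j2 ∈ (S.P i).O := by
  fin_cases i
  · exact ⟨_, S.R0_j2⟩
  · exact ⟨_, S.R1_j2⟩
  · exact ⟨_, S.R2_j2⟩

theorem jq_mem (i : Fin 3) : S.jq' ∈ (S.P i).O := by
  fin_cases i
  · exact ⟨_, S.R0_jq⟩
  · exact ⟨_, S.R1_jq⟩
  · exact ⟨_, S.R2_jq⟩

theorem e01_mem (i : Fin 3) : S.e01 ∈ (S.P i).O := sub_mem (S.j1_mem i) (S.j2_mem i)
theorem e02_mem (i : Fin 3) : S.e02 ∈ (S.P i).O := sub_mem (S.j1_mem i) (pow_mem (S.j2_mem i) _)
theorem e20_mem (i : Fin 3) : S.e20 ∈ (S.P i).O := sub_mem (S.j2_mem i) (pow_mem (S.j1_mem i) _)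

theorem in_mem {f : FF k₀ M'} {g : LaurentSeries κ} (h : S.RM f g) (i : Fin 3) :
    S.inM f ∈ (S.P i).O := by
  fin_cases i
  · exact ⟨_, R0_in h⟩
  · exact ⟨_, R1_in h⟩
  · exact ⟨_, R2_in h⟩

theorem ex_mem {f : FF k₀ M'} {g : LaurentSeries κ} (h : S.RM f g) (i : Fin 3) :
    S.exM f ∈ (S.P i).O := by
  fin_cases i
  · exact ⟨_, R0_ex h⟩
  · exact ⟨_, R1_ex h⟩
  · exact ⟨_, R2_ex h⟩

theorem e01_ne : S.e01 ≠ 0 :=
  ne_zero_of_R _ S.R0_e01 (by
    have := S.jb_pow_ne (a := 1) (b := q ^ 2) (Nat.one_lt_pow two_ne_zero S.hq.one_lt).ne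
    rwa [pow_one] at this)

theorem sb_aux1 : S.jb - S.jb ^ q ^ 2 ≠ 0 := by
  have := S.jb_pow_ne (a := 1) (b := q ^ 2) (Nat.one_lt_pow two_ne_zero S.hq.one_lt).ne
  rwa [pow_one] at this

theorem sb_aux2 : S.jb - (S.jb ^ q ^ 2) ^ q ^ 2 ≠ 0 := by
  have h1 := Nat.one_lt_pow two_ne_zero S.hq.one_lt
  have := S.jb_pow_ne (a := 1) (b := q ^ 2 * q ^ 2) (by nlinarith)
  rwa [pow_one, pow_mul] at this

theorem bb_li2 : LinearIndependent κ⟮S.jb ^ q ^ 2⟯
    (fun p : Fin (q ^ 2) × Fin (dedekindPsi M') => S.jb ^ (p.1 : ℕ) * cZ κ (S.yM p.2)) := by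
  rw [Fintype.linearIndependent_iff]
  intro g hg
  have hle : κ⟮S.jb ^ q ^ 2⟯ ≤ κ⟮S.jb⟯ := by
    rw [IntermediateField.adjoin_simple_le_iff]
    exact pow_mem (IntermediateField.mem_adjoin_simple_self κ _) _
  have hmem : ∀ n, ∑ c : Fin (q ^ 2), (g (c, n) : LaurentSeries κ) * S.jb ^ (c : ℕ) ∈ κ⟮S.jb⟯ :=
    fun n => sum_mem fun c _ => mul_mem (hle (g (c, n)).2)
      (pow_mem (IntermediateField.mem_adjoin_simple_self κ _) _)
  have h1 := Fintype.linearIndependent_iff.1 S.yM_li (fun n => ⟨_, hmem n⟩) (by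
    rw [← hg, Fintype.sum_prod_type, Finset.sum_comm]
    refine Finset.sum_congr rfl fun n _ => ?_
    change (∑ c : Fin (q ^ 2), (g (c, n) : LaurentSeries κ) * S.jb ^ (c : ℕ)) * cZ κ (S.yM n) = _
    rw [Finset.sum_mul]
    refine Finset.sum_congr rfl fun c _ => ?_
    change _ = (g (c, n) : LaurentSeries κ) * (S.jb ^ (c : ℕ) * cZ κ (S.yM n))
    ring)
  rintro ⟨c, n⟩
  have h2 := Fintype.linearIndependent_iff.1 (li_pow S.tr_jb (pow_pos S.hq.pos 2))
    (fun c => g (c, n)) (by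
      have := congrArg Subtype.val (h1 n)
      exact this) c
  exact h2

theorem bb_li (i : Fin 3) : LinearIndependent κ⟮S.tb i⟯ (S.bbF i) :=
  match i with
  | 0 => S.yM_li
  | 1 => S.yM_li
  | 2 => S.bb_li2

/-- the components -/
def comps : Comps S.P S.j1 S.tb S.ϖ where
  ht := S.R_j1
  htr := S.tr_tb
  hϖ0 := S.q_ne
  hϖ := S.div_q
  hϖR := S.R_ϖ
  hpow i z := exists_pow_mul_mem_O S.hinc (S.φ_const i) (S.φ_scale i) S.hpow z
  e := eF q
  e_pos i := by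
    have := S.hq.two_le
    fin_cases i
    · exact one_pos
    · change 0 < q - 1
      omega
    · exact one_pos
  x := S.xF
  x_ne i := by
    fin_cases i
    · exact S.ϖ_ne
    · exact S.e01_ne
    · exact S.ϖ_ne
  x_mem i k := by
    fin_cases i
    · exact S.ϖ_mem k
    · exact S.e01_mem k
    · exact S.ϖ_mem k
  x_R i := by
    fin_cases i
    · exact S.R_ϖ 0
    · exact S.R1_e01
    · exact S.R_ϖ 2
  x_e i := by
    fin_cases i
    · change _ * (algebraMap k₀ S.F S.ϖ ^ 1)⁻¹ ∈ _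
      rw [pow_one, mul_inv_cancel₀ S.ϖ_ne]
      exact one_mem _
    · exact S.far1'
    · change _ * (algebraMap k₀ S.F S.ϖ ^ 1)⁻¹ ∈ _
      rw [pow_one, mul_inv_cancel₀ S.ϖ_ne]
      exact one_mem _
  s := S.sF
  sb := S.sbF
  s_R i := by
    fin_cases i
    · exact (S.P 0).mul (R_pow _ S.R0_e01 _) S.R0_e02
    · exact (S.P 1).mul S.R1_e20 S.R1_e02
    · exact (S.P 2).mul (R_pow _ S.R2_e01 _) S.R2_e20
  sb_ne i := by
    fin_cases i
    · exact mul_ne_zero (pow_ne_zero _ S.sb_aux1) S.sb_aux2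
    · exact mul_ne_zero S.sb_aux1 S.sb_aux1
    · refine mul_ne_zero (pow_ne_zero _ ?_) S.sb_aux2
      rw [← neg_ne_zero, neg_sub]
      exact S.sb_aux1
  s_far i k h := by
    have m1 : ∀ a b : S.F, (algebraMap k₀ S.F S.ϖ)⁻¹ * a ∈ (S.P k).O → b ∈ (S.P k).O →
        (algebraMap k₀ S.F S.ϖ)⁻¹ * (a * b) ∈ (S.P k).O := fun a b ha hb => by
      rw [← mul_assoc]; exact mul_mem ha hb
    have m2 : ∀ a b : S.F, (algebraMap k₀ S.F S.ϖ)⁻¹ * b ∈ (S.P k).O → a ∈ (S.P k).O →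
        (algebraMap k₀ S.F S.ϖ)⁻¹ * (a * b) ∈ (S.P k).O := fun a b hb ha => by
      rw [mul_left_comm]; exact mul_mem ha hb
    fin_cases i <;> fin_cases k
    · exact absurd rfl h
    · exact m1 _ _ S.far1 (S.e02_mem 1)
    · exact m2 _ _ S.far2 (pow_mem (S.e01_mem 2) _)
    · exact m1 _ _ S.far0 (S.e02_mem 0)
    · exact absurd rfl h
    · exact m2 _ _ S.far2 (S.e20_mem 2)
    · exact m2 _ _ S.far0 (pow_mem (S.e01_mem 0) _)
    · exact m1 _ _ S.far1 (S.e20_mem 1)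
    · exact absurd rfl h
  β := βF q M'
  b := S.bF
  bb := S.bbF
  b_mem i n k := by
    fin_cases i
    · exact S.in_mem (S.bM_R n) k
    · exact S.in_mem (S.bM_R n) k
    · exact mul_mem (pow_mem (S.j2_mem k) _) (S.ex_mem (S.bM_R n.2) k)
  b_R i n := by
    fin_cases i
    · exact R0_in (S.bM_R n)
    · exact R1_in (S.bM_R n)
    · exact (S.P 2).mul (R_pow _ S.R2_j2 _) (R2_ex (S.bM_R n.2))
  b_li := S.bb_li

theorem card_J : Fintype.card S.comps.J = Module.finrank k₀⟮S.j1⟯ S.F := by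
  rw [S.finrank_F]
  have h1 : Fintype.card S.comps.J = ∑ i : Fin 3, eF q i * Fintype.card (βF q M' i) := by
    rw [Fintype.card_sigma]
    refine Finset.sum_congr rfl fun i _ => ?_
    rw [Fintype.card_prod, Fintype.card_fin]
    rfl
  have h0 : Fintype.card (βF q M' 0) = dedekindPsi M' := Fintype.card_fin _
  have h2 : Fintype.card (βF q M' 1) = dedekindPsi M' := Fintype.card_fin _
  have h3 : Fintype.card (βF q M' 2) = q ^ 2 * dedekindPsi M' := by
    change Fintype.card (Fin (q ^ 2) × Fin (dedekindPsi M')) = _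
    rw [Fintype.card_prod, Fintype.card_fin, Fintype.card_fin]
  rw [h1, Fin.sum_univ_three, h0, h2, h3]
  change 1 * dedekindPsi M' + (q - 1) * dedekindPsi M' + 1 * (q ^ 2 * dedekindPsi M') = _
  obtain ⟨n, hn⟩ := Nat.exists_eq_succ_of_ne_zero S.hq.ne_zero
  have : q - 1 + 1 = q := by omega
  calc 1 * dedekindPsi M' + (q - 1) * dedekindPsi M' + 1 * (q ^ 2 * dedekindPsi M') =
      ((q - 1 + 1) + q ^ 2) * dedekindPsi M' := by ring
    _ = _ := by rw [this]; ring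

instance nonempty_J : Nonempty S.comps.J := by
  rw [← Fintype.card_pos_iff, S.card_J, S.finrank_F]
  exact Nat.mul_pos (Nat.add_pos_right _ S.hq.pos)
    (Nat.pos_of_ne_zero (dedekindPsi_pos (NeZero.ne M')))

end Sit

end Fermat.Agent.Carayol
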