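import Fermat.Agent.Carayol.Conc2

/-!
# The three residue maps
-/

set_option autoImplicit false
set_option linter.unusedSectionVars false
set_option linter.style.haveILetI false

noncomputable section

namespace Fermat.Agent.Carayol

open ModularCurve Fermat.Agent.GoodRed Fermat.Agent.ModFun Fermat.Agent.GenusX0
open Fermat.Agent.Models IsLocalRing Polynomial IntermediateField

namespace Sit

variable {k₀ K κ : Type} [Field k₀] [Field K] [Field κ] [Algebra k₀ K] {q M' : ℕ}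
  [NeZero q] [NeZero M'] (S : Sit k₀ K κ q M')

/-! ### reduction at level `M'` -/

theorem RM_const (a : S.A₀) : S.RM (algebraMap k₀ _ (a : k₀)) (algebraMap κ _ (S.π₀ a)) := by
  rw [RM, coe_const, coeffMap_algebraMap]
  have := LR.const S.π (S.incA a)
  rw [S.hinc] at this
  exact this

theorem RM_jel (d : ℕ) [NeZero d] (hd : d ∣ M') :
    S.RM (jel k₀ d hd) (qExpand κ d (jqModC κ)) := by
  rw [RM, coe_jel, coeffMap_gen']
  have h1 := S.R_cZ (qExpand ℤ d (jqModC ℤ))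
  rwa [cZ_gen, cZ_gen] at h1

variable {S}

theorem RM_add {f f' : FF k₀ M'} {g g' : LaurentSeries κ} (h : S.RM f g) (h' : S.RM f' g') :
    S.RM (f + f') (g + g') := by
  have := LR.add h h'
  rwa [← map_add] at this

theorem RM_mul {f f' : FF k₀ M'} {g g' : LaurentSeries κ} (h : S.RM f g) (h' : S.RM f' g') :
    S.RM (f * f') (g * g') := by
  have := LR.mul h h'
  rwa [← map_mul] at this

theorem RM_neg {f : FF k₀ M'} {g : LaurentSeries κ} (h : S.RM f g) : S.RM (-f) (-g) := by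
  have := LR.neg h
  rwa [← map_neg] at this

theorem RM_inv {f : FF k₀ M'} {g : LaurentSeries κ} (h : S.RM f g) (hg : g ≠ 0) :
    S.RM f⁻¹ g⁻¹ := by
  have := LR.inv h hg
  rwa [← map_inv₀] at this

theorem RM_unique {f : FF k₀ M'} {g g' : LaurentSeries κ} (h : S.RM f g) (h' : S.RM f g') :
    g = g' := LR.unique h h'

variable (S)

/-- everything lifts -/
theorem exists_RM {z : LaurentSeries κ} (hz : z ∈ FF κ M') : ∃ f : FF k₀ M', S.RM f z := by
  induction hz using IntermediateField.adjoin_induction with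
  | mem x hx =>
    obtain ⟨d, hd', hdN, rfl⟩ := hx
    exact ⟨_, S.RM_jel d hdN⟩
  | algebraMap c =>
    obtain ⟨a, rfl⟩ := S.π₀s c
    exact ⟨_, S.RM_const a⟩
  | add x y _ _ hx hy =>
    obtain ⟨f, hf⟩ := hx
    obtain ⟨g, hg⟩ := hy
    exact ⟨_, RM_add hf hg⟩
  | inv x _ hx =>
    obtain ⟨f, hf⟩ := hx
    by_cases h : x = 0
    · subst h
      rw [inv_zero]
      exact ⟨f, hf⟩
    · exact ⟨_, RM_inv hf h⟩
  | mul x y _ _ hx hy =>
    obtain ⟨f, hf⟩ := hx
    obtain ⟨g, hg⟩ := hy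
    exact ⟨_, RM_mul hf hg⟩

/-! ### the residue maps -/

/-- the function field of the components -/
abbrev 𝓕 (_ : Sit k₀ K κ q M') := FF κ M'

theorem jb_mem : S.jb ∈ FF κ M' := by
  have := mem_FF (k := κ) (one_dvd M')
  rwa [qExpand_one_apply] at this

theorem tb_mem (i : Fin 3) : S.tb i ∈ FF κ M' :=
  match i with
  | 0 => S.jb_mem
  | 1 => S.jb_mem
  | 2 => pow_mem S.jb_mem _

theorem R_mem {i : Fin 3} {x : S.F} {y : LaurentSeries κ} (h : (S.P i).R x y) : y ∈ FF κ M' := by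
  refine S.comps.res_mem S.card_J (i := i) (S.tb_mem i) ?_ ?_ h
  · have h1 := S.jb_mem
    match i with
    | 0 => exact mul_mem (pow_mem (sub_mem h1 (pow_mem h1 _)) _)
            (sub_mem h1 (pow_mem (pow_mem h1 _) _))
    | 1 => exact mul_mem (sub_mem h1 (pow_mem h1 _)) (sub_mem h1 (pow_mem h1 _))
    | 2 => exact mul_mem (pow_mem (sub_mem (pow_mem h1 _) h1) _)
            (sub_mem h1 (pow_mem (pow_mem h1 _) _))
  · intro n
    match i with
    | 0 => exact cZ_MonZ_mem κ (S.yM_mem n)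
    | 1 => exact cZ_MonZ_mem κ (S.yM_mem n)
    | 2 => exact mul_mem (pow_mem S.jb_mem _) (cZ_MonZ_mem κ (S.yM_mem n.2))

theorem R_sur (i : Fin 3) {z : LaurentSeries κ} (hz : z ∈ FF κ M') : ∃ x, (S.P i).R x z := by
  obtain ⟨f, hf⟩ := S.exists_RM hz
  match i with
  | 0 => exact ⟨_, R0_in hf⟩
  | 1 => exact ⟨_, R1_in hf⟩
  | 2 => exact ⟨_, R2_ex hf⟩

/-- the residue maps -/
def C (i : Fin 3) : Res S.F S.𝓕 :=
  preRes (π := S.π) S.hinc (S.φ_const i) (S.φ_scale i) (algebraMap S.𝓕 (LaurentSeries κ))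
    (fun _ y h => ⟨⟨y, S.R_mem h⟩, rfl⟩) (fun z => S.R_sur i z.2)

variable {S}

theorem mem_C {i : Fin 3} {x : S.F} : x ∈ (S.C i).O ↔ x ∈ (S.P i).O :=
  mem_preRes _ _ _ _ _ _

theorem C_r {i : Fin 3} {x : S.F} {z : S.𝓕} (h : (S.P i).R x z) : (S.C i).r x = z :=
  preRes_r _ _ _ _ _ _ h

theorem C_spec {i : Fin 3} {x : S.F} (hx : x ∈ (S.P i).O) :
    (S.P i).R x (((S.C i).r x : S.𝓕) : LaurentSeries κ) := by
  have h : x ∈ (S.C i).O := mem_C.2 hx
  have := preRes_spec (π := S.π) S.hinc (S.φ_const i) (S.φ_scale i)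
    (algebraMap S.𝓕 (LaurentSeries κ))
    (fun _ y h => ⟨⟨y, S.R_mem h⟩, rfl⟩) (fun z => S.R_sur i z.2) h
  exact this

theorem C_coe {i : Fin 3} {x : S.F} {z : LaurentSeries κ} (h : (S.P i).R x z) :
    (((S.C i).r x : S.𝓕) : LaurentSeries κ) = z :=
  (S.P i).unique (C_spec ⟨_, h⟩) h

theorem C_zero_iff {i : Fin 3} {x : S.F} (hx : x ∈ (S.P i).O) :
    (S.C i).r x = 0 ↔ (S.P i).R x 0 := by
  constructor
  · intro h
    have := C_spec hx
    rw [h] at this
    exact this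
  · intro h
    exact C_r h

theorem C_div {i : Fin 3} {x : S.F} (hx : x ∈ (S.C i).O) (h : (S.C i).r x = 0) :
    (S.xF i)⁻¹ * x ∈ (S.C i).O := by
  rw [mem_C] at hx ⊢
  exact S.comps.div_mem_of_R_zero S.card_J ((C_zero_iff hx).1 h)

theorem C_w {x : S.F} : x ∈ (S.C 2).O ↔ S.w x ∈ (S.C 0).O := by
  rw [mem_C, mem_C]; exact Iff.rfl

theorem C_r_w {x : S.F} : (S.C 2).r x = (S.C 0).r (S.w x) := by
  by_cases hx : x ∈ (S.C 2).O
  · apply Subtype.ext
    have h1 := C_spec (mem_C.1 hx)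
    rw [P2_R] at h1
    exact ((S.P 0).unique h1 (C_spec ⟨_, h1⟩))
  · have h2 : S.w x ∉ (S.C 0).O := fun h => hx (C_w.2 h)
    rw [Res.r, dif_neg hx, Res.r, dif_neg h2]

variable (S)

theorem adjoin_inv : k₀⟮S.j1⁻¹⟯ = k₀⟮S.j1⟯ := by
  apply le_antisymm
  · rw [IntermediateField.adjoin_simple_le_iff]
    exact inv_mem (IntermediateField.mem_adjoin_simple_self k₀ _)
  · rw [IntermediateField.adjoin_simple_le_iff]
    have := inv_mem (IntermediateField.mem_adjoin_simple_self k₀ S.j1⁻¹)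
    rwa [inv_inv] at this

theorem tb_ne (i : Fin 3) : S.tb i ≠ 0 := by
  intro h
  have := S.tr_tb i
  rw [h] at this
  exact this isAlgebraic_zero

theorem tr_j1_inv : Transcendental k₀ S.j1⁻¹ := by
  intro h
  apply S.tr_j1
  have := h.inv
  rwa [inv_inv] at this

theorem tr_tb_inv (i : Fin 3) : Transcendental κ (S.tb i)⁻¹ := by
  intro h
  apply S.tr_tb i
  have := h.inv
  rwa [inv_inv] at this

variable {S}

/-- elements integral at all components are integral as soon as they are horizontally integral -/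
theorem isIntegral_of_mem0 {z : S.F} (hz : ∀ i, z ∈ (S.C i).O)
    (hzK : letI := polyAlg k₀ S.j1; IsIntegral k₀[X] z) :
    letI := pAlg S.A₀ S.j1; IsIntegral S.A₀[X] z :=
  S.comps.isIntegral S.card_J S.tr_j1 (fun i => mem_C.1 (hz i)) hzK

theorem isIntegral_of_mem1 {z : S.F} (hz : ∀ i, z ∈ (S.C i).O)
    (hzK : letI := polyAlg k₀ S.j1⁻¹; IsIntegral k₀[X] z) :
    letI := pAlg S.A₀ S.j1⁻¹; IsIntegral S.A₀[X] z :=
  S.comps.isIntegral' S.card_J S.adjoin_inv (tb' := fun i => (S.tb i)⁻¹)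
    (fun i => (S.P i).inv (S.R_j1 i) (S.tb_ne i)) S.tr_tb_inv S.tr_j1_inv
    (fun i => mem_C.1 (hz i)) hzK

end Sit

end Fermat.Agent.Carayol
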