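import Fermat.Agent.Carayol.Jrel
import Fermat.Agent.GenusX0.Places

/-!
# The behaviour of `j(z)`, `j(qz)`, `j(q²z)` at the cusps
-/

set_option autoImplicit false
set_option linter.unusedSectionVars false
set_option linter.style.haveILetI false

noncomputable section

namespace Fermat.Agent.Carayol

open ModularCurve Fermat.Agent.GoodRed Fermat.Agent.ModFun Fermat.Agent.GenusX0
open IntermediateField AlgebraicCurve Fermat.Agent.Curves
open scoped MatrixGroups

section Exp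

variable (N : ℕ) [NeZero N]

theorem hasExp_gen (d : ℕ) [NeZero d] :
    HasExp (cuspUD N) (fun τ => jfun (dm d τ)) (ModularCurve.qExpand ℂ N (ModularCurve.qExpand ℂ d (jqModC ℂ))) := by
  refine ⟨qExpand_mem_convLaurent N (qExpand_mem_convLaurent d jqModC_mem_convLaurent),
    fun τ _ => ?_⟩
  rw [evf_qExpand, evf_qExpand]
  have h1 : ((cuspUD N).u τ ^ N) = Function.Periodic.qParam 1 (τ : ℂ) := by
    change Function.Periodic.qParam N (τ : ℂ) ^ N = _
    rw [Function.Periodic.qParam, Function.Periodic.qParam, ← Complex.exp_nat_mul]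
    congr 1
    have : (N : ℂ) ≠ 0 := by exact_mod_cast NeZero.ne N
    push_cast
    field_simp
  rw [h1, q_pow, evf_jqModC]

variable {N} {K : Type*} [Field K] (ι : K →+* ℂ)

theorem sigma_of_dvd (γ : SL(2, ℤ)) (d : ℕ) [NeZero d] (hd : d ∣ N) (h : (d : ℤ) ∣ γ 1 0) :
    sigma ι (cuspUDN N) γ (jel K d hd) = ModularCurve.qExpand ℂ N (ModularCurve.qExpand ℂ d (jqModC ℂ)) := by
  refine sigma_jel_eq ι γ hd (hasExp_gen N d) fun τ => ?_
  obtain ⟨g, e, b, hg, he, hge, hgc, h'⟩ := jfun_dm_smul d γ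
  have h3 : g = d := by
    rw [hgc]
    apply Nat.dvd_antisymm
    · exact_mod_cast Int.gcd_dvd_left (d : ℤ) (γ 1 0)
    · exact_mod_cast Int.dvd_coe_gcd (dvd_refl (d : ℤ)) h
  have h4 : e = 1 := by
    rw [h3] at hge
    have : 0 < d := Nat.pos_of_ne_zero (NeZero.ne d)
    exact Nat.eq_of_mul_eq_mul_left this (by rw [hge, mul_one])
  rw [h']
  apply jfun_of_translate b
  rw [coe_pte, coe_dm, h3, h4, Nat.cast_one, div_one]

theorem order_sigma (γ : SL(2, ℤ)) (d : ℕ) [NeZero d] (hd : d ∣ N) :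
    ∃ g e : ℕ, g * e = d ∧ g = Int.gcd d (γ 1 0) ∧
      (sigma ι (cuspUDN N) γ (jel K d hd)).order = -((g * (N / e) : ℕ) : ℤ) := by
  obtain ⟨g, e, b, hg, he, hge, hgc, h⟩ := jfun_dm_smul d γ
  obtain ⟨c, m, _, hm, h2⟩ := hasExp_pte N b hg he ((Dvd.intro_left g hge).trans hd)
  refine ⟨g, e, hge, hgc, ?_⟩
  rw [sigma_jel_eq ι γ hd h2 h, order_qExpand', hm]

end Exp

section T

variable {K : Type*} [Field K] [IsAlgClosed K] [CharZero K] (ι : K →+* ℂ) {q M' : ℕ} [NeZero q]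
  [NeZero M'] [IsFunctionField K (FF K (q ^ 2 * M'))]

include ι in
theorem exists_gamma (v : Place K (FF K (q ^ 2 * M'))) (hv : v.ord (je K (q ^ 2 * M')) < 0) :
    ∃ (γ : SL(2, ℤ)) (ε : ℕ), 0 < ε ∧ ∀ f : FF K (q ^ 2 * M'), f ≠ 0 →
      (sigma ι (cuspUDN (q ^ 2 * M')) γ f).order = ε * v.ord f := by
  obtain ⟨x, ε, hε, hx⟩ := exists_centred (isLoc_cusp (N := q ^ 2 * M') ι) (v := v)
    (by rw [v.ord_inv]; omega)
  induction x using QuotientGroup.induction_on with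
  | H g =>
    refine ⟨g⁻¹, ε, hε, fun f hf => ?_⟩
    rw [← hx f hf, sig_mk]

/-- leading coefficients -/
theorem val_lt_of_ld (v : Place K (FF K (q ^ 2 * M'))) {γ : SL(2, ℤ)} {ε : ℕ} (hε : 0 < ε)
    (h : ∀ f : FF K (q ^ 2 * M'), f ≠ 0 →
      (sigma ι (cuspUDN (q ^ 2 * M')) γ f).order = ε * v.ord f) {f : FF K (q ^ 2 * M')}
    (hf : Ld 0 (sigma ι (cuspUDN (q ^ 2 * M')) γ f) 1) : v.adicValuation (f - 1) < 1 := by
  rw [val_lt_one_iff]
  by_cases h0 : f - 1 = 0
  · exact Or.inl h0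
  right
  have h1 := h _ h0
  have h2 : sigma ι (cuspUDN (q ^ 2 * M')) γ (f - 1) ≠ 0 := (map_ne_zero _).2 h0
  have h3 : 0 < (sigma ι (cuspUDN (q ^ 2 * M')) γ (f - 1)).order := by
    by_contra hcon
    push Not at hcon
    have h4 : ¬ (sigma ι (cuspUDN (q ^ 2 * M')) γ (f - 1)).coeff
        (sigma ι (cuspUDN (q ^ 2 * M')) γ (f - 1)).order = 0 :=
      fun h => h2 (HahnSeries.coeff_order_eq_zero.1 h)
    apply h4
    rw [map_sub, map_one] at h4 hcon ⊢
    rcases lt_or_eq_of_le hcon with h5 | h5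
    · rw [HahnSeries.coeff_sub, hf.1 _ h5, HahnSeries.coeff_one, if_neg h5.ne, sub_zero]
    · rw [h5, HahnSeries.coeff_sub, hf.2, HahnSeries.coeff_one, if_pos rfl, sub_self]
  rw [h1] at h3
  have hε' : (0 : ℤ) < ε := by exact_mod_cast hε
  exact (pos_iff_pos_of_mul_pos h3).1 hε'

theorem ld_ratio {N d : ℕ} [NeZero N] [NeZero d] {x y : LaurentSeries ℂ}
    (hx : x = ModularCurve.qExpand ℂ N (ModularCurve.qExpand ℂ 1 (jqModC ℂ)))
    (hy : y = ModularCurve.qExpand ℂ N (ModularCurve.qExpand ℂ d (jqModC ℂ))) : Ld 0 (y / x ^ d) 1 := by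
  have h1 : Ld (-(N : ℤ)) x 1 := by
    have := (ld_jq ℂ).qExpand N
    rw [hx, qExpand_one_apply]
    simpa using this
  have h2 : Ld (-(N * d : ℤ)) y 1 := by
    have := ((ld_jq ℂ).qExpand d).qExpand N
    rw [hy]
    have e : (N : ℤ) * (d * -1) = -(N * d : ℤ) := by ring
    rwa [e] at this
  have h3 : ∀ n : ℕ, Ld (-(N * n : ℤ)) (x ^ n) 1 := by
    intro n
    induction n with
    | zero =>
      rw [pow_zero]
      refine ⟨fun m hm => ?_, ?_⟩
      · rw [HahnSeries.coeff_one, if_neg]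
        simp at hm
        exact hm.ne
      · rw [HahnSeries.coeff_one, if_pos]
        simp
    | succ n ih =>
      rw [pow_succ]
      have := ih.mul h1
      rw [mul_one] at this
      have e : -(N * n : ℤ) + -(N : ℤ) = -(N * ((n + 1 : ℕ) : ℤ)) := by push_cast; ring
      rwa [e] at this
  have h4 := h3 d
  have hne : x ^ d ≠ 0 := h4.ne_zero one_ne_zero
  -- the quotient
  have h5 : ∀ {n : ℤ} {a b : LaurentSeries ℂ}, Ld n a 1 → Ld n b 1 → b ≠ 0 → Ld 0 (a / b) 1 := by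
    intro n a b ha hb hb0
    have hab : a ≠ 0 := ha.ne_zero one_ne_zero
    have hob : b.order = n := by
      apply le_antisymm
      · exact HahnSeries.order_le_of_coeff_ne_zero (by rw [hb.2]; exact one_ne_zero)
      · by_contra hlt
        push Not at hlt
        exact hb0 (HahnSeries.coeff_order_eq_zero.1 (hb.1 _ hlt))
    have hoa : a.order = n := by
      apply le_antisymm
      · exact HahnSeries.order_le_of_coeff_ne_zero (by rw [ha.2]; exact one_ne_zero)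
      · by_contra hlt
        push Not at hlt
        exact hab (HahnSeries.coeff_order_eq_zero.1 (ha.1 _ hlt))
    have hc : a / b ≠ 0 := div_ne_zero hab hb0
    have hoc : (a / b).order = 0 := by
      have := HahnSeries.order_mul hc hb0
      rw [div_mul_cancel₀ _ hb0, hoa, hob] at this
      linarith
    refine ⟨fun m hm => HahnSeries.coeff_eq_zero_of_lt_order (by rw [hoc]; exact hm), ?_⟩
    have h6 : Ld 0 (a / b) ((a / b).coeff 0) :=
      ⟨fun m hm => HahnSeries.coeff_eq_zero_of_lt_order (by rw [hoc]; exact hm), rfl⟩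
    have h7 := h6.mul hb
    rw [div_mul_cancel₀ _ hb0, zero_add] at h7
    have h8 := h7.2
    rw [ha.2, mul_one] at h8
    exact h8.symm
  exact h5 h2 h4 hne

/-- `j(z)` -/
abbrev jK1 (K : Type*) [Field K] (q M' : ℕ) [NeZero q] [NeZero M'] : FF K (q ^ 2 * M') :=
  jel K 1 (one_dvd _)
/-- `j(qz)` -/
abbrev jKq (K : Type*) [Field K] (q M' : ℕ) [NeZero q] [NeZero M'] : FF K (q ^ 2 * M') :=
  jel K q ((dvd_pow_self q two_ne_zero).trans (Dvd.intro _ rfl))
/-- `j(q²z)` -/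
abbrev jK2 (K : Type*) [Field K] (q M' : ℕ) [NeZero q] [NeZero M'] : FF K (q ^ 2 * M') :=
  jel K (q ^ 2) (Dvd.intro _ rfl)

theorem jel_ne_zero {K : Type*} [Field K] {N d : ℕ} [NeZero N] [NeZero d] (hd : d ∣ N) :
    jel K d hd ≠ 0 := by
  intro h
  have h1 := congrArg (Subtype.val : FF K N → LaurentSeries K) h
  have h2 : ModularCurve.qExpand K d (jqModC K) = 0 := h1
  have h3 := ((ld_jq K).qExpand d).2
  rw [h2, HahnSeries.coeff_zero] at h3
  exact zero_ne_one h3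

include ι in
theorem cusp_T1 (hq : q.Prime) (v : Place K (FF K (q ^ 2 * M')))
    (hv : v.ord (je K (q ^ 2 * M')) < 0) :
    v.adicValuation (jKq K q M' / jK1 K q M' ^ q - 1) < 1 ∨
      0 ≤ v.ord (jK2 K q M' ^ q ^ 2 / jK1 K q M') := by
  obtain ⟨γ, ε, hε, h⟩ := exists_gamma ι v hv
  by_cases hqc : (q : ℤ) ∣ γ 1 0
  · left
    refine val_lt_of_ld ι v hε h ?_
    rw [map_div₀, map_pow]
    exact ld_ratio (sigma_of_dvd ι γ 1 _ (by simp)) (sigma_of_dvd ι γ q _ hqc)
  · right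
    have hne : jK2 K q M' ^ q ^ 2 / jK1 K q M' ≠ 0 :=
      div_ne_zero (pow_ne_zero _ (jel_ne_zero _)) (jel_ne_zero _)
    have h1 := h _ hne
    have hε' : (0 : ℤ) < ε := by exact_mod_cast hε
    refine nonneg_of_mul_nonneg_right ?_ hε'
    rw [← h1]
    obtain ⟨g, e, hge, hg, ho⟩ := order_sigma (N := q ^ 2 * M') ι γ (q ^ 2) (Dvd.intro _ rfl)
    obtain ⟨g', e', hge', hg', ho'⟩ := order_sigma (N := q ^ 2 * M') ι γ 1 (one_dvd _)
    have hcop : Int.gcd ((q ^ 2 : ℕ) : ℤ) (γ 1 0) = 1 := by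
      have h2 : IsCoprime (q : ℤ) (γ 1 0) :=
        (Prime.coprime_iff_not_dvd (Nat.prime_iff_prime_int.1 hq)).2 hqc
      rw [← Int.isCoprime_iff_gcd_eq_one]
      push_cast
      exact h2.pow_left
    rw [hcop] at hg
    subst hg
    rw [one_mul] at hge
    subst hge
    have he' : g' = 1 ∧ e' = 1 := by
      exact ⟨Nat.eq_one_of_mul_eq_one_right hge', Nat.eq_one_of_mul_eq_one_left hge'⟩
    obtain ⟨rfl, rfl⟩ := he'
    have hN : q ^ 2 * M' / q ^ 2 = M' := Nat.mul_div_cancel_left _ (pow_pos hq.pos 2)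
    rw [hN, one_mul] at ho
    rw [Nat.div_one, one_mul] at ho'
    rw [map_div₀, map_pow]
    have n1 : sigma ι (cuspUDN (q ^ 2 * M')) γ (jK1 K q M') ≠ 0 := (map_ne_zero _).2 (jel_ne_zero _)
    have n2 : sigma ι (cuspUDN (q ^ 2 * M')) γ (jK2 K q M') ≠ 0 := (map_ne_zero _).2 (jel_ne_zero _)
    have h3 := HahnSeries.order_mul (div_ne_zero (pow_ne_zero (q ^ 2) n2) n1) n1
    rw [div_mul_cancel₀ _ n1, HahnSeries.order_pow, ho, ho'] at h3
    push_cast at h3
    rw [nsmul_eq_mul] at h3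
    push_cast at h3
    linarith

include ι in
theorem cusp_T2 (hq : q.Prime) (v : Place K (FF K (q ^ 2 * M')))
    (hv : v.ord (je K (q ^ 2 * M')) < 0) :
    v.adicValuation (jK2 K q M' / jK1 K q M' ^ q ^ 2 - 1) < 1 ∨
      0 ≤ v.ord (jK2 K q M' / jK1 K q M') := by
  obtain ⟨γ, ε, hε, h⟩ := exists_gamma ι v hv
  by_cases hqc : ((q ^ 2 : ℕ) : ℤ) ∣ γ 1 0
  · left
    refine val_lt_of_ld ι v hε h ?_
    rw [map_div₀, map_pow]
    exact ld_ratio (sigma_of_dvd ι γ 1 _ (by simp)) (sigma_of_dvd ι γ (q ^ 2) _ hqc)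
  · right
    have hne : jK2 K q M' / jK1 K q M' ≠ 0 := div_ne_zero (jel_ne_zero _) (jel_ne_zero _)
    have h1 := h _ hne
    have hε' : (0 : ℤ) < ε := by exact_mod_cast hε
    refine nonneg_of_mul_nonneg_right ?_ hε'
    rw [← h1]
    obtain ⟨g, e, hge, hg, ho⟩ := order_sigma (N := q ^ 2 * M') ι γ (q ^ 2) (Dvd.intro _ rfl)
    obtain ⟨g', e', hge', hg', ho'⟩ := order_sigma (N := q ^ 2 * M') ι γ 1 (one_dvd _)
    have he' : g' = 1 ∧ e' = 1 := ⟨Nat.eq_one_of_mul_eq_one_right hge', Nat.eq_one_of_mul_eq_one_left hge'⟩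
    obtain ⟨rfl, rfl⟩ := he'
    rw [Nat.div_one, one_mul] at ho'
    have hle : g * (q ^ 2 * M' / e) ≤ q ^ 2 * M' := by
      have hgq : g ∣ q ^ 2 := Dvd.intro _ hge
      obtain ⟨a, ha, rfl⟩ := (Nat.dvd_prime_pow hq).1 hgq
      have ha1 : a ≤ 1 := by
        by_contra hcon
        have : a = 2 := by omega
        subst this
        apply hqc
        have h2 : (Int.gcd ((q ^ 2 : ℕ) : ℤ) (γ 1 0) : ℤ) ∣ γ 1 0 := Int.gcd_dvd_right _ _
        rwa [← hg] at h2
      have he : e = q ^ (2 - a) := by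
        apply Nat.eq_of_mul_eq_mul_left (pow_pos hq.pos a)
        rw [hge, ← pow_add]
        congr 1
        omega
      subst he
      have h3 : q ^ 2 * M' = q ^ (2 - a) * (q ^ a * M') := by
        rw [← mul_assoc, ← pow_add]
        congr 2
        omega
      rw [h3, Nat.mul_div_cancel_left _ (pow_pos hq.pos _), ← mul_assoc, ← mul_assoc, ← pow_add,
        ← pow_add]
      exact Nat.mul_le_mul_right _ (Nat.pow_le_pow_right hq.pos (by omega))
    rw [map_div₀]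
    have n1 : sigma ι (cuspUDN (q ^ 2 * M')) γ (jK1 K q M') ≠ 0 := (map_ne_zero _).2 (jel_ne_zero _)
    have n2 : sigma ι (cuspUDN (q ^ 2 * M')) γ (jK2 K q M') ≠ 0 := (map_ne_zero _).2 (jel_ne_zero _)
    have h3 := HahnSeries.order_mul (div_ne_zero n2 n1) n1
    rw [div_mul_cancel₀ _ n1, ho, ho'] at h3
    have h4 : ((g * (q ^ 2 * M' / e) : ℕ) : ℤ) ≤ ((q ^ 2 * M' : ℕ) : ℤ) := by exact_mod_cast hle
    linarith

end T

end Fermat.Agent.Carayol
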