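import Fermat.Agent.Carayol.Hom

/-!
# The Atkin–Lehner involution `w_{q^2}` and the embeddings `f(q^2 z) ↦ f(ζ T)`
-/

set_option autoImplicit false
set_option linter.unusedSectionVars false
set_option linter.style.haveILetI false

noncomputable section

namespace Fermat.Agent.Carayol

open ModularCurve IntermediateField Fermat.Agent.GenusX0 Fermat.Agent.ModFun
open UpperHalfPlane Function.Periodic
open scoped MatrixGroups

theorem lin_ne_zero {c d : ℤ} (h : c ≠ 0 ∨ d ≠ 0) (τ : ℍ) : (c : ℂ) * τ + d ≠ 0 := by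
  intro h0
  have h1 := congrArg Complex.im h0
  simp only [Complex.add_im, Complex.mul_im, Complex.intCast_re, Complex.intCast_im, zero_mul,
    add_zero, Complex.zero_im] at h1
  have hc : c = 0 := by
    rcases mul_eq_zero.1 h1 with h2 | h2
    · exact_mod_cast h2
    · exact absurd h2 τ.im_pos.ne'
  subst hc
  rw [Int.cast_zero, zero_mul, zero_add] at h0
  have hd : d = 0 := by exact_mod_cast h0
  rcases h with h | h
  · exact h rfl
  · exact h hd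

/-- explicit elements of `SL(2, ℤ)` -/
def mkSL (a b c d : ℤ) (h : a * d - b * c = 1) : SL(2, ℤ) :=
  ⟨!![a, b; c, d], by rw [Matrix.det_fin_two_of]; exact h⟩

theorem coe_mkSL_smul (a b c d : ℤ) (h : a * d - b * c = 1) (τ : ℍ) :
    ((mkSL a b c d h • τ : ℍ) : ℂ) = ((a : ℂ) * τ + b) / ((c : ℂ) * τ + d) := by
  rw [UpperHalfPlane.coe_specialLinearGroup_apply]
  change (((algebraMap ℤ ℝ a : ℝ) : ℂ) * τ + ((algebraMap ℤ ℝ b : ℝ) : ℂ)) /
    (((algebraMap ℤ ℝ c : ℝ) : ℂ) * τ + ((algebraMap ℤ ℝ d : ℝ) : ℂ)) = _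
  simp only [eq_intCast, Complex.ofReal_intCast]

/-- `j` takes the same value at points related by an integral matrix of determinant one -/
theorem jfun_mob {τ₁ τ₂ : ℍ} (a b c d : ℤ) (h : a * d - b * c = 1)
    (e : (τ₁ : ℂ) * (c * τ₂ + d) = a * τ₂ + b) : jfun τ₁ = jfun τ₂ := by
  have h1 : τ₁ = mkSL a b c d h • τ₂ := by
    ext
    rw [coe_mkSL_smul]
    have hne : ((c : ℂ) * τ₂ + d) ≠ 0 := by
      apply lin_ne_zero
      by_contra! h0
      rw [h0.1, h0.2, mul_zero, mul_zero, sub_zero] at h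
      exact zero_ne_one h
    rw [eq_div_iff hne]
    exact e
  rw [h1, jfun_smul]

/-- `τ ↦ τ / e` -/
abbrev dv (e : ℕ) [NeZero e] (τ : ℍ) : ℍ := pte 1 e 0 one_pos (Nat.pos_of_ne_zero (NeZero.ne e)) τ

theorem coe_dv (e : ℕ) [NeZero e] (τ : ℍ) : (dv e τ : ℂ) = τ / e := by
  rw [dv, coe_pte]; simp

section

variable {k : Type*} [Field k] (ι : k →+* ℂ)

/-- expansions of functions of `τ/e` at level `em` -/
theorem hasExp_dv (e m : ℕ) [NeZero e] [NeZero m] {y : LaurentSeries k}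
    (hy : coeffMap ι y ∈ convLaurent) :
    HasExp (cuspUD (e * m)) (fun τ => fn ι y (dv e τ)) (qExpand ℂ m (coeffMap ι y)) := by
  refine ⟨qExpand_mem_convLaurent _ hy, fun τ _ => ?_⟩
  change evf (qExpand ℂ m (coeffMap ι y)) _ = evf (coeffMap ι y) (qParam 1 (dv e τ : ℂ))
  rw [evf_qExpand]
  congr 1
  change qParam ((e * m : ℕ) : ℝ) (τ : ℂ) ^ m = _
  rw [qParam, qParam, ← Complex.exp_nat_mul, coe_dv]
  congr 1
  have he : (e : ℂ) ≠ 0 := by exact_mod_cast NeZero.ne e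
  have hm : (m : ℂ) ≠ 0 := by exact_mod_cast NeZero.ne m
  push_cast
  field_simp

theorem fn_twist_gen (ζ : kˣ) {q : ℕ} (hq : 0 < q) {b : ℤ}
    (hb : ι ζ = Complex.exp (2 * Real.pi * Complex.I * (b / q))) (d : ℕ) [NeZero d] (τ : ℍ) :
    fn ι (twist ζ (qExpand k d (jqModC k))) τ = jfun (dm d (pte q q b hq hq τ)) := by
  rw [fn, coeffMap_twist, coeffMap_gen', evf_twist, evf_qExpand, ← evf_jqModC]
  congr 1
  change ((ι ζ : ℂ) * qParam 1 (τ : ℂ)) ^ d = _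
  rw [hb, qParam, qParam, ← Complex.exp_add, ← Complex.exp_nat_mul, coe_dm, coe_pte]
  congr 1
  have hq' : (q : ℂ) ≠ 0 := by exact_mod_cast hq.ne'
  push_cast
  field_simp
  ring

theorem coeffMap_twist_gen_mem (ζ : kˣ) {q : ℕ} (hq : 0 < q) (hζ : (ζ : k) ^ q = 1) (d : ℕ)
    [NeZero d] : coeffMap ι (twist ζ (qExpand k d (jqModC k))) ∈ convLaurent := by
  rw [coeffMap_twist, coeffMap_gen']
  refine twist_mem_convLaurent _ ?_ (qExpand_mem_convLaurent d jqModC_mem_convLaurent)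
  have h1 : (ι ζ) ^ q = 1 := by rw [← map_pow, hζ, map_one]
  exact Complex.norm_eq_one_of_pow_eq_one h1 hq.ne'

theorem gen_conv (d : ℕ) [NeZero d] : coeffMap ι (qExpand k d (jqModC k)) ∈ convLaurent := by
  rw [coeffMap_gen']
  exact qExpand_mem_convLaurent d jqModC_mem_convLaurent

end

theorem sigma_jel_eq {k : Type*} [Field k] (ι : k →+* ℂ) {N : ℕ} [NeZero N] (g : SL(2, ℤ)) {d : ℕ}
    [NeZero d] (hd : d ∣ N) {f : ℍ → ℂ} {G : LaurentSeries ℂ} (hG : HasExp (cuspUD N) f G)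
    (h : ∀ τ, jfun (dm d (g • τ)) = f τ) : sigma ι (cuspUDN N) g (jel k d hd) = G := by
  have h1 := sigma_jel ι (cuspUDN N) g d hd
  have h2 : (fun τ => jfun (dm d (g • τ))) = f := funext h
  rw [h2] at h1
  exact HasExp.unique h1 hG

/-- divisors of `q^2 M'` -/
theorem dvd_cases {q M' d : ℕ} (hq : q.Prime) (h : d ∣ q ^ 2 * M') :
    ∃ a d₀, a ≤ 2 ∧ d₀ ∣ M' ∧ d = q ^ a * d₀ := by
  obtain ⟨y, z, hy, hz, rfl⟩ := Nat.dvd_mul.1 h
  obtain ⟨a, ha, rfl⟩ := (Nat.dvd_prime_pow hq).1 hy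
  exact ⟨a, z, ha, hz, rfl⟩

theorem dvd_cases' {q M' d : ℕ} (hq : q.Prime) (h : d ∣ q * M') :
    ∃ a d₀, a ≤ 1 ∧ d₀ ∣ M' ∧ d = q ^ a * d₀ := by
  obtain ⟨y, z, hy, hz, rfl⟩ := Nat.dvd_mul.1 h
  rw [← pow_one q] at hy
  obtain ⟨a, ha, rfl⟩ := (Nat.dvd_prime_pow hq).1 hy
  exact ⟨a, z, ha, hz, rfl⟩

section W

variable {k : Type*} [Field k] (ι : k →+* ℂ) {q M' : ℕ} [NeZero q] [NeZero M']

instance neZero_pow_two : NeZero (q ^ 2) := ⟨pow_ne_zero 2 (NeZero.ne q)⟩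

include ι in
/-- the Atkin–Lehner involution on the generators -/
theorem exists_w (hq : q.Prime) (hcop : Nat.Coprime q M') :
    ∃ w : FF k (q ^ 2 * M') →+* FF k (q ^ 2 * M'),
      (∀ c : k, w (algebraMap k _ c) = algebraMap k _ c) ∧
      ∀ (a d₀ d d' : ℕ) [NeZero d] [NeZero d'] (hd : d ∣ q ^ 2 * M') (hd' : d' ∣ q ^ 2 * M'),
        a ≤ 2 → d₀ ∣ M' → d = q ^ a * d₀ → d' = q ^ (2 - a) * d₀ →
        w (jel k d hd) = jel k d' hd' := by
  have hcop2 : IsCoprime ((q : ℤ) ^ 2) (M' : ℤ) := by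
    have h1 : Nat.Coprime (q ^ 2) M' := hcop.pow_left 2
    have := Nat.isCoprime_iff_coprime.2 h1
    exact_mod_cast this
  obtain ⟨x, y', hxy⟩ := hcop2
  -- `x q^2 + y' M' = 1`
  have hdet : x * (q : ℤ) ^ 2 - -y' * (M' : ℤ) = 1 := by linear_combination hxy
  obtain ⟨g, hg⟩ : ∃ g, g = mkSL x (-y') M' ((q : ℤ) ^ 2) hdet := ⟨_, rfl⟩
  have hcoe : ∀ τ : ℍ, ((g • τ : ℍ) : ℂ) = ((x : ℂ) * τ - y') / ((M' : ℂ) * τ + q ^ 2) := by
    intro τ
    rw [hg, coe_mkSL_smul]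
    push_cast
    ring
  have hden : ∀ τ : ℍ, ((M' : ℂ) * τ + q ^ 2) ≠ 0 := by
    intro τ
    have := lin_ne_zero (c := (M' : ℤ)) (d := (q : ℤ) ^ 2)
      (Or.inl (by exact_mod_cast NeZero.ne M')) τ
    push_cast at this
    exact this
  have hqC : (q : ℂ) ≠ 0 := by exact_mod_cast NeZero.ne q
  -- values on the generators
  have hval : ∀ (a d₀ d d' : ℕ) [NeZero d] [NeZero d'] (hd : d ∣ q ^ 2 * M'), a ≤ 2 → d₀ ∣ M' →
      d = q ^ a * d₀ → d' = q ^ (2 - a) * d₀ →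
      sigma ι (cuspUDN (q ^ 2 * M')) g (jel k d hd) =
        qExpand ℂ M' (coeffMap ι (qExpand k d' (jqModC k))) := by
    intro a d₀ d d' _ _ hd ha hd₀ hda hda'
    refine sigma_jel_eq ι g hd (hasExp_dv ι (q ^ 2) M' (y := qExpand k d' (jqModC k))
      (gen_conv ι d')) fun τ => ?_
    rw [fn_gen]
    obtain ⟨m₀, hm₀⟩ := hd₀
    have hqa : (q : ℤ) ^ a * q ^ (2 - a) = q ^ 2 := by
      rw [← _root_.pow_add, Nat.add_sub_cancel' ha]
    refine jfun_mob (q ^ a * x) (-(d₀ * y')) m₀ (q ^ (2 - a)) ?_ ?_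
    · have h3 : (M' : ℤ) = d₀ * m₀ := by exact_mod_cast hm₀
      rw [h3] at hxy
      linear_combination hxy + x * hqa
    · have hdC : (d : ℂ) = q ^ a * d₀ := by exact_mod_cast hda
      have hdC' : (d' : ℂ) = q ^ (2 - a) * d₀ := by exact_mod_cast hda'
      have hMC : (M' : ℂ) = d₀ * m₀ := by exact_mod_cast hm₀
      have hqaC : (q : ℂ) ^ a * q ^ (2 - a) = q ^ 2 := by
        rw [← _root_.pow_add, Nat.add_sub_cancel' ha]
      have hd1 := hden τ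
      rw [coe_dm, coe_dm, hcoe]
      have hX : ((x : ℂ) * τ - y') / ((M' : ℂ) * τ + q ^ 2) * ((M' : ℂ) * τ + q ^ 2) =
          (x : ℂ) * τ - y' := div_mul_cancel₀ _ hd1
      have hT : (τ : ℂ) = (q : ℂ) ^ 2 * (dv (q ^ 2) τ : ℂ) := by
        rw [coe_dv]
        have hq2 : ((q ^ 2 : ℕ) : ℂ) ≠ 0 := by exact_mod_cast pow_ne_zero 2 (NeZero.ne q)
        push_cast at hq2 ⊢
        field_simp
      generalize ((x : ℂ) * τ - y') / ((M' : ℂ) * τ + q ^ 2) = X at hX ⊢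
      generalize (dv (q ^ 2) τ : ℂ) = T at hT ⊢
      rw [hT, hMC] at hX
      rw [hdC, hdC']
      push_cast
      linear_combination (d₀ * (m₀ * d₀ * T + 1) * X - x * d₀ * T) * hqaC + d₀ * hX
  -- factor
  let i : FF k (q ^ 2 * M') →+* LaurentSeries ℂ :=
    (qExpand ℂ M').comp ((coeffMap ι).comp (algebraMap (FF k (q ^ 2 * M')) (LaurentSeries k)))
  have hi : ∀ x, i x = qExpand ℂ M' (coeffMap ι (x : LaurentSeries k)) := fun _ => rfl
  have hic : ∀ c : k, i (algebraMap k _ c) = sigma ι (cuspUDN (q ^ 2 * M')) g (algebraMap k _ c) := by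
    intro c
    rw [hi, coe_const, coeffMap_algebraMap, qExpand_algebraMap, sigma_const, C_eq_algebraMap]
  obtain ⟨w, hw⟩ := exists_factor (sigma ι (cuspUDN (q ^ 2 * M')) g) i
    (fun c => ⟨_, hic c⟩) (by
      intro d _ hd
      obtain ⟨a, d₀, ha, hd₀, rfl⟩ := dvd_cases hq hd
      haveI : NeZero d₀ := ⟨by rintro rfl; exact NeZero.ne M' (zero_dvd_iff.1 hd₀)⟩
      have hd' : q ^ (2 - a) * d₀ ∣ q ^ 2 * M' :=
        mul_dvd_mul (pow_dvd_pow q (Nat.sub_le 2 a)) hd₀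
      haveI : NeZero (q ^ (2 - a)) := ⟨pow_ne_zero _ (NeZero.ne q)⟩
      refine ⟨jel k (q ^ (2 - a) * d₀) hd', ?_⟩
      rw [hi, coe_jel, hval a d₀ (q ^ a * d₀) (q ^ (2 - a) * d₀) hd ha hd₀ rfl rfl])
  refine ⟨w, fun c => i.injective ?_, ?_⟩
  · rw [hw, hic]
  · intro a d₀ d d' _ _ hd hd' ha hd₀ hda hda'
    apply i.injective
    rw [hw, hval a d₀ d d' hd ha hd₀ hda hda', hi, coe_jel]

end W

section Sig

variable {K : Type*} [Field K] (ι : K →+* ℂ) {q M' : ℕ} [NeZero q] [NeZero M']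

include ι in
/-- the embeddings over `F_{q M'}` -/
theorem exists_sig (hq : q.Prime) (hcop : Nat.Coprime q M') (ζ : Kˣ)
    (hζ : IsPrimitiveRoot (ζ : K) q) :
    ∃ s : FF K (q ^ 2 * M') →+* LaurentSeries K,
      (∀ c : K, s (algebraMap K _ c) = algebraMap K _ c) ∧
      (∀ (d : ℕ) [NeZero d] (hd : d ∣ q ^ 2 * M'), d ∣ q * M' →
        s (jel K d hd) = qExpand K d (jqModC K)) ∧
      ∀ (d₀ d : ℕ) [NeZero d₀] [NeZero d] (hd : d ∣ q ^ 2 * M'), d₀ ∣ M' → d = q ^ 2 * d₀ →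
        s (jel K d hd) = twist ζ (qExpand K d₀ (jqModC K)) := by
  have hq0 : 0 < q := hq.pos
  -- the argument of `ζ`
  have hζι : IsPrimitiveRoot (ι ζ) q := hζ.map_of_injective ι.injective
  obtain ⟨b, hbq, hbcop, hb⟩ := (Complex.isPrimitiveRoot_iff (ι ζ) q hq0.ne').1 hζι
  have hb' : ι ζ = Complex.exp (2 * Real.pi * Complex.I * ((b : ℤ) / q)) := by
    rw [← hb]; push_cast; rfl
  -- `i` with `i M' b ≡ 1`
  obtain ⟨i, δ, hi⟩ : ∃ i δ : ℤ, i * M' * b + q * δ = 1 := by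
    have h1 : IsCoprime ((M' * b : ℕ) : ℤ) (q : ℤ) := by
      rw [Nat.isCoprime_iff_coprime]
      exact Nat.Coprime.mul_left hcop.symm hbcop
    obtain ⟨i, δ, h⟩ := h1
    refine ⟨i, δ, ?_⟩
    push_cast at h
    linear_combination h
  have hdet : (1 : ℤ) * 1 - 0 * (i * q * M') = 1 := by ring
  obtain ⟨g, hg⟩ : ∃ g, g = mkSL 1 0 (i * q * M') 1 hdet := ⟨_, rfl⟩
  have hden : ∀ τ : ℍ, ((i : ℂ) * q * M' * τ + 1) ≠ 0 := by
    intro τ
    have := lin_ne_zero (c := i * q * M') (d := 1) (Or.inr one_ne_zero) τ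
    push_cast at this
    exact this
  have hcoe : ∀ τ : ℍ, ((g • τ : ℍ) : ℂ) = (τ : ℂ) / ((i : ℂ) * q * M' * τ + 1) := by
    intro τ
    rw [hg, coe_mkSL_smul]
    push_cast
    ring
  have hqC : (q : ℂ) ≠ 0 := by exact_mod_cast NeZero.ne q
  haveI : NeZero (1 : ℕ) := ⟨one_ne_zero⟩
  -- expansions
  have hexp : ∀ {y : LaurentSeries K}, coeffMap ι y ∈ convLaurent →
      HasExp (cuspUD (q ^ 2 * M')) (fun τ => fn ι y τ)
        (qExpand ℂ (q ^ 2 * M') (coeffMap ι y)) := by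
    intro y hy
    have h1 := hasExp_dv ι 1 (q ^ 2 * M') hy
    have h2 : ∀ τ, dv 1 τ = τ := by
      intro τ
      ext
      rw [coe_dv, Nat.cast_one, div_one]
    simp only [h2] at h1
    have h3 : 1 * (q ^ 2 * M') = q ^ 2 * M' := one_mul _
    have h4 : cuspUD (1 * (q ^ 2 * M')) = cuspUD (q ^ 2 * M') := by
      congr 1
    rwa [h4] at h1
  have hval1 : ∀ (d : ℕ) [NeZero d] (hd : d ∣ q ^ 2 * M'), d ∣ q * M' →
      sigma ι (cuspUDN (q ^ 2 * M')) g (jel K d hd) =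
        qExpand ℂ (q ^ 2 * M') (coeffMap ι (qExpand K d (jqModC K))) := by
    intro d _ hd hd1
    refine sigma_jel_eq ι g hd (hexp (gen_conv ι d)) fun τ => ?_
    rw [fn_gen]
    refine jfun_dm_Gamma0 d (dvd_refl d) ?_ τ
    rw [CongruenceSubgroup.Gamma0_mem, ZMod.intCast_zmod_eq_zero_iff_dvd, hg]
    change (d : ℤ) ∣ i * q * M'
    rw [mul_assoc]
    exact Dvd.dvd.mul_left (by exact_mod_cast hd1) i
  have hval2 : ∀ (d₀ d : ℕ) [NeZero d₀] [NeZero d] (hd : d ∣ q ^ 2 * M'), d₀ ∣ M' →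
      d = q ^ 2 * d₀ → sigma ι (cuspUDN (q ^ 2 * M')) g (jel K d hd) =
        qExpand ℂ (q ^ 2 * M') (coeffMap ι (twist ζ (qExpand K d₀ (jqModC K)))) := by
    intro d₀ d _ _ hd hd₀ hdd
    refine sigma_jel_eq ι g hd (hexp (coeffMap_twist_gen_mem ι ζ hq0 hζ.pow_eq_one d₀)) fun τ => ?_
    rw [fn_twist_gen ι ζ hq0 hb']
    obtain ⟨m₀, hm₀⟩ := hd₀
    have h3 : (M' : ℤ) = d₀ * m₀ := by exact_mod_cast hm₀
    refine jfun_mob q (-(d₀ * b)) (i * m₀) δ ?_ ?_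
    · rw [h3] at hi
      linear_combination hi
    · have hdC : (d : ℂ) = q ^ 2 * d₀ := by exact_mod_cast hdd
      have hMC : (M' : ℂ) = d₀ * m₀ := by exact_mod_cast hm₀
      have hiC : (i : ℂ) * M' * b + q * δ = 1 := by exact_mod_cast hi
      have hd1 := hden τ
      rw [coe_dm, coe_dm, hcoe, coe_pte]
      have hX : (τ : ℂ) / ((i : ℂ) * q * M' * τ + 1) * ((i : ℂ) * q * M' * τ + 1) = τ :=
        div_mul_cancel₀ _ hd1
      have hY : (((q : ℂ) * τ + (b : ℤ)) / q) * q = q * τ + b := by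
        rw [div_mul_cancel₀ _ hqC]; push_cast; ring
      generalize (τ : ℂ) / ((i : ℂ) * q * M' * τ + 1) = X at hX ⊢
      generalize ((q : ℂ) * τ + (b : ℤ)) / q = Y at hY ⊢
      rw [hdC]
      rw [hMC] at hX hiC
      push_cast
      linear_combination (q * d₀ * X * (i * m₀ * d₀) - d₀) * hY + q * d₀ * hX + q * d₀ * X * hiC
  -- factor
  let f : LaurentSeries K →+* LaurentSeries ℂ := (qExpand ℂ (q ^ 2 * M')).comp (coeffMap ι)
  have hf : ∀ x, f x = qExpand ℂ (q ^ 2 * M') (coeffMap ι x) := fun _ => rfl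
  have hfc : ∀ c : K, f (algebraMap K _ c) = sigma ι (cuspUDN (q ^ 2 * M')) g (algebraMap K _ c) := by
    intro c
    rw [hf, coeffMap_algebraMap, qExpand_algebraMap, sigma_const, C_eq_algebraMap]
  obtain ⟨s, hs⟩ := exists_factor (sigma ι (cuspUDN (q ^ 2 * M')) g) f
    (fun c => ⟨_, hfc c⟩) (by
      intro d _ hd
      obtain ⟨a, d₀, ha, hd₀, hda⟩ := dvd_cases hq hd
      haveI : NeZero d₀ := ⟨by rintro rfl; exact NeZero.ne M' (zero_dvd_iff.1 hd₀)⟩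
      rcases Nat.lt_or_ge a 2 with h | h
      · refine ⟨_, (hf _).trans (hval1 d hd ?_).symm⟩
        rw [hda]
        exact mul_dvd_mul ((pow_dvd_pow q (by omega : a ≤ 1)).trans (by rw [pow_one])) hd₀
      · have : a = 2 := le_antisymm ha h
        subst this
        exact ⟨_, (hf _).trans (hval2 d₀ d hd hd₀ hda).symm⟩)
  refine ⟨s, fun c => f.injective ?_, fun d _ hd hd1 => f.injective ?_,
    fun d₀ d _ _ hd hd₀ hdd => f.injective ?_⟩
  · rw [hs, hfc]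
  · rw [hs, hval1 d hd hd1, hf]
  · rw [hs, hval2 d₀ d hd hd₀ hdd, hf]

end Sig

end Fermat.Agent.Carayol
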