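import Fermat.Agent.Carayol.Ord

/-!
# The theorem for a situation
-/

set_option autoImplicit false
set_option linter.unusedSectionVars false
set_option linter.style.haveILetI false

noncomputable section

namespace Fermat.Agent.Carayol

open ModularCurve Fermat.Agent.GoodRed Fermat.Agent.ModFun Fermat.Agent.GenusX0
open Fermat.Agent.Models IsLocalRing Polynomial IntermediateField Fermat.Agent.SSMod
open AlgebraicCurve Fermat.Agent.Curves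

theorem LR_prod' {K κ : Type*} [Field K] [Field κ] {A : ValuationSubring K} {π : A →+* κ}
    {I : Type*} (s : Finset I) {x : I → LaurentSeries K} {y : I → LaurentSeries κ}
    (h : ∀ i ∈ s, LR π (x i) (y i)) : LR π (∏ i ∈ s, x i) (∏ i ∈ s, y i) := by
  classical
  induction s using Finset.induction_on with
  | empty => rw [Finset.prod_empty, Finset.prod_empty]; exact LR.one _
  | insert a s ha ih =>
    rw [Finset.prod_insert ha, Finset.prod_insert ha]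
    exact (h a (Finset.mem_insert_self a s)).mul
      (ih fun i hi => h i (Finset.mem_insert_of_mem hi))

namespace Sit

variable {k₀ K κ : Type} [Field k₀] [Field K] [Field κ] [Algebra k₀ K] {q M' : ℕ}
  [NeZero q] [NeZero M'] (S : Sit k₀ K κ q M')

/-- the uniformizer of the constants -/
abbrev ϖF : S.F := algebraMap k₀ S.F S.ϖ

/-- orders -/
abbrev O (i : Fin 3) (x : S.F) (n : ℤ) : Prop := IsOrd (S.C i) S.ϖF x n

theorem ϖF_memC (i : Fin 3) : S.ϖF ∈ (S.C i).O := mem_C.2 (S.ϖ_mem i)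

theorem exists_pow_mul (i : Fin 3) (x : S.F) : ∃ N : ℕ, S.ϖF ^ N * x ∈ (S.C i).O := by
  obtain ⟨N, hN⟩ := exists_pow_mul_mem_O S.hinc (S.φ_const i) (S.φ_scale i) S.hpow x
  refine ⟨N, mem_C.2 ?_⟩
  have e : S.ϖF = algebraMap k₀ S.F ((q : ℕ) : k₀) := rfl
  rw [e]
  exact hN

theorem exists_O (i : Fin 3) {x : S.F} (hx : x ≠ 0) : ∃ n, S.O i (x ^ (q - 1)) n := by
  have hq2 := S.hq.two_le
  by_cases hi : i = 1
  · subst hi
    refine exists_isOrd (U := S.e01) (e := 1) (d := q - 1) S.ϖ_ne (S.r_ϖ 1) (S.ϖF_memC 1) S.e01_ne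
      (fun x hx h => C_div hx h) ?_ one_pos (S.exists_pow_mul 1) hx
    rw [IsOrd, Nat.cast_one, zpow_neg, zpow_one, mul_comm]
    exact S.zR_ne
  · refine exists_isOrd (U := S.ϖF) (e := q - 1) (d := q - 1) S.ϖ_ne (S.r_ϖ i) (S.ϖF_memC i) S.ϖ_ne
      (fun x hx h => ?_) ?_ (by omega) (S.exists_pow_mul i) hx
    · have := C_div hx h
      rwa [S.xF_eq i hi] at this
    · have := (isOrd_self_one (C := S.C i) S.ϖ_ne).pow S.ϖ_ne (q - 1)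
      rwa [mul_one] at this

theorem exists_O' {i : Fin 3} (hi : i ≠ 1) {x : S.F} (hx : x ≠ 0) : ∃ n, S.O i x n := by
  have h : ∃ n, S.O i (x ^ 1) n := by
    refine exists_isOrd (U := S.ϖF) (e := 1) (d := 1) S.ϖ_ne (S.r_ϖ i) (S.ϖF_memC i) S.ϖ_ne
      (fun x hx h => ?_) ?_ one_pos (S.exists_pow_mul i) hx
    · have := C_div hx h
      rwa [S.xF_eq i hi] at this
    · have := isOrd_self_one (C := S.C i) S.ϖ_ne
      rwa [pow_one]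
  rwa [pow_one] at h

theorem O_unique {i : Fin 3} {x : S.F} {n k : ℤ} (h : S.O i x n) (h' : S.O i x k) : n = k :=
  h.unique S.ϖ_ne (S.r_ϖ i) h'

theorem O_mul {i : Fin 3} {x y : S.F} {n k : ℤ} (h : S.O i x n) (h' : S.O i y k) :
    S.O i (x * y) (n + k) := h.mul S.ϖ_ne h'

theorem O_pow {i : Fin 3} {x : S.F} {n : ℤ} (h : S.O i x n) (k : ℕ) : S.O i (x ^ k) (k * n) :=
  h.pow S.ϖ_ne k

theorem O_zpow {i : Fin 3} {x : S.F} {n : ℤ} (h : S.O i x n) (k : ℤ) : S.O i (x ^ k) (k * n) :=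
  h.zpow S.ϖ_ne k

theorem O_ϖ (i : Fin 3) (k : ℤ) : S.O i (S.ϖF ^ k) k := isOrd_self S.ϖ_ne k

theorem O_zero {i : Fin 3} {x : S.F} : S.O i x 0 ↔ (S.C i).r x ≠ 0 := isOrd_zero

/-! ### the orders of the units -/

theorem O_δ1 : S.O 0 S.δ1 0 ∧ S.O 1 S.δ1 0 ∧ S.O 2 S.δ1 12 := by
  refine ⟨?_, ?_, ?_⟩
  · rw [O_zero, r0_δ1]; exact S.dR_ne
  · rw [O_zero, r1_δ1]; exact S.dR_ne
  · have h : (S.C 2).r ((algebraMap k₀ S.F S.ϖ)⁻¹ ^ 12 * S.δ1) ≠ 0 := by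
      rw [r2_δ1']; exact pow_ne_zero _ (inv_ne_zero S.dR_ne)
    have e : (algebraMap k₀ S.F S.ϖ)⁻¹ ^ 12 * S.δ1 = S.δ1 * S.ϖF ^ (-12 : ℤ) := by
      rw [mul_comm, inv_pow, zpow_neg]; rfl
    rw [e] at h
    exact h

theorem O_δ2 : S.O 0 S.δ2 12 ∧ S.O 1 S.δ2 0 ∧ S.O 2 S.δ2 0 := by
  refine ⟨?_, ?_, ?_⟩
  · have h : (S.C 0).r ((algebraMap k₀ S.F S.ϖ)⁻¹ ^ 12 * S.δ2) ≠ 0 := by
      rw [r0_δ2']; exact pow_ne_zero _ (inv_ne_zero S.dR_ne)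
    have e : (algebraMap k₀ S.F S.ϖ)⁻¹ ^ 12 * S.δ2 = S.δ2 * S.ϖF ^ (-12 : ℤ) := by
      rw [mul_comm, inv_pow, zpow_neg]; rfl
    rw [e] at h
    exact h
  · rw [O_zero, r1_δ2]; exact S.dR_ne
  · rw [O_zero, r2_δ2]; exact S.dR_ne

theorem cc_eq : S.cc = S.ϖF ^ (12 : ℤ) * S.δ1 ^ (-1 : ℤ) * S.δ2 ^ (-1 : ℤ) := by
  rw [cc, zpow_neg_one, zpow_neg_one, mul_inv, mul_assoc]
  rfl

theorem O_cc : S.O 0 S.cc 0 ∧ S.O 1 S.cc 12 ∧ S.O 2 S.cc 0 := by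
  obtain ⟨a0, a1, a2⟩ := S.O_δ1
  obtain ⟨b0, b1, b2⟩ := S.O_δ2
  rw [cc_eq]
  refine ⟨?_, ?_, ?_⟩
  · have := S.O_mul (S.O_mul (S.O_ϖ 0 12) (S.O_zpow a0 (-1))) (S.O_zpow b0 (-1))
    simpa using this
  · have := S.O_mul (S.O_mul (S.O_ϖ 1 12) (S.O_zpow a1 (-1))) (S.O_zpow b1 (-1))
    simpa using this
  · have := S.O_mul (S.O_mul (S.O_ϖ 2 12) (S.O_zpow a2 (-1))) (S.O_zpow b2 (-1))
    simpa using this

/-! ### the norms of the units -/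

theorem φ0_injective : Function.Injective (S.φ 0) := (S.φ 0).injective

theorem NmA_const (c : k₀) : S.NmA (algebraMap k₀ S.F c) = algebraMap k₀ S.F c ^ q := by
  apply S.φ0_injective
  have h : ∀ i : Fin q, S.sg i (S.bK (algebraMap k₀ S.F c)) = S.φ 0 (algebraMap k₀ S.F c) := by
    intro i
    have h1 : S.bK (algebraMap k₀ S.F c) = inc K h_inc (algebraMap K _ (algebraMap k₀ K c)) := by
      rw [inc_const, bc_const]
    rw [h1, sg_inc, φ_const]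
    rfl
  rw [φ0_NmA, Finset.prod_congr rfl fun i _ => h i, Finset.prod_const, Finset.card_univ,
    Fintype.card_fin, map_pow]

theorem NmA_δ1 : S.NmA S.δ1 = S.δ1 ^ q := by
  haveI : Fact q.Prime := ⟨S.hq⟩
  haveI := S.charZeroK
  haveI : IsAlgClosed K := S.acK
  apply S.φ0_injective
  have h : ∀ i : Fin q, S.sg i (S.bK S.δ1) = S.φ 0 S.δ1 := by
    intro i
    have h1 := S.bK_δ1
    rw [h1, sg_inc, al_uM, φ0_δ1]
    rfl
  rw [φ0_NmA, Finset.prod_congr rfl fun i _ => h i, Finset.prod_const, Finset.card_univ,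
    Fintype.card_fin, map_pow]

theorem NmA_ϖ : S.NmA S.ϖF = S.ϖF ^ q := S.NmA_const _

theorem NmA_ne {x : S.F} (hx : x ≠ 0) : S.NmA x ≠ 0 := by
  intro h
  have := map_mul S.NmA x x⁻¹
  rw [mul_inv_cancel₀ hx, map_one, h, zero_mul] at this
  exact one_ne_zero this

theorem NmA_inv {x : S.F} (hx : x ≠ 0) : S.NmA x⁻¹ = (S.NmA x)⁻¹ := by
  have := map_mul S.NmA x x⁻¹
  rw [mul_inv_cancel₀ hx, map_one] at this
  exact eq_inv_of_mul_eq_one_right this.symm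

theorem NmA_zpow {x : S.F} (hx : x ≠ 0) (k : ℤ) : S.NmA (x ^ k) = S.NmA x ^ k := by
  obtain ⟨k, rfl | rfl⟩ := Int.eq_nat_or_neg k
  · rw [zpow_natCast, zpow_natCast, map_pow]
  · rw [zpow_neg, zpow_neg, zpow_natCast, zpow_natCast, NmA_inv S (pow_ne_zero _ hx), map_pow]

section Gal

variable {S} (hG : S.HasGal)

include hG in
theorem R0_NmA_c (c : k₀) {x : S.F} {y₀ y₁ : LaurentSeries κ}
    (h₀ : (S.P 0).R (algebraMap k₀ S.F c * x) y₀) (h₁ : (S.P 1).R x y₁) :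
    (S.P 0).R (algebraMap k₀ S.F c * S.NmA x) (y₀ * y₁ ^ (q - 1)) := by
  classical
  have h0 : S.sg ((0 : Fin q) : ℕ) (S.bK x) = S.φ 0 x := by
    rw [S.sg_dvd (by rw [fin_val_zero]; exact dvd_zero q)]; rfl
  have e : S.φ 0 (algebraMap k₀ S.F c * S.NmA x) =
      S.φ 0 (algebraMap k₀ S.F c * x) * ∏ i ∈ Finset.univ.erase (0 : Fin q),
        S.sg i (S.bK x) := by
    rw [map_mul, φ0_NmA, ← Finset.mul_prod_erase Finset.univ _ (Finset.mem_univ (0 : Fin q)), h0,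
      map_mul, mul_assoc]
  have e2 : y₁ ^ (q - 1) = ∏ _i ∈ Finset.univ.erase (0 : Fin q), y₁ := by
    rw [Finset.prod_const, Finset.card_erase_of_mem (Finset.mem_univ _), Finset.card_univ,
      Fintype.card_fin]
  rw [P_R, e, e2]
  refine LR.mul h₀ ?_
  refine LR_prod' _ fun i hi => ?_
  refine R_sg hG (fun hd => Finset.ne_of_mem_erase hi (Fin.ext ?_)) h₁
  rw [fin_val_zero]
  exact Nat.eq_zero_of_dvd_of_lt hd i.2

include hG in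
theorem O0_NmA_δ2 : S.O 0 (S.NmA S.δ2) 12 := by
  have e : algebraMap k₀ S.F (S.ϖ⁻¹ ^ 12) = (algebraMap k₀ S.F S.ϖ)⁻¹ ^ 12 := by
    rw [map_pow, map_inv₀]
  have h1 : (S.P 0).R (algebraMap k₀ S.F (S.ϖ⁻¹ ^ 12) * S.δ2) (S.dκ⁻¹ ^ q) := by
    rw [e]; exact S.R0_δ2
  have h2 := R0_NmA_c hG (S.ϖ⁻¹ ^ 12) h1 S.R1_δ2
  rw [e] at h2
  have h3 : (S.C 0).r ((algebraMap k₀ S.F S.ϖ)⁻¹ ^ 12 * S.NmA S.δ2) ≠ 0 := by
    intro h
    have h4 := C_coe h2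
    rw [h] at h4
    exact mul_ne_zero (pow_ne_zero _ (inv_ne_zero S.dκ_ne)) (pow_ne_zero _ S.dκ_ne) h4.symm
  have e2 : (algebraMap k₀ S.F S.ϖ)⁻¹ ^ 12 * S.NmA S.δ2 = S.NmA S.δ2 * S.ϖF ^ (-12 : ℤ) := by
    rw [mul_comm, inv_pow, zpow_neg]; rfl
  rw [e2] at h3
  exact h3

theorem O2_NmA {x : S.F} (h : S.O 2 x 0) : S.O 2 (S.NmA x) 0 := by
  rw [O_zero] at h ⊢
  rw [(NmA_r2 (Res.mem_of_r_ne_zero h)).2]
  exact pow_ne_zero _ h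

include hG in
theorem O0_NmA {x : S.F} (h : S.O 0 x 0) (h' : S.O 1 x 0) : S.O 0 (S.NmA x) 0 := by
  rw [O_zero] at h h' ⊢
  rw [(NmA_r0 hG (Res.mem_of_r_ne_zero h) (Res.mem_of_r_ne_zero h')).2]
  exact mul_ne_zero h (pow_ne_zero _ h')

end Gal

/-- the norm of the third unit -/
theorem NmA_cc : S.NmA S.cc = (S.ϖF ^ q) ^ (12 : ℤ) * (S.δ1 ^ q) ^ (-1 : ℤ) *
    S.NmA S.δ2 ^ (-1 : ℤ) := by
  rw [cc_eq, map_mul, map_mul, S.NmA_zpow S.ϖ_ne, S.NmA_zpow S.δ1_ne, S.NmA_zpow S.δ2_ne, NmA_ϖ,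
    NmA_δ1]

section Gal2

variable {S} (hG : S.HasGal)

include hG in
theorem O0_NmA_cc : S.O 0 (S.NmA S.cc) (12 * (q - 1)) := by
  rw [NmA_cc]
  have h := S.O_mul (S.O_mul (S.O_zpow (S.O_pow (S.O_ϖ 0 1) q) 12)
    (S.O_zpow (S.O_pow S.O_δ1.1 q) (-1))) (S.O_zpow (O0_NmA_δ2 hG) (-1))
  rw [zpow_one] at h
  convert h using 1
  push_cast
  ring

theorem O2_NmA_cc : S.O 2 (S.NmA S.cc) 0 := by
  rw [NmA_cc]
  have h := S.O_mul (S.O_mul (S.O_zpow (S.O_pow (S.O_ϖ 2 1) q) 12)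
    (S.O_zpow (S.O_pow S.O_δ1.2.2 q) (-1))) (S.O_zpow (O2_NmA S.O_δ2.2.2) (-1))
  rw [zpow_one] at h
  convert h using 1
  push_cast
  ring

/-- `x` is an `m`-th power up to a power of `ϖ` -/
def IsP (S : Sit k₀ K κ q M') (m : ℕ) (x : S.F) : Prop :=
  ∃ (a : ℤ) (X : S.F), X ≠ 0 ∧ x = S.ϖF ^ a * X ^ m

theorem IsP.mul {m : ℕ} {x y : S.F} (h : S.IsP m x) (h' : S.IsP m y) : S.IsP m (x * y) := by
  obtain ⟨a, X, hX, rfl⟩ := h
  obtain ⟨b, Y, hY, rfl⟩ := h'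
  refine ⟨a + b, X * Y, mul_ne_zero hX hY, ?_⟩
  rw [zpow_add₀ S.ϖ_ne, mul_pow]; ring

theorem IsP.inv {m : ℕ} {x : S.F} (h : S.IsP m x) : S.IsP m x⁻¹ := by
  obtain ⟨a, X, hX, rfl⟩ := h
  refine ⟨-a, X⁻¹, inv_ne_zero hX, ?_⟩
  rw [mul_inv, zpow_neg, inv_pow]

theorem IsP.pow {m : ℕ} {x : S.F} (h : S.IsP m x) (k : ℕ) : S.IsP m (x ^ k) := by
  obtain ⟨a, X, hX, rfl⟩ := h
  refine ⟨a * k, X ^ k, pow_ne_zero _ hX, ?_⟩
  rw [mul_pow, zpow_mul, zpow_natCast, ← pow_mul, ← pow_mul, mul_comm m]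

theorem IsP.zpow {m : ℕ} {x : S.F} (h : S.IsP m x) (k : ℤ) : S.IsP m (x ^ k) := by
  obtain ⟨k, rfl | rfl⟩ := Int.eq_nat_or_neg k
  · rw [zpow_natCast]; exact h.pow k
  · rw [zpow_neg, zpow_natCast]; exact (h.pow k).inv

theorem isP_ϖ (m : ℕ) (k : ℤ) : S.IsP m (S.ϖF ^ k) :=
  ⟨k, 1, one_ne_zero, by rw [one_pow, mul_one]⟩

theorem isP_pow (m : ℕ) {x : S.F} (hx : x ≠ 0) : S.IsP m (x ^ m) :=
  ⟨0, x, hx, by rw [zpow_zero, one_mul]⟩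

theorem IsP.w {m : ℕ} {x : S.F} (h : S.IsP m x) : S.IsP m (S.w x) := by
  obtain ⟨a, X, hX, rfl⟩ := h
  refine ⟨a, S.w X, (_root_.map_ne_zero _).2 hX, ?_⟩
  rw [map_mul, map_zpow₀, map_pow, S.hw.const]

/-- an element of order zero -/
theorem IsP.root {m : ℕ} {i : Fin 3} (hi : i ≠ 1) {x : S.F} (h : S.IsP m x) (h0 : S.O i x 0) :
    ∃ X : S.F, X ≠ 0 ∧ x = X ^ m := by
  obtain ⟨a, X, hX, rfl⟩ := h
  obtain ⟨n, hn⟩ := S.exists_O' hi hX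
  have h1 := S.O_mul (S.O_ϖ i a) (S.O_pow hn m)
  have h2 := S.O_unique h0 h1
  have h3 : a = -(n * m) := by linarith
  refine ⟨S.ϖF ^ (-n) * X, mul_ne_zero (zpow_ne_zero _ S.ϖ_ne) hX, ?_⟩
  rw [h3, mul_pow, ← zpow_natCast (S.ϖF ^ (-n)), ← zpow_mul, neg_mul]

include hG in
/-- **the congruence given by a norm** -/
theorem congr_of_norm {m : ℕ} {w : S.F} {n : Fin 3 → ℤ} (hn : ∀ i, S.O i w (n i))
    (hw : S.IsP m (S.NmA w)) : (m : ℤ) ∣ n 0 + (q - 1) * n 1 - q * n 2 := by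
  obtain ⟨a, X, hX, hNw⟩ := hw
  have hw0 : w ≠ 0 := (hn 0).ne_zero
  obtain ⟨x0, hx0⟩ := S.exists_O' (i := 0) (by decide) hX
  obtain ⟨x2, hx2⟩ := S.exists_O' (i := 2) (by decide) hX
  -- the normalised element
  obtain ⟨w0, hw0'⟩ : ∃ w0, w0 = w ^ 12 * S.δ2 ^ (-n 0) * S.δ1 ^ (-n 2) * S.cc ^ (-n 1) := ⟨_, rfl⟩
  have o0 : S.O 0 w0 0 := by
    have := S.O_mul (S.O_mul (S.O_mul (S.O_pow (hn 0) 12) (S.O_zpow S.O_δ2.1 (-n 0)))
      (S.O_zpow S.O_δ1.1 (-n 2))) (S.O_zpow S.O_cc.1 (-n 1))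
    rw [hw0']
    convert this using 1
    push_cast
    ring
  have o1 : S.O 1 w0 0 := by
    have := S.O_mul (S.O_mul (S.O_mul (S.O_pow (hn 1) 12) (S.O_zpow S.O_δ2.2.1 (-n 0)))
      (S.O_zpow S.O_δ1.2.1 (-n 2))) (S.O_zpow S.O_cc.2.1 (-n 1))
    rw [hw0']
    convert this using 1
    push_cast
    ring
  have o2 : S.O 2 w0 0 := by
    have := S.O_mul (S.O_mul (S.O_mul (S.O_pow (hn 2) 12) (S.O_zpow S.O_δ2.2.2 (-n 0)))
      (S.O_zpow S.O_δ1.2.2 (-n 2))) (S.O_zpow S.O_cc.2.2 (-n 1))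
    rw [hw0']
    convert this using 1
    push_cast
    ring
  have N0 := O0_NmA hG o0 o1
  have N2 := O2_NmA o2
  have eN : S.NmA w0 = (S.ϖF ^ a * X ^ m) ^ 12 * S.NmA S.δ2 ^ (-n 0) * (S.δ1 ^ q) ^ (-n 2) *
      S.NmA S.cc ^ (-n 1) := by
    rw [hw0', map_mul, map_mul, map_mul, map_pow, hNw, S.NmA_zpow S.δ2_ne, S.NmA_zpow S.δ1_ne,
      S.NmA_zpow S.cc_ne, NmA_δ1]
  rw [eN] at N0 N2
  have M0 := S.O_mul (S.O_mul (S.O_mul (S.O_pow (S.O_mul (S.O_ϖ 0 a) (S.O_pow hx0 m)) 12)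
    (S.O_zpow (O0_NmA_δ2 hG) (-n 0))) (S.O_zpow (S.O_pow S.O_δ1.1 q) (-n 2)))
    (S.O_zpow (O0_NmA_cc hG) (-n 1))
  have M2 := S.O_mul (S.O_mul (S.O_mul (S.O_pow (S.O_mul (S.O_ϖ 2 a) (S.O_pow hx2 m)) 12)
    (S.O_zpow (O2_NmA S.O_δ2.2.2) (-n 0))) (S.O_zpow (S.O_pow S.O_δ1.2.2 q) (-n 2)))
    (S.O_zpow O2_NmA_cc (-n 1))
  have e0 := S.O_unique N0 M0
  have e2 := S.O_unique N2 M2
  refine ⟨x0 - x2, ?_⟩
  push_cast at e0 e2
  linarith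

end Gal2

end Sit

end Fermat.Agent.Carayol
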