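import Fermat.Agent.Carayol.Inertia3
import Mathlib.RingTheory.Polynomial.Eisenstein.IsIntegral
import Mathlib.FieldTheory.Minpoly.IsConjRoot

/-!
# The action of inertia on the `q`-th roots of unity
-/

set_option autoImplicit false
set_option linter.unusedSectionVars false
set_option linter.style.haveILetI false

noncomputable section

namespace Fermat.Agent.Carayol

open IsLocalRing Polynomial

local notation "Qb" => AlgebraicClosure ℚ

variable {A : ValuationSubring Qb} {q : ℕ}

/-- the cyclotomic polynomial of prime order is irreducible over the inertia field -/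
theorem irreducible_cyclotomic (hq : q.Prime) (hA : A.LiesOverPrime q) :
    Irreducible (cyclotomic q (K0 A)) := by
  haveI : Fact q.Prime := ⟨hq⟩
  haveI := dvr_A0 hq hA
  have hirr := irreducible_q hq hA
  have hprime : Prime ((q : ℕ) : A0 A) := hirr.prime
  obtain ⟨f, hf⟩ : ∃ f : ℤ[X], f = (cyclotomic q ℤ).comp (X + 1) := ⟨_, rfl⟩
  have hE := cyclotomic_comp_X_add_one_isEisensteinAt q
  rw [← hf] at hE
  have hfm : f.Monic := by
    rw [hf]
    exact (cyclotomic.monic q ℤ).comp (monic_X_add_C 1) fun h => by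
      rw [show (X + 1 : ℤ[X]) = X + C 1 by simp, natDegree_X_add_C] at h
      exact one_ne_zero h
  have hdeg : f.natDegree = q - 1 := by
    rw [hf, natDegree_comp, show (X + 1 : ℤ[X]) = X + C 1 by simp, natDegree_X_add_C, mul_one,
      natDegree_cyclotomic, Nat.totient_prime hq]
  have hq2 := hq.two_le
  obtain ⟨g, hg⟩ : ∃ g : (A0 A)[X], g = f.map (Int.castRingHom (A0 A)) := ⟨_, rfl⟩
  have hgm : g.Monic := by rw [hg]; exact hfm.map _
  have hgdeg : g.natDegree = q - 1 := by
    rw [hg, hfm.natDegree_map, hdeg]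
  have hc0 : f.coeff 0 = q := by
    rw [hf, coeff_zero_eq_eval_zero, eval_comp]
    simp [eval_one_cyclotomic_prime]
  have hEg : g.IsEisensteinAt (Ideal.span {((q : ℕ) : A0 A)}) := by
    refine ⟨?_, fun {n} hn => ?_, ?_⟩
    · rw [hgm.leadingCoeff]
      intro h
      exact hprime.not_isUnit (isUnit_of_dvd_one (Ideal.mem_span_singleton.1 h))
    · rw [hgdeg, ← hdeg] at hn
      have h1 := hE.mem hn
      have h2 : (q : ℤ) ∣ f.coeff n := Ideal.mem_span_singleton.1 h1
      obtain ⟨c, hc⟩ := h2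
      rw [hg, coeff_map, hc, map_mul, Ideal.mem_span_singleton, map_natCast]
      exact dvd_mul_right _ _
    · intro h
      rw [hg, coeff_map, hc0, Ideal.span_singleton_pow, Ideal.mem_span_singleton, map_natCast] at h
      obtain ⟨c, hc⟩ := h
      have h1 : ((q : ℕ) : A0 A) * 1 = ((q : ℕ) : A0 A) * (((q : ℕ) : A0 A) * c) := by
        rw [mul_one]
        calc ((q : ℕ) : A0 A) = ((q : ℕ) : A0 A) ^ 2 * c := hc
          _ = _ := by ring
      have h2 := mul_left_cancel₀ hprime.ne_zero h1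
      exact hprime.not_isUnit (IsUnit.of_mul_eq_one _ h2.symm)
  have hgirr : Irreducible g := by
    refine hEg.irreducible ?_ hgm.isPrimitive (by rw [hgdeg]; omega)
    exact (Ideal.span_singleton_prime hprime.ne_zero).2 hprime
  have hgK := (hgm.irreducible_iff_irreducible_map_fraction_map (K := K0 A)).1 hgirr
  have h1 : g.map (algebraMap (A0 A) (K0 A)) = (cyclotomic q (K0 A)).comp (X + 1) := by
    rw [hg, hf, Polynomial.map_map, Polynomial.map_comp]
    have : (algebraMap (A0 A) (K0 A)).comp (Int.castRingHom (A0 A)) = Int.castRingHom (K0 A) :=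
      RingHom.ext_int _ _
    rw [this, map_cyclotomic]
    simp
  rw [h1] at hgK
  -- translate back
  let e : (K0 A)[X] ≃ₐ[K0 A] (K0 A)[X] := algEquivAevalXAddC (1 : K0 A)
  have he : e (cyclotomic q (K0 A)) = (cyclotomic q (K0 A)).comp (X + 1) := by
    change aeval (X + C (1 : K0 A)) (cyclotomic q (K0 A)) = _
    rw [C_1]
    rfl
  rw [← he] at hgK
  exact (MulEquiv.irreducible_iff e).1 hgK

/-- the inertia group acts on the roots of unity of order `q` through all automorphisms -/
theorem exists_galois (hq : q.Prime) (hA : A.LiesOverPrime q) {ζ : Qb}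
    (hζ : IsPrimitiveRoot ζ q) {i : ℕ} (hi : ¬ q ∣ i) : ∃ σ : Qb ≃ₐ[K0 A] Qb, σ ζ = ζ ^ i := by
  have hcop : Nat.Coprime i q := ((Nat.Prime.coprime_iff_not_dvd hq).2 hi).symm
  have hζi := hζ.pow_of_coprime i hcop
  have hirr := irreducible_cyclotomic hq hA
  haveI : NeZero ((q : ℕ) : K0 A) := ⟨by exact_mod_cast hq.ne_zero⟩
  have h1 := hζ.minpoly_eq_cyclotomic_of_irreducible hirr
  have h2 := hζi.minpoly_eq_cyclotomic_of_irreducible hirr
  have h3 : IsConjRoot (K0 A) ζ (ζ ^ i) := by
    rw [IsConjRoot, ← h1, ← h2]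
  haveI : Algebra.IsAlgebraic (K0 A) Qb := Algebra.IsIntegral.isAlgebraic
  haveI : IsAlgClosure (K0 A) Qb := ⟨inferInstance, inferInstance⟩
  haveI : Normal (K0 A) Qb := IsAlgClosure.normal _ _
  obtain ⟨σ, hσ⟩ := isConjRoot_iff_exists_algEquiv.1 h3.symm
  exact ⟨σ, hσ⟩

/-- the constants of `K₀` -/
theorem divBy_K0 (hq : q.Prime) (hA : A.LiesOverPrime q) {m : ℕ} (hm : Nat.Coprime q m) {c : K0 A}
    (hc : c ≠ 0) : ∃ (a : ℤ) (b : K0 A), b ≠ 0 ∧ c = (q : K0 A) ^ a * b ^ m := by
  have hm' : ¬ q ∣ m := (Nat.Prime.coprime_iff_not_dvd hq).1 hm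
  obtain ⟨n, u, rfl⟩ := exists_zpow_mul_unit hq hA hc
  obtain ⟨v, hv⟩ := exists_root_unit hq hA hm' u
  refine ⟨n, ((v : A0 A) : K0 A), fun h => v.ne_zero (Subtype.ext h), ?_⟩
  congr 1
  rw [← hv]
  push_cast
  rfl

end Fermat.Agent.Carayol
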