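import Fermat.Agent.GenusX0.Sigma

/-!
# Homomorphisms out of the modular function fields
-/

set_option autoImplicit false
set_option linter.unusedSectionVars false

noncomputable section

namespace Fermat.Agent.Carayol

open HahnSeries ModularCurve IntermediateField Fermat.Agent.GenusX0 Fermat.Agent.ModFun

/-- the modular function field -/
abbrev FF (k : Type*) [Field k] (N : ℕ) : IntermediateField k (LaurentSeries k) :=
  modularFunctionFieldFullC k N

section Gen

variable {k L : Type*} [Field k] [Field L] {N : ℕ}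

/-- homomorphisms are determined by the values on the generators -/
theorem ext_gen {f g : FF k N →+* L} (hc : ∀ c : k, f (algebraMap k (FF k N) c) =
      g (algebraMap k (FF k N) c))
    (hd : ∀ (d : ℕ) [NeZero d] (h : d ∣ N), f (jel k d h) = g (jel k d h)) : f = g := by
  have key : ∀ (x : LaurentSeries k) (hx : x ∈ FF k N), f ⟨x, hx⟩ = g ⟨x, hx⟩ := by
    intro x hx
    induction hx using IntermediateField.adjoin_induction with
    | mem x hx =>
      obtain ⟨d, hd', hdN, rfl⟩ := hx
      exact hd d hdN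
    | algebraMap c => exact hc c
    | add x y hx hy h1 h2 =>
      have : (⟨x + y, add_mem hx hy⟩ : FF k N) = ⟨x, hx⟩ + ⟨y, hy⟩ := rfl
      rw [this, map_add, map_add, h1, h2]
    | inv x hx h1 =>
      have : (⟨x⁻¹, inv_mem hx⟩ : FF k N) = (⟨x, hx⟩ : FF k N)⁻¹ := rfl
      rw [this, map_inv₀, map_inv₀, h1]
    | mul x y hx hy h1 h2 =>
      have : (⟨x * y, mul_mem hx hy⟩ : FF k N) = ⟨x, hx⟩ * ⟨y, hy⟩ := rfl
      rw [this, map_mul, map_mul, h1, h2]
  ext x
  exact key x x.2

/-- homomorphisms factor through a subfield as soon as the values on the generators do -/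
theorem exists_factor {L' : Type*} [Field L'] (f : FF k N →+* L') (i : L →+* L')
    (hc : ∀ c : k, ∃ y, i y = f (algebraMap k (FF k N) c))
    (hd : ∀ (d : ℕ) [NeZero d] (h : d ∣ N), ∃ y, i y = f (jel k d h)) :
    ∃ f' : FF k N →+* L, ∀ x, i (f' x) = f x := by
  have key : ∀ (x : LaurentSeries k) (hx : x ∈ FF k N), ∃ y, i y = f ⟨x, hx⟩ := by
    intro x hx
    induction hx using IntermediateField.adjoin_induction with
    | mem x hx =>
      obtain ⟨d, hd', hdN, rfl⟩ := hx
      exact hd d hdN
    | algebraMap c => exact hc c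
    | add x y hx hy h1 h2 =>
      obtain ⟨a, ha⟩ := h1
      obtain ⟨b, hb⟩ := h2
      refine ⟨a + b, ?_⟩
      have : (⟨x + y, add_mem hx hy⟩ : FF k N) = ⟨x, hx⟩ + ⟨y, hy⟩ := rfl
      rw [this, map_add, map_add, ha, hb]
    | inv x hx h1 =>
      obtain ⟨a, ha⟩ := h1
      refine ⟨a⁻¹, ?_⟩
      have : (⟨x⁻¹, inv_mem hx⟩ : FF k N) = (⟨x, hx⟩ : FF k N)⁻¹ := rfl
      rw [this, map_inv₀, map_inv₀, ha]
    | mul x y hx hy h1 h2 =>
      obtain ⟨a, ha⟩ := h1
      obtain ⟨b, hb⟩ := h2
      refine ⟨a * b, ?_⟩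
      have : (⟨x * y, mul_mem hx hy⟩ : FF k N) = ⟨x, hx⟩ * ⟨y, hy⟩ := rfl
      rw [this, map_mul, map_mul, ha, hb]
  choose g hg using fun x : FF k N => key x x.2
  have hg' : ∀ x, i (g x) = f x := hg
  refine ⟨{ toFun := g
            map_one' := i.injective (by rw [hg', map_one, map_one])
            map_zero' := i.injective (by rw [hg', map_zero, map_zero])
            map_mul' := fun x y => i.injective (by
              rw [hg', map_mul, map_mul, hg', hg'])
            map_add' := fun x y => i.injective (by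
              rw [hg', map_add, map_add, hg', hg']) }, fun x => hg' x⟩

variable {K : Type*} [Field K] {M : ℕ}

/-- restriction of a homomorphism of fields of Laurent series -/
theorem map_mem (φ : LaurentSeries k →+* LaurentSeries K)
    (hc : ∀ c : k, φ (algebraMap k (LaurentSeries k) c) ∈ FF K M)
    (hd : ∀ (d : ℕ) [NeZero d], d ∣ N → φ (qExpand k d (jqModC k)) ∈ FF K M)
    {x : LaurentSeries k} (hx : x ∈ FF k N) : φ x ∈ FF K M := by
  induction hx using IntermediateField.adjoin_induction with
  | mem x hx =>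
    obtain ⟨d, hd', hdN, rfl⟩ := hx
    exact hd d hdN
  | algebraMap c => exact hc c
  | add x y _ _ h1 h2 => rw [map_add]; exact add_mem h1 h2
  | inv x _ h1 => rw [map_inv₀]; exact inv_mem h1
  | mul x y _ _ h1 h2 => rw [map_mul]; exact mul_mem h1 h2

/-- restriction of a homomorphism of fields of Laurent series -/
def mkHom (φ : LaurentSeries k →+* LaurentSeries K)
    (hc : ∀ c : k, φ (algebraMap k (LaurentSeries k) c) ∈ FF K M)
    (hd : ∀ (d : ℕ) [NeZero d], d ∣ N → φ (qExpand k d (jqModC k)) ∈ FF K M) :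
    FF k N →+* FF K M where
  toFun x := ⟨φ x, map_mem φ hc hd x.2⟩
  map_one' := Subtype.ext (map_one φ)
  map_zero' := Subtype.ext (map_zero φ)
  map_mul' x y := Subtype.ext (map_mul φ _ _)
  map_add' x y := Subtype.ext (map_add φ _ _)

end Gen

section Maps

variable {k K : Type*} [Field k] [Field K]

theorem coeffMap_algebraMap (f : k →+* K) (c : k) :
    coeffMap f (algebraMap k (LaurentSeries k) c) = algebraMap K (LaurentSeries K) (f c) := by
  rw [algebraMap_laurentSeries_eq_single, coeffMap_single, algebraMap_laurentSeries_eq_single]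

theorem qExpand_algebraMap (e : ℕ) [NeZero e] (c : k) :
    qExpand k e (algebraMap k (LaurentSeries k) c) = algebraMap k (LaurentSeries k) c := by
  rw [algebraMap_laurentSeries_eq_single, qExpand_single, mul_zero]

theorem coeffMap_gen' (f : k →+* K) (d : ℕ) [NeZero d] :
    coeffMap f (qExpand k d (jqModC k)) = qExpand K d (jqModC K) := by
  rw [coeffMap_qExpand, coeffMap_jqModC]

theorem mem_FF {N : ℕ} {d : ℕ} [NeZero d] (hd : d ∣ N) : qExpand k d (jqModC k) ∈ FF k N :=
  subset_adjoin _ _ (mem_divisorExpansionsC k N hd)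

theorem coe_const {N : ℕ} (c : k) :
    ((algebraMap k (FF k N) c : FF k N) : LaurentSeries k) = algebraMap k (LaurentSeries k) c := rfl

/-- base change of the constants -/
def bc (f : k →+* K) (N : ℕ) : FF k N →+* FF K N :=
  mkHom (coeffMap f)
    (fun c => by rw [coeffMap_algebraMap]; exact IntermediateField.algebraMap_mem _ _)
    (fun d _ hd => by rw [coeffMap_gen']; exact mem_FF hd)

@[simp] theorem coe_bc (f : k →+* K) (N : ℕ) (x : FF k N) :
    ((bc f N x : FF K N) : LaurentSeries K) = coeffMap f x := rfl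

theorem FF_mono (k : Type*) [Field k] {N M : ℕ} (h : N ∣ M) : FF k N ≤ FF k M := by
  refine IntermediateField.adjoin_le_iff.2 ?_
  rintro _ ⟨d, hd, hdN, rfl⟩
  exact mem_FF (hdN.trans h)

/-- inclusion of levels -/
def inc (k : Type*) [Field k] {N M : ℕ} (h : N ∣ M) : FF k N →+* FF k M :=
  (IntermediateField.inclusion (FF_mono k h)).toRingHom

@[simp] theorem coe_inc {N M : ℕ} (h : N ∣ M) (x : FF k N) :
    ((inc k h x : FF k M) : LaurentSeries k) = x :=
  IntermediateField.coe_inclusion (FF_mono k h) x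

/-- `f(z) ↦ f(ez)` -/
def exN (k : Type*) [Field k] (e : ℕ) [NeZero e] {N M : ℕ} (h : e * N ∣ M) : FF k N →+* FF k M :=
  mkHom (qExpand k e) (fun c => by rw [qExpand_algebraMap]; exact IntermediateField.algebraMap_mem _ _)
    (fun d _ hd => by
      rw [qExpand_qExpand]
      exact mem_FF ((mul_dvd_mul_left e hd).trans h))

@[simp] theorem coe_exN (e : ℕ) [NeZero e] {N M : ℕ} (h : e * N ∣ M) (x : FF k N) :
    ((exN k e h x : FF k M) : LaurentSeries k) = qExpand k e x := rfl

theorem coe_jel {N d : ℕ} [NeZero d] (h : d ∣ N) :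
    ((jel k d h : FF k N) : LaurentSeries k) = qExpand k d (jqModC k) := rfl

theorem jel_congr {N d d' : ℕ} [hd : NeZero d] [hd' : NeZero d'] (e : d = d') (h : d ∣ N)
    (h' : d' ∣ N) : jel k d h = jel k d' h' := by
  subst e
  rfl

theorem inc_jel {N M d : ℕ} [NeZero d] (hd : d ∣ N) (h : N ∣ M) :
    inc k h (jel k d hd) = jel k d (hd.trans h) :=
  Subtype.ext (coe_inc h _)

theorem bc_jel (f : k →+* K) {N d : ℕ} [NeZero d] (hd : d ∣ N) :
    bc f N (jel k d hd) = jel K d hd := by
  apply Subtype.ext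
  rw [coe_bc, coe_jel, coe_jel, coeffMap_gen']

theorem exN_jel (e : ℕ) [NeZero e] {N M d : ℕ} [NeZero d] (hd : d ∣ N)
    (h : e * N ∣ M) : exN k e h (jel k d hd) = jel k (e * d) ((mul_dvd_mul_left e hd).trans h) := by
  apply Subtype.ext
  rw [coe_exN, coe_jel, coe_jel, qExpand_qExpand]

theorem bc_const (f : k →+* K) {N : ℕ} (c : k) :
    bc f N (algebraMap k (FF k N) c) = algebraMap K (FF K N) (f c) :=
  Subtype.ext (coeffMap_algebraMap f c)

theorem inc_const {N M : ℕ} (h : N ∣ M) (c : k) :
    inc k h (algebraMap k (FF k N) c) = algebraMap k (FF k M) c := by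
  apply Subtype.ext
  rw [coe_inc, coe_const, coe_const]

theorem exN_const (e : ℕ) [NeZero e] {N M : ℕ} (h : e * N ∣ M) (c : k) :
    exN k e h (algebraMap k (FF k N) c) = algebraMap k (FF k M) c :=
  Subtype.ext (qExpand_algebraMap e c)

end Maps

end Fermat.Agent.Carayol
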