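import Fermat.Agent.Carayol.KL2
import Fermat.Agent.GoodRed.Chart

/-!
# Integral closures of polynomial rings in fields
-/

set_option autoImplicit false
set_option linter.unusedSectionVars false
set_option linter.style.haveILetI false

noncomputable section

namespace Fermat.Agent.Carayol

open Fermat.Agent.Models Fermat.Agent.GoodRed Polynomial IntermediateField

section Basic

variable {R F : Type*} [CommRing R] [Field F] [Algebra R F]

/-- the elements integral over `R[t]` -/
def icr (R : Type*) {F : Type*} [CommRing R] [Field F] [Algebra R F] (t : F) : Subring F :=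
  letI := pAlg R t
  (integralClosure R[X] F).toSubring

theorem mem_icr {t x : F} : x ∈ icr R t ↔
    (aeval (R := R) t : R[X] →ₐ[R] F).toRingHom.IsIntegralElem x := Iff.rfl

theorem mem_icr' {t x : F} : x ∈ icr R t ↔ letI := pAlg R t; IsIntegral R[X] x := Iff.rfl

theorem aeval_mem_icr (t : F) (p : R[X]) : aeval t p ∈ icr R t := by
  letI := pAlg R t
  exact (mem_icr').2 (isIntegral_algebraMap (R := R[X]) (A := F) (x := p))

theorem const_mem_icr (t : F) (a : R) : algebraMap R F a ∈ icr R t := by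
  have := aeval_mem_icr t (C a : R[X])
  rwa [aeval_C] at this

theorem self_mem_icr (t : F) : t ∈ icr R t := by
  have := aeval_mem_icr t (X : R[X])
  rwa [aeval_X] at this

/-- integral closedness -/
theorem mem_icr_of_monic {t x : F} {P : F[X]} (hP : P.Monic) (hc : ∀ i, P.coeff i ∈ icr R t)
    (h : P.eval x = 0) : x ∈ icr R t := by
  letI := pAlg R t
  have h1 : P ∈ lifts (algebraMap (integralClosure R[X] F) F) := by
    rw [lifts_iff_coeff_lifts]
    intro n
    exact ⟨⟨_, hc n⟩, rfl⟩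
  obtain ⟨Q, hQ, -, hQm⟩ := lifts_and_natDegree_eq_and_monic h1 hP
  have h2 : IsIntegral (integralClosure R[X] F) x := by
    refine ⟨Q, hQm, ?_⟩
    rw [← eval_map, hQ, h]
  exact (mem_icr').2 (isIntegral_trans x h2)

theorem icr_root {t x : F} {n : ℕ} (hn : 0 < n) (h : x ^ n ∈ icr R t) : x ∈ icr R t := by
  refine mem_icr_of_monic (P := X ^ n - C (x ^ n)) (monic_X_pow_sub_C _ hn.ne') (fun i => ?_)
    (by simp)
  rw [coeff_sub, coeff_X_pow, coeff_C]
  refine sub_mem ?_ ?_
  · split_ifs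
    · exact one_mem _
    · exact zero_mem _
  · split_ifs
    · exact h
    · exact zero_mem _

theorem icr_le_val {t : F} {V : ValuationSubring F} (hR : ∀ a, algebraMap R F a ∈ V)
    (ht : t ∈ V) {x : F} (hx : x ∈ icr R t) : x ∈ V := by
  obtain ⟨p, hp, h⟩ := mem_icr.1 hx
  have hV : IsIntegral V x := by
    have h1 : p.map (aeval (R := R) t : R[X] →ₐ[R] F).toRingHom ∈ lifts (algebraMap V F) := by
      rw [lifts_iff_coeff_lifts]
      intro n
      rw [coeff_map]
      have : ∀ f : R[X], aeval t f ∈ V := by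
        intro f
        rw [aeval_eq_sum_range]
        refine sum_mem fun i _ => ?_
        rw [Algebra.smul_def]
        exact mul_mem (hR _) (pow_mem ht _)
      exact ⟨⟨_, this _⟩, rfl⟩
    obtain ⟨Q, hQ, -, hQm⟩ := lifts_and_natDegree_eq_and_monic h1 (hp.map _)
    refine ⟨Q, hQm, ?_⟩
    rw [← eval_map, hQ, eval_map]
    exact h
  obtain ⟨y, hy⟩ := (IsIntegrallyClosed.isIntegral_iff).1 hV
  rw [← hy]
  exact y.2

theorem icr_map {R' F' : Type*} [CommRing R'] [Field F'] [Algebra R' F'] (g : R →+* R')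
    (f : F →+* F') (hfg : ∀ a, f (algebraMap R F a) = algebraMap R' F' (g a)) {t x : F}
    (hx : x ∈ icr R t) : f x ∈ icr R' (f t) := by
  obtain ⟨p, hp, h⟩ := mem_icr.1 hx
  refine mem_icr.2 ⟨p.map (mapRingHom g), hp.map _, ?_⟩
  rw [eval₂_map]
  have h1 : ((aeval (R := R') (f t) : R'[X] →ₐ[R'] F').toRingHom.comp (mapRingHom g)) =
      f.comp (aeval (R := R) t : R[X] →ₐ[R] F).toRingHom := by
    refine Polynomial.ringHom_ext (fun a => ?_) ?_
    · change aeval (f t) ((C a : R[X]).map g) = f (aeval t (C a))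
      rw [map_C, aeval_C, aeval_C, hfg]
    · change aeval (f t) ((X : R[X]).map g) = f (aeval t X)
      rw [map_X, aeval_X, aeval_X]
  rw [h1, ← hom_eval₂, h, map_zero]

theorem icr_le {t s : F} (hs : s ∈ icr R t) {x : F} (hx : x ∈ icr R s) : x ∈ icr R t := by
  obtain ⟨p, hp, h⟩ := mem_icr.1 hx
  refine mem_icr_of_monic (P := p.map (aeval (R := R) s : R[X] →ₐ[R] F).toRingHom) (hp.map _)
    (fun i => ?_) (by rw [eval_map]; exact h)
  rw [coeff_map]
  change aeval s (p.coeff i) ∈ _
  rw [aeval_eq_sum_range]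
  refine sum_mem fun i _ => ?_
  rw [Algebra.smul_def]
  exact mul_mem (const_mem_icr _ _) (pow_mem hs _)

/-- residues of integral elements -/
theorem icr_res {κ 𝓕 : Type*} [Field κ] [Field 𝓕] [Algebra κ 𝓕] {C : Res F 𝓕} {π : R →+* κ}
    (hR : ∀ a, algebraMap R F a ∈ C.O) (hr : ∀ a, C.r (algebraMap R F a) = algebraMap κ 𝓕 (π a))
    {t x : F} (ht : t ∈ C.O) (hx : x ∈ icr R t) : C.r x ∈ icr κ (C.r t) := by
  have hxO := icr_le_val hR ht hx
  obtain ⟨p, hp, h⟩ := mem_icr.1 hx
  let g₀ : R →+* C.O := RingHom.codRestrict (algebraMap R F) C.O.toSubring hR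
  let g : R[X] →+* C.O := eval₂RingHom g₀ ⟨t, ht⟩
  have hg : C.O.subtype.comp g = (aeval (R := R) t : R[X] →ₐ[R] F).toRingHom := by
    refine Polynomial.ringHom_ext (fun a => ?_) ?_
    · change ((g (Polynomial.C a) : C.O) : F) = aeval t (Polynomial.C a)
      rw [aeval_C]
      change ((eval₂ g₀ _ (Polynomial.C a) : C.O) : F) = _
      rw [eval₂_C]
      rfl
    · change ((g X : C.O) : F) = aeval t X
      rw [aeval_X]
      change ((eval₂ g₀ _ X : C.O) : F) = _
      rw [eval₂_X]
  have h1 : eval₂ g ⟨x, hxO⟩ p = 0 := by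
    apply Subtype.val_injective
    have h2 := hom_eval₂ p g C.O.subtype ⟨x, hxO⟩
    change ((eval₂ g ⟨x, hxO⟩ p : C.O) : F) = _ at h2
    rw [h2, hg]
    exact h
  have h3 : C.res.comp g = (aeval (R := κ) (C.r t) : κ[X] →ₐ[κ] 𝓕).toRingHom.comp
      (mapRingHom π) := by
    refine Polynomial.ringHom_ext (fun a => ?_) ?_
    · change C.res (eval₂ g₀ _ (Polynomial.C a)) = aeval (C.r t) ((Polynomial.C a : R[X]).map π)
      rw [map_C, aeval_C, ← hr, eval₂_C, Res.r_of_mem (hR a)]
      rfl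
    · change C.res (eval₂ g₀ _ X) = aeval (C.r t) ((X : R[X]).map π)
      rw [map_X, aeval_X, eval₂_X, Res.r_of_mem ht]
  refine mem_icr.2 ⟨p.map (mapRingHom π), hp.map _, ?_⟩
  rw [eval₂_map, ← h3, Res.r_of_mem hxO, ← hom_eval₂, h1, map_zero]

/-- the overlap of the charts -/
theorem icr_overlap {t x : F} (ht : t ≠ 0) (hx : x ∈ icr R t) :
    ∃ n : ℕ, t⁻¹ ^ n * x ∈ icr R t⁻¹ := by
  classical
  obtain ⟨p, hp, h⟩ := mem_icr.1 hx
  set P : F[X] := p.map (aeval (R := R) t : R[X] →ₐ[R] F).toRingHom with hPdef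
  have hPm : P.Monic := hp.map _
  obtain ⟨n, hn⟩ : ∃ n : ℕ, ∀ i, (p.coeff i).natDegree ≤ n := by
    refine ⟨p.support.sup (fun i => (p.coeff i).natDegree), fun i => ?_⟩
    by_cases hi : i ∈ p.support
    · exact Finset.le_sup (f := fun i => (p.coeff i).natDegree) hi
    · rw [notMem_support_iff.1 hi, natDegree_zero]
      exact Nat.zero_le _
  refine ⟨n, mem_icr_of_monic (P := P.scaleRoots (t⁻¹ ^ n))
    ((monic_scaleRoots_iff _).2 hPm) (fun i => ?_) ?_⟩
  · rw [coeff_scaleRoots]
    rcases lt_trichotomy i P.natDegree with hi | hi | hi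
    · rw [hPdef, coeff_map, ← hPdef]
      change aeval t (p.coeff i) * _ ∈ _
      rw [aeval_eq_sum_range' (Nat.lt_succ_of_le (hn i)), Finset.sum_mul]
      refine sum_mem fun j hj => ?_
      rw [Algebra.smul_def, mul_assoc]
      refine mul_mem (const_mem_icr _ _) ?_
      have h1 : j ≤ n * (P.natDegree - i) := by
        have h2 : j ≤ n := Nat.lt_succ_iff.1 (Finset.mem_range.1 hj)
        have h3 : 1 ≤ P.natDegree - i := by omega
        calc j ≤ n * 1 := by omega
          _ ≤ _ := Nat.mul_le_mul_left _ h3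
      have h4 : t ^ j * (t⁻¹ ^ n) ^ (P.natDegree - i) = t⁻¹ ^ (n * (P.natDegree - i) - j) := by
        rw [← pow_mul]
        obtain ⟨d, hd⟩ := Nat.exists_eq_add_of_le h1
        rw [hd, Nat.add_sub_cancel_left, pow_add, ← mul_assoc, ← mul_pow, mul_inv_cancel₀ ht,
          one_pow, one_mul]
      rw [h4]
      exact pow_mem (self_mem_icr _) _
    · rw [hi, Nat.sub_self, pow_zero, mul_one, hPm.coeff_natDegree]
      exact one_mem _
    · rw [coeff_eq_zero_of_natDegree_lt hi, zero_mul]
      exact zero_mem _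
  · have h1 : P.eval x = 0 := by rw [hPdef, eval_map]; exact h
    have := scaleRoots_eval₂_eq_zero (RingHom.id F) (p := P) (r := x) (s := t⁻¹ ^ n)
      (by rw [eval₂_id]; exact h1)
    rwa [eval₂_id, RingHom.id_apply] at this

end Basic

end Fermat.Agent.Carayol
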