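import Fermat.Agent.Carayol.Icr

/-!
# Integral closures of polynomial rings in fields: finiteness
-/

set_option autoImplicit false
set_option linter.unusedSectionVars false
set_option linter.style.haveILetI false

noncomputable section

namespace Fermat.Agent.Carayol

open Fermat.Agent.Models Fermat.Agent.GoodRed Polynomial IntermediateField

section Fin

variable {R k F : Type*} [CommRing R] [IsDomain R] [Field k] [Algebra R k] [IsFractionRing R k]
  [Field F] [Algebra k F] [Algebra R F] [IsScalarTower R k F]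

/-- `k(t)` as an `R[X]`-algebra -/
@[reducible] def pAlgAdj (R : Type*) {k F : Type*} [CommRing R] [Field k] [Algebra R k]
    [Field F] [Algebra k F] (t : F) : Algebra R[X] k⟮t⟯ :=
  ((aeval (R := k) (AdjoinSimple.gen k t)).toRingHom.comp (mapRingHom (algebraMap R k))).toAlgebra

theorem pAlgAdj_tower (t : F) :
    letI := pAlg R t
    letI := pAlgAdj R (k := k) t
    IsScalarTower R[X] k⟮t⟯ F := by
  letI := pAlg R t
  letI := pAlgAdj R (k := k) t
  refine IsScalarTower.of_algebraMap_eq fun p => ?_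
  change aeval t p = algebraMap k⟮t⟯ F (aeval (AdjoinSimple.gen k t) (p.map (algebraMap R k)))
  rw [← aeval_algebraMap_apply]
  change aeval t p = aeval t (p.map (algebraMap R k))
  rw [aeval_map_algebraMap]

theorem isFractionRing_pAlgAdj {t : F} (ht : Transcendental k t) :
    letI := pAlgAdj R (k := k) t
    IsFractionRing R[X] k⟮t⟯ := by
  letI := pAlgAdj R (k := k) t
  have hinj : Function.Injective (algebraMap R[X] k⟮t⟯) := by
    rw [injective_iff_map_eq_zero]
    intro p hp
    have h1 : aeval t (p.map (algebraMap R k)) = 0 := by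
      have := congrArg (algebraMap k⟮t⟯ F) hp
      rw [map_zero] at this
      change algebraMap k⟮t⟯ F (aeval (AdjoinSimple.gen k t) (p.map (algebraMap R k))) = 0 at this
      rwa [← aeval_algebraMap_apply] at this
    rw [transcendental_iff] at ht
    have h2 := ht _ h1
    exact (Polynomial.map_eq_zero_iff (IsFractionRing.injective R k)).1 h2
  haveI : FaithfulSMul R[X] k⟮t⟯ := (faithfulSMul_iff_algebraMap_injective _ _).2 hinj
  refine IsFractionRing.of_field R[X] k⟮t⟯ fun z => ?_
  obtain ⟨r, s, hrs⟩ := (mem_adjoin_simple_iff k (z : F)).1 z.2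
  -- clear denominators
  obtain ⟨b, hbm, hb⟩ := IsLocalization.integerNormalization_spec (nonZeroDivisors R) r
  obtain ⟨c, hcm, hc⟩ := IsLocalization.integerNormalization_spec (nonZeroDivisors R) s
  set r' := IsLocalization.integerNormalization (nonZeroDivisors R) r
  set s' := IsLocalization.integerNormalization (nonZeroDivisors R) s
  have hval : ∀ p : R[X], ((algebraMap R[X] k⟮t⟯ p : k⟮t⟯) : F) = aeval t p := by
    intro p
    change algebraMap k⟮t⟯ F (aeval (AdjoinSimple.gen k t) (p.map (algebraMap R k))) = _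
    rw [← aeval_algebraMap_apply]
    change aeval t (p.map (algebraMap R k)) = aeval t p
    rw [aeval_map_algebraMap]
  have hne : ∀ b ∈ nonZeroDivisors R, algebraMap R F b ≠ 0 := by
    intro b hb
    rw [IsScalarTower.algebraMap_apply R k F]
    have h1 : algebraMap R k b ≠ 0 := by
      intro h
      exact nonZeroDivisors.ne_zero hb ((IsFractionRing.injective R k) (by rw [h, map_zero]))
    exact (_root_.map_ne_zero _).2 h1
  have hsm : ∀ (b : R) (p : k[X]), b • p = C (algebraMap R k b) * p := by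
    intro b p
    ext n
    rw [coeff_smul, coeff_C_mul, Algebra.smul_def]
  have hr : aeval t r' = algebraMap R F b * aeval t r := by
    rw [← aeval_map_algebraMap k, hb, hsm, map_mul, aeval_C, ← IsScalarTower.algebraMap_apply]
  have hs : aeval t s' = algebraMap R F c * aeval t s := by
    rw [← aeval_map_algebraMap k, hc, hsm, map_mul, aeval_C, ← IsScalarTower.algebraMap_apply]
  refine ⟨C (c : R) * r', C (b : R) * s', ?_⟩
  apply Subtype.ext
  rw [hrs]
  change _ = ((algebraMap R[X] k⟮t⟯ (C (c : R) * r') / algebraMap R[X] k⟮t⟯ (C (b : R) * s') :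
    k⟮t⟯) : F)
  rw [IntermediateField.coe_div, hval, hval, map_mul, map_mul, aeval_C, aeval_C, hr, hs]
  by_cases h0 : aeval t s = 0
  · rw [h0]; simp
  have h1 := hne b hbm
  have h2 := hne c hcm
  field_simp

variable [IsIntegrallyClosed R] [IsNoetherianRing R]

/-- finiteness -/
theorem icr_fin {t : F} (ht : Transcendental k t) (hfin : FiniteDimensional k⟮t⟯ F)
    (hsep : Algebra.IsSeparable k⟮t⟯ F) :
    letI := pAlg R t
    ∃ N : Submodule R[X] F, N.FG ∧ ∀ x ∈ icr R t, x ∈ N := by
  letI := pAlg R t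
  letI := pAlgAdj R (k := k) t
  haveI := pAlgAdj_tower (R := R) (k := k) t
  haveI := isFractionRing_pAlgAdj (R := R) ht
  haveI : IsNoetherian R[X] (integralClosure R[X] F) :=
    IsIntegralClosure.isNoetherian R[X] k⟮t⟯ F (integralClosure R[X] F)
  refine ⟨(integralClosure R[X] F).toSubmodule, ?_, fun x hx => hx⟩
  exact (Submodule.fg_top _).1 (IsNoetherian.noetherian (⊤ : Submodule R[X] (integralClosure R[X] F)))

/-- the ring is noetherian -/
theorem icr_noeth {t : F} (ht : Transcendental k t) (hfin : FiniteDimensional k⟮t⟯ F)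
    (hsep : Algebra.IsSeparable k⟮t⟯ F) : IsNoetherianRing (icr R t) := by
  letI := pAlg R t
  letI := pAlgAdj R (k := k) t
  haveI := pAlgAdj_tower (R := R) (k := k) t
  haveI := isFractionRing_pAlgAdj (R := R) ht
  haveI : IsNoetherianRing (integralClosure R[X] F) :=
    IsIntegralClosure.isNoetherianRing R[X] k⟮t⟯ F (integralClosure R[X] F)
  let e : integralClosure R[X] F ≃+* icr R t :=
    { toFun := fun x => ⟨x.1, x.2⟩
      invFun := fun x => ⟨x.1, x.2⟩
      left_inv := fun _ => rfl
      right_inv := fun _ => rfl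
      map_mul' := fun _ _ => rfl
      map_add' := fun _ _ => rfl }
  exact isNoetherianRing_of_ringEquiv _ e

/-- fractions -/
theorem icr_frac {t : F} (ht : Transcendental k t) (hfin : FiniteDimensional k⟮t⟯ F) (x : F) :
    ∃ a ∈ icr R t, ∃ b ∈ icr R t, b ≠ 0 ∧ x = a / b := by
  letI := pAlg R t
  letI := pAlgAdj R (k := k) t
  haveI := pAlgAdj_tower (R := R) (k := k) t
  haveI := isFractionRing_pAlgAdj (R := R) ht
  haveI : IsFractionRing (integralClosure R[X] F) F :=
    integralClosure.isFractionRing_of_finite_extension k⟮t⟯ F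
  obtain ⟨a, b, hb, hab⟩ := IsFractionRing.div_surjective (A := integralClosure R[X] F) x
  refine ⟨a, a.2, b, b.2, ?_, hab.symm⟩
  intro h
  exact nonZeroDivisors.ne_zero hb (Subtype.ext h)

/-- Dedekind -/
theorem icr_ded [IsDedekindDomain R[X]] {t : F} (ht : Transcendental k t)
    (hfin : FiniteDimensional k⟮t⟯ F)
    (hsep : Algebra.IsSeparable k⟮t⟯ F) : IsDedekindDomain (icr R t) := by
  letI := pAlg R t
  letI := pAlgAdj R (k := k) t
  haveI := pAlgAdj_tower (R := R) (k := k) t
  haveI := isFractionRing_pAlgAdj (R := R) ht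
  haveI : IsDedekindDomain (integralClosure R[X] F) :=
    integralClosure.isDedekindDomain R[X] k⟮t⟯ F
  let e : integralClosure R[X] F ≃+* icr R t :=
    { toFun := fun x => ⟨x.1, x.2⟩
      invFun := fun x => ⟨x.1, x.2⟩
      left_inv := fun _ => rfl
      right_inv := fun _ => rfl
      map_mul' := fun _ _ => rfl
      map_add' := fun _ _ => rfl }
  haveI h1 : IsNoetherianRing (icr R t) := isNoetherianRing_of_ringEquiv _ e
  haveI h2 : Ring.DimensionLEOne (icr R t) := Ring.DimensionLEOne.of_ringEquiv e.symm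
  haveI h3 : IsIntegrallyClosed (icr R t) := IsIntegrallyClosed.of_equiv e
  exact { h1, h2, h3 with }

end Fin

section Res

variable {R κ F : Type*} [CommRing R] [Field κ] [IsAlgClosed κ] [Field F] [Algebra R F]
  {π : R →+* κ}

/-- residue fields -/
theorem icr_residue (hπ : Function.Surjective π) {t : F} {𝔪 : Ideal (icr R t)}
    (h𝔪 : 𝔪.IsMaximal)
    (hker : ∀ a, π a = 0 → (⟨algebraMap R F a, const_mem_icr t a⟩ : icr R t) ∈ 𝔪)
    (b : icr R t) : ∃ a : R, b - ⟨algebraMap R F a, const_mem_icr t a⟩ ∈ 𝔪 := by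
  letI : Field (icr R t ⧸ 𝔪) := Ideal.Quotient.field 𝔪
  let c : R →+* icr R t := RingHom.codRestrict (algebraMap R F) (icr R t) (const_mem_icr t)
  let f : R →+* icr R t ⧸ 𝔪 := (Ideal.Quotient.mk 𝔪).comp c
  have hf : RingHom.ker π ≤ RingHom.ker f := by
    intro a ha
    rw [RingHom.mem_ker] at ha ⊢
    exact Ideal.Quotient.eq_zero_iff_mem.2 (hker a ha)
  let g : κ →+* icr R t ⧸ 𝔪 := RingHom.liftOfSurjective π hπ ⟨f, hf⟩
  have hg : ∀ a, g (π a) = f a := fun a =>
    RingHom.liftOfRightInverse_comp_apply _ _ _ ⟨f, hf⟩ a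
  letI : Algebra κ (icr R t ⧸ 𝔪) := g.toAlgebra
  -- every element is integral over `κ[X]`
  let tb : icr R t ⧸ 𝔪 := Ideal.Quotient.mk 𝔪 ⟨t, self_mem_icr t⟩
  letI := pAlg κ tb
  have hint : ∀ z : icr R t ⧸ 𝔪, IsIntegral κ[X] z := by
    intro z
    obtain ⟨z, rfl⟩ := Ideal.Quotient.mk_surjective z
    obtain ⟨p, hp, h⟩ := mem_icr.1 z.2
    let g₁ : R[X] →+* icr R t := eval₂RingHom c ⟨t, self_mem_icr t⟩
    have hg₁ : (icr R t).subtype.comp g₁ = (aeval (R := R) t : R[X] →ₐ[R] F).toRingHom := by
      refine Polynomial.ringHom_ext (fun a => ?_) ?_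
      · change ((eval₂ c _ (Polynomial.C a) : icr R t) : F) = aeval t (Polynomial.C a)
        rw [aeval_C, eval₂_C]
        rfl
      · change ((eval₂ c _ X : icr R t) : F) = aeval t X
        rw [aeval_X, eval₂_X]
    have h1 : eval₂ g₁ z p = 0 := by
      apply Subtype.val_injective
      have h2 := hom_eval₂ p g₁ (icr R t).subtype z
      change ((eval₂ g₁ z p : icr R t) : F) = _ at h2
      rw [h2, hg₁]
      exact h
    have h3 : (Ideal.Quotient.mk 𝔪).comp g₁ = (algebraMap κ[X] (icr R t ⧸ 𝔪)).comp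
        (mapRingHom π) := by
      refine Polynomial.ringHom_ext (fun a => ?_) ?_
      · change Ideal.Quotient.mk 𝔪 (eval₂ c _ (Polynomial.C a)) =
          aeval tb ((Polynomial.C a : R[X]).map π)
        rw [map_C, aeval_C, eval₂_C]
        exact (hg a).symm
      · change Ideal.Quotient.mk 𝔪 (eval₂ c _ X) = aeval tb ((X : R[X]).map π)
        rw [map_X, aeval_X, eval₂_X]
    refine ⟨p.map (mapRingHom π), hp.map _, ?_⟩
    rw [eval₂_map, ← h3, ← hom_eval₂, h1, map_zero]
  -- `tb` is algebraic
  have halg : IsAlgebraic κ tb := by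
    by_contra htr
    haveI : Algebra.IsIntegral κ[X] (icr R t ⧸ 𝔪) := ⟨hint⟩
    have hinj : Function.Injective (algebraMap κ[X] (icr R t ⧸ 𝔪)) := by
      rw [injective_iff_map_eq_zero]
      exact transcendental_iff.1 htr
    exact Polynomial.not_isField κ (isField_of_isIntegral_of_isField hinj
      (Field.toIsField (icr R t ⧸ 𝔪)))
  haveI : IsScalarTower κ κ[X] (icr R t ⧸ 𝔪) := by
    refine IsScalarTower.of_algebraMap_eq fun c => ?_
    change _ = aeval tb (algebraMap κ κ[X] c)
    rw [AlgHom.commutes]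
  have hzint : IsIntegral κ (Ideal.Quotient.mk 𝔪 b) := by
    obtain ⟨p, hp, h⟩ := hint (Ideal.Quotient.mk 𝔪 b)
    obtain ⟨s, hs⟩ : ∃ s : κ, algebraMap κ (icr R t ⧸ 𝔪) s = tb := by
      have h1 := IsAlgClosed.degree_eq_one_of_irreducible κ
        (minpoly.irreducible halg.isIntegral)
      exact minpoly.mem_range_of_degree_eq_one κ tb h1
    refine ⟨p.map (evalRingHom s), hp.map _, ?_⟩
    rw [eval₂_map]
    have h2 : (algebraMap κ (icr R t ⧸ 𝔪)).comp (evalRingHom s) =
        algebraMap κ[X] (icr R t ⧸ 𝔪) := by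
      refine Polynomial.ringHom_ext (fun a => ?_) ?_
      · change algebraMap κ _ (eval s (Polynomial.C a)) = aeval tb (Polynomial.C a)
        rw [eval_C, aeval_C]
      · change algebraMap κ _ (eval s X) = aeval tb X
        rw [eval_X, aeval_X, hs]
    rw [h2]
    exact h
  obtain ⟨s, hs⟩ : ∃ s : κ, algebraMap κ (icr R t ⧸ 𝔪) s = Ideal.Quotient.mk 𝔪 b := by
    have h1 := IsAlgClosed.degree_eq_one_of_irreducible κ (minpoly.irreducible hzint)
    exact minpoly.mem_range_of_degree_eq_one κ _ h1
  obtain ⟨a, rfl⟩ := hπ s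
  refine ⟨a, ?_⟩
  rw [← Ideal.Quotient.eq]
  rw [← hs]
  exact hg a

end Res

end Fermat.Agent.Carayol
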