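import Fermat.Agent.Carayol.Icr2
import Fermat.Agent.GoodRed.Ram
import Fermat.Agent.SSMod.ModEq

/-!
# Integral closures of polynomial rings in fields: descent, growth, valuations
-/

set_option autoImplicit false
set_option linter.unusedSectionVars false
set_option linter.style.haveILetI false

noncomputable section

namespace Fermat.Agent.Carayol

open Fermat.Agent.Models Fermat.Agent.GoodRed Polynomial IntermediateField Fermat.Agent.SSMod
open Fermat.Agent.Curves AlgebraicCurve

/-- descent of integrality along an algebraic extension of the constants -/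
theorem icr_descend {k K F F' : Type*} [Field k] [Field K] [Algebra k K]
    [Algebra.IsIntegral k K] [Field F] [Algebra k F] [Field F'] [Algebra K F'] (f : F →+* F')
    (hf : ∀ c : k, f (algebraMap k F c) = algebraMap K F' (algebraMap k K c)) {t x : F}
    (hx : f x ∈ icr K (f t)) : x ∈ icr k t := by
  letI : Algebra k F' := ((algebraMap K F').comp (algebraMap k K)).toAlgebra
  have hc : ∀ c : K, algebraMap K F' c ∈ icr k (f t) := by
    intro c
    obtain ⟨p, hp, h⟩ := Algebra.IsIntegral.isIntegral (R := k) c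
    refine mem_icr_of_monic (P := p.map (algebraMap k F')) (hp.map _) (fun i => ?_) ?_
    · rw [coeff_map]; exact const_mem_icr _ _
    · rw [eval_map]
      have := congrArg (algebraMap K F') h
      rw [map_zero, hom_eval₂] at this
      exact this
  have h1 : f x ∈ icr k (f t) := by
    obtain ⟨p, hp, h⟩ := mem_icr.1 hx
    refine mem_icr_of_monic (P := p.map (aeval (R := K) (f t) : K[X] →ₐ[K] F').toRingHom)
      (hp.map _) (fun i => ?_) (by rw [eval_map]; exact h)
    rw [coeff_map]
    change aeval (f t) (p.coeff i) ∈ _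
    rw [aeval_eq_sum_range]
    refine sum_mem fun i _ => ?_
    rw [Algebra.smul_def]
    exact mul_mem (hc _) (pow_mem (self_mem_icr _) _)
  obtain ⟨p, hp, h⟩ := mem_icr.1 h1
  refine mem_icr.2 ⟨p, hp, ?_⟩
  apply f.injective
  rw [map_zero, hom_eval₂]
  have h2 : f.comp (aeval (R := k) t : k[X] →ₐ[k] F).toRingHom =
      (aeval (R := k) (f t) : k[X] →ₐ[k] F').toRingHom := by
    refine Polynomial.ringHom_ext (fun a => ?_) ?_
    · change f (aeval t (C a)) = aeval (f t) (C a)
      rw [aeval_C, aeval_C, hf]
      rfl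
    · change f (aeval t X) = aeval (f t) X
      rw [aeval_X, aeval_X]
  rw [h2]
  exact h

section Val

variable {R F : Type*} [CommRing R] [Field F] [Algebra R F]

theorem icr_closedIn (t : F) : IsIntegrallyClosedIn (icr R t) F := by
  rw [isIntegrallyClosedIn_iff]
  refine ⟨Subtype.val_injective, fun {x} hx => ?_⟩
  obtain ⟨p, hp, h⟩ := hx
  have : x ∈ icr R t := mem_icr_of_monic (P := p.map (algebraMap (icr R t) F)) (hp.map _)
    (fun i => by rw [coeff_map]; exact (p.coeff i).2) (by rw [eval_map]; exact h)
  exact ⟨⟨x, this⟩, rfl⟩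

/-- valuative criterion -/
theorem icr_of_val {t x : F} (h : ∀ V : ValuationSubring F, (∀ a, algebraMap R F a ∈ V) →
    t ∈ V → x ∈ V) : x ∈ icr R t := by
  by_contra hx
  haveI := icr_closedIn (R := R) t
  obtain ⟨V, hV, hxV⟩ := Subring.exists_le_valuationSubring_of_isIntegrallyClosedIn hx
  exact hxV (h V (fun a => hV (const_mem_icr t a)) (hV (self_mem_icr t)))

/-- growth -/
theorem icr_growth {t x : F} (ht : t ≠ 0) {p : R[X][X]} (hp : p.Monic)
    (h : eval₂ (aeval (R := R) t : R[X] →ₐ[R] F).toRingHom x p = 0) {m : ℕ}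
    (hdeg : ∀ i < p.natDegree, (p.coeff i).natDegree ≤ m * (p.natDegree - i)) :
    (t⁻¹) ^ m * x ∈ icr R t⁻¹ := by
  rcases subsingleton_or_nontrivial R with hR | hR
  · exfalso
    have h1 : (1 : R) = 0 := Subsingleton.elim _ _
    have h2 := congrArg (algebraMap R F) h1
    rw [map_one, map_zero] at h2
    exact one_ne_zero h2
  set P : F[X] := p.map (aeval (R := R) t : R[X] →ₐ[R] F).toRingHom with hPdef
  have hPm : P.Monic := hp.map _
  have hn : P.natDegree = p.natDegree := hp.natDegree_map _
  refine mem_icr_of_monic (P := P.scaleRoots (t⁻¹ ^ m))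
    ((monic_scaleRoots_iff _).2 hPm) (fun i => ?_) ?_
  · rw [coeff_scaleRoots]
    rcases lt_trichotomy i P.natDegree with hi | hi | hi
    · have h1 := hdeg i (hn ▸ hi)
      rw [hn, hPdef, coeff_map]
      change aeval t (p.coeff i) * _ ∈ _
      rw [aeval_eq_sum_range, Finset.sum_mul]
      refine sum_mem fun j hj => ?_
      rw [Algebra.smul_def, mul_assoc]
      refine mul_mem (const_mem_icr _ _) ?_
      have h2 : j ≤ m * (p.natDegree - i) :=
        (Nat.lt_succ_iff.1 (Finset.mem_range.1 hj)).trans h1
      have h4 : t ^ j * (t⁻¹ ^ m) ^ (p.natDegree - i) = t⁻¹ ^ (m * (p.natDegree - i) - j) := by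
        rw [← pow_mul]
        obtain ⟨d, hd⟩ := Nat.exists_eq_add_of_le h2
        rw [hd, Nat.add_sub_cancel_left, pow_add, ← mul_assoc, ← mul_pow, mul_inv_cancel₀ ht,
          one_pow, one_mul]
      rw [h4]
      exact pow_mem (self_mem_icr _) _
    · rw [hi, Nat.sub_self, pow_zero, mul_one, hPm.coeff_natDegree]
      exact one_mem _
    · rw [coeff_eq_zero_of_natDegree_lt hi, zero_mul]
      exact zero_mem _
  · have h1 : P.eval x = 0 := by rw [hPdef, eval_map]; exact h
    have := scaleRoots_eval₂_eq_zero (RingHom.id F) (p := P) (r := x) (s := t⁻¹ ^ m)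
      (by rw [eval₂_id]; exact h1)
    rwa [eval₂_id, RingHom.id_apply] at this

end Val

section Aff

variable {K F : Type*} [Field K] [IsAlgClosed K] [Field F] [Algebra K F] [IsFunctionField K F]

theorem icr_iff_affine {t x : F} : x ∈ icr K t ↔ x ∈ affineRing K t := by
  letI := polyAlg K t
  haveI := polyAlg_tower K t
  have h1 := isIntegral_iff_mem_affineRing (K := K) x
  have h2 : algebraMap K[X] F X = t := polyAlg_X K t
  rw [h2] at h1
  rw [← h1]
  exact mem_icr'

end Aff

theorem eval₂_of_ev {K F : Type*} [Field K] [Field F] [Algebra K F] {x y : F} {P : K[X][X]}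
    (h : ev K x y P = 0) : eval₂ (aeval (R := K) x : K[X] →ₐ[K] F).toRingHom y P = 0 := by
  rw [ev_apply] at h
  rw [eval₂_eq_sum_range]
  exact h

end Fermat.Agent.Carayol
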