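import Fermat.Agent.Carayol.Inertia2

/-!
# Finite extensions of the inertia field are totally ramified
-/

set_option autoImplicit false
set_option linter.unusedSectionVars false
set_option linter.style.haveILetI false

noncomputable section

namespace Fermat.Agent.Carayol

open Fermat.Agent.Frob IsLocalRing Polynomial Module
open scoped Pointwise NumberField

variable {A : ValuationSubring Qb} {q : ℕ}

/-- elements of `A` are integral over `A₀` -/
theorem isIntegral_A0 {x : Qb} (hx : x ∈ A) : IsIntegral (A0 A) x := by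
  have hint : IsIntegral (K0 A) x := Algebra.IsIntegral.isIntegral x
  have hmon := minpoly.monic hint
  have hsplit : ((minpoly (K0 A) x).map (algebraMap (K0 A) Qb)).Splits := IsAlgClosed.splits _
  have hroots : ∀ r ∈ ((minpoly (K0 A) x).map (algebraMap (K0 A) Qb)).roots, r ∈ A := by
    intro r hr
    have h1 : aeval r (minpoly (K0 A) x) = 0 := by
      rw [mem_roots (hmon.map _).ne_zero, IsRoot.def, eval_map_algebraMap] at hr
      exact hr
    have h2 : IsConjRoot (K0 A) x r := isConjRoot_of_aeval_eq_zero hint h1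
    obtain ⟨σ, hσ⟩ := isConjRoot_iff_exists_algEquiv.1 h2
    rw [← K0_mem_iff σ, hσ]
    exact hx
  have hcoef : ∀ n, (minpoly (K0 A) x).coeff n ∈ A0 A := by
    intro n
    rw [mem_A0]
    have h3 : (minpoly (K0 A) x).map (algebraMap (K0 A) Qb) ∈ lifts A.subtype := by
      rw [hsplit.eq_prod_roots_of_monic (hmon.map _)]
      refine Subsemiring.multiset_prod_mem _ _ ?_
      intro f hf
      obtain ⟨r, hr, rfl⟩ := Multiset.mem_map.1 hf
      refine (lifts_iff_coeff_lifts _).2 fun k => ?_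
      rw [coeff_sub, coeff_X, coeff_C]
      refine ⟨(if 1 = k then 1 else 0) - if k = 0 then ⟨r, hroots r hr⟩ else 0, ?_⟩
      split_ifs <;> simp
    obtain ⟨a, ha⟩ := (lifts_iff_coeff_lifts _).1 h3 n
    rw [coeff_map] at ha
    have h4 : ((minpoly (K0 A) x).coeff n : Qb) = (a : Qb) := ha.symm
    rw [h4]
    exact a.2
  refine ⟨(minpoly (K0 A) x).toSubring (A0 A).toSubring (fun a ha => ?_), ?_, ?_⟩
  · obtain ⟨n, -, rfl⟩ := mem_coeffs_iff.1 ha
    exact hcoef n
  · exact (monic_toSubring _ _ _).2 hmon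
  · have h5 := minpoly.aeval (K0 A) x
    have h6 := map_toSubring (minpoly (K0 A) x) (A0 A).toSubring (fun a ha => by
      obtain ⟨n, -, rfl⟩ := mem_coeffs_iff.1 ha
      exact hcoef n)
    conv at h5 => lhs; rw [← h6]
    rw [aeval_def, eval₂_map] at h5
    exact h5

variable (A) in
/-- the valuation ring of a finite extension of the inertia field -/
def A1 (K₁ : IntermediateField (K0 A) Qb) : ValuationSubring K₁ := A.comap (algebraMap K₁ Qb)

section Ext

variable (K₁ : IntermediateField (K0 A) Qb)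

instance algA0A1 : Algebra (A0 A) (A1 A K₁) :=
  RingHom.toAlgebra
    { toFun := fun x => ⟨algebraMap (K0 A) K₁ x, x.2⟩
      map_one' := Subtype.ext (map_one _)
      map_mul' := fun _ _ => Subtype.ext (map_mul _ _ _)
      map_zero' := Subtype.ext (map_zero _)
      map_add' := fun _ _ => Subtype.ext (map_add _ _ _) }

instance towerA1 : IsScalarTower (A0 A) (A1 A K₁) K₁ := IsScalarTower.of_algebraMap_eq fun _ => rfl

instance closureA1 : IsIntegralClosure (A1 A K₁) (A0 A) K₁ where
  algebraMap_injective := Subtype.val_injective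
  isIntegral_iff := by
    intro x
    constructor
    · intro hx
      have h1 : IsIntegral (A1 A K₁) x := hx.tower_top
      exact IsIntegrallyClosed.isIntegral_iff.1 h1
    · rintro ⟨y, rfl⟩
      have h1 := isIntegral_A0 (A := A) (x := ((y : K₁) : Qb)) y.2
      exact (isIntegral_algebraMap_iff (A := K₁) (B := Qb) (algebraMap K₁ Qb).injective).1 h1

theorem val_pow_ne {v : A.ValueGroup} (hv0 : v ≠ 0) (hv1 : v < 1) {a b : ℤ}
    (h : v ^ a = v ^ b) : a = b := by
  have h0 : 0 < v := zero_lt_iff.2 hv0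
  by_contra hne
  wlog hlt : a < b generalizing a b with H
  · exact H h.symm (Ne.symm hne) (lt_of_le_of_ne (not_lt.1 hlt) (Ne.symm hne))
  have h1 : v ^ (b - a) = 1 := by
    rw [zpow_sub₀ hv0, h, div_self (zpow_ne_zero _ hv0)]
  obtain ⟨m, hm⟩ : ∃ m : ℕ, b - a = ((m + 1 : ℕ) : ℤ) := ⟨(b - a - 1).toNat, by omega⟩
  rw [hm, zpow_natCast] at h1
  exact (pow_lt_one₀ zero_le hv1 (Nat.succ_ne_zero m)).ne h1

set_option maxHeartbeats 2000000 in
/-- a basis of a finite extension with distinct values modulo the value group of `K₀` -/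
theorem exists_basis_val (hq : q.Prime) (hA : A.LiesOverPrime q) [FiniteDimensional (K0 A) K₁] :
    ∃ (n : ℕ) (e : Basis (Fin (n + 1)) (K0 A) K₁), e 0 = 1 ∧
      ∀ i j, i ≠ j → ∀ c d : K0 A, c ≠ 0 → d ≠ 0 →
        A.valuation ((c : Qb) * ((e i : K₁) : Qb)) ≠ A.valuation ((d : Qb) * ((e j : K₁) : Qb)) := by
  haveI := dvr_A0 hq hA
  haveI hfin : Module.Finite (A0 A) (A1 A K₁) :=
    IsIntegralClosure.finite (A0 A) (K0 A) K₁ (A1 A K₁)
  haveI hnoe : IsNoetherianRing (A1 A K₁) :=
    isNoetherian_of_tower (A0 A) (isNoetherian_of_isNoetherianRing_of_finite (A0 A) (A1 A K₁))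
  haveI : IsPrincipalIdealRing (A1 A K₁) := (IsBezout.TFAE.out 0 1).1 hnoe
  have hqv := val_q_lt hA
  have hqQ : (q : Qb) ≠ 0 := by exact_mod_cast hq.ne_zero
  have hunit : ∀ x : A1 A K₁, IsUnit x ↔ A.valuation (((x : K₁) : Qb)) = 1 := by
    intro x
    constructor
    · intro h
      let f : A1 A K₁ →+* A :=
        { toFun := fun x => ⟨((x : K₁) : Qb), x.2⟩
          map_one' := rfl
          map_mul' := fun _ _ => rfl
          map_zero' := rfl
          map_add' := fun _ _ => rfl }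
      exact (A.valuation_eq_one_iff _).1 (h.map f)
    · intro h
      have hx0 : (x : K₁) ≠ 0 := by
        intro h0
        rw [h0] at h
        simp at h
      have hinv : ((x : K₁))⁻¹ ∈ A1 A K₁ := by
        change (((x : K₁)⁻¹ : K₁) : Qb) ∈ A
        rw [← A.valuation_le_one_iff, IntermediateField.coe_inv, map_inv₀, h, inv_one]
      exact IsUnit.of_mul_eq_one ⟨_, hinv⟩ (Subtype.ext (mul_inv_cancel₀ hx0))
  have hqnu : ¬ IsUnit ((q : ℕ) : A1 A K₁) := by
    rw [hunit]
    push_cast
    exact hqv.ne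
  have hq0 : ((q : ℕ) : A1 A K₁) ≠ 0 := by exact_mod_cast hq.ne_zero
  haveI : IsDiscreteValuationRing (A1 A K₁) :=
    { not_a_field' := by
        intro h
        apply hqnu
        by_contra hnu
        have : ((q : ℕ) : A1 A K₁) ∈ maximalIdeal (A1 A K₁) := (mem_maximalIdeal _).2 hnu
        rw [h, Ideal.mem_bot] at this
        exact hq0 this }
  obtain ⟨ϖ, hϖ⟩ := IsDiscreteValuationRing.exists_irreducible (A1 A K₁)
  obtain ⟨e, u, hu⟩ := IsDiscreteValuationRing.associated_pow_irreducible hq0 hϖ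
  set w := A.valuation (((ϖ : K₁) : Qb)) with hw
  have hϖ0 : (ϖ : K₁) ≠ 0 := fun h => hϖ.ne_zero (Subtype.ext h)
  have hw0 : w ≠ 0 := by
    rw [hw, Valuation.ne_zero_iff]
    simpa using hϖ0
  have hw1 : w < 1 := by
    refine lt_of_le_of_ne ((A.valuation_le_one_iff _).2 ϖ.2) ?_
    intro h
    exact hϖ.not_isUnit ((hunit ϖ).2 h)
  have hqw : A.valuation (q : Qb) = w ^ e := by
    have := congrArg (fun z : A1 A K₁ => A.valuation ((z : K₁) : Qb)) hu
    simp only [MulMemClass.coe_mul, SubmonoidClass.coe_pow, map_mul, map_pow] at this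
    rw [hw, ← this]
    have h3 := (hunit _).1 u.isUnit
    rw [h3, mul_one]
    rfl
  have he0 : e ≠ 0 := by
    rintro rfl
    rw [pow_zero] at hqw
    exact hqv.ne hqw
  -- value of a constant times a power
  have hvalc : ∀ (c : K0 A), c ≠ 0 → ∃ n : ℤ, A.valuation (c : Qb) = w ^ (e * n) := by
    intro c hc
    obtain ⟨n, u, hcu⟩ := exists_zpow_mul_unit hq hA hc
    refine ⟨n, ?_⟩
    rw [hcu, val_zpow_mul_unit, hqw, zpow_mul, zpow_natCast]
  -- generation
  have hgen : ∀ (k : ℕ) (a : A1 A K₁), ∃ b : A1 A K₁,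
      a - ϖ ^ k * b ∈ Submodule.span (A0 A) (Set.range fun i : Fin k => ϖ ^ (i : ℕ)) := by
    intro k
    induction k with
    | zero => intro a; exact ⟨a, by simp⟩
    | succ k ih =>
      intro a
      obtain ⟨b, hb⟩ := ih a
      -- lift the residue of `b`
      obtain ⟨c, hc⟩ := π0_surjective hq hA (residue A ⟨((b : K₁) : Qb), b.2⟩)
      have h1 : A.valuation ((((b : K₁) : Qb)) - (((c : K0 A) : Qb))) < 1 := by
        have h2 : residue A (⟨((b : K₁) : Qb), b.2⟩ - inclA A c) = 0 := by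
          rw [map_sub, sub_eq_zero]
          exact hc.symm
        rw [residue_eq_zero_iff] at h2
        exact (A.valuation_lt_one_iff _).1 h2
      have h3 : b - algebraMap (A0 A) (A1 A K₁) c ∈ maximalIdeal (A1 A K₁) := by
        rw [mem_maximalIdeal, mem_nonunits_iff, hunit]
        exact h1.ne
      rw [hϖ.maximalIdeal_eq, Ideal.mem_span_singleton'] at h3
      obtain ⟨d, hd⟩ := h3
      refine ⟨d, ?_⟩
      have h4 : a - ϖ ^ (k + 1) * d = (a - ϖ ^ k * b) + c • ϖ ^ k := by
        rw [Algebra.smul_def]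
        linear_combination (-ϖ ^ k) * hd
      rw [h4]
      refine Submodule.add_mem _ ?_ (Submodule.smul_mem _ _ (Submodule.subset_span ⟨Fin.last k, rfl⟩))
      refine Submodule.span_mono ?_ hb
      rintro _ ⟨i, rfl⟩
      exact ⟨i.castSucc, rfl⟩
  have htop : (⊤ : Submodule (A0 A) (A1 A K₁)) ≤
      Submodule.span (A0 A) (Set.range fun i : Fin e => ϖ ^ (i : ℕ)) := by
    refine Submodule.le_of_le_smul_of_le_jacobson_bot (I := maximalIdeal (A0 A)) hfin.fg_top ?_ ?_
    · rw [IsLocalRing.jacobson_eq_maximalIdeal ⊥ bot_ne_top]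
    · intro a _
      obtain ⟨b, hb⟩ := hgen e a
      have h1 : a = (a - ϖ ^ e * b) + ϖ ^ e * b := by ring
      rw [h1]
      refine Submodule.add_mem_sup hb ?_
      have h2 : ϖ ^ e * b = ((q : ℕ) : A0 A) • ((u : A1 A K₁) * b) := by
        rw [Algebra.smul_def, map_natCast, ← hu]
        ring
      rw [h2]
      refine Submodule.smul_mem_smul ?_ Submodule.mem_top
      rw [mem_maximalIdeal, mem_nonunits_iff]
      exact not_isUnit_q hA
  -- linear independence
  have hval : ∀ (i : Fin e) (c : K0 A), c ≠ 0 →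
      ∃ n : ℤ, A.valuation ((c : Qb) * (((ϖ ^ (i : ℕ) : A1 A K₁) : K₁) : Qb)) = w ^ (e * n + i) := by
    intro i c hc
    obtain ⟨n, hn⟩ := hvalc c hc
    refine ⟨n, ?_⟩
    rw [map_mul, hn, SubmonoidClass.coe_pow, IntermediateField.coe_pow, map_pow, zpow_add₀ hw0,
      zpow_natCast]
  have hdist : ∀ i j : Fin e, i ≠ j → ∀ c d : K0 A, c ≠ 0 → d ≠ 0 →
      A.valuation ((c : Qb) * (((ϖ ^ (i : ℕ) : A1 A K₁) : K₁) : Qb)) ≠
      A.valuation ((d : Qb) * (((ϖ ^ (j : ℕ) : A1 A K₁) : K₁) : Qb)) := by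
    intro i j hij c d hc hd h
    obtain ⟨n, hn⟩ := hval i c hc
    obtain ⟨m, hm⟩ := hval j d hd
    rw [hn, hm] at h
    have h1 := val_pow_ne hw0 hw1 h
    have h2 : (i : ℤ) ≡ j [ZMOD e] := by
      rw [Int.modEq_iff_dvd]
      exact ⟨n - m, by linear_combination -h1⟩
    have h3 : (i : ℕ) ≡ j [MOD e] := Int.natCast_modEq_iff.1 h2
    exact hij (Fin.ext (Nat.ModEq.eq_of_lt_of_lt h3 i.2 j.2))
  have hli : LinearIndependent (K0 A) (fun i : Fin e => ((ϖ ^ (i : ℕ) : A1 A K₁) : K₁)) := by
    rw [Fintype.linearIndependent_iff]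
    intro g hg
    by_contra! hcon
    obtain ⟨i₁, hi₁⟩ := hcon
    classical
    let s := Finset.univ.filter fun i => g i ≠ 0
    have hs : s.Nonempty := ⟨i₁, by simpa [s] using hi₁⟩
    let f : Fin e → A.ValueGroup := fun i =>
      A.valuation (((g i : K0 A) : Qb) * (((ϖ ^ (i : ℕ) : A1 A K₁) : K₁) : Qb))
    obtain ⟨i₀, hi₀, hmax⟩ := s.exists_max_image f hs
    have hgi : g i₀ ≠ 0 := (Finset.mem_filter.1 hi₀).2
    have hsum : ∑ i ∈ s, (((g i : K0 A) : Qb) * (((ϖ ^ (i : ℕ) : A1 A K₁) : K₁) : Qb)) = 0 := by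
      have h1 := congrArg (fun z : K₁ => (z : Qb)) hg
      simp only [Algebra.smul_def] at h1
      push_cast at h1
      rw [← h1]
      refine Finset.sum_subset (Finset.subset_univ _) ?_ |>.trans ?_
      · intro i _ hi
        have : g i = 0 := by
          by_contra h
          exact hi (Finset.mem_filter.2 ⟨Finset.mem_univ _, h⟩)
        rw [this]; simp
      · refine Finset.sum_congr rfl fun i _ => ?_
        push_cast
        rfl
    rw [← Finset.add_sum_erase s _ hi₀] at hsum
    have hlt : A.valuation (∑ i ∈ s.erase i₀,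
        (((g i : K0 A) : Qb) * (((ϖ ^ (i : ℕ) : A1 A K₁) : K₁) : Qb))) < f i₀ := by
      refine Valuation.map_sum_lt _ ?_ ?_
      · have : (0 : A.ValueGroup) ≠ f i₀ := by
          obtain ⟨n, hn⟩ := hval i₀ (g i₀) hgi
          change 0 ≠ A.valuation _
          rw [hn]
          exact (zpow_ne_zero _ hw0).symm
        exact this.symm
      · intro i hi
        rw [Finset.mem_erase] at hi
        refine lt_of_le_of_ne (hmax i hi.2) ?_
        exact hdist i i₀ hi.1 _ _ (Finset.mem_filter.1 hi.2).2 hgi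
    have h2 : A.valuation (∑ i ∈ s.erase i₀,
        (((g i : K0 A) : Qb) * (((ϖ ^ (i : ℕ) : A1 A K₁) : K₁) : Qb))) = f i₀ := by
      rw [← Valuation.map_neg, ← eq_neg_of_add_eq_zero_left hsum]
    exact hlt.ne h2
  -- spanning
  have hspan : ⊤ ≤ Submodule.span (K0 A) (Set.range (fun i : Fin e => ((ϖ ^ (i : ℕ) : A1 A K₁) : K₁))) := by
    intro x _
    have halg : IsAlgebraic (A0 A) x := by
      have : IsAlgebraic (K0 A) x := (Algebra.IsIntegral.isIntegral (R := K0 A) x).isAlgebraic
      exact (IsFractionRing.isAlgebraic_iff (A0 A) (K0 A) K₁).mpr this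
    obtain ⟨d, hd0, hd⟩ := halg.exists_integral_multiple
    obtain ⟨y, hy⟩ := (IsIntegralClosure.isIntegral_iff (A := A1 A K₁) (R := A0 A)).1 hd
    have h1 : y ∈ Submodule.span (A0 A) (Set.range fun i : Fin e => ϖ ^ (i : ℕ)) :=
      htop Submodule.mem_top
    have h2 : (y : K₁) ∈ Submodule.span (K0 A)
        (Set.range (fun i : Fin e => ((ϖ ^ (i : ℕ) : A1 A K₁) : K₁))) := by
      clear hy
      induction h1 using Submodule.span_induction with
      | mem y hy => obtain ⟨i, rfl⟩ := hy; exact Submodule.subset_span ⟨i, rfl⟩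
      | zero => exact zero_mem _
      | add y z _ _ hy hz => exact add_mem hy hz
      | smul c y _ hy => exact Submodule.smul_mem _ (c : K0 A) hy
    have hdK : (d : K0 A) ≠ 0 := fun h => hd0 (Subtype.ext h)
    have h3 : x = ((d : K0 A)⁻¹) • (y : K₁) := by
      have h4 : (y : K₁) = (d : K0 A) • x := hy
      rw [h4, smul_smul, inv_mul_cancel₀ hdK, one_smul]
    rw [h3]
    exact Submodule.smul_mem _ _ h2
  obtain ⟨n, rfl⟩ := Nat.exists_eq_succ_of_ne_zero he0
  refine ⟨n, Basis.mk hli hspan, ?_, ?_⟩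
  · rw [Basis.mk_apply]
    simp
  · intro i j hij c d hc hd
    rw [Basis.mk_apply, Basis.mk_apply]
    exact hdist i j hij c d hc hd

end Ext

end Fermat.Agent.Carayol
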