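import Fermat.Agent.SSMod.Nodes

/-!
# Rational lifts of regular functions
-/

set_option autoImplicit false
set_option linter.unusedSectionVars false
set_option linter.style.haveILetI false
set_option linter.unusedVariables false
set_option synthInstance.maxHeartbeats 400000

noncomputable section

namespace Fermat.Agent.Carayol

open ModularCurve Fermat.Agent.GoodRed Fermat.Agent.Models Fermat.Agent.ModFun
open Fermat.Agent.GenusX0 Fermat.Agent.Curves Fermat.Agent.AnJac AlgebraicCurve Fermat.Agent.SSMod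

local notation "ℒ" => LaurentSeries

attribute [-instance] DivisionRing.toRatAlgebra

variable {K κ : Type*} [Field K] [Field κ] {A : ValuationSubring K} {π : A →+* κ}
  {q M : ℕ} [NeZero M] [hq : Fact q.Prime] [CharP κ q]
  [IsAlgClosed K] [IsAlgClosed κ] [CharZero K] [NeZero q]

include hq in
variable (q) in
/-- **Rational lifts.** -/
theorem exists_rat_lift' [IsLocalHom π] [Algebra ℚ K] [Algebra.IsAlgebraic ℚ K]
    {τ : modularFunctionFieldFullC K M} (hgal : ∀ σ : K ≃+* K, galF M σ τ = τ)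
    {L : Subfield K}
    (hL : ∀ α : κ, ∃ a : A, (a : K) ∈ L ∧ π a = α) {f : modularFunctionFieldFullC κ M}
    {x : modularFunctionFieldFullC K M} (hx : x ∈ affineRing K τ)
    (hxf : LR π (x : ℒ K) (f : ℒ κ)) :
    ∃ x ∈ affineRing K τ, x ∈ ratF L M ∧ LR π (x : ℒ K) (f : ℒ κ) := by
  classical
  obtain ⟨n, b, z, hz, hZ, hxz⟩ := exists_dec_regular hgal hx
  obtain ⟨D, h, hD0, hDz⟩ := exists_common_denom z hz
  obtain ⟨r, e, he1, he2, he3⟩ := exists_sat_basis (Finset.univ.image h)
  have hDK : zK K D ≠ 0 := (map_ne_zero_iff _ (zK_injective K)).mpr hD0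
  obtain ⟨c₀, hc₀, G, hc₀0, hG, hG0⟩ := exists_scale_PS (q := q) π (zK_mem_PS (L := L) D) hDK
  have hC0 : (HahnSeries.C c₀ : ℒ K) ≠ 0 := by simpa using hc₀0
  have hDzK : ∀ i, zK K D * qK K (z i) = zK K (h i) := by
    intro i
    rw [← zK_eq_qK, ← map_mul, hDz, zK_eq_qK]
  choose a ha using fun i => he1 (h i) (Finset.mem_image_of_mem h (Finset.mem_univ i))
  -- the coefficients with respect to the saturated family
  let γ : Fin r → K := fun j => ∑ i, c₀ * b i * (a i j : K)
  have hγ : HahnSeries.C c₀ * zK K D * (x : ℒ K) = ∑ j, HahnSeries.C (γ j) * zK K (e j) := by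
    have h1 : ∀ i, HahnSeries.C c₀ * zK K D * (HahnSeries.C (b i) * qK K (z i)) =
        ∑ j, HahnSeries.C (c₀ * b i * (a i j : K)) * zK K (e j) := by
      intro i
      have h2 : HahnSeries.C c₀ * zK K D * (HahnSeries.C (b i) * qK K (z i)) =
          HahnSeries.C (c₀ * b i) * zK K (h i) := by
        rw [← hDzK, map_mul]; ring
      rw [h2, ha i, map_sum, Finset.mul_sum]
      refine Finset.sum_congr rfl fun j _ => ?_
      rw [map_zsmul, zsmul_eq_mul, map_mul _ (c₀ * b i), map_intCast]
      ring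
    rw [hxz, Finset.mul_sum, Finset.sum_congr rfl fun i _ => h1 i, Finset.sum_comm]
    refine Finset.sum_congr rfl fun j _ => ?_
    rw [← Finset.sum_mul, ← map_sum]
  have hLR1 : LR π (HahnSeries.C c₀ * zK K D * (x : ℒ K)) (coeffMap π G * (f : ℒ κ)) := by
    rw [← hG]
    exact (LR.of G).mul hxf
  rw [hγ] at hLR1
  have hγA := sat_comb_mem q he3 hLR1
  -- rational constants
  choose a' ha'L ha' using fun j => hL (π ⟨γ j, hγA j⟩)
  have hred : coeffMap π G * (f : ℒ κ) =
      ∑ j, HahnSeries.C (π (a' j)) * zK κ (e j) := by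
    have h1 : ∑ j, HahnSeries.C (γ j) * zK K (e j) =
        coeffMap A.subtype (∑ j, HahnSeries.C (⟨γ j, hγA j⟩ : A) * zK A (e j)) := by
      rw [map_sum]
      refine Finset.sum_congr rfl fun j _ => ?_
      rw [map_mul, coeffMap_zK, coeffMap_C']
      rfl
    rw [h1] at hLR1
    rw [hLR1.unique (LR.of _), map_sum]
    refine Finset.sum_congr rfl fun j _ => ?_
    rw [map_mul, coeffMap_zK, coeffMap_C', ha']
  -- the rational functions `e j / D`
  choose m hm0 hm using he2
  have hrange : ((Finset.univ.image h : Finset (ℒ ℤ)) : Set (ℒ ℤ)) = Set.range h := by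
    ext y; simp
  have hm' : ∀ j, ∃ β : Fin n → ℤ, ∑ i, β i • h i = m j • e j := by
    intro j
    have h1 := hm j
    rw [hrange] at h1
    exact (Submodule.mem_span_range_iff_exists_fun ℤ).mp h1
  choose β hβ using hm'
  choose Z hZτ hZz using hZ
  let E : Fin r → modularFunctionFieldFullC K M := fun j =>
    ∑ i, algebraMap K _ ((β j i : K) / (m j : K)) * Z i
  have hEτ : ∀ j, E j ∈ affineRing K τ := fun j => Subalgebra.sum_mem _ fun i _ =>
    mul_mem (Subalgebra.algebraMap_mem _ _) (hZτ i)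
  have hER : ∀ j, E j ∈ ratF L M := fun j => sum_mem fun i _ => mul_mem
    (const_mem_ratF (div_mem (intCast_mem _ _) (intCast_mem _ _))) (by
      obtain ⟨h1, h2⟩ := qK_mem_ratF (K := K) (L := L) (hz i)
      have h3 : Z i = ⟨qK K (z i), h1⟩ := Subtype.ext (hZz i)
      rw [h3]; exact h2)
  have hED : ∀ j, zK K D * (E j : ℒ K) = zK K (e j) := by
    intro j
    have hmj : (HahnSeries.C (m j : K) : ℒ K) ≠ 0 := C_ne (by exact_mod_cast hm0 j)
    have h1 : (E j : ℒ K) = ∑ i, HahnSeries.C ((β j i : K) / (m j : K)) * qK K (z i) := by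
      rw [AddSubmonoidClass.coe_finsetSum]
      refine Finset.sum_congr rfl fun i _ => ?_
      rw [MulMemClass.coe_mul, hZz, ModFun.C_eq_algebraMap]
      rfl
    apply mul_left_cancel₀ hmj
    have h2 : HahnSeries.C (m j : K) * zK K (e j) = zK K (m j • e j) := by
      rw [map_zsmul, zsmul_eq_mul, map_intCast]
    rw [h2, ← hβ j, map_sum, h1, Finset.mul_sum, Finset.mul_sum]
    refine Finset.sum_congr rfl fun i _ => ?_
    rw [map_zsmul, zsmul_eq_mul, ← hDzK, map_div₀, map_intCast _ (β j i)]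
    field_simp
  refine ⟨∑ j, algebraMap K _ ((a' j : K) / c₀) * E j,
    Subalgebra.sum_mem _ fun j _ => mul_mem (Subalgebra.algebraMap_mem _ _) (hEτ j),
    sum_mem fun j _ => mul_mem (const_mem_ratF (div_mem (ha'L j) hc₀)) (hER j), ?_⟩
  have h1 : ((∑ j, algebraMap K _ ((a' j : K) / c₀) * E j : modularFunctionFieldFullC K M) :
      ℒ K) = coeffMap A.subtype (∑ j, HahnSeries.C (a' j) * zK A (e j)) /
        coeffMap A.subtype G := by
    rw [hG, eq_div_iff (mul_ne_zero hC0 hDK), AddSubmonoidClass.coe_finsetSum, Finset.sum_mul,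
      map_sum]
    refine Finset.sum_congr rfl fun j _ => ?_
    rw [MulMemClass.coe_mul, map_mul, coeffMap_zK, coeffMap_C', ← hED j]
    have h2 : ((algebraMap K (modularFunctionFieldFullC K M) ((a' j : K) / c₀) :
        modularFunctionFieldFullC K M) : ℒ K) = HahnSeries.C (a' j : K) / HahnSeries.C c₀ := by
      rw [← map_div₀, ModFun.C_eq_algebraMap]
      rfl
    rw [h2]
    show _ = HahnSeries.C (a' j : K) * _
    field_simp
  rw [h1]
  have h2 := LR.div (LR.of (π := π) (∑ j, HahnSeries.C (a' j) * zK A (e j))) (LR.of G) hG0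
  have h3 : coeffMap π (∑ j, HahnSeries.C (a' j) * zK A (e j)) = coeffMap π G * (f : ℒ κ) := by
    rw [hred, map_sum]
    refine Finset.sum_congr rfl fun j _ => ?_
    rw [map_mul, coeffMap_zK, coeffMap_C']
  rw [h3, mul_div_cancel_left₀ _ hG0] at h2
  exact h2

end Fermat.Agent.Carayol
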