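import Fermat.Agent.Carayol.Fin2
import Fermat.Agent.Carayol.RatL
import Fermat.Agent.Carayol.JChart
import Fermat.Agent.Carayol.Gal
import Fermat.Agent.GoodRed.ValRing

/-!
# The situation over the inertia field, and `CarayolK0`
-/

set_option autoImplicit false
set_option linter.unusedSectionVars false
set_option linter.style.haveILetI false
set_option synthInstance.maxHeartbeats 400000

noncomputable section

namespace Fermat.Agent.Carayol

open ModularCurve Fermat.Agent.GoodRed Fermat.Agent.ModFun Fermat.Agent.GenusX0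
open Fermat.Agent.Models IsLocalRing Polynomial IntermediateField Fermat.Agent.SSMod
open AlgebraicCurve Fermat.Agent.Curves Fermat.Agent.AnJac

local notation "Qb" => AlgebraicClosure ℚ

variable {A : ValuationSubring Qb} {q : ℕ}

theorem isAlgebraic_int' (K : Type*) [Field K] [Algebra ℚ K] (h : Algebra.IsAlgebraic ℚ K) :
    Algebra.IsAlgebraic ℤ K :=
  ⟨fun x => (IsFractionRing.isAlgebraic_iff ℤ ℚ K).mpr (h.isAlgebraic x)⟩

/-- rational functions come from the inertia field -/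
theorem exists_bc_of_ratF {N : ℕ} {x : FF Qb N}
    (hx : x ∈ ratF (K0 A).toSubfield N) : ∃ f : FF (K0 A) N, bc (algebraMap (K0 A) Qb) N f = x := by
  have h : ratF (K0 A).toSubfield N ≤ (bc (algebraMap (K0 A) Qb) N).fieldRange := by
    rw [ratF, Subfield.closure_le]
    rintro _ (⟨c, hc, rfl⟩ | ⟨d, hd, hdN, rfl⟩)
    · exact ⟨algebraMap (K0 A) _ ⟨c, hc⟩, bc_const _ _⟩
    · haveI : NeZero d := ⟨hd⟩
      exact ⟨jel (K0 A) d hdN, bc_jel _ _⟩
  exact h hx

theorem exists_lift_aux {M' : ℕ} [NeZero q] [NeZero M'] (hq : q.Prime) (hA : A.LiesOverPrime q)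
    {t₀ : FF (K0 A) M'} {t : FF Qb M'}
    (ht : bc (algebraMap (K0 A) Qb) M' t₀ = t) (hgal : ∀ σ : Qb ≃+* Qb, galF M' σ t = t)
    {y : FF (ResidueField A) M'} {x : FF Qb M'} (hx : x ∈ affineRing Qb t)
    (hxy : LR (residue A) (x : LaurentSeries Qb) (y : LaurentSeries (ResidueField A))) :
    ∃ f : FF (K0 A) M', f ∈ icr (K0 A) t₀ ∧
      LR (residue A) (coeffMap (algebraMap (K0 A) Qb) (f : LaurentSeries (K0 A)))
        (y : LaurentSeries (ResidueField A)) := by
  haveI : Fact q.Prime := ⟨hq⟩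
  haveI := charP_res hq hA
  have hL : ∀ α : ResidueField A, ∃ a : A, (a : Qb) ∈ (K0 A).toSubfield ∧ residue A a = α := by
    intro α
    obtain ⟨a, ha⟩ := π0_surjective hq hA α
    exact ⟨inclA A a, (a : K0 A).2, ha⟩
  obtain ⟨x', hx', hx'r, hx'y⟩ := exists_rat_lift' q hgal hL hx hxy
  obtain ⟨f, hf⟩ := exists_bc_of_ratF hx'r
  refine ⟨f, ?_, ?_⟩
  · refine icr_descend (bc (algebraMap (K0 A) Qb) M') (bc_const _) ?_
    rw [ht, hf]
    exact icr_iff_affine.2 hx'
  · have h1 : coeffMap (algebraMap (K0 A) Qb) (f : LaurentSeries (K0 A)) = x' := by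
      rw [← hf]; rfl
    rw [h1]
    exact hx'y

/-- the embedding into the complex numbers -/
def ιQ : Qb →+* ℂ := (IsAlgClosed.lift (R := ℚ) (S := Qb) (M := ℂ)).toRingHom

/-- the good charts -/
theorem goodCharts {M' : ℕ} [NeZero q] [NeZero M'] (hq : q.Prime) (hA : A.LiesOverPrime q)
    (hM : Nat.Coprime q M') (h4 : q ≠ 2 → 4 ∣ M') (h9 : q = 2 → 9 ∣ M')
    (hNK : (M' : Qb) ≠ 0) (hNκ : (M' : ResidueField A) ≠ 0) :
    haveI := isFunctionField_fullC Qb M' hNK
    haveI := isFunctionField_fullC (ResidueField A) M' hNκ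
    GoodChart (modGauss (residue A) M' residue_surjective hNK hNκ) (je Qb M')
        (je (ResidueField A) M') ∧
      GoodChart (modGauss (residue A) M' residue_surjective hNK hNκ) (je Qb M')⁻¹
        (je (ResidueField A) M')⁻¹ := by
  haveI := charP_res hq hA
  by_cases h2 : q = 2
  · subst h2
    exact jGood_two (residue A) M' ιQ residue_surjective hNK hNκ ((by norm_num : 3 ∣ 9).trans (h9 rfl))
  by_cases h3 : q = 3
  · subst h3
    exact jGood_three (residue A) M' ιQ residue_surjective hNK hNκ ((by norm_num : 2 ∣ 4).trans (h4 h2))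
  · have h6 : (6 : ResidueField A) ≠ 0 := by
      intro h
      have h1 : ((6 : ℕ) : ResidueField A) = 0 := by exact_mod_cast h
      rw [CharP.cast_eq_zero_iff (ResidueField A) q] at h1
      have h5 : q ∣ 2 * 3 := h1
      rcases (Nat.Prime.dvd_mul hq).1 h5 with h | h
      · exact h2 ((Nat.prime_dvd_prime_iff_eq hq Nat.prime_two).1 h)
      · exact h3 ((Nat.prime_dvd_prime_iff_eq hq Nat.prime_three).1 h)
    exact modGoodChart (residue A) M' ιQ h6 residue_surjective hNK hNκ

theorem cast_ne_residue {M' : ℕ} (hq : q.Prime) (hA : A.LiesOverPrime q)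
    (hM : Nat.Coprime q M') : (M' : ResidueField A) ≠ 0 := by
  haveI := charP_res hq hA
  intro h
  rw [CharP.cast_eq_zero_iff (ResidueField A) q] at h
  exact (Nat.Prime.coprime_iff_not_dvd hq).1 hM h

theorem exists_lift0 {M' : ℕ} [NeZero q] [NeZero M'] (hq : q.Prime) (hA : A.LiesOverPrime q)
    (hM : Nat.Coprime q M') (h4 : q ≠ 2 → 4 ∣ M') (h9 : q = 2 → 9 ∣ M')
    (y : FF (ResidueField A) M') (hy : y ∈ icr (ResidueField A) (je (ResidueField A) M')) :
    ∃ f : FF (K0 A) M', f ∈ icr (K0 A) (je (K0 A) M') ∧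
      LR (residue A) (coeffMap (algebraMap (K0 A) Qb) (f : LaurentSeries (K0 A)))
        (y : LaurentSeries (ResidueField A)) := by
  have hNK : (M' : Qb) ≠ 0 := by exact_mod_cast NeZero.ne M'
  have hNκ := cast_ne_residue (M' := M') hq hA hM
  haveI := isFunctionField_fullC Qb M' hNK
  haveI := isFunctionField_fullC (ResidueField A) M' hNκ
  obtain ⟨hG, -⟩ := goodCharts hq hA hM h4 h9 hNK hNκ
  obtain ⟨x, hx, hxy⟩ := hG.lift y (icr_iff_affine.1 hy)
  refine exists_lift_aux hq hA (t := je Qb M') ?_ (fun σ => galF_je σ) hx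
    ((modGauss_R (residue A) M').1 hxy)
  apply Subtype.ext
  rw [coe_bc]
  exact coeffMap_jqModC _

theorem exists_lift1 {M' : ℕ} [NeZero q] [NeZero M'] (hq : q.Prime) (hA : A.LiesOverPrime q)
    (hM : Nat.Coprime q M') (h4 : q ≠ 2 → 4 ∣ M') (h9 : q = 2 → 9 ∣ M')
    (y : FF (ResidueField A) M') (hy : y ∈ icr (ResidueField A) (je (ResidueField A) M')⁻¹) :
    ∃ f : FF (K0 A) M', f ∈ icr (K0 A) (je (K0 A) M')⁻¹ ∧
      LR (residue A) (coeffMap (algebraMap (K0 A) Qb) (f : LaurentSeries (K0 A)))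
        (y : LaurentSeries (ResidueField A)) := by
  have hNK : (M' : Qb) ≠ 0 := by exact_mod_cast NeZero.ne M'
  have hNκ := cast_ne_residue (M' := M') hq hA hM
  haveI := isFunctionField_fullC Qb M' hNK
  haveI := isFunctionField_fullC (ResidueField A) M' hNκ
  obtain ⟨-, hG⟩ := goodCharts hq hA hM h4 h9 hNK hNκ
  obtain ⟨x, hx, hxy⟩ := hG.lift y (icr_iff_affine.1 hy)
  refine exists_lift_aux hq hA (t := (je Qb M')⁻¹) ?_ (fun σ => ?_) hx
    ((modGauss_R (residue A) M').1 hxy)
  · rw [map_inv₀]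
    congr 1
    apply Subtype.ext
    rw [coe_bc]
    exact coeffMap_jqModC _
  · rw [map_inv₀, galF_je]

theorem exists_root (hq : q.Prime) : ∃ ζ : Qbˣ, IsPrimitiveRoot (ζ : Qb) q := by
  haveI : NeZero q := ⟨hq.ne_zero⟩
  haveI : NeZero (q : Qb) := ⟨by exact_mod_cast hq.ne_zero⟩
  obtain ⟨ζ, hζ⟩ := HasEnoughRootsOfUnity.exists_primitiveRoot Qb q
  exact ⟨(hζ.isUnit hq.ne_zero).unit, hζ⟩

theorem exists_isSig {M' : ℕ} [NeZero q] [NeZero M'] (hq : q.Prime) (hM : Nat.Coprime q M') :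
    ∃ s : FF Qb (q ^ 2 * M') →+* LaurentSeries Qb, IsSig (exists_root hq).choose s := by
  obtain ⟨s', h1, h2, h3⟩ := exists_sig (K := Qb) (M' := M') ιQ hq hM (exists_root hq).choose
    (exists_root hq).choose_spec
  exact ⟨s', h1, h2, h3⟩

theorem exists_isW {M' : ℕ} [NeZero q] [NeZero M'] (hq : q.Prime) (hM : Nat.Coprime q M') :
    ∃ w : FF (K0 A) (q ^ 2 * M') →+* FF (K0 A) (q ^ 2 * M'), IsW w := by
  obtain ⟨w, h1, h2⟩ := exists_w (k := K0 A) (M' := M') (ιQ.comp (algebraMap (K0 A) Qb)) hq hM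
  exact ⟨w, h1, h2⟩

instance intK0 : Algebra.IsIntegral (K0 A) Qb := inferInstance

/-- **the situation** -/
def mkSit {M' : ℕ} [NeZero q] [NeZero M'] (hq : q.Prime) (hA : A.LiesOverPrime q)
    (hM : Nat.Coprime q M') (h4 : q ≠ 2 → 4 ∣ M') (h9 : q = 2 → 9 ∣ M') :
    Sit (K0 A) Qb (ResidueField A) q M' where
  A := A
  A₀ := A0 A
  incA := inclA A
  hinc a := coe_inclA a
  mem_A₀ h := h
  π := residue A
  πs := residue_surjective
  π₀s := π0_surjective hq hA
  hq := hq
  charP := charP_res hq hA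
  hM := hM
  dvr x hx := exists_zpow_mul_unit hq hA hx
  hpow c := by
    haveI := isAlgebraic_int' Qb (inferInstance : Algebra.IsAlgebraic ℚ Qb)
    have h := rankOne_of_liesOver hq hA ((q : ℕ) : A) (by
      intro h
      have h1 := congrArg (Subtype.val) h
      push_cast at h1
      exact hq.ne_zero (by exact_mod_cast h1)) (by
        haveI := charP_res hq hA
        rw [map_natCast, CharP.cast_eq_zero]) c
    obtain ⟨n, hn⟩ := h
    exact ⟨n, by exact_mod_cast hn⟩
  ι := ιQ
  ζ := (exists_root hq).choose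
  hζ := (exists_root hq).choose_spec
  s := (exists_isSig hq hM).choose
  hs := (exists_isSig hq hM).choose_spec
  w := (exists_isW hq hM).choose
  hw := (exists_isW hq hM).choose_spec
  dvrI := dvr_A0 hq hA
  irr := irreducible_q hq hA
  lift0 := exists_lift0 hq hA hM h4 h9
  lift1 := exists_lift1 hq hA hM h4 h9

end Fermat.Agent.Carayol
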