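import Fermat.Agent.Carayol.Emb
import Fermat.Agent.Carayol.Inertia
import Fermat.Agent.AnJac.Canon

/-!
# The statement about functions that implies S36
-/

set_option autoImplicit false

noncomputable section

namespace Fermat.Agent.Carayol

open ModularCurve AlgebraicCurve IntermediateField Fermat.Agent.GenusX0 Fermat.Agent.ModFun
open Fermat.Agent.AnJac

local notation "Qb" => AlgebraicClosure ℚ

/-- the norm along a homomorphism of fields -/
def normAlong {E F : Type*} [Field E] [Field F] (f : E →+* F) (u : F) : E :=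
  letI := f.toAlgebra
  Algebra.norm E u

/-- the constants -/
def constF (k : Type*) [Field k] (N : ℕ) : k →+* FF k N := algebraMap k (FF k N)

/-- **The function field form of Carayol's theorem** at level `N = q² M'`, `q ∤ M'`, with
`4 ∣ M'` (`q` odd) or `9 ∣ M'` (`q = 2`): an inertia invariant class of order `m` prime to `q`,
killed by the two trace maps to level `q M'`, is killed by a constant. -/
def CarayolCore : Prop :=
  ∀ (q M' N : ℕ) [NeZero q] [NeZero M'] [NeZero N], q.Prime → Nat.Coprime q M' →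
    (q ≠ 2 → 4 ∣ M') → (q = 2 → 9 ∣ M') → ∀ (_ : N = q ^ 2 * M')
    (h1 : q * M' ∣ N) (h2 : q * (q * M') ∣ N),
  ∀ A : ValuationSubring Qb, A.LiesOverPrime q →
  ∃ C : ℕ, 0 < C ∧ ∀ m : ℕ, 0 < m → Nat.Coprime q m →
  ∀ u : FF Qb N, u ≠ 0 →
    (∀ v : Place Qb (FF Qb N), (m : ℤ) ∣ v.ord u) →
    (∀ σ ∈ A.inertiaSubgroupIn ℚ, ∃ g : FF Qb N, g ≠ 0 ∧
      galF N (σ : Qb ≃+* Qb) u = u * g ^ m) →
    (∃ n : FF Qb (q * M'), normAlong (inc Qb h1) u = n ^ m) →
    (∃ n : FF Qb (q * M'), normAlong (exN Qb q h2) u = n ^ m) →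
    ∃ x : FF Qb N, x ≠ 0 ∧ u ^ C = x ^ m

/-- The same statement for functions over the fixed field `K0 A` of inertia. The hypothesis on
`V` says that `u` is locally an `m`-th power times a unit at the places of `FF (K0 A) N`. -/
def CarayolK0 : Prop :=
  ∀ (q M' N : ℕ) [NeZero q] [NeZero M'] [NeZero N], q.Prime → Nat.Coprime q M' →
    (q ≠ 2 → 4 ∣ M') → (q = 2 → 9 ∣ M') → ∀ (_ : N = q ^ 2 * M')
    (h1 : q * M' ∣ N) (h2 : q * (q * M') ∣ N),
  ∀ A : ValuationSubring Qb, A.LiesOverPrime q →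
  ∃ C : ℕ, 0 < C ∧ ∀ m : ℕ, 0 < m → Nat.Coprime q m →
  ∀ u : FF (K0 A) N, u ≠ 0 →
    (∀ V : ValuationSubring (FF (K0 A) N), (∀ c : K0 A, constF (K0 A) N c ∈ V) →
      V ≠ ⊤ → ∃ y : FF (K0 A) N, y ≠ 0 ∧ u * y ^ m ∈ V ∧ (u * y ^ m)⁻¹ ∈ V) →
    (∃ n : FF Qb (q * M'), normAlong (inc Qb h1) (bc (algebraMap (K0 A) Qb) N u) = n ^ m) →
    (∃ n : FF Qb (q * M'), normAlong (exN Qb q h2) (bc (algebraMap (K0 A) Qb) N u) = n ^ m) →
    ∃ c : K0 A, c ≠ 0 ∧ ∃ x : FF (K0 A) N, x ≠ 0 ∧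
      u ^ C = constF (K0 A) N c * x ^ m

end Fermat.Agent.Carayol
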