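import Fermat.Agent.Carayol.Cres
import Fermat.Agent.Carayol.Icr3

/-!
# The modular equations in the situation of level `q² M'`
-/

set_option autoImplicit false
set_option linter.unusedSectionVars false
set_option linter.style.haveILetI false

noncomputable section

namespace Fermat.Agent.Carayol

open ModularCurve Fermat.Agent.GoodRed Fermat.Agent.ModFun Fermat.Agent.GenusX0
open Fermat.Agent.Models IsLocalRing Polynomial IntermediateField Fermat.Agent.SSMod

/-- the modular equation in the field of Laurent series -/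
theorem exists_Phi_L (K : Type*) [Field K] (q : ℕ) [Fact q.Prime] [NeZero q]
    [IsAlgClosed K] [CharZero K] : ∃ P : K[X][X], P.Monic ∧
    (∀ i < P.natDegree, (P.coeff i).natDegree ≤ q * (P.natDegree - i)) ∧
    eval₂ (aeval (R := K) (jqModC K) : K[X] →ₐ[K] LaurentSeries K).toRingHom
      (qExpand K q (jqModC K)) P = 0 ∧
    eval₂ (aeval (R := K) (qExpand K q (jqModC K)) : K[X] →ₐ[K] LaurentSeries K).toRingHom
      (jqModC K) P = 0 := by
  obtain ⟨P, h1, h2, h3, h4⟩ := exists_Phi' K q 1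
  refine ⟨P, h1, h2, ?_, ?_⟩
  · apply eval₂_of_ev
    have := map_ev (modularFunctionFieldFullC K (q * 1)).val (jA K q 1) (jB K q 1) P
    rw [h3, map_zero] at this
    exact this.symm
  · apply eval₂_of_ev
    have := map_ev (modularFunctionFieldFullC K (q * 1)).val (jB K q 1) (jA K q 1) P
    rw [h4, map_zero] at this
    exact this.symm

/-- `qExpand` as an algebra homomorphism -/
def qExpA (K : Type*) [Field K] (e : ℕ) [NeZero e] : LaurentSeries K →ₐ[K] LaurentSeries K :=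
  { qExpand K e with commutes' := fun c => qExpand_algebraMap e c }

theorem qExpA_apply (K : Type*) [Field K] (e : ℕ) [NeZero e] (x : LaurentSeries K) :
    qExpA K e x = qExpand K e x := rfl

theorem eval₂_map_alg {K F F' : Type*} [Field K] [Field F] [Algebra K F] [Field F'] [Algebra K F']
    (f : F →ₐ[K] F') {x y : F} {P : K[X][X]}
    (h : eval₂ (aeval (R := K) x : K[X] →ₐ[K] F).toRingHom y P = 0) :
    eval₂ (aeval (R := K) (f x) : K[X] →ₐ[K] F').toRingHom (f y) P = 0 := by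
  have h1 := congrArg f h
  rw [map_zero] at h1
  have h2 := hom_eval₂ P (aeval (R := K) x : K[X] →ₐ[K] F).toRingHom (f : F →+* F') y
  have h3 : (f : F →+* F').comp (aeval (R := K) x : K[X] →ₐ[K] F).toRingHom =
      (aeval (R := K) (f x) : K[X] →ₐ[K] F').toRingHom := by
    refine Polynomial.ringHom_ext (fun a => ?_) ?_
    · change f (aeval x (C a)) = aeval (f x) (C a)
      rw [aeval_C, aeval_C, AlgHom.commutes]
    · change f (aeval x X) = aeval (f x) X
      rw [aeval_X, aeval_X]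
  rw [h3] at h2
  rw [← h1]
  exact h2.symm

namespace Sit

variable {k₀ K κ : Type} [Field k₀] [Field K] [Field κ] [Algebra k₀ K] {q M' : ℕ}
  [NeZero q] [NeZero M'] (S : Sit k₀ K κ q M')


include S in
theorem charZeroK : CharZero K :=
  ⟨fun m n h => by
    have := congrArg S.ι h
    rw [map_natCast, map_natCast] at this
    exact_mod_cast this⟩

theorem φ0_j1 : S.φ 0 S.j1 = jqModC K := by
  rw [φ0_J, qExpand_one_apply, cZ, coeffMap_jqModC]

theorem φ0_jq : S.φ 0 S.jq' = qExpand K q (jqModC K) := by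
  rw [φ0_J, cZ_gen]

theorem φ0_j2 : S.φ 0 S.j2 = qExpand K q (qExpand K q (jqModC K)) := by
  rw [φ0_J, cZ_gen, qExpand_qExpand]
  exact qExpand_congr (sq q) _

theorem jq_int : S.jq' ∈ icr k₀ S.j1 := by
  haveI := S.charZeroK
  haveI : IsAlgClosed K := S.acK
  haveI : Algebra.IsIntegral k₀ K := S.intK
  haveI : Fact q.Prime := ⟨S.hq⟩
  obtain ⟨P, h1, h2, h3, h4⟩ := exists_Phi_L K q
  refine icr_descend (S.φ 0) (S.φ_const 0) ?_
  rw [φ0_j1, φ0_jq]
  exact mem_icr.2 ⟨P, h1, h3⟩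

theorem j1_int : S.j1 ∈ icr k₀ S.jq' := by
  haveI := S.charZeroK
  haveI : IsAlgClosed K := S.acK
  haveI : Algebra.IsIntegral k₀ K := S.intK
  haveI : Fact q.Prime := ⟨S.hq⟩
  obtain ⟨P, h1, h2, h3, h4⟩ := exists_Phi_L K q
  refine icr_descend (S.φ 0) (S.φ_const 0) ?_
  rw [φ0_j1, φ0_jq]
  exact mem_icr.2 ⟨P, h1, h4⟩

theorem w_icr {t x : S.F} (h : x ∈ icr k₀ t) : S.w x ∈ icr k₀ (S.w t) :=
  icr_map (RingHom.id k₀) S.w (fun a => S.hw.const a) h

theorem jq_int' : S.jq' ∈ icr k₀ S.j2 := by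
  have := S.w_icr S.jq_int
  rwa [w_jq, w_j1] at this

theorem j2_int' : S.j2 ∈ icr k₀ S.jq' := by
  have := S.w_icr S.j1_int
  rwa [w_jq, w_j1] at this

theorem j2_int : S.j2 ∈ icr k₀ S.j1 := icr_le S.jq_int S.j2_int'
theorem j1_int' : S.j1 ∈ icr k₀ S.j2 := icr_le S.jq_int' S.j1_int

include S in
theorem j1_ne : S.j1 ≠ 0 := by
  intro h
  have := S.tr_j1
  rw [h] at this
  exact this isAlgebraic_zero

theorem j2_ne : S.j2 ≠ 0 := by
  intro h
  apply S.j1_ne
  rw [← w_j2, h, map_zero]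

theorem jq_ne : S.jq' ≠ 0 := by
  intro h
  have h1 : S.φ 0 S.jq' = 0 := by rw [h, map_zero]
  rw [φ0_jq] at h1
  have h2 := (map_eq_zero_iff _ (qExpand_injective q)).1 h1
  apply S.j1_ne
  apply (S.φ 0).injective
  rw [φ0_j1, h2, map_zero]

/-- growth at the cusps -/
theorem s1_int : S.j1⁻¹ ^ q * S.jq' ∈ icr k₀ S.j1⁻¹ := by
  haveI := S.charZeroK
  haveI : IsAlgClosed K := S.acK
  haveI : Algebra.IsIntegral k₀ K := S.intK
  haveI : Fact q.Prime := ⟨S.hq⟩
  obtain ⟨P, h1, h2, h3, h4⟩ := exists_Phi_L K q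
  refine icr_descend (S.φ 0) (S.φ_const 0) ?_
  rw [map_mul, map_pow, map_inv₀, φ0_j1, φ0_jq]
  refine icr_growth ?_ h1 h3 h2
  rw [← S.φ0_j1]
  exact (_root_.map_ne_zero _).2 S.j1_ne

theorem s1_int_aux : S.jq'⁻¹ ^ q * S.j1 ∈ icr k₀ S.jq'⁻¹ := by
  haveI := S.charZeroK
  haveI : IsAlgClosed K := S.acK
  haveI : Algebra.IsIntegral k₀ K := S.intK
  haveI : Fact q.Prime := ⟨S.hq⟩
  obtain ⟨P, h1, h2, h3, h4⟩ := exists_Phi_L K q
  refine icr_descend (S.φ 0) (S.φ_const 0) ?_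
  rw [map_mul, map_pow, map_inv₀, φ0_j1, φ0_jq]
  refine icr_growth ?_ h1 h4 h2
  rw [← S.φ0_jq]
  exact (_root_.map_ne_zero _).2 S.jq_ne

theorem s2_int_aux : S.jq'⁻¹ ^ q * S.j2 ∈ icr k₀ S.jq'⁻¹ := by
  have h := S.w_icr S.s1_int_aux
  rwa [map_mul, map_pow, map_inv₀, w_jq, w_j1] at h

theorem s2_int : S.j1⁻¹ ^ q ^ 2 * S.j2 ∈ icr k₀ S.j1⁻¹ := by
  refine icr_of_val fun V hk ht => ?_
  rcases V.mem_or_inv_mem S.jq' with h | h
  · have h1 : S.j1 ∈ V := icr_le_val hk h S.j1_int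
    have h2 : S.j2 ∈ V := icr_le_val hk h1 S.j2_int
    exact mul_mem (pow_mem ht _) h2
  · have h1 := icr_le_val hk h S.s2_int_aux
    have h2 := icr_le_val hk ht S.s1_int
    have h3 : S.j1⁻¹ ^ q ^ 2 * S.j2 = (S.j1⁻¹ ^ q * S.jq') ^ q * (S.jq'⁻¹ ^ q * S.j2) := by
      have := S.jq_ne
      rw [mul_pow, ← pow_mul, ← sq, inv_pow S.jq']
      field_simp
    rw [h3]
    exact mul_mem (pow_mem h2 _) h1

/-- the poles of `j(z)`, `j(qz)`, `j(q²z)` agree -/
theorem jq_mem_iff {V : ValuationSubring S.F} (hk : ∀ c : k₀, algebraMap k₀ S.F c ∈ V) :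
    S.jq' ∈ V ↔ S.j1 ∈ V :=
  ⟨fun h => icr_le_val hk h S.j1_int, fun h => icr_le_val hk h S.jq_int⟩

theorem j2_mem_iff {V : ValuationSubring S.F} (hk : ∀ c : k₀, algebraMap k₀ S.F c ∈ V) :
    S.j2 ∈ V ↔ S.j1 ∈ V :=
  ⟨fun h => icr_le_val hk h S.j1_int', fun h => icr_le_val hk h S.j2_int⟩

end Sit

end Fermat.Agent.Carayol
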