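import Fermat.Agent.Carayol.KL

/-!
# Kummer lifting over a discrete valuation ring: the theorem
-/

set_option autoImplicit false
set_option linter.unusedSectionVars false
set_option linter.style.haveILetI false

noncomputable section

namespace Fermat.Agent.Carayol

open Fermat.Agent.Models Fermat.Agent.GoodRed Polynomial

variable {A₀ K₀ F 𝓕 : Type*} [CommRing A₀] [IsDomain A₀] [IsDiscreteValuationRing A₀] [Field K₀]
  [Algebra A₀ K₀] [IsFractionRing A₀ K₀] [Field F] [Algebra K₀ F] [Algebra A₀ F]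
  [IsScalarTower A₀ K₀ F] [Field 𝓕] {ι : Type*} [Fintype ι]

/-- the overlap of the two charts -/
def overlap (B : Subring F) (t : F) (ht : t ∈ B) : Subring F where
  carrier := {z | ∃ n : ℕ, t ^ n * z ∈ B}
  one_mem' := ⟨0, by simp⟩
  zero_mem' := ⟨0, by simp⟩
  mul_mem' := by
    rintro a b ⟨n, hn⟩ ⟨k, hk⟩
    refine ⟨n + k, ?_⟩
    have : t ^ (n + k) * (a * b) = t ^ n * a * (t ^ k * b) := by ring
    rw [this]; exact B.mul_mem hn hk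
  add_mem' := by
    rintro a b ⟨n, hn⟩ ⟨k, hk⟩
    refine ⟨n + k, ?_⟩
    have : t ^ (n + k) * (a + b) = t ^ k * (t ^ n * a) + t ^ n * (t ^ k * b) := by ring
    rw [this]
    exact B.add_mem (B.mul_mem (B.pow_mem ht k) hn) (B.mul_mem (B.pow_mem ht n) hk)
  neg_mem' := by
    rintro a ⟨n, hn⟩
    exact ⟨n, by rw [mul_neg]; exact B.neg_mem hn⟩

theorem mem_overlap {B : Subring F} {t : F} {ht : t ∈ B} {z : F} :
    z ∈ overlap B t ht ↔ ∃ n : ℕ, t ^ n * z ∈ B := Iff.rfl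

/-- The two charts of a proper arithmetic surface over `A₀`. -/
structure TwoCharts (K₀ : Type*) [Field K₀] [Algebra A₀ K₀] [Algebra K₀ F] (C : ι → Res F 𝓕)
    (B0 B1 : Subring F) (R0 R1 : Subring 𝓕) (t : F) (ϖ₀ : A₀) : Prop where
  irr : Irreducible ϖ₀
  t_ne : t ≠ 0
  c0 : Chart B0 C R0 (algebraMap A₀ F ϖ₀)
  c1 : Chart B1 C R1 (algebraMap A₀ F ϖ₀)
  A_mem0 : ∀ a : A₀, algebraMap A₀ F a ∈ B0
  A_mem1 : ∀ a : A₀, algebraMap A₀ F a ∈ B1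
  t_mem : t ∈ B0
  t_mem' : t⁻¹ ∈ B1
  fin0 : letI := pAlg A₀ t
    ∃ N : Submodule A₀[X] F, N.FG ∧ ∀ x ∈ B0, x ∈ N
  fin1 : letI := pAlg A₀ t⁻¹
    ∃ N : Submodule A₀[X] F, N.FG ∧ ∀ x ∈ B1, x ∈ N
  ov0 : ∀ x ∈ B0, ∃ n : ℕ, t⁻¹ ^ n * x ∈ B1
  ov1 : ∀ x ∈ B1, ∃ n : ℕ, t ^ n * x ∈ B0
  const : ∀ x, x ∈ B0 → x ∈ B1 → ∃ c : K₀, algebraMap K₀ F c = x

namespace TwoCharts

variable {C : ι → Res F 𝓕} {B0 B1 : Subring F} {R0 R1 : Subring 𝓕} {t : F} {ϖ₀ : A₀}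

/-- **Kummer lifting.** -/
theorem kl [Nonempty ι] (hC : TwoCharts K₀ C B0 B1 R0 R1 t ϖ₀) {m : ℕ} (hm : 0 < m)
    (hmu : IsUnit (m : A₀))
    {U h₀ h₁ : F} (hU : ∀ i, (C i).r U ≠ 0) (hh₀ : h₀ ^ m * U ∈ B0) (hh₁ : h₁ ^ m * U ∈ B1)
    (hr : ∀ i, (C i).r h₀ ^ m * (C i).r U = 1) (hr' : ∀ i, (C i).r h₁ = (C i).r h₀) :
    ∃ x : F, x ≠ 0 ∧ ∃ c : K₀, x ^ m * U = algebraMap K₀ F c := by
  classical
  obtain ⟨i₀⟩ := ‹Nonempty ι›
  have ht0 := hC.t_ne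
  set ϖ : F := algebraMap A₀ F ϖ₀ with hϖ
  have hϖ0 : ϖ ≠ 0 := hC.c0.ϖ_ne
  have hU0 : U ≠ 0 := Res.ne_zero_of_r (hU i₀)
  have hinjA : Function.Injective (algebraMap A₀ F) := by
    rw [IsScalarTower.algebraMap_eq A₀ K₀ F]
    exact (algebraMap K₀ F).injective.comp (IsFractionRing.injective A₀ K₀)
  have hO₀ : ∀ i, h₀ ∈ (C i).O := fun i => hC.c0.mem_O_of_pow (hU i) hm hh₀
  have hO₁ : ∀ i, h₁ ∈ (C i).O := fun i => hC.c1.mem_O_of_pow (hU i) hm hh₁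
  have hrh₀ : ∀ i, (C i).r h₀ ≠ 0 := fun i h => by
    have := hr i
    rw [h, zero_pow hm.ne', zero_mul] at this
    exact zero_ne_one this
  have hh₀0 : h₀ ≠ 0 := Res.ne_zero_of_r (hrh₀ i₀)
  have hh₁0 : h₁ ≠ 0 := Res.ne_zero_of_r (C := C i₀) (by rw [hr']; exact hrh₀ i₀)
  have hUO : ∀ i, U ∈ (C i).O := fun i => Res.mem_of_r_ne_zero (hU i)
  have hone₀ : ∀ i, (C i).r (h₀ ^ m * U) = 1 := fun i => by
    rw [Res.r_mul (pow_mem (hO₀ i) m) (hUO i), Res.r_pow (hO₀ i), hr]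
  have hone₁ : ∀ i, (C i).r (h₁ ^ m * U) = 1 := fun i => by
    rw [Res.r_mul (pow_mem (hO₁ i) m) (hUO i), Res.r_pow (hO₁ i), hr', hr]
  -- the inverse of `m`
  obtain ⟨mu, hmu⟩ := hmu
  set im : F := algebraMap A₀ F ((mu⁻¹ : A₀ˣ) : A₀) with him
  have hm' : (m : F) * im = 1 := by
    have h1 : (m : F) = algebraMap A₀ F (m : A₀) := (map_natCast _ m).symm
    rw [h1, him, ← hmu, ← map_mul, Units.mul_inv, map_one]
  -- the overlap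
  let Bt : Subring F := overlap B0 t hC.t_mem
  have hB0t : ∀ x ∈ B0, x ∈ Bt := fun x hx => ⟨0, by simpa using hx⟩
  have hB1t : ∀ x ∈ B1, x ∈ Bt := hC.ov1
  have hrt : ∀ i, (C i).r t ≠ 0 := fun i =>
    (Res.r_ne_zero_iff ht0).2 ⟨hC.c0.le i _ hC.t_mem, hC.c1.le i _ hC.t_mem'⟩
  have hBtle : ∀ i, ∀ x ∈ Bt, x ∈ (C i).O := by
    rintro i x ⟨n, hn⟩
    have h1 := mul_mem (pow_mem (hC.c1.le i _ hC.t_mem') n) (hC.c0.le i _ hn)
    rwa [← mul_assoc, ← mul_pow, inv_mul_cancel₀ ht0, one_pow, one_mul] at h1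
  have hBtcl : ∀ (x : F) (n : ℕ), 0 < n → x ^ n ∈ Bt → x ∈ Bt := by
    rintro x n hn ⟨k, hk⟩
    refine ⟨k, hC.c0.closed _ n hn ?_⟩
    obtain ⟨l, rfl⟩ := Nat.exists_eq_succ_of_ne_zero hn.ne'
    have : (t ^ k * x) ^ l.succ = t ^ (k * l) * (t ^ k * x ^ l.succ) := by
      rw [mul_pow, ← pow_mul, Nat.mul_succ, pow_add]; ring
    rw [this]
    exact B0.mul_mem (B0.pow_mem hC.t_mem _) hk
  have hBtnil : ∃ e : ℕ, ∀ x ∈ Bt, (∀ i, (C i).r x = 0) → x ^ e * ϖ⁻¹ ∈ Bt := by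
    obtain ⟨e, he⟩ := hC.c0.nil
    refine ⟨e, ?_⟩
    rintro x ⟨n, hn⟩ hx
    refine ⟨n * e, ?_⟩
    have h1 := he _ hn fun i => by
      rw [Res.r_mul (pow_mem (hC.c0.le i _ hC.t_mem) n) (hBtle i x ⟨n, hn⟩), hx, mul_zero]
    rwa [mul_pow, ← pow_mul, mul_assoc] at h1
  -- the generators
  obtain ⟨s, hs, hsgen⟩ := exists_gen_rootMod (K₀ := K₀) hC.c0.closed ht0 hC.A_mem0 hC.t_mem
    hC.fin0 hm hU0 hh₀0 hh₀
  obtain ⟨s', hs', hsgen'⟩ := exists_gen_rootMod (K₀ := K₀) hC.c1.closed (inv_ne_zero ht0)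
    hC.A_mem1 hC.t_mem' hC.fin1 hm hU0 hh₁0 hh₁
  rw [genNeg_eq' ht0 s'] at hsgen'
  have hM0 : ∀ x ∈ genPos A₀ (mulE K₀ t ht0) s, x ^ m * U ∈ B0 := by
    intro x hx
    unfold genPos at hx
    induction hx using Submodule.span_induction with
    | mem x hx =>
      obtain ⟨k, y, hy, rfl⟩ := hx
      rw [mulE_zpow_apply, zpow_natCast, mul_pow, mul_assoc]
      exact B0.mul_mem (B0.pow_mem (B0.pow_mem hC.t_mem _) _) (hs y hy)
    | zero => exact (rootMod B0 hC.c0.closed m hm U).zero_mem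
    | add x y _ _ hx hy => exact (rootMod B0 hC.c0.closed m hm U).add_mem hx hy
    | smul r x _ hx =>
      rw [Algebra.smul_def, mul_pow, mul_assoc]
      exact B0.mul_mem (B0.pow_mem (hC.A_mem0 r) m) hx
  have hM1 : ∀ x ∈ genNeg A₀ (mulE K₀ t ht0) s', x ^ m * U ∈ B1 := by
    intro x hx
    unfold genNeg at hx
    induction hx using Submodule.span_induction with
    | mem x hx =>
      obtain ⟨k, y, hy, rfl⟩ := hx
      rw [mulE_zpow_apply, zpow_neg, zpow_natCast, ← inv_pow, mul_pow, mul_assoc]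
      exact B1.mul_mem (B1.pow_mem (B1.pow_mem hC.t_mem' _) _) (hs' y hy)
    | zero => exact (rootMod B1 hC.c1.closed m hm U).zero_mem
    | add x y _ _ hx hy => exact (rootMod B1 hC.c1.closed m hm U).add_mem hx hy
    | smul r x _ hx =>
      rw [Algebra.smul_def, mul_pow, mul_assoc]
      exact B1.mul_mem (B1.pow_mem (hC.A_mem1 r) m) hx
  by_cases h0 : Submodule.span K₀ (genPos A₀ (mulE K₀ t ht0) s : Set F) ⊓
      Submodule.span K₀ (genNeg A₀ (mulE K₀ t ht0) s' : Set F) = ⊥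
  swap
  · obtain ⟨x, hx, hx0⟩ := Submodule.exists_mem_ne_zero_of_ne_bot h0
    obtain ⟨c, hc0, hc⟩ := exists_smul_mem_of_mem_span (R := A₀) _ hx.1
    obtain ⟨d, hd0, hd⟩ := exists_smul_mem_of_mem_span (R := A₀) _ hx.2
    have hcF : algebraMap A₀ F c ≠ 0 := fun h => hc0 (hinjA (by rw [h, map_zero]))
    have hdF : algebraMap A₀ F d ≠ 0 := fun h => hd0 (hinjA (by rw [h, map_zero]))
    refine ⟨(c * d) • x, ?_, ?_⟩
    · rw [Algebra.smul_def, map_mul]; exact mul_ne_zero (mul_ne_zero hcF hdF) hx0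
    · have e1 : ((c * d) • x) ^ m * U ∈ B0 := by
        refine hM0 _ ?_
        rw [mul_comm, mul_smul]; exact Submodule.smul_mem _ _ hc
      have e2 : ((c * d) • x) ^ m * U ∈ B1 := by
        refine hM1 _ ?_
        rw [mul_smul]; exact Submodule.smul_mem _ _ hd
      obtain ⟨k, hk⟩ := hC.const _ e1 e2
      exact ⟨k, hk.symm⟩
  exfalso
  have h1 : ∀ x ∈ s, ∃ k : ℕ, ((mulE K₀ t ht0) ^ (-(k : ℤ))) x ∈
      genNeg A₀ (mulE K₀ t ht0) s' := by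
    intro x hx
    obtain ⟨n, hn⟩ := hC.ov0 _ (hs x hx)
    refine ⟨n, hsgen' _ ?_⟩
    rw [mulE_zpow_apply, zpow_neg, zpow_natCast, ← inv_pow]
    obtain ⟨l, rfl⟩ := Nat.exists_eq_succ_of_ne_zero hm.ne'
    have : (t⁻¹ ^ n * x) ^ l.succ * U = t⁻¹ ^ (n * l) * (t⁻¹ ^ n * (x ^ l.succ * U)) := by
      rw [mul_pow, ← pow_mul, Nat.mul_succ, pow_add]; ring
    rw [this]
    exact B1.mul_mem (B1.pow_mem hC.t_mem' _) hn
  obtain ⟨c, hc0, hc⟩ := h1_bound (R := A₀) (K := K₀) (mulE K₀ t ht0) s s' h1 h0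
  obtain ⟨n, hn⟩ : ∃ n : ℕ, c ∣ ϖ₀ ^ n := by
    obtain ⟨n, hn⟩ := IsDiscreteValuationRing.associated_pow_irreducible hc0 hC.irr
    exact ⟨n, hn.dvd⟩
  -- approximations
  obtain ⟨x, hxB, hxr, b, hb, hxb⟩ := newton (C := C) hC.c0.le hC.c0.ϖ_mem hϖ0 hC.c0.nil
    (hC.A_mem0 _) hm' hh₀ hone₀ hO₀ (n + 1)
  obtain ⟨y, hyB, hyr, b', hb', hyb'⟩ := newton (C := C) hC.c1.le hC.c1.ϖ_mem hϖ0 hC.c1.nil
    (hC.A_mem1 _) hm' hh₁ hone₁ hO₁ (n + 1)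
  have hxO : ∀ i, x ∈ (C i).O := fun i => hC.c0.mem_O_of_pow (hU i) hm hxB
  have hyO : ∀ i, y ∈ (C i).O := fun i => hC.c1.mem_O_of_pow (hU i) hm hyB
  obtain ⟨z, hz, hxyz⟩ := approx_unique (C := C) hBtle (hB0t _ hC.c0.ϖ_mem) hϖ0 hBtcl hBtnil hm
    (hB0t _ (hC.A_mem0 _)) hm' (hB0t _ hb) (hB1t _ hb') hxb hyb' (fun i => by
      rw [Res.r_mul (mul_mem (hxO i) (pow_mem (hyO i) _)) (hUO i),
        Res.r_mul (hxO i) (pow_mem (hyO i) _), Res.r_pow (hyO i), hyr, hxr, hr', ← pow_succ',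
        Nat.sub_add_cancel hm, hr])
  have hzall : z ∈ genAll A₀ (mulE K₀ t ht0) s := by
    obtain ⟨N, hN⟩ := hz
    obtain ⟨l, rfl⟩ := Nat.exists_eq_succ_of_ne_zero hm.ne'
    have h2 : (t ^ N * z) ^ l.succ * U ∈ B0 := by
      have : (t ^ N * z) ^ l.succ * U = t ^ (N * l) * (t ^ N * (z ^ l.succ * U)) := by
        rw [mul_pow, ← pow_mul, Nat.mul_succ, pow_add]; ring
      rw [this]
      exact B0.mul_mem (B0.pow_mem hC.t_mem _) hN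
    have h3 := zpow_mem_genAll' ht0 (hsgen _ h2) (-(N : ℤ))
    rwa [zpow_neg, zpow_natCast, ← mul_assoc, inv_mul_cancel₀ (pow_ne_zero _ ht0), one_mul] at h3
  obtain ⟨v, hv, hcv⟩ := hc (ϖ₀ ^ (n + 1)) x (hsgen x hxB) y (hsgen' y hyB) z hzall (by
    rw [hxyz, Algebra.smul_def, map_pow])
  have hvO : ∀ i, v ∈ (C i).O := fun i => hC.c0.mem_O_of_pow (hU i) hm (hM0 v hv)
  obtain ⟨d, hd⟩ := hn
  have hcF : algebraMap A₀ F c ≠ 0 := fun h => hc0 (hinjA (by rw [h, map_zero]))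
  have hxv : x = algebraMap A₀ F ϖ₀ * (algebraMap A₀ F d * v) := by
    apply mul_left_cancel₀ hcF
    rw [Algebra.smul_def, Algebra.smul_def] at hcv
    rw [hcv, pow_succ, hd, map_mul, map_mul]
    ring
  have h4 : (C i₀).r x = 0 := by
    rw [hxv, Res.r_mul (hC.c0.le i₀ _ hC.c0.ϖ_mem) (mul_mem (hC.c0.le i₀ _ (hC.A_mem0 d))
      (hvO i₀)), hC.c0.r_ϖ, zero_mul]
  rw [hxr] at h4
  exact hrh₀ i₀ h4

end TwoCharts

end Fermat.Agent.Carayol
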