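import Fermat.Agent.GoodRed.Laurent
import Fermat.Agent.GenusX0.Diff
import Fermat.Agent.HeckeQ.Frob
import Fermat.Agent.ModFun.Twist

/-!
# Reduction of Laurent series: substitutions, twists, Galois action
-/

set_option autoImplicit false
set_option linter.unusedSectionVars false
set_option linter.style.haveILetI false

noncomputable section

namespace Fermat.Agent.Carayol

open ModularCurve Fermat.Agent.GoodRed Fermat.Agent.ModFun Fermat.Agent.GenusX0

variable {K κ : Type*} [Field K] [Field κ] {A : ValuationSubring K} {π : A →+* κ}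

theorem LR_int (π : A →+* κ) (z : LaurentSeries ℤ) :
    LR π (coeffMap (Int.castRingHom K) z) (coeffMap (Int.castRingHom κ) z) := by
  have h1 := LR.of (π := π) (coeffMap (Int.castRingHom A) z)
  rwa [coeffMap_coeffMap, coeffMap_coeffMap,
    Subsingleton.elim (A.subtype.comp (Int.castRingHom A)) (Int.castRingHom K),
    Subsingleton.elim (π.comp (Int.castRingHom A)) (Int.castRingHom κ)] at h1

theorem LR_qExpand (e : ℕ) [NeZero e] {x : LaurentSeries K} {y : LaurentSeries κ}
    (h : LR π x y) : LR π (qExpand K e x) (qExpand κ e y) := by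
  obtain ⟨f, g, hg, hx, hy⟩ := h
  refine ⟨qExpand A e f, qExpand A e g, ?_, ?_, ?_⟩
  · rw [coeffMap_qExpand]
    exact (map_ne_zero_iff _ (qExpand κ e).injective).2 hg
  · rw [coeffMap_qExpand, ← map_mul, hx, coeffMap_qExpand]
  · rw [coeffMap_qExpand, ← map_mul, hy, coeffMap_qExpand]

theorem LR_map {K' : Type*} [Field K'] {A' : ValuationSubring K'} {π' : A' →+* κ}
    (f : K' →+* K) (fA : A' →+* A) (h1 : ∀ a, ((fA a : A) : K) = f a) (h2 : ∀ a, π (fA a) = π' a)
    {x : LaurentSeries K'} {y : LaurentSeries κ} (h : LR π' x y) : LR π (coeffMap f x) y := by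
  obtain ⟨u, g, hg, hx, hy⟩ := h
  have e1 : ∀ z : LaurentSeries A', coeffMap A.subtype (coeffMap fA z) =
      coeffMap f (coeffMap A'.subtype z) := by
    intro z
    rw [coeffMap_coeffMap, coeffMap_coeffMap]
    congr 1
    exact congrArg coeffMap (RingHom.ext h1)
  have e2 : ∀ z : LaurentSeries A', coeffMap π (coeffMap fA z) = coeffMap π' z := by
    intro z
    rw [coeffMap_coeffMap]
    congr 1
    exact congrArg coeffMap (RingHom.ext h2)
  refine ⟨coeffMap fA u, coeffMap fA g, ?_, ?_, ?_⟩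
  · rwa [e2]
  · rw [e1, e1, ← map_mul, hx]
  · rw [e2, e2, hy]

theorem LR_twist {ζ : Aˣ} (hζ : π ζ = 1) {x : LaurentSeries K} {y : LaurentSeries κ}
    (h : LR π x y) : LR π (twist (Units.map (A.subtype : A →* K) ζ) x) y := by
  obtain ⟨f, g, hg, hx, hy⟩ := h
  have hu : Units.map (π : A →* κ) ζ = 1 := Units.ext hζ
  refine ⟨twist ζ f, twist ζ g, ?_, ?_, ?_⟩
  · rwa [coeffMap_twist, hu, twist_one]
  · rw [coeffMap_twist, coeffMap_twist, ← map_mul, hx]
  · rw [coeffMap_twist, coeffMap_twist, hu, twist_one, twist_one, hy]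

/-- the `q`-analogue of an integer -/
theorem exists_qint {ζ : Aˣ} (hζ : π ζ = 1) (n : ℤ) :
    ∃ c : A, 1 - ((ζ ^ n : Aˣ) : A) = (1 - ζ) * c ∧ π c = n := by
  have key : ∀ n : ℕ, ∃ c : A, 1 - ((ζ ^ n : Aˣ) : A) = (1 - ζ) * c ∧ π c = n := by
    intro n
    refine ⟨∑ i ∈ Finset.range n, (ζ : A) ^ i, ?_, ?_⟩
    · rw [Units.val_pow_eq_pow_val, mul_comm]
      have := geom_sum_mul (ζ : A) n
      linear_combination this
    · rw [map_sum]
      simp [hζ]
  obtain ⟨m, rfl | rfl⟩ := n.eq_nat_or_neg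
  · obtain ⟨c, h1, h2⟩ := key m
    exact ⟨c, by rw [zpow_natCast]; exact h1, by rw [h2]; simp⟩
  · obtain ⟨c, h1, h2⟩ := key m
    refine ⟨-((ζ ^ m)⁻¹ : Aˣ) * c, ?_, ?_⟩
    · rw [zpow_neg, zpow_natCast]
      have h3 : (((ζ ^ m)⁻¹ : Aˣ) : A) * ((ζ ^ m : Aˣ) : A) = 1 := Units.inv_mul _
      linear_combination -(((ζ ^ m)⁻¹ : Aˣ) : A) * h1 - h3
    · rw [map_mul, h2, map_neg]
      have h4 : π (((ζ ^ m)⁻¹ : Aˣ) : A) = 1 := by
        have h5 := congrArg π (Units.inv_mul (ζ ^ m))
        rw [map_mul, Units.val_pow_eq_pow_val, map_pow, hζ, one_pow, mul_one, map_one] at h5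
        exact h5
      rw [h4]
      push_cast
      ring

theorem exists_diff {ζ : Aˣ} (hζ : π ζ = 1) (f : LaurentSeries A) :
    ∃ f' : LaurentSeries A, f - twist ζ f = HahnSeries.C (1 - (ζ : A)) * f' ∧
      coeffMap π f' = thetaFun (coeffMap π f) := by
  choose c hc hπc using exists_qint (π := π) hζ
  refine ⟨⟨fun n => c n * f.coeff n, f.isPWO_support.mono ?_⟩, ?_, ?_⟩
  · intro n hn
    rw [Function.mem_support] at hn
    rw [HahnSeries.mem_support]
    exact right_ne_zero_of_mul hn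
  · refine HahnSeries.ext (funext fun n => ?_)
    rw [HahnSeries.coeff_sub, twist_coeff, HahnSeries.C_mul_eq_smul, HahnSeries.coeff_smul,
      smul_eq_mul]
    change f.coeff n - _ = ((1 - (ζ : A)) * (c n * f.coeff n) : A)
    rw [← mul_assoc, ← hc, sub_mul, one_mul]
  · ext n
    rw [thetaFun_coeff]
    change π (c n * f.coeff n) = _
    rw [map_mul, hπc]
    rfl

/-- difference quotients reduce to the derivative -/
theorem LR_diff {ζ : Aˣ} (hζ : π ζ = 1) (hζ1 : (1 - (ζ : A)) ≠ 0) {x : LaurentSeries K}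
    {y : LaurentSeries κ} (h : LR π x y) :
    LR π (HahnSeries.C ((1 - ((ζ : A) : K))⁻¹) *
      (x - twist (Units.map (A.subtype : A →* K) ζ) x)) (thetaFun y) := by
  obtain ⟨f, g, hg, hx, hy⟩ := h
  obtain ⟨f', hf', hθf⟩ := exists_diff hζ f
  obtain ⟨g', hg', hθg⟩ := exists_diff hζ g
  have hu : Units.map (π : A →* κ) ζ = 1 := Units.ext hζ
  have htg : coeffMap π (twist ζ g) = coeffMap π g := by
    rw [coeffMap_twist, hu, twist_one]
  have hδ : (1 - ((ζ : A) : K)) ≠ 0 := fun h0 => hζ1 (Subtype.ext (by push_cast; exact h0))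
  refine ⟨f' * g - f * g', g * twist ζ g, ?_, ?_, ?_⟩
  · rw [map_mul, htg]
    exact mul_ne_zero hg hg
  · have h1 : twist (Units.map (A.subtype : A →* K) ζ) x * coeffMap A.subtype (twist ζ g) =
        coeffMap A.subtype (twist ζ f) := by
      rw [coeffMap_twist, coeffMap_twist, ← map_mul, ← hx, mul_comm]
    have h2 : f * twist ζ g - twist ζ f * g = HahnSeries.C (1 - (ζ : A)) * (f' * g - f * g') := by
      linear_combination (g : LaurentSeries A) * hf' - f * hg'
    have h3 := congrArg (coeffMap A.subtype) h2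
    rw [map_sub, map_mul, map_mul, map_mul, coeffMap_C] at h3
    have h4 : (HahnSeries.C (A.subtype (1 - (ζ : A))) : LaurentSeries K) *
        HahnSeries.C ((1 - ((ζ : A) : K))⁻¹) = 1 := by
      rw [← map_mul]
      change HahnSeries.C ((1 - ((ζ : A) : K)) * _) = _
      rw [mul_inv_cancel₀ hδ, map_one]
    rw [map_mul]
    calc _ = HahnSeries.C ((1 - ((ζ : A) : K))⁻¹) *
        ((coeffMap A.subtype g * x) * coeffMap A.subtype (twist ζ g) -
          (twist (Units.map (A.subtype : A →* K) ζ) x * coeffMap A.subtype (twist ζ g)) *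
            coeffMap A.subtype g) := by ring
      _ = _ := by
        rw [hx, h1, h3]
        linear_combination (coeffMap A.subtype (f' * g - f * g')) * h4
  · rw [map_mul, htg, map_sub, map_mul, map_mul, hθf, hθg]
    have h5 := congrArg thetaFun hy
    rw [thetaFun_mul] at h5
    linear_combination coeffMap π g * h5 - thetaFun (coeffMap π g) * hy

theorem pow_eq_qExpand {q : ℕ} [hq : Fact q.Prime] [CharP κ q] [NeZero q] (y : LaurentSeries κ) :
    y ^ q = qExpand κ q (coeffMap (frobenius κ q) y) := HeckeQ.laurent_pow_char q y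

end Fermat.Agent.Carayol
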