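import Fermat.Agent.Carayol.Local

/-!
# Lifting compatible `m`-th roots from the components to the chart
-/

set_option autoImplicit false
set_option linter.unusedSectionVars false

noncomputable section

namespace Fermat.Agent.Carayol

open Fermat.Agent.Models

theorem ded_nil {R : Type*} [CommRing R] [IsDedekindDomain R] (n : Ideal R) (J : Ideal R)
    (hJ : J ≠ ⊥) {x : R} (hx : x ∈ n) (hn : n.IsPrime) : ∃ N : ℕ, ∃ s ∉ n, s * x ^ N ∈ J := by
  by_contra hcon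
  push Not at hcon
  let T : Submonoid R :=
    { carrier := {z | ∃ N : ℕ, ∃ s ∉ n, z = s * x ^ N}
      one_mem' := ⟨0, 1, fun h => hn.ne_top ((Ideal.eq_top_iff_one _).2 h), by simp⟩
      mul_mem' := by
        rintro _ _ ⟨N, s, hs, rfl⟩ ⟨N', s', hs', rfl⟩
        exact ⟨N + N', s * s', fun h => (hn.mem_or_mem h).elim hs hs', by rw [pow_add]; ring⟩ }
  have hdisj : Disjoint (J : Set R) (T : Set R) := by
    rw [Set.disjoint_left]
    rintro _ hz ⟨N, s, hs, rfl⟩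
    exact hcon N s hs hz
  obtain ⟨p, hp, hJp, hpT⟩ := Ideal.exists_le_prime_disjoint J T hdisj
  have hpn : p ≤ n := by
    intro z hz
    by_contra hzn
    exact Set.disjoint_left.1 hpT hz ⟨0, z, hzn, by simp⟩
  have hp0 : p ≠ ⊥ := fun h => hJ (le_bot_iff.1 (h ▸ hJp))
  have hpmax := Ring.DimensionLEOne.maximalOfPrime hp0 hp
  have hpn' : p = n := hpmax.eq_of_le hn.ne_top hpn
  refine Set.disjoint_left.1 hpT (show x ∈ p from hpn' ▸ hx) ⟨1, 1, ?_, by simp⟩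
  exact fun h => hn.ne_top ((Ideal.eq_top_iff_one _).2 h)

variable {F 𝓕 : Type*} [Field F] [Field 𝓕] {ι : Type*} [Fintype ι]

section RootMod

variable {B : Subring F}

/-- the module of `h` with `h ^ m * U ∈ B` -/
def rootMod (B : Subring F) (hcl : ∀ (x : F) (n : ℕ), 0 < n → x ^ n ∈ B → x ∈ B) (m : ℕ)
    (hm : 0 < m) (U : F) : Submodule B F where
  carrier := {h | h ^ m * U ∈ B}
  zero_mem' := by
    change (0 : F) ^ m * U ∈ B
    rw [zero_pow hm.ne', zero_mul]; exact B.zero_mem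
  smul_mem' := by
    intro b h hh
    change (b • h) ^ m * U ∈ B
    rw [Subring.smul_def, smul_eq_mul, mul_pow, mul_assoc]
    exact B.mul_mem (B.pow_mem b.2 m) hh
  add_mem' := by
    intro a b ha hb
    change (a + b) ^ m * U ∈ B
    rw [add_pow, Finset.sum_mul]
    refine sum_mem fun k hk => ?_
    have hk' : k ≤ m := Nat.lt_succ_iff.1 (Finset.mem_range.1 hk)
    have h1 : a ^ k * b ^ (m - k) * U ∈ B := by
      refine hcl _ m hm ?_
      have h2 : (a ^ k * b ^ (m - k) * U) ^ m = (a ^ m * U) ^ k * (b ^ m * U) ^ (m - k) := by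
        have h3 : U ^ m = U ^ k * U ^ (m - k) := by rw [← pow_add, Nat.add_sub_of_le hk']
        rw [mul_pow, mul_pow, mul_pow, mul_pow, h3]
        ring
      rw [h2]
      exact B.mul_mem (B.pow_mem ha k) (B.pow_mem hb _)
    have h4 : a ^ k * b ^ (m - k) * (m.choose k : F) * U =
        (m.choose k : F) * (a ^ k * b ^ (m - k) * U) := by ring
    rw [h4]
    exact B.mul_mem (natCast_mem B _) h1

theorem mem_rootMod {hcl : ∀ (x : F) (n : ℕ), 0 < n → x ^ n ∈ B → x ∈ B} {m : ℕ}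
    {hm : 0 < m} {U : F} {h : F} : h ∈ rootMod B hcl m hm U ↔ h ^ m * U ∈ B := Iff.rfl

end RootMod

namespace Chart

variable {B : Subring F} {C : ι → Res F 𝓕} {R : Subring 𝓕} {ϖ : F} (hB : Chart B C R ϖ)

include hB

theorem nonzero_inter (hinc : ∀ i j, i ≠ j → ∃ x : F, x ∈ B ∧ (C j).r x = 0 ∧ (C i).r x ≠ 0)
    (i : ι) (S : Finset ι) :
    ∃ x ∈ B, (∀ j ∈ S, j ≠ i → (C j).r x = 0) ∧ (C i).r x ≠ 0 := by
  classical
  choose! x hx hxj hxi using hinc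
  refine ⟨∏ j ∈ S.erase i, x i j, B.prod_mem fun j hj => hx i j (Finset.ne_of_mem_erase hj).symm,
    fun j hj hji => ?_, ?_⟩
  · have hj' : j ∈ S.erase i := Finset.mem_erase.2 ⟨hji, hj⟩
    rw [Res.r_prod _ _ fun k hk => hB.le j _ (hx i k (Finset.ne_of_mem_erase hk).symm)]
    exact Finset.prod_eq_zero hj' (hxj i j hji.symm)
  · rw [Res.r_prod _ _ fun k hk => hB.le i _ (hx i k (Finset.ne_of_mem_erase hk).symm)]
    exact Finset.prod_ne_zero_iff.2 fun j hj => hxi i j (Finset.ne_of_mem_erase hj).symm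

theorem mem_O_of_pow {i : ι} {u : F} (hu : (C i).r u ≠ 0) {h : F} {m : ℕ} (hm : 0 < m)
    (hh : h ^ m * u ∈ B) : h ∈ (C i).O := by
  have h1 : h ^ m ∈ (C i).O := by
    have h2 := mul_mem (hB.le i _ hh) (Res.inv_mem_of_r hu)
    have h3 := Res.ne_zero_of_r hu
    have h4 : h ^ m * u * u⁻¹ = h ^ m := by field_simp
    rwa [h4] at h2
  rcases (C i).O.mem_or_inv_mem h with h2 | h2
  · exact h2
  · rcases eq_or_ne h 0 with rfl | h0
    · exact zero_mem _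
    have h3 : h = h ^ m * h⁻¹ ^ (m - 1) := by
      obtain ⟨k, rfl⟩ := Nat.exists_eq_succ_of_ne_zero hm.ne'
      rw [Nat.succ_sub_one, pow_succ', mul_assoc, ← mul_pow, mul_inv_cancel₀ h0, one_pow, mul_one]
    rw [h3]
    exact mul_mem h1 (pow_mem h2 _)

/-- local lifting of the roots -/
theorem lift_local {q : ℕ} [Fact q.Prime] [CharP 𝓕 q]
    (hinc : ∀ i j, i ≠ j → ∃ x : F, x ∈ B ∧ (C j).r x = 0 ∧ (C i).r x ≠ 0)
    {𝔪 : Ideal B} (h𝔪 : 𝔪.IsMaximal) {m : ℕ} (hm : 0 < m) {u : F} {g : ι → 𝓕}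
    (hg0 : ∀ i, g i ≠ 0) (hg : ∀ i, (C i).r u = g i ^ m)
    {h : F} {y : B} (hhy : h ^ m * u = y) (c : B) (hc𝔪 : c ∉ 𝔪)
    (hc : ∀ i, hB.P i ≤ 𝔪 → ∃ n ∈ 𝔪, g i * (C i).r h = (C i).r (c : F) + (C i).r (n : F)) :
    ∃ N : ℕ, ∃ b ∉ 𝔪, ∃ h' : F, h' ^ m * u ^ q ^ N ∈ B ∧
      ∀ i, (C i).r h' * g i ^ q ^ N = (C i).r ((b : B) : F) := by
  classical
  have hq : q.Prime := Fact.out
  have hded := hB.ded
  have hu : ∀ i, (C i).r u ≠ 0 := fun i => by rw [hg]; exact pow_ne_zero m (hg0 i)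
  have hhO : ∀ i, h ∈ (C i).O := fun i => hB.mem_O_of_pow (hu i) hm (hhy ▸ y.2)
  let S : Finset ι := Finset.univ.filter fun i => hB.P i ≤ 𝔪
  have hS : ∀ i, i ∈ S ↔ hB.P i ≤ 𝔪 := fun i => by simp [S]
  -- local data
  have key : ∀ i ∈ S, ∃ n ∈ 𝔪, g i * (C i).r h = (C i).r (c : F) + (C i).r (n : F) ∧
      ∃ N : ℕ, ∃ s ∉ 𝔪, ∃ d ∈ 𝔪, (∀ j ∈ S, j ≠ i → (C j).r ((d : B) : F) = 0) ∧
        (C i).r ((s : B) : F) * (C i).r (n : F) ^ N = (C i).r (d : F) := by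
    intro i hi
    have hP := (hS i).1 hi
    obtain ⟨n, hn, hnc⟩ := hc i hP
    refine ⟨n, hn, hnc, ?_⟩
    let J : Ideal B := ⨅ j ∈ S.erase i, hB.P j
    have hJmem : ∀ x : B, x ∈ J ↔ ∀ j ∈ S, j ≠ i → (C j).r (x : F) = 0 := by
      intro x
      simp only [J, Submodule.mem_iInf, Finset.mem_erase]
      exact ⟨fun H j hj hji => hB.mem_P.1 (H j ⟨hji, hj⟩),
        fun H j hj => hB.mem_P.2 (H j hj.2 hj.1)⟩
    obtain ⟨x, hxB, hx1, hx2⟩ := hB.nonzero_inter hinc i S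
    have hJ0 : J.map (hB.rho i) ≠ ⊥ := by
      intro h0
      have h1 : hB.rho i ⟨x, hxB⟩ ∈ J.map (hB.rho i) :=
        Ideal.mem_map_of_mem _ ((hJmem _).2 hx1)
      rw [h0, Ideal.mem_bot] at h1
      exact hx2 (congrArg Subtype.val h1)
    have hmax : (𝔪.map (hB.rho i)).IsPrime := by
      have hker : RingHom.ker (hB.rho i) ≤ 𝔪 := hP
      exact Ideal.map_isPrime_of_surjective (hB.rho_surjective i) hker
    obtain ⟨N, s, hs, hsN⟩ := ded_nil (𝔪.map (hB.rho i)) _ hJ0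
      (Ideal.mem_map_of_mem (hB.rho i) hn) hmax
    obtain ⟨s, rfl⟩ := hB.rho_surjective i s
    obtain ⟨d, hd, hd'⟩ := (Ideal.mem_map_iff_of_surjective _ (hB.rho_surjective i)).1 hsN
    have hs𝔪 : s ∉ 𝔪 := fun h => hs (Ideal.mem_map_of_mem _ h)
    have e1 := congrArg Subtype.val hd'
    rw [← map_pow, ← map_mul, hB.rho_apply, hB.rho_apply] at e1
    have e2 : (C i).r ((s : F) * (n : F) ^ (N + 1)) = (C i).r (((n * d : B)) : F) := by
      have e3 : ((s * n ^ N : B) : F) = (s : F) * (n : F) ^ N := by push_cast; rfl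
      rw [e3] at e1
      rw [pow_succ, ← mul_assoc, mul_comm _ (n : F), Res.r_mul (hB.le i _ n.2)
        (mul_mem (hB.le i _ s.2) (pow_mem (hB.le i _ n.2) N)), ← e1, Subring.coe_mul,
        Res.r_mul (hB.le i _ n.2) (hB.le i _ d.2)]
    refine ⟨N + 1, s, hs𝔪, n * d, 𝔪.mul_mem_right _ hn, fun j hj hji => ?_, ?_⟩
    · rw [Subring.coe_mul, Res.r_mul (hB.le j _ n.2) (hB.le j _ d.2), (hJmem d).1 hd j hj hji,
        mul_zero]
    · rw [← e2, Res.r_mul (hB.le i _ s.2) (pow_mem (hB.le i _ n.2) _),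
        Res.r_pow (hB.le i _ n.2)]
  choose! n hn hnc N s hs d hd hdj hsd using key
  -- a common exponent
  obtain ⟨M, hM⟩ : ∃ M : ℕ, ∀ i ∈ S, N i ≤ q ^ M :=
    ⟨∑ i ∈ S, N i, fun i hi =>
      (Finset.single_le_sum (f := N) (fun _ _ => Nat.zero_le _) hi).trans
        (Nat.lt_pow_self hq.one_lt).le⟩
  set Q := q ^ M with hQ
  -- elements outside `𝔪`
  have hp : ∀ i, ∃ t : B, t ∉ 𝔪 ∧ (i ∈ S → t = s i) ∧ (i ∉ S → (C i).r (t : F) = 0) := by
    intro i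
    by_cases hi : i ∈ S
    · exact ⟨s i, hs i hi, fun _ => rfl, fun h => absurd hi h⟩
    · obtain ⟨t, ht, ht'⟩ := Set.not_subset.1 (fun h => hi ((hS i).2 h))
      exact ⟨t, ht', fun h => absurd h hi, fun _ => hB.mem_P.1 ht⟩
  choose t ht htS htn using hp
  let T : B := ∏ i, t i
  have hT𝔪 : T ∉ 𝔪 := by
    intro h
    rw [h𝔪.isPrime.prod_mem_iff] at h
    obtain ⟨i, _, hi⟩ := h
    exact ht i hi
  let E : ι → B := fun i => (∏ j ∈ Finset.univ.erase i, t j) * (d i * n i ^ (Q - N i))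
  let b : B := T * c ^ Q + ∑ i ∈ S, E i
  have hrB : ∀ i (x y : B), (C i).r ((x * y : B) : F) = (C i).r (x : F) * (C i).r (y : F) :=
    fun i x y => by rw [Subring.coe_mul, Res.r_mul (hB.le i _ x.2) (hB.le i _ y.2)]
  have hrA : ∀ i (x y : B), (C i).r ((x + y : B) : F) = (C i).r (x : F) + (C i).r (y : F) :=
    fun i x y => by rw [Subring.coe_add, Res.r_add (hB.le i _ x.2) (hB.le i _ y.2)]
  have hrP : ∀ i (x : B) (k : ℕ), (C i).r ((x ^ k : B) : F) = (C i).r (x : F) ^ k :=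
    fun i x k => by rw [Subring.coe_pow, Res.r_pow (hB.le i _ x.2)]
  have hrS : ∀ i (f : ι → B), (C i).r ((∑ j ∈ S, f j : B) : F) = ∑ j ∈ S, (C i).r (f j : F) := by
    intro i f
    have e : ((∑ j ∈ S, f j : B) : F) = ∑ j ∈ S, (f j : F) := by push_cast; rfl
    rw [e, Res.r_sum _ _ fun j _ => hB.le i _ (f j).2]
  have hTi : ∀ i, T = t i * ∏ j ∈ Finset.univ.erase i, t j := fun i =>
    (Finset.mul_prod_erase _ _ (Finset.mem_univ i)).symm
  refine ⟨M, b, ?_, T * h ^ Q, ?_, fun i => ?_⟩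
  · intro hb
    have h1 : ∑ i ∈ S, E i ∈ 𝔪 := 𝔪.sum_mem fun i hi =>
      𝔪.mul_mem_left _ (𝔪.mul_mem_right _ (hd i hi))
    have h2 := 𝔪.sub_mem hb h1
    rw [add_sub_cancel_right] at h2
    rcases h𝔪.isPrime.mem_or_mem h2 with h3 | h3
    · exact hT𝔪 h3
    · exact hc𝔪 (h𝔪.isPrime.mem_of_pow_mem _ h3)
  · have h1 : ((T : F) * h ^ Q) ^ m * u ^ q ^ M = ((T ^ m * y ^ Q : B) : F) := by
      rw [← hQ]
      push_cast
      rw [← hhy]
      ring
    rw [h1]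
    exact Subtype.mem _
  · have hbi : (C i).r (b : F) = (C i).r (T : F) * (C i).r (c : F) ^ Q +
        ∑ k ∈ S, (C i).r (E k : F) := by
      rw [hrA, hrB, hrP, hrS]
    rw [hbi, Res.r_mul (hB.le i _ T.2) (pow_mem (hhO i) _), Res.r_pow (hhO i), mul_assoc,
      ← mul_pow, mul_comm ((C i).r h)]
    by_cases hi : i ∈ S
    · rw [Finset.sum_eq_single i]
      · have h1 := hnc i hi
        rw [h1, hQ, add_pow_char_pow, mul_add, ← hQ]
        congr 1
        have h2 : (C i).r (E i : F) = (C i).r ((∏ j ∈ Finset.univ.erase i, t j : B) : F) *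
            ((C i).r (d i : F) * (C i).r (n i : F) ^ (Q - N i)) := by
          change (C i).r (((∏ j ∈ Finset.univ.erase i, t j) * (d i * n i ^ (Q - N i)) : B) : F) = _
          rw [hrB, hrB, hrP]
        rw [h2, ← hsd i hi, ← htS i hi, hTi i, hrB]
        have h3 : (C i).r (n i : F) ^ Q = (C i).r (n i : F) ^ (N i) * (C i).r (n i : F) ^ (Q - N i) := by
          rw [← pow_add, Nat.add_sub_of_le (hM i hi)]
        rw [h3]
        ring
      · intro k hk hki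
        change (C i).r (((∏ j ∈ Finset.univ.erase k, t j) * (d k * n k ^ (Q - N k)) : B) : F) = 0
        rw [hrB, hrB, hdj k hk i hi hki.symm, zero_mul, mul_zero]
      · intro h; exact absurd hi h
    · have h1 : ∀ k ∈ S, (C i).r (E k : F) = 0 := by
        intro k hk
        have hki : i ≠ k := fun h => hi (h ▸ hk)
        change (C i).r (((∏ j ∈ Finset.univ.erase k, t j) * (d k * n k ^ (Q - N k)) : B) : F) = 0
        rw [hrB]
        have h2 : (C i).r ((∏ j ∈ Finset.univ.erase k, t j : B) : F) = 0 := by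
          rw [← Finset.mul_prod_erase _ _ (Finset.mem_erase.2 ⟨hki, Finset.mem_univ i⟩), hrB,
            htn i hi, zero_mul]
        rw [h2, zero_mul]
      rw [Finset.sum_eq_zero h1, add_zero]
      have h2 : (C i).r (T : F) = 0 := by rw [hTi i, hrB, htn i hi, zero_mul]
      rw [h2, zero_mul, zero_mul]

/-- the ideal of elements through which the roots lift -/
def liftIdeal {m : ℕ} (hm : 0 < m) (U : F) (hU : ∀ i, (C i).r U ≠ 0) (g : ι → 𝓕) : Ideal B where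
  carrier := {b | ∃ h : F, h ^ m * U ∈ B ∧ ∀ i, (C i).r h * g i = (C i).r (b : F)}
  zero_mem' := ⟨0, by rw [zero_pow hm.ne', zero_mul]; exact B.zero_mem, fun i => by simp⟩
  add_mem' := by
    rintro a b ⟨h, hh, hr⟩ ⟨h', hh', hr'⟩
    refine ⟨h + h', (rootMod B hB.closed m hm U).add_mem hh hh', fun i => ?_⟩
    rw [Res.r_add (hB.mem_O_of_pow (hU i) hm hh) (hB.mem_O_of_pow (hU i) hm hh'),
      Subring.coe_add, Res.r_add (hB.le i _ a.2) (hB.le i _ b.2), add_mul, hr, hr']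
  smul_mem' := by
    rintro c b ⟨h, hh, hr⟩
    refine ⟨c * h, ?_, fun i => ?_⟩
    · rw [mul_pow, mul_assoc]; exact B.mul_mem (B.pow_mem c.2 m) hh
    · rw [Res.r_mul (hB.le i _ c.2) (hB.mem_O_of_pow (hU i) hm hh), smul_eq_mul, Subring.coe_mul,
        Res.r_mul (hB.le i _ c.2) (hB.le i _ b.2), mul_assoc, hr]

theorem mem_liftIdeal {m : ℕ} {hm : 0 < m} {U : F} {hU : ∀ i, (C i).r U ≠ 0} {g : ι → 𝓕} {b : B} :
    b ∈ hB.liftIdeal hm U hU g ↔ ∃ h : F, h ^ m * U ∈ B ∧ ∀ i, (C i).r h * g i = (C i).r (b : F) :=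
  Iff.rfl

/-- **Global lifting of the roots on a chart.** -/
theorem lift_global {q : ℕ} [Fact q.Prime] [CharP 𝓕 q]
    {m : ℕ} (hm : 0 < m) {u : F} {g : ι → 𝓕}
    (hg0 : ∀ i, g i ≠ 0) (hg : ∀ i, (C i).r u = g i ^ m)
    (hloc : ∀ 𝔪 : Ideal B, 𝔪.IsMaximal → (⟨ϖ, hB.ϖ_mem⟩ : B) ∈ 𝔪 →
      ∃ N : ℕ, ∃ b ∉ 𝔪, ∃ h' : F, h' ^ m * u ^ q ^ N ∈ B ∧
      ∀ i, (C i).r h' * g i ^ q ^ N = (C i).r ((b : B) : F)) :
    ∃ N₀ : ℕ, ∀ N ≥ N₀, ∃ h : F, h ^ m * u ^ q ^ N ∈ B ∧ ∀ i, (C i).r h * g i ^ q ^ N = 1 := by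
  have := hB.noeth
  have hu : ∀ i, (C i).r u ≠ 0 := fun i => by rw [hg]; exact pow_ne_zero m (hg0 i)
  have hU : ∀ N i, (C i).r (u ^ q ^ N) ≠ 0 := fun N i => Res.r_pow_ne_zero (hu i) _
  let I : ℕ → Ideal B := fun N => hB.liftIdeal hm (u ^ q ^ N) (hU N) fun i => g i ^ q ^ N
  have hstep : ∀ N b, b ∈ I N → b ^ q ∈ I (N + 1) := by
    rintro N b ⟨h, hh, hr⟩
    refine ⟨h ^ q, ?_, fun i => ?_⟩
    · have : (h ^ q) ^ m * u ^ q ^ (N + 1) = (h ^ m * u ^ q ^ N) ^ q := by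
        rw [pow_succ, pow_mul u, mul_pow, ← pow_mul, ← pow_mul h m q, mul_comm q m]
      rw [this]; exact B.pow_mem hh q
    · rw [Res.r_pow (hB.mem_O_of_pow (hU N i) hm hh), Subring.coe_pow,
        Res.r_pow (hB.le i _ b.2), ← hr, mul_pow, ← pow_mul, ← pow_succ]
  have hmono : Monotone fun N => (I N).radical := by
    refine monotone_nat_of_le_succ fun N => ?_
    refine Ideal.radical_le_radical_iff.2 fun b hb => ?_
    exact ⟨q, hstep N b hb⟩
  obtain ⟨N₀, hN₀⟩ := monotone_stabilizes_iff_noetherian.2 (inferInstance : IsNoetherian B B)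
    ⟨_, hmono⟩
  have htop : ∀ N, N₀ ≤ N → I N = ⊤ := by
    intro N hN
    by_contra hne
    obtain ⟨𝔪, h𝔪, hI𝔪⟩ := Ideal.exists_le_maximal _ hne
    have hϖ : (⟨ϖ, hB.ϖ_mem⟩ : B) ∈ 𝔪 := by
      apply hI𝔪
      refine ⟨0, by rw [zero_pow hm.ne', zero_mul]; exact B.zero_mem, fun i => ?_⟩
      rw [Res.r_zero, zero_mul, hB.r_ϖ]
    obtain ⟨N', b, hb, hbI⟩ := hloc 𝔪 h𝔪 hϖ
    have h1 : b ∈ I N' := hbI
    have h2 : b ∈ (I (max N N')).radical := hmono (le_max_right _ _) (Ideal.le_radical h1)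
    have h3 : (I N).radical = (I (max N N')).radical := by
      have e1 := hN₀ N hN
      have e2 := hN₀ (max N N') (hN.trans (le_max_left _ _))
      exact e1.symm.trans e2
    rw [← h3] at h2
    exact hb ((h𝔪.isPrime.radical_le_iff.2 hI𝔪) h2)
  refine ⟨N₀, fun N hN => ?_⟩
  have h1 : (1 : B) ∈ I N := by rw [htop N hN]; exact Submodule.mem_top
  obtain ⟨h, hh, hr⟩ := h1
  exact ⟨h, hh, fun i => by rw [hr]; exact Res.r_one⟩

end Chart

end Fermat.Agent.Carayol
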