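import Fermat.Agent.Carayol.Ufd
import Fermat.Agent.Models.Comp

/-!
# Local `m`-th roots at the closed points of a regular arithmetic surface
-/

set_option autoImplicit false
set_option linter.unusedSectionVars false

noncomputable section

namespace Fermat.Agent.Carayol

open Fermat.Agent.Models

/-- Ideals of a Dedekind domain are locally principal. -/
theorem ded_local {R : Type*} [CommRing R] [IsDedekindDomain R] (n : Ideal R) (hn : n ≠ ⊤)
    (J : Ideal R) : ∃ p ∈ J, ∃ s ∉ n, ∀ y ∈ J, ∃ b, s * y = b * p := by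
  rcases eq_or_ne J ⊥ with rfl | hJ
  · refine ⟨0, zero_mem _, 1, fun h => hn ((Ideal.eq_top_iff_one _).2 h), fun y hy => ⟨0, ?_⟩⟩
    rw [Ideal.mem_bot.1 hy]; simp
  have h1 : ¬ J ≤ J * n := by
    intro h
    obtain ⟨r, hr, hr0⟩ := Submodule.exists_sub_one_mem_and_smul_eq_zero_of_fg_of_le_smul n J
      (IsNoetherian.noetherian J) (by rw [smul_eq_mul, mul_comm]; exact h)
    obtain ⟨y, hy, hy0⟩ := Submodule.exists_mem_ne_zero_of_ne_bot hJ
    have h2 : r = 0 := (mul_eq_zero.1 (hr0 y hy)).resolve_right hy0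
    rw [h2, zero_sub] at hr
    apply hn
    rw [Ideal.eq_top_iff_one]
    have := n.neg_mem hr
    rwa [neg_neg] at this
  obtain ⟨p, hp, hpn⟩ := Set.not_subset.1 h1
  have hp : p ∈ J := hp
  have hpn : p ∉ J * n := hpn
  obtain ⟨J', hJ'⟩ := Ideal.dvd_iff_le.2 ((Ideal.span_singleton_le_iff_mem J).2 hp)
  have h5 : ¬ J' ≤ n := by
    intro h
    apply hpn
    have : p ∈ J * J' := by rw [← hJ']; exact Ideal.mem_span_singleton_self p
    exact Ideal.mul_mono_right h this
  obtain ⟨s, hs, hsn⟩ := Set.not_subset.1 h5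
  refine ⟨p, hp, s, hsn, fun y hy => ?_⟩
  have h6 : y * s ∈ Ideal.span {p} := by
    rw [hJ']; exact Ideal.mul_mem_mul hy hs
  obtain ⟨b, hb⟩ := Ideal.mem_span_singleton'.1 h6
  exact ⟨b, by rw [hb]; ring⟩

variable {F 𝓕 : Type*} [Field F] [Field 𝓕] {ι : Type*} [Fintype ι]

/-- A chart: a noetherian ring `B` with fraction field `F`, closed under roots, contained in the
valuation rings `C i`, reducing onto the Dedekind domain `R`. -/
structure Chart (B : Subring F) (C : ι → Res F 𝓕) (R : Subring 𝓕) (ϖ : F) : Prop where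
  noeth : IsNoetherianRing B
  ded : IsDedekindDomain R
  closed : ∀ (x : F) (n : ℕ), 0 < n → x ^ n ∈ B → x ∈ B
  frac : ∀ x : F, ∃ a ∈ B, ∃ b ∈ B, b ≠ 0 ∧ x = a / b
  le : ∀ i, ∀ x ∈ B, x ∈ (C i).O
  mem_R : ∀ i, ∀ x ∈ B, (C i).r x ∈ R
  surj : ∀ i, ∀ y ∈ R, ∃ x ∈ B, (C i).r x = y
  ϖ_mem : ϖ ∈ B
  ϖ_ne : ϖ ≠ 0
  r_ϖ : ∀ i, (C i).r ϖ = 0
  nil : ∃ e : ℕ, ∀ x ∈ B, (∀ i, (C i).r x = 0) → x ^ e * ϖ⁻¹ ∈ B

namespace Chart

variable {B : Subring F} {C : ι → Res F 𝓕} {R : Subring 𝓕} {ϖ : F} (hB : Chart B C R ϖ)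

include hB

/-- the reduction map -/
def rho (i : ι) : B →+* R where
  toFun x := ⟨(C i).r (x : F), hB.mem_R i _ x.2⟩
  map_one' := Subtype.ext Res.r_one
  map_zero' := Subtype.ext Res.r_zero
  map_add' x y := Subtype.ext (Res.r_add (hB.le i _ x.2) (hB.le i _ y.2))
  map_mul' x y := Subtype.ext (Res.r_mul (hB.le i _ x.2) (hB.le i _ y.2))

theorem rho_apply (i : ι) (x : B) : (hB.rho i x : 𝓕) = (C i).r (x : F) := rfl

theorem rho_surjective (i : ι) : Function.Surjective (hB.rho i) := by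
  rintro ⟨y, hy⟩
  obtain ⟨x, hx, h⟩ := hB.surj i y hy
  exact ⟨⟨x, hx⟩, Subtype.ext h⟩

/-- the vertical primes -/
def P (i : ι) : Ideal B := RingHom.ker (hB.rho i)

theorem mem_P {i : ι} {x : B} : x ∈ hB.P i ↔ (C i).r (x : F) = 0 := by
  rw [P, RingHom.mem_ker, ← Subtype.coe_inj]; rfl

theorem P_prime (i : ι) : (hB.P i).IsPrime := RingHom.ker_isPrime _

omit [Fintype ι] in
theorem isFractionRing : IsFractionRing B F := by
  refine IsFractionRing.of_field B F fun x => ?_
  obtain ⟨a, ha, b, hb, hb0, rfl⟩ := hB.frac x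
  exact ⟨⟨a, ha⟩, ⟨b, hb⟩, rfl⟩

/-- an element generating locally one of the vertical primes -/
def LocGen (𝔪 : Ideal B) (i : ι) (x : B) : Prop :=
  x ≠ 0 ∧ x ∈ hB.P i ∧ ∀ b ∈ hB.P i, ∃ s ∉ 𝔪, ∃ c, s * b = c * x

section Localization

variable {𝔪 : Ideal B} [h𝔪 : 𝔪.IsMaximal] {i : ι} {x : B}
  {L : Type*} [CommRing L] [IsDomain L] [Algebra B L] [Algebra L F] [IsScalarTower B L F]
  [IsLocalization.AtPrime L 𝔪] [IsFractionRing L F]

theorem prime_of_locGen (hP : hB.P i ≤ 𝔪) (hx : hB.LocGen 𝔪 i x) : Prime (algebraMap B L x) := by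
  obtain ⟨hx0, hxP, hgen⟩ := hx
  have hinj : Function.Injective (algebraMap B L) :=
    IsLocalization.injective L (Ideal.primeCompl_le_nonZeroDivisors 𝔪)
  have hmem : ∀ b : B, algebraMap B L x ∣ algebraMap B L b ↔ b ∈ hB.P i := by
    intro b
    constructor
    · rintro ⟨c, hc⟩
      obtain ⟨c, s, rfl⟩ := IsLocalization.exists_mk'_eq 𝔪.primeCompl c
      rw [IsLocalization.mul_mk'_eq_mk'_of_mul, eq_comm, IsLocalization.mk'_eq_iff_eq_mul,
        ← map_mul] at hc
      have h1 := hinj hc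
      have h2 : b * s ∈ hB.P i := by rw [← h1]; exact Ideal.mul_mem_right _ _ hxP
      exact ((hB.P_prime i).mem_or_mem h2).resolve_right fun h3 => s.2 (hP h3)
    · intro hb
      obtain ⟨s, hs, c, hc⟩ := hgen b hb
      have hu := IsLocalization.map_units L (⟨s, hs⟩ : 𝔪.primeCompl)
      have h1 : algebraMap B L x ∣ algebraMap B L s * algebraMap B L b := by
        rw [← map_mul, hc, map_mul]; exact Dvd.intro_left _ rfl
      exact (hu.dvd_mul_left).1 h1
  refine ⟨fun h => hx0 (hinj (by rw [h, map_zero])), ?_, ?_⟩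
  · intro hu
    have := (IsLocalization.AtPrime.isUnit_to_map_iff L 𝔪 x).1 hu
    exact this (hP hxP)
  · intro a b hab
    obtain ⟨a, s, rfl⟩ := IsLocalization.exists_mk'_eq 𝔪.primeCompl a
    obtain ⟨b, t, rfl⟩ := IsLocalization.exists_mk'_eq 𝔪.primeCompl b
    have key : ∀ (c : B) (s : 𝔪.primeCompl), algebraMap B L x ∣ IsLocalization.mk' L c s ↔
        algebraMap B L x ∣ algebraMap B L c := by
      intro c s
      have hu := IsLocalization.map_units L s
      have h1 : algebraMap B L c = IsLocalization.mk' L c s * algebraMap B L s :=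
        (IsLocalization.mk'_spec L c s).symm
      rw [h1]
      exact (hu.dvd_mul_right).symm
    rw [← IsLocalization.mk'_mul, key, hmem] at hab
    rw [key, key, hmem, hmem]
    exact (hB.P_prime i).mem_or_mem hab

theorem map_rho_ne_top (hP : hB.P i ≤ 𝔪) : 𝔪.map (hB.rho i) ≠ ⊤ := by
  intro h
  have h1 : (1 : R) ∈ 𝔪.map (hB.rho i) := by rw [h]; exact Submodule.mem_top
  obtain ⟨y, hy, hy1⟩ := (Ideal.mem_map_iff_of_surjective _ (hB.rho_surjective i)).1 h1
  have h2 : y - 1 ∈ hB.P i := by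
    rw [P, RingHom.mem_ker, map_sub, hy1, map_one, sub_self]
  have h3 := 𝔪.sub_mem hy (hP h2)
  rw [sub_sub_cancel] at h3
  exact h𝔪.ne_top ((Ideal.eq_top_iff_one _).2 h3)

theorem mem_of_rho_mem (hP : hB.P i ≤ 𝔪) {b : B} (h : hB.rho i b ∈ 𝔪.map (hB.rho i)) : b ∈ 𝔪 := by
  obtain ⟨y, hy, hy1⟩ := (Ideal.mem_map_iff_of_surjective _ (hB.rho_surjective i)).1 h
  have h2 : y - b ∈ hB.P i := by
    rw [P, RingHom.mem_ker, map_sub, hy1, sub_self]
  have h3 := 𝔪.sub_mem hy (hP h2)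
  rwa [sub_sub_cancel] at h3

theorem ufd_of_locGen (hP : hB.P i ≤ 𝔪) (hx : hB.LocGen 𝔪 i x) :
    UniqueFactorizationMonoid L := by
  have := hB.noeth
  have := hB.ded
  have : IsNoetherianRing L := IsLocalization.isNoetherianRing 𝔪.primeCompl L hB.noeth
  have : IsLocalRing L := IsLocalization.AtPrime.isLocalRing L 𝔪
  refine ufd_of_prime (hB.prime_of_locGen hP hx) fun I => ?_
  -- the ideal of `B`
  let I₀ : Ideal B := I.comap (algebraMap B L)
  obtain ⟨p, hp, s, hs, hsp⟩ := ded_local (𝔪.map (hB.rho i)) (hB.map_rho_ne_top hP)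
    (I₀.map (hB.rho i))
  obtain ⟨p, hpI, rfl⟩ := (Ideal.mem_map_iff_of_surjective _ (hB.rho_surjective i)).1 hp
  obtain ⟨s, rfl⟩ := hB.rho_surjective i s
  have hs𝔪 : s ∉ 𝔪 := fun h => hs (Ideal.mem_map_of_mem _ h)
  refine ⟨algebraMap B L p, hpI, fun y hy => ?_⟩
  obtain ⟨y, t, rfl⟩ := IsLocalization.exists_mk'_eq 𝔪.primeCompl y
  have hyI : y ∈ I₀ := by
    change algebraMap B L y ∈ I
    rw [← IsLocalization.mk'_spec L y t]
    exact I.mul_mem_right _ hy
  obtain ⟨b, hb⟩ := hsp _ (Ideal.mem_map_of_mem _ hyI)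
  obtain ⟨b, rfl⟩ := hB.rho_surjective i b
  have h1 : s * y - b * p ∈ hB.P i := by
    rw [P, RingHom.mem_ker, map_sub, map_mul, map_mul, hb, sub_self]
  obtain ⟨s', hs', c, hc⟩ := hx.2.2 _ h1
  have hsu := IsLocalization.map_units L (⟨s' * s, 𝔪.primeCompl.mul_mem hs' hs𝔪⟩ : 𝔪.primeCompl)
  have h2 : algebraMap B L (s' * s) * algebraMap B L y ∈
      Ideal.span {algebraMap B L p} ⊔ Ideal.span {algebraMap B L x} := by
    have h3 : s' * s * y = s' * b * p + c * x := by linear_combination hc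
    rw [← map_mul, h3, map_add, map_mul, map_mul _ c x]
    exact Submodule.add_mem_sup (Ideal.mul_mem_left _ _ (Ideal.mem_span_singleton_self _))
      (Ideal.mul_mem_left _ _ (Ideal.mem_span_singleton_self _))
  have h4 := (Ideal.unit_mul_mem_iff_mem _ hsu).1 h2
  have h5 : algebraMap B L y = IsLocalization.mk' L y t * algebraMap B L t :=
    (IsLocalization.mk'_spec L y t).symm
  rw [h5] at h4
  exact (Ideal.mul_unit_mem_iff_mem _ (IsLocalization.map_units L t)).1 h4

/-- local existence of `m`-th roots, version for the localisation -/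
theorem local_root_aux [UniqueFactorizationMonoid L] (hϖ : (⟨ϖ, hB.ϖ_mem⟩ : B) ∈ 𝔪)
    {m : ℕ} (hm : 0 < m) {u : F} (hu : u ≠ 0)
    (hv : ∀ i, ∃ y : F, y ≠ 0 ∧ (C i).r (u * y ^ m) ≠ 0)
    (hh : ∀ V : ValuationSubring F, (∀ b ∈ B, b ∈ V) → ϖ⁻¹ ∈ V → V ≠ ⊤ →
      ∃ y : F, y ≠ 0 ∧ u * y ^ m ∈ V ∧ (u * y ^ m)⁻¹ ∈ V) :
    ∃ w : F, w ≠ 0 ∧ ∃ v : Lˣ, w ^ m * u = algebraMap L F (v : L) := by
  classical
  have hinj : Function.Injective (algebraMap L F) := IsFractionRing.injective L F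
  have htow : ∀ b : B, algebraMap L F (algebraMap B L b) = (b : F) := fun b => by
    rw [← IsScalarTower.algebraMap_apply B L F]; rfl
  refine local_root hm hu fun p hp => ?_
  by_cases hpϖ : p ∣ algebraMap B L ⟨ϖ, hB.ϖ_mem⟩
  · -- `p` is vertical
    let 𝔭 : Ideal B := (Ideal.span {p}).comap (algebraMap B L)
    have hmem𝔭 : ∀ b : B, b ∈ 𝔭 ↔ p ∣ algebraMap B L b := fun b => by
      rw [Ideal.mem_comap, Ideal.mem_span_singleton]
    obtain ⟨i, hi⟩ : ∃ i, hB.P i ≤ 𝔭 := by
      by_contra hcon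
      push Not at hcon
      choose b hbP hb𝔭 using fun i => Set.not_subset.1 (hcon i)
      obtain ⟨e, he⟩ := hB.nil
      have h1 : ∀ i, (C i).r ((∏ j, b j : B) : F) = 0 := by
        intro i
        rw [← hB.mem_P, ← Finset.mul_prod_erase _ _ (Finset.mem_univ i)]
        exact Ideal.mul_mem_right _ _ (hbP i)
      have h2 := he _ (∏ j, b j).2 h1
      have h3 : (∏ j, b j) ^ e = ⟨ϖ, hB.ϖ_mem⟩ * (⟨_, h2⟩ : B) := by
        apply Subtype.ext
        change _ = ϖ * (((∏ j, b j : B) : F) ^ e * ϖ⁻¹)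
        have := hB.ϖ_ne
        rw [Subring.coe_pow]
        field_simp
      have h4 : p ∣ algebraMap B L (∏ j, b j) := by
        refine hp.dvd_of_dvd_pow (n := e) ?_
        rw [← map_pow, h3, map_mul]
        exact Dvd.dvd.mul_right hpϖ _
      rw [map_prod, hp.dvd_finsetProd_iff] at h4
      obtain ⟨j, _, hj⟩ := h4
      exact hb𝔭 j ((hmem𝔭 _).2 hj)
    -- the ideal of the localisation
    have h𝔭𝔪 : 𝔭 ≤ 𝔪 := by
      intro b hb
      by_contra hb𝔪
      have hu := (IsLocalization.AtPrime.isUnit_to_map_iff L 𝔪 b).2 hb𝔪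
      exact hp.not_isUnit (isUnit_of_dvd_unit ((hmem𝔭 b).1 hb) hu)
    have hPm : hB.P i ≤ 𝔪 := hi.trans h𝔭𝔪
    have hOL : ∀ a : L, algebraMap L F a ∈ (C i).O := by
      intro a
      obtain ⟨a, s, rfl⟩ := IsLocalization.exists_mk'_eq 𝔪.primeCompl a
      have hs : (C i).r ((s : B) : F) ≠ 0 := fun h => s.2 (hPm ((hB.mem_P).2 h))
      have h1 : algebraMap L F (IsLocalization.mk' L a s) = (a : F) * ((s : B) : F)⁻¹ := by
        have h2 := congrArg (algebraMap L F) (IsLocalization.mk'_spec L a s)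
        rw [map_mul, htow, htow] at h2
        have hs0 : ((s : B) : F) ≠ 0 := Res.ne_zero_of_r hs
        rw [← h2]; field_simp
      rw [h1]
      exact mul_mem (hB.le i _ a.2) (Res.inv_mem_of_r hs)
    have hr_nd : ∀ a : L, ¬ p ∣ a → (C i).r (algebraMap L F a) ≠ 0 := by
      intro a ha h0
      obtain ⟨a, s, rfl⟩ := IsLocalization.exists_mk'_eq 𝔪.primeCompl a
      apply ha
      have hsO : algebraMap L F (algebraMap B L s) ∈ (C i).O := hOL _
      have h2 := congrArg (algebraMap L F) (IsLocalization.mk'_spec L a s)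
      rw [map_mul, htow a] at h2
      have h3 : a ∈ hB.P i := by
        rw [hB.mem_P, ← h2, Res.r_mul (hOL _) hsO, h0, zero_mul]
      have h4 : p ∣ algebraMap B L a := (hmem𝔭 a).1 (hi h3)
      rw [← IsLocalization.mk'_spec L a s] at h4
      exact ((IsLocalization.map_units L s).dvd_mul_right).1 h4
    have hrp : (C i).r (algebraMap L F p) = 0 := by
      -- `P i L` contains a prime element
      let Q : Ideal L := (hB.P i).map (algebraMap B L)
      have hQ : Q.IsPrime := IsLocalization.isPrime_of_isPrime_disjoint 𝔪.primeCompl L _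
        (hB.P_prime i) (Set.disjoint_left.2 fun b hb hb' => hb (hPm hb'))
      have hQ0 : Q ≠ ⊥ := by
        intro h
        have h1 : algebraMap B L ⟨ϖ, hB.ϖ_mem⟩ ∈ Q :=
          Ideal.mem_map_of_mem _ ((hB.mem_P).2 (hB.r_ϖ i))
        rw [h, Ideal.mem_bot] at h1
        have h2 := htow ⟨ϖ, hB.ϖ_mem⟩
        rw [h1, map_zero] at h2
        exact hB.ϖ_ne h2.symm
      obtain ⟨p', hp'Q, hp'⟩ := hQ.exists_mem_prime_of_ne_bot hQ0
      have hQp : Q ≤ Ideal.span {p} := by
        rw [Ideal.map_le_iff_le_comap]; exact hi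
      have h1 : p ∣ p' := Ideal.mem_span_singleton.1 (hQp hp'Q)
      have h2 : p' ∣ p := (hp.dvd_prime_iff_associated hp').1 h1 |>.symm.dvd
      have h3 : p ∈ Q := by
        obtain ⟨c, rfl⟩ := h2
        exact Q.mul_mem_right _ hp'Q
      have h4 : Q ≤ RingHom.ker ((C i).res.comp
          (RingHom.codRestrict (algebraMap L F) (C i).O.toSubring hOL)) := by
        rw [Ideal.map_le_iff_le_comap]
        intro b hb
        rw [Ideal.mem_comap, RingHom.mem_ker]
        have h5 := (hB.mem_P).1 hb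
        rw [← htow b, Res.r_of_mem (hOL _)] at h5
        exact h5
      rw [Res.r_of_mem (hOL _)]
      exact h4 h3
    obtain ⟨y, hy0, hy⟩ := hv i
    refine ⟨y, hy0, ?_⟩
    have hf0 : u * y ^ m ≠ 0 := mul_ne_zero hu (pow_ne_zero m hy0)
    obtain ⟨a, b, hb, hab⟩ := IsFractionRing.div_surjective (A := L) (u * y ^ m)
    have hb0 : b ≠ 0 := nonZeroDivisors.ne_zero hb
    have hbF : algebraMap L F b ≠ 0 := fun h => hb0 (hinj (by rw [h, map_zero]))
    have ha0 : a ≠ 0 := by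
      rintro rfl
      rw [map_zero, zero_div] at hab
      exact hf0 hab.symm
    obtain ⟨k, a', ha', rfl⟩ := exists_pow_mul_not_dvd hp ha0
    obtain ⟨l, b', hb', rfl⟩ := exists_pow_mul_not_dvd hp hb0
    have hpF : algebraMap L F p ≠ 0 := fun h => hp.ne_zero (hinj (by rw [h, map_zero]))
    have hkl : k = l := by
      rcases lt_trichotomy k l with h | h | h
      · exfalso
        obtain ⟨d, rfl⟩ := Nat.exists_eq_add_of_lt h
        have h1 : u * y ^ m * (algebraMap L F p * (algebraMap L F (p ^ d * b'))) =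
            algebraMap L F a' := by
          rw [← hab]
          simp only [map_mul, map_pow, pow_add, pow_one] at hbF ⊢
          have : algebraMap L F b' ≠ 0 := right_ne_zero_of_mul hbF
          field_simp
        have h2 := hr_nd a' ha'
        rw [← h1, Res.r_mul (Res.mem_of_r_ne_zero hy) (mul_mem (hOL _) (hOL _)),
          Res.r_mul (hOL _) (hOL _), hrp, zero_mul, mul_zero] at h2
        exact h2 rfl
      · exact h
      · exfalso
        obtain ⟨d, rfl⟩ := Nat.exists_eq_add_of_lt h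
        have h1 : u * y ^ m * algebraMap L F b' =
            algebraMap L F p * (algebraMap L F (p ^ d * a')) := by
          rw [← hab]
          simp only [map_mul, map_pow, pow_add, pow_one] at hbF ⊢
          have : algebraMap L F b' ≠ 0 := right_ne_zero_of_mul hbF
          field_simp
        have h2 := congrArg (C i).r h1
        rw [Res.r_mul (Res.mem_of_r_ne_zero hy) (hOL _), Res.r_mul (hOL _) (hOL _), hrp,
          zero_mul] at h2
        exact mul_ne_zero hy (hr_nd b' hb') h2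
    subst hkl
    refine ⟨a', b', ha', hb', ?_⟩
    rw [← hab]
    simp only [map_mul, map_pow] at hbF ⊢
    have : algebraMap L F b' ≠ 0 := right_ne_zero_of_mul hbF
    field_simp
  · -- `p` is horizontal
    obtain ⟨y, hy0, hy, hy'⟩ := hh (primeVal F p hp)
      (fun b hb => by
        have := algebraMap_mem_primeVal (F := F) hp (algebraMap B L ⟨b, hb⟩)
        rwa [htow] at this)
      (by
        have := inv_mem_primeVal (F := F) hp hpϖ
        rwa [htow] at this)
      (by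
        intro h
        have := inv_notMem_primeVal (F := F) hp
        rw [h] at this
        exact this (ValuationSubring.mem_top _))
    have hf0 : u * y ^ m ≠ 0 := mul_ne_zero hu (pow_ne_zero m hy0)
    exact ⟨y, hy0, exists_of_unit_primeVal hp hy hy' hf0⟩

end Localization

/-- **Local existence of `m`-th roots.** -/
theorem local_root {𝔪 : Ideal B} (h𝔪 : 𝔪.IsMaximal) {i : ι} {x : B} (hP : hB.P i ≤ 𝔪)
    (hx : hB.LocGen 𝔪 i x) (hϖ : (⟨ϖ, hB.ϖ_mem⟩ : B) ∈ 𝔪)
    {m : ℕ} (hm : 0 < m) {u : F} (hu : u ≠ 0)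
    (hv : ∀ i, ∃ y : F, y ≠ 0 ∧ (C i).r (u * y ^ m) ≠ 0)
    (hh : ∀ V : ValuationSubring F, (∀ b ∈ B, b ∈ V) → ϖ⁻¹ ∈ V → V ≠ ⊤ →
      ∃ y : F, y ≠ 0 ∧ u * y ^ m ∈ V ∧ (u * y ^ m)⁻¹ ∈ V) :
    ∃ w : F, w ≠ 0 ∧ ∃ y : B, y ∉ 𝔪 ∧ w ^ m * u = y := by
  have := hB.isFractionRing
  let L := Localization.subalgebra.ofField F 𝔪.primeCompl
    (Ideal.primeCompl_le_nonZeroDivisors 𝔪)
  have : IsLocalization.AtPrime L 𝔪 :=
    Localization.subalgebra.isLocalization_ofField F _ _
  have : IsFractionRing L F := Localization.subalgebra.isFractionRing_ofField F _ _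
  have : UniqueFactorizationMonoid L := hB.ufd_of_locGen (L := L) hP hx
  obtain ⟨w, hw0, v, hv⟩ := hB.local_root_aux (L := L) hϖ hm hu hv hh
  obtain ⟨a, s, hs⟩ := IsLocalization.exists_mk'_eq 𝔪.primeCompl (v : L)
  have htow : ∀ b : B, algebraMap L F (algebraMap B L b) = (b : F) := fun b => by
    rw [← IsScalarTower.algebraMap_apply B L F]; rfl
  have h1 : w ^ m * u * ((s : B) : F) = (a : F) := by
    rw [hv, ← htow s, ← map_mul, ← hs, IsLocalization.mk'_spec, htow]
  have ha : a ∉ 𝔪 := by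
    have : IsUnit (IsLocalization.mk' L a s) := by rw [hs]; exact v.isUnit
    exact (IsLocalization.AtPrime.isUnit_mk'_iff L 𝔪 a s).1 this
  have hs0 : ((s : B) : F) ≠ 0 := by
    intro h
    apply s.2
    have : (s : B) = 0 := Subtype.ext h
    rw [this]; exact 𝔪.zero_mem
  refine ⟨(s : B) * w, mul_ne_zero hs0 hw0, (s : B) ^ (m - 1) * a, ?_, ?_⟩
  · intro h
    rcases h𝔪.isPrime.mem_or_mem h with h | h
    · exact s.2 (h𝔪.isPrime.mem_of_pow_mem _ h)
    · exact ha h
  · rw [Subring.coe_mul, Subring.coe_pow, ← h1]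
    obtain ⟨k, rfl⟩ := Nat.exists_eq_succ_of_ne_zero hm.ne'
    rw [Nat.succ_sub_one, mul_pow, pow_succ, pow_succ]
    ring

end Chart

end Fermat.Agent.Carayol
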