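import Fermat.Agent.Carayol.Gen1
import Fermat.Agent.Carayol.Interface
import Mathlib.FieldTheory.Relrank

/-!
# Norms and embeddings
-/

set_option autoImplicit false
set_option linter.unusedSectionVars false
set_option linter.style.haveILetI false

noncomputable section

namespace Fermat.Agent.Carayol

open ModularCurve Fermat.Agent.GoodRed Fermat.Agent.ModFun Fermat.Agent.GenusX0
open Fermat.Agent.Models IsLocalRing Polynomial IntermediateField Fermat.Agent.SSMod
open AlgebraicCurve Fermat.Agent.Curves

/-- the norm is the product over the embeddings -/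
theorem norm_eq_prod {E F L : Type*} [Field E] [Field F] [Field L] [CharZero E] (f : E →+* F)
    {n : ℕ} (hn : 0 < n) (hf : @Module.finrank E F _ _ f.toAlgebra.toModule = n) (g : E →+* L)
    (e : Fin n → (F →+* L)) (he : ∀ i, (e i).comp f = g) (hinj : Function.Injective e) (x : F) :
    g (normAlong f x) = ∏ i, e i x := by
  classical
  letI := f.toAlgebra
  let j : L →+* AlgebraicClosure L := algebraMap L (AlgebraicClosure L)
  letI : Algebra E (AlgebraicClosure L) := (j.comp g).toAlgebra
  haveI : FiniteDimensional E F := Module.finite_of_finrank_pos (by rw [hf]; exact hn)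
  let a : Fin n → (F →ₐ[E] AlgebraicClosure L) := fun i =>
    { toRingHom := j.comp (e i)
      commutes' := fun r => by
        change j ((e i) (f r)) = j (g r)
        rw [← he i]; rfl }
  have ha : Function.Injective a := by
    intro i i' h
    apply hinj
    apply RingHom.ext
    intro y
    have h1 := congrArg (fun φ : F →ₐ[E] AlgebraicClosure L => φ y) h
    exact j.injective h1
  have hbij : Function.Bijective a := by
    rw [Fintype.bijective_iff_injective_and_card]
    refine ⟨ha, ?_⟩
    rw [AlgHom.card, Fintype.card_fin, hf]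
  apply j.injective
  have h1 := Algebra.norm_eq_prod_embeddings (K := E) (L := F) (AlgebraicClosure L) x
  rw [map_prod]
  refine h1.trans ?_
  exact (Fintype.prod_bijective a hbij (fun i => j (e i x)) (fun σ => σ x) fun i => rfl).symm

/-- the degree of `X₀(q²M') → X₀(qM')` -/
theorem finrank_inc {k : Type*} [Field k] [CharZero k] {q M' : ℕ} [NeZero q] [NeZero M']
    (hq : q.Prime) (hM : Nat.Coprime q M') :
    @Module.finrank (FF k (q * M')) (FF k (q ^ 2 * M')) _ _
      (inc k (h_inc (q := q) (M' := M'))).toAlgebra.toModule = q := by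
  letI := (inc k (h_inc (q := q) (M' := M'))).toAlgebra
  have hle : FF k (q * M') ≤ FF k (q ^ 2 * M') := FF_mono k h_inc
  have h1 : Module.finrank (FF k (q * M')) (FF k (q ^ 2 * M')) =
      relfinrank (FF k (q * M')) (FF k (q ^ 2 * M')) := by
    rw [relfinrank_eq_finrank_of_le hle]
    refine Algebra.finrank_eq_of_equiv_equiv (RingEquiv.refl _)
      { toFun := fun x => ⟨x.1, x.2⟩
        invFun := fun x => ⟨x.1, x.2⟩
        left_inv := fun _ => rfl
        right_inv := fun _ => rfl
        map_mul' := fun _ _ => rfl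
        map_add' := fun _ _ => rfl } ?_
    ext x
    rfl
  have hjle : k⟮jqModC k⟯ ≤ FF k (q * M') := by
    rw [adjoin_simple_le_iff]
    exact jqModC_mem_full k (q * M')
  have h2 := relfinrank_mul_relfinrank hjle hle
  have e1 := degN_eq' (k := k) (q * M')
  have e2 := degN_eq' (k := k) (q ^ 2 * M')
  have n1 : ((q * M' : ℕ) : k) ≠ 0 := by
    exact_mod_cast mul_ne_zero (NeZero.ne q) (NeZero.ne M')
  have n2 : ((q ^ 2 * M' : ℕ) : k) ≠ 0 := by
    exact_mod_cast mul_ne_zero (pow_ne_zero 2 (NeZero.ne q)) (NeZero.ne M')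
  rw [degN_eq_psi k _ n1] at e1
  rw [degN_eq_psi k _ n2] at e2
  have hqM : ¬ q ∣ M' := (Nat.Prime.coprime_iff_not_dvd hq).1 hM
  have s1 := dedekindPsi_step q hq 1 M' hqM
  rw [if_neg one_ne_zero, pow_one] at s1
  rw [h1]
  have h3 : dedekindPsi (q * M') * relfinrank (FF k (q * M')) (FF k (q ^ 2 * M')) =
      dedekindPsi (q * M') * q := by
    rw [← s1, e1, e2]
    exact h2
  exact Nat.eq_of_mul_eq_mul_left (Nat.pos_of_ne_zero
    (dedekindPsi_pos (mul_ne_zero (NeZero.ne q) (NeZero.ne M')))) h3

end Fermat.Agent.Carayol
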