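import Fermat.Agent.Carayol.Norm

/-!
# The norm to level `qM'`
-/

set_option autoImplicit false
set_option linter.unusedSectionVars false
set_option linter.style.haveILetI false

noncomputable section

namespace Fermat.Agent.Carayol

open ModularCurve Fermat.Agent.GoodRed Fermat.Agent.ModFun Fermat.Agent.GenusX0
open Fermat.Agent.Models IsLocalRing Polynomial IntermediateField Fermat.Agent.SSMod
open AlgebraicCurve Fermat.Agent.Curves

section LRG

variable {K κ : Type*} [Field K] [Field κ] {A : ValuationSubring K} {π : A →+* κ}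

theorem LR_galois {τ : K →+* K} (hτ : ∀ a : A, ∃ h : τ a ∈ A, π ⟨τ a, h⟩ = π a)
    {x : LaurentSeries K} {y : LaurentSeries κ} (h : LR π x y) : LR π (coeffMap τ x) y := by
  obtain ⟨f, g, hg, hx, hy⟩ := h
  let τA : A →+* A := RingHom.codRestrict (τ.comp A.subtype) A fun a => (hτ a).1
  have h1 : π.comp τA = π := RingHom.ext fun a => (hτ a).2
  have h2 : (A.subtype : A →+* K).comp τA = τ.comp A.subtype := RingHom.ext fun a => rfl
  refine ⟨coeffMap τA f, coeffMap τA g, ?_, ?_, ?_⟩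
  · rw [coeffMap_coeffMap, h1]; exact hg
  · rw [coeffMap_coeffMap, coeffMap_coeffMap, h2, ← coeffMap_coeffMap, ← coeffMap_coeffMap,
      ← map_mul, hx]
  · rw [coeffMap_coeffMap, coeffMap_coeffMap, h1, hy]

theorem LR_prod {I : Type*} (s : Finset I) {x : I → LaurentSeries K} {y : I → LaurentSeries κ}
    (h : ∀ i, LR π (x i) (y i)) : LR π (∏ i ∈ s, x i) (∏ i ∈ s, y i) := by
  classical
  induction s using Finset.induction_on with
  | empty => rw [Finset.prod_empty, Finset.prod_empty]; exact LR.one _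
  | insert a s ha ih =>
    rw [Finset.prod_insert ha, Finset.prod_insert ha]
    exact (h a).mul ih

end LRG

theorem fin_val_zero {q : ℕ} [NeZero q] : ((0 : Fin q) : ℕ) = 0 := Nat.zero_mod q

theorem prod_fin_ite {q : ℕ} [NeZero q] {L : Type*} [CommMonoid L] (a b : L) :
    ∏ i : Fin q, (if i = 0 then a else b) = a * b ^ (q - 1) := by
  rw [← Finset.mul_prod_erase Finset.univ _ (Finset.mem_univ (0 : Fin q)), if_pos rfl]
  congr 1
  rw [Finset.prod_congr rfl (g := fun _ => b) (fun i hi => if_neg (Finset.ne_of_mem_erase hi)),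
    Finset.prod_const, Finset.card_erase_of_mem (Finset.mem_univ _), Finset.card_univ,
    Fintype.card_fin]

theorem norm_mul {E F : Type*} [Field E] [Field F] (f : E →+* F) (x y : F) :
    normAlong f (x * y) = normAlong f x * normAlong f y := by
  letI := f.toAlgebra
  exact map_mul (Algebra.norm E) x y

theorem norm_one {E F : Type*} [Field E] [Field F] (f : E →+* F) : normAlong f 1 = 1 := by
  letI := f.toAlgebra
  exact map_one (Algebra.norm E)

namespace Sit

variable {k₀ K κ : Type} [Field k₀] [Field K] [Field κ] [Algebra k₀ K] {q M' : ℕ}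
  [NeZero q] [NeZero M'] (S : Sit k₀ K κ q M')

theorem exists_sg (i : ℕ) (hi : ¬ q ∣ i) :
    ∃ s : FF K (q ^ 2 * M') →+* LaurentSeries K, IsSig (S.ζ ^ i) s := by
  have hcop : Nat.Coprime i q := ((Nat.Prime.coprime_iff_not_dvd S.hq).2 hi).symm
  obtain ⟨s', h1, h2, h3⟩ := exists_sig (K := K) (M' := M') S.ι S.hq S.hM (S.ζ ^ i) (by
    rw [Units.val_pow_eq_pow_val]; exact S.hζ.pow_of_coprime i hcop)
  exact ⟨s', h1, h2, h3⟩

/-- the embeddings of level `q²M'` over level `qM'` -/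
def sg (i : ℕ) : FF K (q ^ 2 * M') →+* LaurentSeries K :=
  if h : q ∣ i then algebraMap _ _ else (S.exists_sg i h).choose

theorem sg_dvd {i : ℕ} (h : q ∣ i) (x : FF K (q ^ 2 * M')) : S.sg i x = x := by
  rw [sg, dif_pos h]; rfl

theorem sg_spec {i : ℕ} (h : ¬ q ∣ i) : IsSig (S.ζ ^ i) (S.sg i) := by
  rw [sg, dif_neg h]
  exact (S.exists_sg i h).choose_spec

theorem sg_inc (i : ℕ) (f : FF K (q * M')) : S.sg i (inc K h_inc f) = f := by
  by_cases h : q ∣ i
  · rw [S.sg_dvd h, coe_inc]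
  · exact (S.sg_spec h).inc f _

theorem coeff_twist_j (i : ℕ) : (twist (S.ζ ^ i) (jqModC K)).coeff (-1) = (S.ζ : K)⁻¹ ^ i := by
  rw [twist_coeff, ModularCurve.coeff_jqModC_neg_one, mul_one, zpow_neg, zpow_one, inv_pow]
  push_cast
  rfl

theorem pow_inv_inj {i j : ℕ} (hi : i < q) (hj : j < q)
    (h : (S.ζ : K)⁻¹ ^ i = (S.ζ : K)⁻¹ ^ j) : i = j := S.hζ.inv.pow_inj hi hj h

theorem sg_inj {k : Type} [Field k] (f : k →+* K) :
    Function.Injective fun i : Fin q => (S.sg i).comp (bc f (q ^ 2 * M')) := by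
  have hc : ∀ i : Fin q, (S.sg i (jK2 K q M')).coeff (-1) =
      if i = 0 then 0 else (S.ζ : K)⁻¹ ^ (i : ℕ) := by
    intro i
    split_ifs with h
    · subst h
      rw [S.sg_dvd (by simp), coe_jel, qExpand_coeff_of_not_dvd]
      intro hd
      have h1 := Int.natAbs_dvd_natAbs.2 hd
      simp only [Int.natAbs_natCast, Int.natAbs_neg, Int.natAbs_one, Nat.dvd_one] at h1
      have := S.hq.two_le
      have h2 : 2 ^ 2 ≤ q ^ 2 := Nat.pow_le_pow_left this 2
      omega
    · have hi : ¬ q ∣ (i : ℕ) := fun hd => h (by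
        apply Fin.ext
        rw [fin_val_zero]
        exact Nat.eq_zero_of_dvd_of_lt hd i.2)
      haveI : NeZero (1 : ℕ) := ⟨one_ne_zero⟩
      rw [(S.sg_spec hi).gen2 1 (q ^ 2) _ (one_dvd _) (mul_one _).symm, qExpand_one_apply,
        coeff_twist_j]
  intro i i' h
  have h1 : S.sg i (jK2 K q M') = S.sg i' (jK2 K q M') := by
    have := congrArg (fun φ : FF k (q ^ 2 * M') →+* LaurentSeries K =>
      φ (jel k (q ^ 2) (Dvd.intro _ rfl))) h
    simp only [RingHom.comp_apply] at this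
    rwa [bc_jel] at this
  have h2 : (S.sg i (jK2 K q M')).coeff (-1) = (S.sg i' (jK2 K q M')).coeff (-1) := by rw [h1]
  rw [hc, hc] at h2
  have hne : ∀ n : ℕ, (S.ζ : K)⁻¹ ^ n ≠ 0 := fun n => pow_ne_zero n (inv_ne_zero S.ζ.ne_zero)
  split_ifs at h2 with h3 h4 h4
  · rw [h3, h4]
  · exact absurd h2.symm (hne _)
  · exact absurd h2 (hne _)
  · exact Fin.ext (S.pow_inv_inj i.2 i'.2 h2)

/-- **the expansion of the norm** -/
theorem coe_norm {k : Type} [Field k] [CharZero k] (f : k →+* K) (x : FF k (q ^ 2 * M')) :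
    ((bc f (q * M') (normAlong (inc k h_inc) x) : FF K (q * M')) : LaurentSeries K) =
      ∏ i : Fin q, S.sg i (bc f _ x) := by
  refine norm_eq_prod (inc k (h_inc (q := q) (M' := M'))) S.hq.pos (finrank_inc S.hq S.hM)
    ((algebraMap (FF K (q * M')) (LaurentSeries K)).comp (bc f (q * M')))
    (fun i : Fin q => (S.sg i).comp (bc f (q ^ 2 * M'))) (fun i => ?_) (S.sg_inj f) x
  apply RingHom.ext
  intro y
  have h1 : bc f (q ^ 2 * M') (inc k h_inc y) = inc K h_inc (bc f (q * M') y) := by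
    apply Subtype.ext
    rw [coe_bc, coe_inc, coe_inc, coe_bc]
  rw [RingHom.comp_apply, RingHom.comp_apply, h1, sg_inc]
  rfl

/-- the norm commutes with base change -/
theorem bc_norm (x : S.F) : bc S.cK (q * M') (normAlong (inc k₀ h_inc) x) =
    normAlong (inc K h_inc) (S.bK x) := by
  haveI := S.charZeroK
  haveI := S.charZero₀
  apply Subtype.ext
  rw [S.coe_norm S.cK x]
  have h := S.coe_norm (RingHom.id K) (S.bK x)
  have e : ∀ (N : ℕ) (y : FF K N), bc (RingHom.id K) N y = y := by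
    intro N y
    apply Subtype.ext
    rw [coe_bc]
    ext n
    rw [coeffMap_coeff]; rfl
  rw [e, e] at h
  exact h.symm

/-- Galois automorphisms -/
def HasGal : Prop := ∀ i : ℕ, ¬ q ∣ i → ∃ τ : K →+* K,
  (∀ c : k₀, τ (algebraMap k₀ K c) = algebraMap k₀ K c) ∧ τ S.ζ = (S.ζ : K) ^ i ∧
  ∀ a : S.A, ∃ h : τ a ∈ S.A, S.π ⟨τ a, h⟩ = S.π a

section Gal

variable {S} (hG : S.HasGal)

include hG in
theorem R_sg {i : ℕ} (hi : ¬ q ∣ i) {x : S.F} {y : LaurentSeries κ} (h : (S.P 1).R x y) :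
    LR S.π (S.sg i (S.bK x)) y := by
  obtain ⟨τ, h1, h2, h3⟩ := hG i hi
  have h4 : Units.map (τ : K →* K) S.ζ = S.ζ ^ i := by
    ext
    push_cast
    exact h2
  have h5 := S.hs.galois S.hq τ S.cK h1 (s' := S.sg i) (by rw [h4]; exact S.sg_spec hi) x
  rw [← h5]
  exact LR_galois h3 h

include hG in
theorem R1_w {x : S.F} {y : LaurentSeries κ} (h : (S.P 1).R x y) : (S.P 1).R (S.w x) y := by
  haveI : Fact q.Prime := ⟨S.hq⟩
  haveI := S.charZeroK
  haveI : IsAlgClosed K := S.acK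
  obtain ⟨w', hw'⟩ := S.exists_wK
  have hq2 := S.hq.two_le
  have hi : ¬ q ∣ q - 1 := fun hd => by
    have := Nat.le_of_dvd (by omega) hd
    omega
  have hζq : S.ζ ^ q = 1 := Units.ext (by push_cast; exact S.hζ.pow_eq_one)
  have h1 : S.ζ ^ (q - 1) = S.ζ⁻¹ := by
    rw [eq_inv_iff_mul_eq_one, ← pow_succ, Nat.sub_add_cancel (by omega), hζq]
  have h2 : IsSig S.ζ⁻¹ (S.sg (q - 1)) := by
    rw [← h1]; exact S.sg_spec hi
  rw [P_R, φ1]
  change LR S.π (S.s (bc S.cK _ (S.w x))) y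
  rw [S.hw.bc S.hq hw', S.hs.comp_w S.hq hζq h2 hw']
  exact S.R_twist (R_sg hG hi h)

include hG in
theorem R1_w_iff {x : S.F} {y : LaurentSeries κ} : (S.P 1).R (S.w x) y ↔ (S.P 1).R x y :=
  ⟨fun h => by have := R1_w hG h; rwa [w_w] at this, R1_w hG⟩

end Gal

/-- the norm map -/
def NmA : S.F →* S.F where
  toFun x := inc k₀ h_inc (normAlong (inc k₀ h_inc) x)
  map_one' := by rw [norm_one, map_one]
  map_mul' x y := by rw [norm_mul, map_mul]

theorem NmA_apply (x : S.F) : S.NmA x = inc k₀ h_inc (normAlong (inc k₀ h_inc) x) := rfl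

/-- the second norm map -/
def NmB : S.F →* S.F where
  toFun x := S.w (S.NmA (S.w x))
  map_one' := by rw [map_one, map_one, map_one]
  map_mul' x y := by rw [map_mul, map_mul, map_mul]

theorem NmB_apply (x : S.F) : S.NmB x = S.w (S.NmA (S.w x)) := rfl

theorem φ0_NmA (x : S.F) : S.φ 0 (S.NmA x) = ∏ i : Fin q, S.sg i (S.bK x) := by
  haveI := S.charZero₀
  rw [← S.coe_norm S.cK x, φ0, NmA_apply, coe_inc, coe_bc]

theorem φ1_NmA (x : S.F) : S.φ 1 (S.NmA x) = S.φ 0 (S.NmA x) := by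
  rw [φ1, φ0, NmA_apply]
  have h1 : ∀ y : FF k₀ (q * M'), bc S.cK (q ^ 2 * M') (inc k₀ h_inc y) =
      inc K h_inc (bc S.cK (q * M') y) := by
    intro y
    apply Subtype.ext
    rw [coe_bc, coe_inc, coe_inc, coe_bc]
  rw [h1, S.hs.inc, coe_bc, coe_inc]

theorem R0_NmA (hG : S.HasGal) {x : S.F} {y₀ y₁ : LaurentSeries κ} (h₀ : (S.P 0).R x y₀)
    (h₁ : (S.P 1).R x y₁) : (S.P 0).R (S.NmA x) (y₀ * y₁ ^ (q - 1)) := by
  rw [P_R, φ0_NmA, ← prod_fin_ite (q := q) y₀ y₁]
  refine LR_prod _ fun i => ?_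
  split_ifs with h
  · subst h
    rw [S.sg_dvd (by simp)]
    exact h₀
  · refine R_sg hG (fun hd => h (Fin.ext ?_)) h₁
    rw [fin_val_zero]
    exact Nat.eq_zero_of_dvd_of_lt hd i.2

theorem R1_NmA {x : S.F} {z : LaurentSeries κ} (h : (S.P 0).R (S.NmA x) z) :
    (S.P 1).R (S.NmA x) z := by
  rw [P_R, φ1_NmA]; exact h

/-- the second expansion -/
theorem φ2_NmA (x : S.F) : S.φ 2 (S.NmA x) = ∏ i : Fin q, twist (S.ζ ^ (i : ℕ)) (S.φ 2 x) := by
  haveI := S.charZero₀
  have hζq : S.ζ ^ q = 1 := Units.ext (by push_cast; exact S.hζ.pow_eq_one)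
  refine norm_eq_prod (inc k₀ (h_inc (q := q) (M' := M'))) S.hq.pos (finrank_inc S.hq S.hM)
    ((S.φ 2).comp (inc k₀ h_inc)) (fun i : Fin q => (twist (S.ζ ^ (i : ℕ))).comp (S.φ 2))
    (fun i => ?_) ?_ x
  · apply RingHom.ext
    intro y
    rw [RingHom.comp_apply, RingHom.comp_apply, RingHom.comp_apply, φ2, φ0]
    obtain ⟨z, hz⟩ := S.hw.inc_q S.hq y h_inc
    rw [hz, coeffMap_qExpand, twist_qExpand]
    rw [← pow_mul, mul_comm, pow_mul, hζq, one_pow]
  · intro i i' h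
    have h1 : twist (S.ζ ^ (i : ℕ)) (S.φ 2 S.j2) = twist (S.ζ ^ (i' : ℕ)) (S.φ 2 S.j2) :=
      congrArg (fun φ : S.F →+* LaurentSeries K => φ S.j2) h
    have e : S.φ 2 S.j2 = jqModC K := by
      rw [φ2, w_j2, φ0, coe_jel, coeffMap_gen', qExpand_one_apply]
    rw [e] at h1
    have h2 : (twist (S.ζ ^ (i : ℕ)) (jqModC K)).coeff (-1) =
        (twist (S.ζ ^ (i' : ℕ)) (jqModC K)).coeff (-1) := by rw [h1]
    rw [coeff_twist_j, coeff_twist_j] at h2
    exact Fin.ext (S.pow_inv_inj i.2 i'.2 h2)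

theorem R2_NmA {x : S.F} {y : LaurentSeries κ} (h : (S.P 2).R x y) :
    (S.P 2).R (S.NmA x) (y ^ q) := by
  have hy : y ^ q = ∏ _i : Fin q, y := by rw [Finset.prod_const, Finset.card_univ, Fintype.card_fin]
  rw [P_R, φ2_NmA, hy]
  refine LR_prod _ fun i => ?_
  have hpow : ∀ n : ℕ, LR S.π (twist (S.ζ ^ n) (S.φ 2 x)) y := by
    intro n
    induction n with
    | zero => rw [pow_zero, twist_one]; exact h
    | succ n ih =>
      rw [pow_succ', ← twist_twist]
      exact S.R_twist ih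
  exact hpow i

end Sit

end Fermat.Agent.Carayol
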