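import Fermat.Agent.Carayol.Norm3

/-!
# Orders along the components, and descent of `m`-th powers
-/

set_option autoImplicit false
set_option linter.unusedSectionVars false
set_option linter.style.haveILetI false

noncomputable section

namespace Fermat.Agent.Carayol

open ModularCurve Fermat.Agent.GoodRed Fermat.Agent.ModFun Fermat.Agent.GenusX0
open Fermat.Agent.Models IsLocalRing Polynomial IntermediateField Fermat.Agent.SSMod
open AlgebraicCurve Fermat.Agent.Curves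

section Ord

variable {F 𝓕 : Type*} [Field F] [Field 𝓕]

/-- `x` has order `n` with respect to `ϖ` -/
def IsOrd (C : Res F 𝓕) (ϖ x : F) (n : ℤ) : Prop := C.r (x * ϖ ^ (-n)) ≠ 0

variable {C : Res F 𝓕} {ϖ : F} (hϖ0 : ϖ ≠ 0) (hr : C.r ϖ = 0)

theorem isOrd_zero {x : F} : IsOrd C ϖ x 0 ↔ C.r x ≠ 0 := by
  rw [IsOrd, neg_zero, zpow_zero, mul_one]

theorem IsOrd.ne_zero {x : F} {n : ℤ} (h : IsOrd C ϖ x n) : x ≠ 0 := by
  rintro rfl
  rw [IsOrd, zero_mul, Res.r_zero] at h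
  exact h rfl

include hϖ0

theorem IsOrd.mul {x y : F} {n k : ℤ} (h : IsOrd C ϖ x n) (h' : IsOrd C ϖ y k) :
    IsOrd C ϖ (x * y) (n + k) := by
  have h1 := Res.r_mul_ne_zero h h'
  have e : x * ϖ ^ (-n) * (y * ϖ ^ (-k)) = x * y * ϖ ^ (-(n + k)) := by
    rw [neg_add, zpow_add₀ hϖ0]; ring
  rwa [e] at h1

omit hϖ0 in
theorem IsOrd.inv {x : F} {n : ℤ} (h : IsOrd C ϖ x n) : IsOrd C ϖ x⁻¹ (-n) := by
  have h1 := Res.r_inv_ne_zero h
  have e : (x * ϖ ^ (-n))⁻¹ = x⁻¹ * ϖ ^ (-(-n)) := by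
    rw [mul_inv, zpow_neg ϖ (-n)]
  rwa [e] at h1

theorem IsOrd.pow {x : F} {n : ℤ} (h : IsOrd C ϖ x n) (k : ℕ) : IsOrd C ϖ (x ^ k) (k * n) := by
  induction k with
  | zero => rw [pow_zero, Nat.cast_zero, zero_mul, isOrd_zero, Res.r_one]; exact one_ne_zero
  | succ k ih =>
    rw [pow_succ]
    have := ih.mul hϖ0 h
    convert this using 1
    push_cast; ring

theorem IsOrd.zpow {x : F} {n : ℤ} (h : IsOrd C ϖ x n) (k : ℤ) : IsOrd C ϖ (x ^ k) (k * n) := by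
  obtain ⟨k, rfl | rfl⟩ := Int.eq_nat_or_neg k
  · rw [zpow_natCast]; exact h.pow hϖ0 k
  · rw [zpow_neg, zpow_natCast]
    have := (h.pow hϖ0 k).inv
    convert this using 1
    ring

theorem isOrd_self (k : ℤ) : IsOrd C ϖ (ϖ ^ k) k := by
  rw [IsOrd, ← zpow_add₀ hϖ0, add_neg_cancel, zpow_zero, Res.r_one]
  exact one_ne_zero

theorem isOrd_self_one : IsOrd C ϖ ϖ 1 := by
  have := isOrd_self (C := C) hϖ0 1
  rwa [zpow_one] at this

include hr

theorem IsOrd.unique {x : F} {n k : ℤ} (h : IsOrd C ϖ x n) (h' : IsOrd C ϖ x k) : n = k := by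
  wlog hlt : n < k generalizing n k with H
  · rcases lt_trichotomy n k with h1 | h1 | h1
    · exact absurd h1 hlt
    · exact h1
    · exact (H h' h h1).symm
  exfalso
  apply h
  obtain ⟨m, hm⟩ : ∃ m : ℕ, k - n = m + 1 := ⟨(k - n - 1).toNat, by omega⟩
  have hϖm : ϖ ∈ C.O := by
    rcases C.O.mem_or_inv_mem ϖ with h1 | h1
    · exact h1
    · by_contra h2
      have h3 : ϖ⁻¹ ≠ 0 := inv_ne_zero hϖ0
      have h4 := Res.r_inv_of_notMem h2
      -- `ϖ` is not in `O`, the order of `x` is contradictory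
      have h5 : x * ϖ ^ (-k) = x * ϖ ^ (-n) * ϖ⁻¹ ^ (m + 1) := by
        rw [mul_assoc, ← zpow_natCast ϖ⁻¹, inv_zpow', ← zpow_add₀ hϖ0]
        congr 2
        push_cast
        linarith
      apply h'
      rw [h5, Res.r_mul (Res.mem_of_r_ne_zero h) (pow_mem h1 _), Res.r_pow h1, h4,
        zero_pow (Nat.succ_ne_zero _), mul_zero]
  have h5 : x * ϖ ^ (-n) = x * ϖ ^ (-k) * ϖ ^ (m + 1) := by
    rw [mul_assoc, ← zpow_natCast ϖ, ← zpow_add₀ hϖ0]
    congr 2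
    push_cast
    linarith
  rw [h5, Res.r_mul (Res.mem_of_r_ne_zero h') (pow_mem hϖm _), Res.r_pow hϖm, hr,
    zero_pow (Nat.succ_ne_zero _), mul_zero]

/-- existence of orders -/
theorem exists_isOrd (hϖm : ϖ ∈ C.O) {U : F} (hU0 : U ≠ 0) {e d : ℕ}
    (hdiv : ∀ x ∈ C.O, C.r x = 0 → U⁻¹ * x ∈ C.O) (hUe : IsOrd C ϖ (U ^ d) e) (he : 0 < e)
    (hpow : ∀ x : F, ∃ N : ℕ, ϖ ^ N * x ∈ C.O) {x : F} (hx : x ≠ 0) :
    ∃ n : ℤ, IsOrd C ϖ (x ^ d) n := by
  obtain ⟨N, hN⟩ := hpow x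
  obtain ⟨N', hN'⟩ := hpow x⁻¹
  -- the first non-zero residue
  have h1 : ∃ k : ℕ, U⁻¹ ^ k * (ϖ ^ N * x) ∈ C.O ∧ C.r (U⁻¹ ^ k * (ϖ ^ N * x)) ≠ 0 := by
    by_contra hcon
    push Not at hcon
    have h2 : ∀ k : ℕ, U⁻¹ ^ k * (ϖ ^ N * x) ∈ C.O := by
      intro k
      induction k with
      | zero => rw [pow_zero, one_mul]; exact hN
      | succ k ih =>
        rw [pow_succ', mul_assoc]
        exact hdiv _ ih (hcon k ih)
    have h3 := mul_mem (h2 (d * (N + N' + 1))) hN'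
    have h4 : (U ^ d * ϖ ^ (-(e : ℤ))) ^ (N + N' + 1) ∈ C.O :=
      pow_mem (Res.mem_of_r_ne_zero hUe) _
    have h5 := mul_mem h3 h4
    have e1 : U⁻¹ ^ (d * (N + N' + 1)) * (ϖ ^ N * x) * (ϖ ^ N' * x⁻¹) *
        (U ^ d * ϖ ^ (-(e : ℤ))) ^ (N + N' + 1) = ϖ ^ (N + N') * ϖ⁻¹ ^ (e * (N + N' + 1)) := by
      have a1 : U⁻¹ ^ (d * (N + N' + 1)) * (U ^ d) ^ (N + N' + 1) = 1 := by
        rw [← pow_mul, ← mul_pow, inv_mul_cancel₀ hU0, one_pow]
      have a2 : (ϖ ^ (-(e : ℤ))) ^ (N + N' + 1) = ϖ⁻¹ ^ (e * (N + N' + 1)) := by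
        rw [zpow_neg, zpow_natCast, pow_mul, ← inv_pow]
      rw [mul_pow, a2]
      have a3 : x * x⁻¹ = 1 := mul_inv_cancel₀ hx
      calc _ = (U⁻¹ ^ (d * (N + N' + 1)) * (U ^ d) ^ (N + N' + 1)) * (x * x⁻¹) *
            (ϖ ^ N * ϖ ^ N') * ϖ⁻¹ ^ (e * (N + N' + 1)) := by ring
        _ = _ := by rw [a1, a3, one_mul, one_mul, pow_add]
    rw [e1] at h5
    have h6 : ϖ⁻¹ ∈ C.O := by
      obtain ⟨g, hg⟩ : ∃ g, e * (N + N' + 1) = (N + N') + 1 + g := by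
        refine ⟨e * (N + N' + 1) - (N + N' + 1), ?_⟩
        have : N + N' + 1 ≤ e * (N + N' + 1) := Nat.le_mul_of_pos_left _ he
        omega
      have e2 : ϖ⁻¹ = ϖ ^ (N + N') * ϖ⁻¹ ^ (e * (N + N' + 1)) * ϖ ^ g := by
        have hg' : ϖ⁻¹ ^ (e * (N + N' + 1)) = ϖ⁻¹ ^ (N + N') * ϖ⁻¹ * ϖ⁻¹ ^ g := by
          rw [hg, pow_add, pow_succ]
        rw [hg']
        have b1 : ϖ ^ (N + N') * ϖ⁻¹ ^ (N + N') = 1 := by
          rw [← mul_pow, mul_inv_cancel₀ hϖ0, one_pow]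
        have b2 : ϖ⁻¹ ^ g * ϖ ^ g = 1 := by
          rw [← mul_pow, inv_mul_cancel₀ hϖ0, one_pow]
        calc ϖ⁻¹ = (ϖ ^ (N + N') * ϖ⁻¹ ^ (N + N')) * ϖ⁻¹ * (ϖ⁻¹ ^ g * ϖ ^ g) := by
              rw [b1, b2, one_mul, mul_one]
          _ = _ := by ring
      rw [e2]
      exact mul_mem h5 (pow_mem hϖm _)
    have h7 := Res.r_mul hϖm h6
    rw [mul_inv_cancel₀ hϖ0, Res.r_one, hr, zero_mul] at h7
    exact one_ne_zero h7
  obtain ⟨k, -, hk⟩ := h1
  have h2 : IsOrd C ϖ ((U⁻¹ ^ k * (ϖ ^ N * x)) ^ d) (d * 0) :=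
    (isOrd_zero.2 hk).pow hϖ0 d
  have h3 : IsOrd C ϖ ((U ^ d) ^ k) (k * e) := hUe.pow hϖ0 k
  have h4 : IsOrd C ϖ (ϖ ^ (-((N * d : ℕ) : ℤ))) (-((N * d : ℕ) : ℤ)) := isOrd_self hϖ0 _
  have h5 := (h2.mul hϖ0 h3).mul hϖ0 h4
  have e1 : (U⁻¹ ^ k * (ϖ ^ N * x)) ^ d * (U ^ d) ^ k * ϖ ^ (-((N * d : ℕ) : ℤ)) = x ^ d := by
    have a1 : (U⁻¹ ^ k) ^ d * (U ^ d) ^ k = 1 := by
      rw [← pow_mul, ← pow_mul, mul_comm k, ← mul_pow, inv_mul_cancel₀ hU0, one_pow]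
    have a2 : (ϖ ^ N) ^ d * ϖ ^ (-((N * d : ℕ) : ℤ)) = 1 := by
      rw [← pow_mul, zpow_neg, zpow_natCast, mul_inv_cancel₀ (pow_ne_zero _ hϖ0)]
    rw [mul_pow, mul_pow]
    calc _ = ((U⁻¹ ^ k) ^ d * (U ^ d) ^ k) * ((ϖ ^ N) ^ d * ϖ ^ (-((N * d : ℕ) : ℤ))) *
          x ^ d := by ring
      _ = _ := by rw [a1, a2, one_mul, one_mul]
  rw [e1] at h5
  exact ⟨_, h5⟩

end Ord

/-- transport of norms -/
theorem normAlong_equiv {E E' F F' : Type*} [Field E] [Field E'] [Field F] [Field F']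
    (f : E →+* F) (f' : E' →+* F') (a : E ≃+* E') (b : F ≃+* F') (h : ∀ x, b (f x) = f' (a x))
    (y : F) : a (normAlong f y) = normAlong f' (b y) := by
  letI := f.toAlgebra
  letI := f'.toAlgebra
  have := Algebra.norm_eq_of_equiv_equiv a b (RingHom.ext fun x => (h x).symm) y
  change a (Algebra.norm E y) = Algebra.norm E' (b y)
  rw [this, RingEquiv.apply_symm_apply]

namespace Sit

variable {k₀ K κ : Type} [Field k₀] [Field K] [Field κ] [Algebra k₀ K] {q M' : ℕ}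
  [NeZero q] [NeZero M'] (S : Sit k₀ K κ q M')

/-- descent of `m`-th powers -/
theorem exists_descent_pow {N : ℕ} [NeZero N] {m : ℕ} (hm : 0 < m) {v : FF k₀ N} (hv : v ≠ 0)
    {n : FF K N} (hn : bc S.cK N v = n ^ m) :
    ∃ c : k₀, c ≠ 0 ∧ ∃ x : FF k₀ N, v = algebraMap k₀ _ c * x ^ m := by
  haveI := S.charZeroK
  haveI := S.charZero₀
  haveI : IsAlgClosed K := S.acK
  haveI : Algebra.IsIntegral k₀ K := S.intK
  haveI : IsAlgClosure k₀ K := ⟨inferInstance, inferInstance⟩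
  haveI : Normal k₀ K := IsAlgClosure.normal k₀ K
  haveI : IsGalois k₀ K := ⟨⟩
  have hbv : bc S.cK N v ≠ 0 := (_root_.map_ne_zero _).2 hv
  have hn0 : n ≠ 0 := by
    rintro rfl
    rw [zero_pow hm.ne'] at hn
    exact hbv hn
  have hnL : (n : LaurentSeries K) ≠ 0 := fun h => hn0 (Subtype.ext h)
  set b : K := (n : LaurentSeries K).coeff (n : LaurentSeries K).order with hb
  have hb0 : b ≠ 0 := fun h => hnL (HahnSeries.coeff_order_eq_zero.1 h)
  obtain ⟨n1, hn1⟩ : ∃ n1 : FF K N, n1 = algebraMap K _ b⁻¹ * n := ⟨_, rfl⟩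
  have hn1L : (n1 : LaurentSeries K) = HahnSeries.C b⁻¹ * (n : LaurentSeries K) := by
    rw [hn1, ModFun.C_eq_algebraMap]
    rfl
  set o := (n : LaurentSeries K).order with ho
  have hlead : (n1 : LaurentSeries K).coeff o = 1 := by
    rw [hn1L, HahnSeries.C_mul_eq_smul, HahnSeries.coeff_smul, smul_eq_mul, inv_mul_cancel₀ hb0]
  have hn1ne : (n1 : LaurentSeries K) ≠ 0 := by
    intro h
    rw [h, HahnSeries.coeff_zero] at hlead
    exact zero_ne_one hlead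
  -- the leading coefficient of `v`
  have hbm : ∃ c : k₀, algebraMap k₀ K c = b ^ m := by
    have h1 : (n : LaurentSeries K) ^ m = coeffMap S.cK (v : LaurentSeries k₀) := by
      have := congrArg (Subtype.val) hn
      exact this.symm
    refine ⟨(v : LaurentSeries k₀).coeff (m • o), ?_⟩
    have h2 : Ld o (n : LaurentSeries K) b :=
      ⟨fun j hj => HahnSeries.coeff_eq_zero_of_lt_order hj, rfl⟩
    have h3 := (Ld.pow' h2 m).2
    rw [h1, coeffMap_coeff] at h3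
    rw [← h3]
    congr 2
  obtain ⟨c, hc⟩ := hbm
  have hc0 : c ≠ 0 := by
    rintro rfl
    rw [map_zero] at hc
    exact pow_ne_zero m hb0 hc.symm
  have hpow : (n1 : LaurentSeries K) ^ m =
      coeffMap S.cK ((algebraMap k₀ (FF k₀ N) c⁻¹ * v : FF k₀ N) : LaurentSeries k₀) := by
    have h1 : (n : LaurentSeries K) ^ m = coeffMap S.cK (v : LaurentSeries k₀) :=
      (congrArg (Subtype.val) hn).symm
    have h2 : ((algebraMap k₀ (FF k₀ N) c⁻¹ * v : FF k₀ N) : LaurentSeries k₀) =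
        HahnSeries.C c⁻¹ * (v : LaurentSeries k₀) := by
      rw [ModFun.C_eq_algebraMap]; rfl
    have h3 : S.cK c⁻¹ = b⁻¹ ^ m := by
      rw [inv_pow, ← hc, map_inv₀]
    rw [hn1L, mul_pow, h1, h2, map_mul, ModFun.coeffMap_C, ← map_pow, h3]
  -- the coefficients are fixed
  have hfix : ∀ σ : K ≃ₐ[k₀] K, coeffMap (σ : K →+* K) (n1 : LaurentSeries K) = n1 := by
    intro σ
    have h1 : (coeffMap (σ : K →+* K) (n1 : LaurentSeries K)) ^ m = (n1 : LaurentSeries K) ^ m := by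
      rw [← map_pow, hpow, coeffMap_coeffMap]
      congr 1
      congr 1
      ext a
      exact σ.commutes a
    have h2 : (coeffMap (σ : K →+* K) (n1 : LaurentSeries K) / n1) ^ m = 1 := by
      rw [div_pow, h1, div_self (pow_ne_zero m hn1ne)]
    obtain ⟨z, hz⟩ := root_of_unity_const (κ := K) hm h2
    rw [eq_div_iff hn1ne, ← ModFun.C_eq_algebraMap, HahnSeries.C_mul_eq_smul] at hz
    have h3 : (z • (n1 : LaurentSeries K)).coeff o =
        (coeffMap (σ : K →+* K) (n1 : LaurentSeries K)).coeff o := by rw [hz]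
    rw [HahnSeries.coeff_smul, hlead, coeffMap_coeff, hlead, map_one, smul_eq_mul, mul_one] at h3
    rw [h3, one_smul] at hz
    exact hz.symm
  have hcoef : ∀ j, ∃ a : k₀, algebraMap k₀ K a = (n1 : LaurentSeries K).coeff j := by
    intro j
    have h1 : ∀ σ : K ≃ₐ[k₀] K, σ ((n1 : LaurentSeries K).coeff j) =
        (n1 : LaurentSeries K).coeff j := by
      intro σ
      have := hfix σ
      have h2 : (coeffMap (σ : K →+* K) (n1 : LaurentSeries K)).coeff j =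
        (n1 : LaurentSeries K).coeff j := by rw [this]
      exact h2
    obtain ⟨a, ha⟩ := (InfiniteGalois.mem_range_algebraMap_iff_fixed (k := k₀) _).2 h1
    exact ⟨a, ha⟩
  choose a ha using hcoef
  obtain ⟨N0, hN0⟩ : ∃ N0 : LaurentSeries k₀, coeffMap S.cK N0 = n1 := by
    refine ⟨⟨a, (n1 : LaurentSeries K).isPWO_support.mono fun j hj => ?_⟩, ?_⟩
    · rw [Function.mem_support] at hj
      rw [HahnSeries.mem_support]
      intro h
      apply hj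
      apply (algebraMap k₀ K).injective
      rw [ha, h, map_zero]
    · ext j
      rw [coeffMap_coeff]
      exact ha j
  have hN0mem : N0 ∈ FF k₀ N := by
    apply mem_FF_of_coeffs S.ι₀
    have h1 : coeffMap S.ι₀ N0 = coeffMap S.ι (n1 : LaurentSeries K) := by
      rw [← hN0, coeffMap_coeffMap]
    rw [h1]
    exact (bc S.ι N n1).2
  refine ⟨c, hc0, ⟨N0, hN0mem⟩, ?_⟩
  have h1 : algebraMap k₀ (FF k₀ N) c⁻¹ * v = (⟨N0, hN0mem⟩ : FF k₀ N) ^ m := by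
    apply Subtype.ext
    apply coeffMap_injective (f := S.cK) (algebraMap k₀ K).injective
    rw [← hpow]
    push_cast
    rw [map_pow, hN0]
  rw [← h1, ← mul_assoc, ← map_mul, mul_inv_cancel₀ hc0, map_one, one_mul]

end Sit

end Fermat.Agent.Carayol
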