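import Fermat.Agent.Carayol.LRx
import Fermat.Agent.Carayol.Ident
import Fermat.Agent.Carayol.Complete
import Fermat.Agent.GoodRed.GaussGen
import Fermat.Agent.GoodRed.ValRing
import Fermat.Agent.Models.Comp

/-!
# The residue maps attached to embeddings into Laurent series
-/

set_option autoImplicit false
set_option linter.unusedSectionVars false
set_option linter.style.haveILetI false

noncomputable section

namespace Fermat.Agent.Carayol

open ModularCurve Fermat.Agent.GoodRed Fermat.Agent.ModFun Fermat.Agent.GenusX0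
open Fermat.Agent.Models IsLocalRing

theorem LR_congr_left {K κ : Type*} [Field K] [Field κ] {A : ValuationSubring K} {π : A →+* κ}
    {x x' : LaurentSeries K} {y : LaurentSeries κ} (h : LR π x y) (e : x' = x) : LR π x' y :=
  e ▸ h

section Generic

variable {k₀ K κ : Type*} [Field k₀] [Field K] [Field κ] [Algebra k₀ K]
  {A : ValuationSubring K} {π : A →+* κ} {A₀ : ValuationSubring k₀}
  {incA : A₀ →+* A} (hinc : ∀ a, ((incA a : A) : K) = algebraMap k₀ K a)
  {F : Type*} [Field F] [Algebra k₀ F]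
  {φ : F →+* LaurentSeries K}
  (hφ : ∀ c : k₀, φ (algebraMap _ F c) = algebraMap K (LaurentSeries K) (algebraMap k₀ K c))

include hinc in
/-- the relation attached to an embedding -/
def pre : PreRed A₀ (π.comp incA) F (LaurentSeries κ) where
  R x y := LR π (φ x) y
  unique h h' := h.unique h'
  zero := by rw [map_zero]; exact LR.zero _
  one := by rw [map_one]; exact LR.one _
  add h h' := by rw [map_add]; exact h.add h'
  mul h h' := by rw [map_mul]; exact h.mul h'
  neg h := by rw [map_neg]; exact h.neg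
  inv h hy := by rw [map_inv₀]; exact h.inv hy
  const a := by
    rw [hφ, ← hinc]
    exact LR.const π (incA a)

theorem pre_R {x : F} {y : LaurentSeries κ} :
    (pre (π := π) hinc hφ).R x y ↔ LR π (φ x) y := Iff.rfl

theorem mem_pre_O {x : F} : x ∈ (pre (π := π) hinc hφ).O ↔ ∃ y, LR π (φ x) y := Iff.rfl

variable (hsc : ∀ x : F, x ≠ 0 → ∃ c : K, c ≠ 0 ∧ ∃ y, y ≠ 0 ∧
    LR (π) (algebraMap K (LaurentSeries K) c * φ x) y)

include hsc in
theorem mem_or_inv_mem_O (x : F) : x ∈ (pre (π := π) hinc hφ).O ∨ x⁻¹ ∈ (pre (π := π) hinc hφ).O := by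
  rcases eq_or_ne x 0 with rfl | hx
  · exact Or.inl (zero_mem _)
  obtain ⟨c, hc, y, hy, h⟩ := hsc x hx
  have hc' : algebraMap K (LaurentSeries K) c ≠ 0 := (map_ne_zero _).2 hc
  rcases A.mem_or_inv_mem c with h1 | h1
  · right
    rw [mem_pre_O, map_inv₀]
    have h2 := (LR.const (π) ⟨c, h1⟩).mul (h.inv hy)
    refine ⟨_, LR_congr_left h2 ?_⟩
    change _ = algebraMap K (LaurentSeries K) c * _
    rw [mul_inv_rev, mul_comm, mul_assoc, inv_mul_cancel₀ hc', mul_one]
  · left
    rw [mem_pre_O]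
    have h2 := (LR.const (π) ⟨_, h1⟩).mul h
    refine ⟨_, LR_congr_left h2 ?_⟩
    change _ = algebraMap K (LaurentSeries K) c⁻¹ * _
    rw [map_inv₀, ← mul_assoc, inv_mul_cancel₀ hc', one_mul]

/-- the valuation ring -/
def preV : ValuationSubring F where
  __ := (pre (π := π) hinc hφ).O
  mem_or_inv_mem' := mem_or_inv_mem_O hinc hφ hsc

theorem mem_preV {x : F} : x ∈ preV hinc hφ hsc ↔ ∃ y, LR (π) (φ x) y := Iff.rfl

include hsc in
theorem exists_pow_mul_mem_O {q : ℕ} (hpow : ∀ c : K, ∃ N : ℕ, (q : K) ^ N * c ∈ A) (x : F) :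
    ∃ N : ℕ, (algebraMap k₀ F (q : k₀)) ^ N * x ∈ (pre (π := π) hinc hφ).O := by
  rcases eq_or_ne x 0 with rfl | hx
  · exact ⟨0, by rw [mul_zero]; exact zero_mem _⟩
  obtain ⟨c, hc, y, hy, h⟩ := hsc x hx
  have hc' : algebraMap K (LaurentSeries K) c ≠ 0 := (map_ne_zero _).2 hc
  obtain ⟨N, hN⟩ := hpow c⁻¹
  refine ⟨N, ?_⟩
  rw [mem_pre_O]
  have h2 := (LR.const (π) ⟨_, hN⟩).mul h
  refine ⟨_, LR_congr_left h2 ?_⟩
  change _ = algebraMap K (LaurentSeries K) ((q : K) ^ N * c⁻¹) * _
  rw [map_mul, map_pow, hφ, map_mul, map_inv₀, map_pow]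
  have : algebraMap k₀ K (q : k₀) = (q : K) := by simp
  rw [this, mul_assoc, ← mul_assoc (algebraMap K (LaurentSeries K) c)⁻¹, inv_mul_cancel₀ hc',
    one_mul]

variable {𝓕 : Type*} [Field 𝓕] (i : 𝓕 →+* LaurentSeries (κ))
  (hres : ∀ (x : F) (y : LaurentSeries (κ)), LR (π) (φ x) y → ∃ z, i z = y)
  (hsur : ∀ z : 𝓕, ∃ x, LR (π) (φ x) (i z))

include hres in
theorem redFun_exists (x : preV hinc hφ hsc) : ∃ z : 𝓕, LR (π) (φ (x : F)) (i z) := by
  obtain ⟨y, hy⟩ := (mem_preV hinc hφ hsc).1 x.2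
  obtain ⟨z, rfl⟩ := hres _ y hy
  exact ⟨z, hy⟩

/-- the residue map as a function -/
def redFun (x : preV hinc hφ hsc) : 𝓕 := (redFun_exists hinc hφ hsc i hres x).choose

theorem redFun_spec (x : preV hinc hφ hsc) :
    LR (π) (φ (x : F)) (i (redFun hinc hφ hsc i hres x)) :=
  (redFun_exists hinc hφ hsc i hres x).choose_spec

theorem redFun_eq {x : preV hinc hφ hsc} {z : 𝓕} (h : LR (π) (φ (x : F)) (i z)) :
    redFun hinc hφ hsc i hres x = z :=
  i.injective ((redFun_spec hinc hφ hsc i hres x).unique h)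

/-- the residue map -/
def preRes : Res F 𝓕 where
  O := preV hinc hφ hsc
  res :=
    { toFun := redFun hinc hφ hsc i hres
      map_one' := redFun_eq _ _ _ _ _ (by
        change LR (π) (φ 1) _
        rw [map_one, map_one]; exact LR.one _)
      map_zero' := redFun_eq _ _ _ _ _ (by
        change LR (π) (φ 0) _
        rw [map_zero, map_zero]; exact LR.zero _)
      map_mul' := fun x y => redFun_eq _ _ _ _ _ (by
        change LR (π) (φ (x * y : F)) _
        rw [map_mul, map_mul]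
        exact (redFun_spec hinc hφ hsc i hres x).mul (redFun_spec hinc hφ hsc i hres y))
      map_add' := fun x y => redFun_eq _ _ _ _ _ (by
        change LR (π) (φ (x + y : F)) _
        rw [map_add, map_add]
        exact (redFun_spec hinc hφ hsc i hres x).add (redFun_spec hinc hφ hsc i hres y)) }
  res_surjective := fun z => by
    obtain ⟨x, hx⟩ := hsur z
    exact ⟨⟨x, (mem_preV hinc hφ hsc).2 ⟨_, hx⟩⟩, redFun_eq hinc hφ hsc i hres hx⟩
  res_ne_zero_iff := fun x => by
    have h1 := redFun_spec hinc hφ hsc i hres x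
    change redFun hinc hφ hsc i hres x ≠ 0 ↔ _
    constructor
    · intro h
      have h2 : i (redFun hinc hφ hsc i hres x) ≠ 0 := (map_ne_zero i).2 h
      refine ⟨?_, ?_⟩
      · intro h0
        rw [h0, map_zero] at h1
        exact h2 (h1.unique (LR.zero _))
      · rw [mem_preV, map_inv₀]
        exact ⟨_, h1.inv h2⟩
    · rintro ⟨h2, h3⟩ h4
      obtain ⟨y, hy⟩ := (mem_preV hinc hφ hsc).1 h3
      rw [h4, map_zero] at h1
      have h5 := h1.mul hy
      rw [zero_mul, ← map_mul, mul_inv_cancel₀ h2, map_one] at h5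
      exact one_ne_zero ((LR.one _).unique h5)

theorem mem_preRes {x : F} : x ∈ (preRes hinc hφ hsc i hres hsur).O ↔
    ∃ y, LR (π) (φ x) y := Iff.rfl

theorem preRes_r {x : F} {z : 𝓕} (h : LR (π) (φ x) (i z)) :
    (preRes hinc hφ hsc i hres hsur).r x = z := by
  have hx : x ∈ (preRes hinc hφ hsc i hres hsur).O := (mem_preRes hinc hφ hsc i hres hsur).2 ⟨_, h⟩
  rw [Res.r_of_mem hx]
  exact redFun_eq hinc hφ hsc i hres h

theorem preRes_spec {x : F} (hx : x ∈ (preRes hinc hφ hsc i hres hsur).O) :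
    LR (π) (φ x) (i ((preRes hinc hφ hsc i hres hsur).r x)) := by
  obtain ⟨y, hy⟩ := (mem_preRes hinc hφ hsc i hres hsur).1 hx
  obtain ⟨z, rfl⟩ := hres x y hy
  rwa [preRes_r hinc hφ hsc i hres hsur hy]

end Generic

/-! ### scaling -/

theorem scale_FF {K κ : Type*} [Field K] [Field κ] {A : ValuationSubring K} (π : A →+* κ) [IsLocalHom π] (N : ℕ) {z : LaurentSeries K} (hz : z ∈ FF K N)
    (hz0 : z ≠ 0) : ∃ c : K, c ≠ 0 ∧ ∃ y, y ≠ 0 ∧
      LR π (algebraMap K (LaurentSeries K) c * z) y := by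
  rw [FF, fullC_eq_adjoin] at hz
  have := exists_scale_LR π _ hz0 hz
  simpa only [ModFun.C_eq_algebraMap] using this

/-- the part of a series with exponents in a residue class -/
def part {q : ℕ} (a : ZMod q) (z : LaurentSeries ℤ) : LaurentSeries ℤ :=
  ⟨fun n => if (n : ZMod q) = a then z.coeff n else 0, z.isPWO_support.mono fun n hn => by
    rw [Function.mem_support] at hn
    rw [HahnSeries.mem_support]
    intro h
    apply hn
    rw [h, ite_self]⟩

theorem part_coeff {q : ℕ} (a : ZMod q) (z : LaurentSeries ℤ) (n : ℤ) :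
    (part a z).coeff n = if (n : ZMod q) = a then z.coeff n else 0 := rfl

theorem zpow_eq_of_pow_eq_one {G : Type*} [Group G] {q : ℕ} [NeZero q] {ζ : G} (hζ : ζ ^ q = 1)
    (n : ℤ) : ζ ^ n = ζ ^ (n : ZMod q).val := by
  have h1 : (((n : ZMod q).val : ℤ) : ZMod q) = (n : ZMod q) := by
    rw [Int.cast_natCast, ZMod.natCast_val, ZMod.cast_id']
    rfl
  rw [ZMod.intCast_eq_intCast_iff_dvd_sub] at h1
  obtain ⟨k, hk⟩ := h1
  have : n = ((n : ZMod q).val : ℤ) + q * k := by linarith
  conv_lhs => rw [this]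
  rw [zpow_add, zpow_mul, zpow_natCast, zpow_natCast, hζ, one_zpow, mul_one]

theorem twist_eq_sum {K : Type*} [Field K] {q : ℕ} [NeZero q] {ζ : Kˣ} (hζ : ζ ^ q = 1)
    (z : LaurentSeries ℤ) : twist ζ (coeffMap (Int.castRingHom K) z) =
      ∑ a : ZMod q, HahnSeries.C ((ζ : K) ^ a.val) * coeffMap (Int.castRingHom K) (part a z) := by
  ext n
  rw [twist_coeff]
  have h1 : (∑ a : ZMod q, HahnSeries.C ((ζ : K) ^ a.val) *
      coeffMap (Int.castRingHom K) (part a z)).coeff n =
      ∑ a : ZMod q, (HahnSeries.C ((ζ : K) ^ a.val) *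
        coeffMap (Int.castRingHom K) (part a z)).coeff n := by
    have := map_sum (HahnSeries.coeff.addMonoidHom n : LaurentSeries K →+ K)
      (fun a : ZMod q => HahnSeries.C ((ζ : K) ^ a.val) *
        coeffMap (Int.castRingHom K) (part a z)) Finset.univ
    exact this
  rw [h1, Finset.sum_eq_single ((n : ZMod q))]
  · rw [HahnSeries.C_mul_eq_smul, HahnSeries.coeff_smul, coeffMap_coeff, coeffMap_coeff,
      part_coeff, if_pos rfl, zpow_eq_of_pow_eq_one hζ, Units.val_pow_eq_pow_val, smul_eq_mul]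
  · intro a _ ha
    rw [HahnSeries.C_mul_eq_smul, HahnSeries.coeff_smul, coeffMap_coeff, part_coeff,
      if_neg (Ne.symm ha), map_zero, smul_zero]
  · intro h
    exact absurd (Finset.mem_univ _) h

theorem scale_sig {K κ : Type*} [Field K] [Field κ] {A : ValuationSubring K} (π : A →+* κ) [IsLocalHom π] {q M' : ℕ} [NeZero q] [NeZero M'] (hq : q.Prime)
    {ζ : Kˣ} (hζ : ζ ^ q = 1)
    {s : FF K (q ^ 2 * M') →+* LaurentSeries K} (hs : IsSig ζ s) {x : FF K (q ^ 2 * M')}
    (hx : x ≠ 0) : ∃ c : K, c ≠ 0 ∧ ∃ y, y ≠ 0 ∧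
      LR π (algebraMap K (LaurentSeries K) c * s x) y := by
  let E : IntermediateField K (LaurentSeries K) :=
    IntermediateField.adjoin K (coeffMap (Int.castRingHom K) '' Set.univ)
  have hE : ∀ z : LaurentSeries ℤ, coeffMap (Int.castRingHom K) z ∈ E := fun z =>
    IntermediateField.subset_adjoin _ _ ⟨z, Set.mem_univ _, rfl⟩
  obtain ⟨f, hf⟩ := exists_factor s (algebraMap E (LaurentSeries K))
    (fun c => ⟨⟨_, IntermediateField.algebraMap_mem E c⟩, (hs.const c).symm⟩) (by
      intro d _ hd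
      obtain ⟨a, d₀, ha, hd₀, hda⟩ := dvd_cases hq hd
      haveI := neZero_of_dvd hd₀
      have hz : ∀ (d : ℕ) [NeZero d], qExpand K d (jqModC K) =
          coeffMap (Int.castRingHom K) (qExpand ℤ d (jqModC ℤ)) := by
        intro d _
        rw [coeffMap_qExpand, coeffMap_jqModC]
      rcases Nat.lt_or_ge a 2 with h | h
      · have h1 : d ∣ q * M' := by
          rw [hda]
          exact mul_dvd_mul ((pow_dvd_pow q (by omega : a ≤ 1)).trans (by rw [pow_one])) hd₀
        refine ⟨⟨_, hE (qExpand ℤ d (jqModC ℤ))⟩, ?_⟩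
        rw [hs.gen1 d hd h1, hz]
        rfl
      · have : a = 2 := le_antisymm ha h
        subst this
        have h2 : twist ζ (qExpand K d₀ (jqModC K)) ∈ E := by
          rw [hz, twist_eq_sum hζ]
          refine sum_mem fun a _ => mul_mem ?_ (hE _)
          rw [ModFun.C_eq_algebraMap]
          exact IntermediateField.algebraMap_mem _ _
        exact ⟨⟨_, h2⟩, (hs.gen2 d₀ d hd hd₀ hda).symm⟩)
  have h1 : s x ∈ E := by
    rw [← hf]
    exact (f x).2
  have h2 : s x ≠ 0 := (map_ne_zero s).2 hx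
  have := exists_scale_LR π Set.univ h2 h1
  simpa only [ModFun.C_eq_algebraMap] using this

end Fermat.Agent.Carayol
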