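import Mathlib

/-!
# The inertia field is unramified
-/

set_option autoImplicit false
set_option linter.unusedSectionVars false
set_option linter.style.haveILetI false

noncomputable section

namespace Fermat.Agent.Carayol

open NumberField Ideal

variable (L : Type*) [Field L] [NumberField L] [IsGalois ℚ L]

/-- the inertia field of a prime ideal -/
def inertiaField (P : Ideal (𝓞 L)) : IntermediateField ℚ L :=
  FixedPoints.intermediateField (P.inertia Gal(L/ℚ))

instance (P : Ideal (𝓞 L)) : IsGaloisGroup (P.inertia Gal(L/ℚ)) (inertiaField L P) L :=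
  inferInstanceAs (IsGaloisGroup (P.inertia Gal(L/ℚ))
    (FixedPoints.intermediateField (P.inertia Gal(L/ℚ)) : IntermediateField ℚ L) L)

theorem mem_inertiaField (P : Ideal (𝓞 L)) (x : L) :
    x ∈ inertiaField L P ↔ ∀ σ ∈ P.inertia Gal(L/ℚ), σ x = x := by
  constructor
  · intro h σ hσ
    exact h ⟨σ, hσ⟩
  · intro h σ
    exact h σ.1 σ.2

/-- a prime of the inertia field below `P` is unramified -/
theorem ramificationIdx_inertiaField (P : Ideal (𝓞 L)) [hP : P.IsPrime] (hP0 : P ≠ ⊥) :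
    (P.under (𝓞 (inertiaField L P))).ramificationIdx ℤ = 1 := by
  set E := inertiaField L P with hE
  set PE := P.under (𝓞 E) with hPE
  haveI : P.LiesOver PE := ⟨rfl⟩
  haveI : PE.IsPrime := inferInstance
  haveI : (P.under ℤ).IsPrime := inferInstance
  haveI : PE.LiesOver (P.under ℤ) := by
    refine ⟨?_⟩
    rw [hPE, Ideal.under_under]
  have hPE0 : PE ≠ ⊥ := by
    intro h
    exact hP0 (Ideal.eq_bot_of_comap_eq_bot h)
  haveI : PE.IsMaximal := Ideal.IsPrime.isMaximal inferInstance hPE0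
  haveI : Finite (𝓞 E ⧸ PE) := Ideal.finiteQuotientOfFreeOfNeBot PE hPE0
  have hu0 : P.under ℤ ≠ ⊥ := fun h => hP0 (Ideal.eq_bot_of_comap_eq_bot h)
  haveI : (P.under ℤ).IsMaximal := Ideal.IsPrime.isMaximal inferInstance hu0
  haveI : Finite (ℤ ⧸ P.under ℤ) := Ideal.finiteQuotientOfFreeOfNeBot _ hu0
  haveI : PerfectField PE.ResidueField := inferInstance
  haveI : PerfectField (P.under ℤ).ResidueField := inferInstance
  haveI : IsGaloisGroup (P.inertia Gal(L/ℚ)) E L := by
    rw [hE]; infer_instance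
  haveI : IsGaloisGroup (P.inertia Gal(L/ℚ)) (𝓞 E) (𝓞 L) :=
    IsGaloisGroup.of_isFractionRing (P.inertia Gal(L/ℚ)) (𝓞 E) (𝓞 L) E L
  have h1 := card_inertia_eq_ramificationIdxIn (G := Gal(L/ℚ)) (P.under ℤ) P
  have h2 := card_inertia_eq_ramificationIdxIn (G := P.inertia Gal(L/ℚ)) PE P
  have h3 : Nat.card (Ideal.inertia (P.inertia Gal(L/ℚ)) P) = Nat.card (P.inertia Gal(L/ℚ)) := by
    have : Ideal.inertia (P.inertia Gal(L/ℚ)) P = ⊤ := by
      rw [eq_top_iff]
      intro σ _ x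
      exact σ.2 x
    rw [this, Subgroup.card_top]
  rw [ramificationIdxIn_eq_ramificationIdx _ P Gal(L/ℚ)] at h1
  rw [ramificationIdxIn_eq_ramificationIdx _ P (P.inertia Gal(L/ℚ)), h3, h1] at h2
  have h4 := Ideal.ramificationIdx_tower (R := ℤ) PE P
  have h5 : P.ramificationIdx ℤ ≠ 0 := (P.ramificationIdx_pos ℤ).ne'
  rw [h4] at h2
  rw [h4] at h5
  have h6 : P.ramificationIdx (𝓞 E) ≠ 0 := right_ne_zero_of_mul h5
  exact (mul_eq_right₀ h6).1 h2

/-- in a Dedekind domain, if `P` divides `(q)` exactly once then every element is a power of `q`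
times a quotient of elements outside `P`. -/
theorem exists_pow_mul {R : Type*} [CommRing R] [IsDedekindDomain R] {P : Ideal R} [hP : P.IsPrime]
    (hP0 : P ≠ ⊥) {q : R} (hq0 : q ≠ 0) (hq : multiplicity P (span {q}) = 1) {x : R} (hx : x ≠ 0) :
    ∃ (n : ℕ) (s t : R), s ∉ P ∧ t ∉ P ∧ x * s = q ^ n * t := by
  have hprime : Prime P := Ideal.prime_of_isPrime hP0 hP
  have hfin : ∀ y : R, y ≠ 0 → FiniteMultiplicity P (span {y}) := fun y hy =>
    FiniteMultiplicity.of_prime_left hprime (by simpa using hy)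
  obtain ⟨J, hJ, hPJ⟩ := (hfin x hx).exists_eq_pow_mul_and_not_dvd
  obtain ⟨J', hJ', hPJ'⟩ := (hfin q hq0).exists_eq_pow_mul_and_not_dvd
  rw [hq, pow_one] at hJ'
  set n := multiplicity P (span {x}) with hn
  have h1 : ¬ (J' ^ n ≤ P) := fun h => hPJ' (hprime.dvd_of_dvd_pow (Ideal.dvd_iff_le.2 h))
  obtain ⟨s, hs, hsP⟩ := Set.not_subset.1 h1
  have h2 : x * s ∈ span {q ^ n} * J := by
    have h3 : x * s ∈ span {x} * J' ^ n := Ideal.mul_mem_mul (Ideal.mem_span_singleton_self x) hs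
    have h4 : span {x} * J' ^ n = span {q ^ n} * J := by
      rw [← Ideal.span_singleton_pow, hJ', mul_pow]
      conv_lhs => rw [hJ]
      ring
    rwa [h4] at h3
  obtain ⟨t, ht, hxt⟩ := Ideal.mem_span_singleton_mul.1 h2
  refine ⟨n, s, t, hsP, fun htP => ?_, hxt.symm⟩
  have h5 : P ^ (n + 1) ∣ span {x} * span {s} := by
    rw [Ideal.span_singleton_mul_span_singleton, ← hxt, ← Ideal.span_singleton_mul_span_singleton,
      pow_succ]
    refine mul_dvd_mul ?_ ?_
    · rw [← Ideal.span_singleton_pow]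
      exact pow_dvd_pow_of_dvd ⟨J', hJ'⟩ n
    · exact Ideal.dvd_iff_le.2 ((Ideal.span_singleton_le_iff_mem P).2 htP)
  have h6 : ¬ P ∣ span {s} := fun h =>
    hsP ((Ideal.span_singleton_le_iff_mem P).1 (Ideal.dvd_iff_le.1 h))
  have h7 : P ^ (n + 1) ∣ span {x} := hprime.pow_dvd_of_dvd_mul_right _ h6 h5
  rw [hJ, pow_succ] at h7
  have h8 : P ^ n ≠ 0 := pow_ne_zero n hP0
  exact hPJ ((mul_dvd_mul_iff_left h8).1 h7)

end Fermat.Agent.Carayol
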