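import Fermat.Agent.Carayol.KL2

/-!
# The abstract theorem: norms, gluing, and Kummer lifting
-/

set_option autoImplicit false
set_option linter.unusedSectionVars false
set_option linter.style.haveILetI false

noncomputable section

namespace Fermat.Agent.Carayol

open Fermat.Agent.Models Polynomial

variable {A₀ K₀ κ F 𝓕 : Type*} [CommRing A₀] [IsDomain A₀] [IsDiscreteValuationRing A₀] [Field K₀]
  [Algebra A₀ K₀] [IsFractionRing A₀ K₀] [Field F] [Algebra K₀ F] [Algebra A₀ F]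
  [IsScalarTower A₀ K₀ F] [Field 𝓕] [Field κ] [Algebra κ 𝓕]

/-- The data of the three-component model. -/
structure Setup (K₀ κ : Type*) [Field K₀] [Algebra A₀ K₀] [Algebra K₀ F] [Field κ] [Algebra κ 𝓕]
    (C : Fin 3 → Res F 𝓕) (B0 B1 : Subring F) (R0 R1 : Subring 𝓕) (t : F) (ϖ₀ : A₀)
    (π : A₀ →+* κ) : Prop extends TwoCharts K₀ C B0 B1 R0 R1 t ϖ₀ where
  π_surj : Function.Surjective π
  r_alg : ∀ i (a : A₀), (C i).r (algebraMap A₀ F a) = algebraMap κ 𝓕 (π a)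
  inc0 : ∀ i j, i ≠ j → ∃ x : F, x ∈ B0 ∧ (C j).r x = 0 ∧ (C i).r x ≠ 0
  inc1 : ∀ i j, i ≠ j → ∃ x : F, x ∈ B1 ∧ (C j).r x = 0 ∧ (C i).r x ≠ 0
  R_closed0 : ∀ (y : 𝓕) (n : ℕ), 0 < n → y ^ n ∈ R0 → y ∈ R0
  R_closed1 : ∀ (y : 𝓕) (n : ℕ), 0 < n → y ^ n ∈ R1 → y ∈ R1
  res0 : ∀ 𝔪 : Ideal B0, 𝔪.IsMaximal → (⟨algebraMap A₀ F ϖ₀, c0.ϖ_mem⟩ : B0) ∈ 𝔪 →
    ∀ b : B0, ∃ a : A₀, b - ⟨algebraMap A₀ F a, A_mem0 a⟩ ∈ 𝔪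
  res1 : ∀ 𝔪 : Ideal B1, 𝔪.IsMaximal → (⟨algebraMap A₀ F ϖ₀, c1.ϖ_mem⟩ : B1) ∈ 𝔪 →
    ∀ b : B1, ∃ a : A₀, b - ⟨algebraMap A₀ F a, A_mem1 a⟩ ∈ 𝔪
  gen0 : ∀ 𝔪 : Ideal B0, 𝔪.IsMaximal → (⟨algebraMap A₀ F ϖ₀, c0.ϖ_mem⟩ : B0) ∈ 𝔪 →
    ∃ i x, c0.P i ≤ 𝔪 ∧ c0.LocGen 𝔪 i x
  gen1 : ∀ 𝔪 : Ideal B1, 𝔪.IsMaximal → (⟨algebraMap A₀ F ϖ₀, c1.ϖ_mem⟩ : B1) ∈ 𝔪 →
    (⟨t⁻¹, t_mem'⟩ : B1) ∈ 𝔪 → ∃ i x, c1.P i ≤ 𝔪 ∧ c1.LocGen 𝔪 i x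
  meet0 : ∀ 𝔪 : Ideal B0, 𝔪.IsMaximal → (⟨algebraMap A₀ F ϖ₀, c0.ϖ_mem⟩ : B0) ∈ 𝔪 →
    (∀ i j, c0.P i ≤ 𝔪 → c0.P j ≤ 𝔪 → i = j) ∨
    ∃ 𝔫 : Ideal R0, ∀ i (b : B0), b ∈ 𝔪 ↔ c0.rho i b ∈ 𝔫
  meet1 : ∀ 𝔪 : Ideal B1, 𝔪.IsMaximal → (⟨algebraMap A₀ F ϖ₀, c1.ϖ_mem⟩ : B1) ∈ 𝔪 →
    (⟨t⁻¹, t_mem'⟩ : B1) ∈ 𝔪 → ∀ i j, c1.P i ≤ 𝔪 → c1.P j ≤ 𝔪 → i = j

theorem root_of_unity_const [IsAlgClosed κ] {m : ℕ} (hm : 0 < m) {ζ : 𝓕} (hζ : ζ ^ m = 1) :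
    ∃ c : κ, algebraMap κ 𝓕 c = ζ := by
  have hint : IsIntegral κ ζ := by
    refine ⟨X ^ m - 1, monic_X_pow_sub_C 1 hm.ne', ?_⟩
    simp [hζ]
  have h1 := IsAlgClosed.degree_eq_one_of_irreducible κ (minpoly.irreducible hint)
  exact minpoly.mem_range_of_degree_eq_one κ ζ h1

namespace Setup

variable {C : Fin 3 → Res F 𝓕} {B0 B1 : Subring F} {R0 R1 : Subring 𝓕} {t : F} {ϖ₀ : A₀}
  {π : A₀ →+* κ}

theorem exists_ev (hS : Setup K₀ κ C B0 B1 R0 R1 t ϖ₀ π) {𝔪 : Ideal B0} (h𝔪 : 𝔪.IsMaximal)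
    (hϖ : (⟨algebraMap A₀ F ϖ₀, hS.c0.ϖ_mem⟩ : B0) ∈ 𝔪) {𝔫 : Ideal R0}
    (h𝔫 : ∀ i (b : B0), b ∈ 𝔪 ↔ hS.c0.rho i b ∈ 𝔫) :
    ∃ ev : R0 →+* κ, (∀ y, ev y = 0 ↔ y ∈ 𝔫) ∧
      ∀ (a : A₀) (h : algebraMap κ 𝓕 (π a) ∈ R0), ev ⟨_, h⟩ = π a := by
  have h𝔫top : 𝔫 ≠ ⊤ := by
    intro h
    apply h𝔪.ne_top
    rw [Ideal.eq_top_iff_one, h𝔫 0, h]; exact Submodule.mem_top
  have hcR : ∀ c : κ, algebraMap κ 𝓕 c ∈ R0 := by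
    intro c
    obtain ⟨a, rfl⟩ := hS.π_surj c
    rw [← hS.r_alg 0]
    exact hS.c0.mem_R 0 _ (hS.A_mem0 a)
  let i₀ : κ →+* R0 := RingHom.codRestrict (algebraMap κ 𝓕) R0 hcR
  let f : κ →+* R0 ⧸ 𝔫 := (Ideal.Quotient.mk 𝔫).comp i₀
  have : Nontrivial (R0 ⧸ 𝔫) := Ideal.Quotient.nontrivial_iff.2 h𝔫top
  have hf : Function.Bijective f := by
    refine ⟨f.injective, fun y => ?_⟩
    obtain ⟨y, rfl⟩ := Ideal.Quotient.mk_surjective y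
    obtain ⟨b, rfl⟩ := hS.c0.rho_surjective 0 y
    obtain ⟨a, ha⟩ := hS.res0 𝔪 h𝔪 hϖ b
    refine ⟨π a, ?_⟩
    rw [h𝔫 0, map_sub] at ha
    have h1 : hS.c0.rho 0 ⟨algebraMap A₀ F a, hS.A_mem0 a⟩ = i₀ (π a) :=
      Subtype.ext (hS.r_alg 0 a)
    rw [h1] at ha
    exact ((Ideal.Quotient.eq).2 ha).symm
  let e : κ ≃+* R0 ⧸ 𝔫 := RingEquiv.ofBijective f hf
  refine ⟨(e.symm : (R0 ⧸ 𝔫) →+* κ).comp (Ideal.Quotient.mk 𝔫), fun y => ?_, fun a h => ?_⟩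
  · rw [RingHom.comp_apply, ← Ideal.Quotient.eq_zero_iff_mem]
    exact e.symm.map_eq_zero_iff
  · rw [RingHom.comp_apply]
    change e.symm (f (π a)) = π a
    exact e.symm_apply_apply (π a)

/-- the conditions on a norm map -/
structure IsNorm (C : Fin 3 → Res F 𝓕) (B0 : Subring F) (q : ℕ) (N : F →* F) (a b : Fin 3) :
    Prop where
  mem : ∀ x ∈ B0, N x ∈ B0
  memO : ∀ x, x ∈ (C a).O → x ∈ (C 1).O → x ∈ (C b).O → N x ∈ (C a).O ∧ N x ∈ (C b).O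
  r_a : ∀ x, x ∈ (C a).O → x ∈ (C 1).O → (C a).r (N x) = (C a).r x * (C 1).r x ^ (q - 1)
  r_b : ∀ x, x ∈ (C b).O → (C b).r (N x) = (C b).r x ^ q

section Glue

variable (hS : Setup K₀ κ C B0 B1 R0 R1 t ϖ₀ π)

include hS

/-- the relation at a meeting point coming from a norm map -/
theorem norm_relation [IsAlgClosed κ] {q : ℕ} {N : F →* F} {a b : Fin 3}
    (hN : IsNorm C B0 q N a b) {m : ℕ}
    (hm : 0 < m) {u : F} {g : Fin 3 → 𝓕} (hg0 : ∀ i, g i ≠ 0) (hg : ∀ i, (C i).r u = g i ^ m)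
    {n : F} (hn : N u = n ^ m) :
    ∃ ζ ζ' : κ, ζ ^ m = 1 ∧ ζ' ^ m = 1 ∧ ∀ 𝔪 : Ideal B0, 𝔪.IsMaximal →
      (⟨algebraMap A₀ F ϖ₀, hS.c0.ϖ_mem⟩ : B0) ∈ 𝔪 → ∀ 𝔫 : Ideal R0,
      (∀ i (b : B0), b ∈ 𝔪 ↔ hS.c0.rho i b ∈ 𝔫) → ∀ ev : R0 →+* κ, (∀ y, ev y = 0 ↔ y ∈ 𝔫) →
      (∀ (a : A₀) (h : algebraMap κ 𝓕 (π a) ∈ R0), ev ⟨_, h⟩ = π a) →
      ∀ h : F, h ^ m * u ∈ B0 → ∀ γ : Fin 3 → R0, (∀ i, (γ i : 𝓕) = g i * (C i).r h) →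
      ζ * ev (γ a) * ev (γ 1) ^ (q - 1) = ζ' * ev (γ b) ^ q := by
  have hu : ∀ i, (C i).r u ≠ 0 := fun i => by rw [hg]; exact pow_ne_zero m (hg0 i)
  have huO : ∀ i, u ∈ (C i).O := fun i => Res.mem_of_r_ne_zero (hu i)
  have hnO : ∀ i, (C i).r (N u) ≠ 0 → n ∈ (C i).O ∧ (C i).r n ^ m = (C i).r (N u) := by
    intro i hi
    rw [hn] at hi
    have h1 : n ∈ (C i).O := by
      rcases (C i).O.mem_or_inv_mem n with h | h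
      · exact h
      · have h2 : n ^ m ∈ (C i).O := Res.mem_of_r_ne_zero hi
        have hn0 : n ≠ 0 := by
          rintro rfl
          rw [zero_pow hm.ne'] at hi
          exact hi Res.r_zero
        have h3 : n = n ^ m * n⁻¹ ^ (m - 1) := by
          obtain ⟨k, rfl⟩ := Nat.exists_eq_succ_of_ne_zero hm.ne'
          rw [Nat.succ_sub_one, pow_succ', mul_assoc, ← mul_pow, mul_inv_cancel₀ hn0, one_pow,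
            mul_one]
        rw [h3]; exact mul_mem h2 (pow_mem h _)
    exact ⟨h1, by rw [hn, Res.r_pow h1]⟩
  have hra : (C a).r (N u) = (g a * g 1 ^ (q - 1)) ^ m := by
    rw [hN.r_a u (huO a) (huO 1), hg, hg, mul_pow, ← pow_mul, ← pow_mul, mul_comm m]
  have hrb : (C b).r (N u) = (g b ^ q) ^ m := by
    rw [hN.r_b u (huO b), hg, ← pow_mul, ← pow_mul, mul_comm m]
  have hga0 : g a * g 1 ^ (q - 1) ≠ 0 := mul_ne_zero (hg0 a) (pow_ne_zero _ (hg0 1))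
  have hgb0 : g b ^ q ≠ 0 := pow_ne_zero _ (hg0 b)
  obtain ⟨hnOa, hna⟩ := hnO a (by rw [hra]; exact pow_ne_zero m hga0)
  obtain ⟨hnOb, hnb⟩ := hnO b (by rw [hrb]; exact pow_ne_zero m hgb0)
  obtain ⟨ζ, hζ⟩ := root_of_unity_const (κ := κ) (ζ := (C a).r n / (g a * g 1 ^ (q - 1))) hm (by
    rw [div_pow, hna, hra, div_self (pow_ne_zero m hga0)])
  obtain ⟨ζ', hζ'⟩ := root_of_unity_const (κ := κ) (ζ := (C b).r n / g b ^ q) hm (by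
    rw [div_pow, hnb, hrb, div_self (pow_ne_zero m hgb0)])
  have hζm : ζ ^ m = 1 := by
    apply (algebraMap κ 𝓕).injective
    rw [map_pow, hζ, div_pow, hna, hra, div_self (pow_ne_zero m hga0), map_one]
  have hζm' : ζ' ^ m = 1 := by
    apply (algebraMap κ 𝓕).injective
    rw [map_pow, hζ', div_pow, hnb, hrb, div_self (pow_ne_zero m hgb0), map_one]
  refine ⟨ζ, ζ', hζm, hζm', fun 𝔪 h𝔪 hϖ 𝔫 h𝔫 ev hev hevc h hh γ hγ => ?_⟩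
  have hhO : ∀ i, h ∈ (C i).O := fun i => hS.c0.mem_O_of_pow (hu i) hm hh
  -- the element `ν`
  set ν : F := N h * n with hν
  have hνB : ν ∈ B0 := by
    refine hS.c0.closed _ m hm ?_
    rw [hν, mul_pow, ← hn, ← map_pow, ← map_mul]
    exact hN.mem _ hh
  have hνa : (C a).r ν = algebraMap κ 𝓕 ζ * (γ a * γ 1 ^ (q - 1) : 𝓕) := by
    rw [hν, Res.r_mul (hN.memO h (hhO a) (hhO 1) (hhO b)).1 hnOa, hN.r_a h (hhO a) (hhO 1), hζ,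
      hγ, hγ, mul_pow]
    have k1 := hg0 a
    have k2 := pow_ne_zero (q - 1) (hg0 1)
    field_simp
  have hνb : (C b).r ν = algebraMap κ 𝓕 ζ' * (γ b ^ q : 𝓕) := by
    rw [hν, Res.r_mul (hN.memO h (hhO a) (hhO 1) (hhO b)).2 hnOb, hN.r_b h (hhO b), hζ', hγ,
      mul_pow]
    field_simp
  -- evaluation
  have hcR : ∀ c : κ, algebraMap κ 𝓕 c ∈ R0 := by
    intro c
    obtain ⟨a, rfl⟩ := hS.π_surj c
    rw [← hS.r_alg 0]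
    exact hS.c0.mem_R 0 _ (hS.A_mem0 a)
  have hevκ : ∀ c : κ, ev ⟨_, hcR c⟩ = c := by
    intro c
    obtain ⟨a, rfl⟩ := hS.π_surj c
    exact hevc a _
  obtain ⟨a₁, ha₁⟩ := hS.res0 𝔪 h𝔪 hϖ ⟨ν, hνB⟩
  have key : ∀ i, ev (hS.c0.rho i ⟨ν, hνB⟩) = π a₁ := by
    intro i
    have h1 := (h𝔫 i _).1 ha₁
    rw [← hev, map_sub, map_sub, sub_eq_zero] at h1
    rw [h1]
    have h2 : hS.c0.rho i ⟨algebraMap A₀ F a₁, hS.A_mem0 a₁⟩ =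
        ⟨algebraMap κ 𝓕 (π a₁), hcR _⟩ := Subtype.ext (hS.r_alg i a₁)
    rw [h2]
    exact hevκ _
  have e1 : hS.c0.rho a ⟨ν, hνB⟩ = ⟨_, hcR ζ⟩ * γ a * γ 1 ^ (q - 1) := by
    apply Subtype.ext
    rw [hS.c0.rho_apply]
    change (C a).r ν = _
    rw [hνa]
    push_cast
    ring
  have e2 : hS.c0.rho b ⟨ν, hνB⟩ = ⟨_, hcR ζ'⟩ * γ b ^ q := by
    apply Subtype.ext
    rw [hS.c0.rho_apply]
    change (C b).r ν = _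
    rw [hνb]
    push_cast
    ring
  have e3 := key a
  have e4 := key b
  rw [e1, map_mul, map_mul, map_pow, hevκ] at e3
  rw [e2, map_mul, map_pow, hevκ] at e4
  rw [e3, e4]

/-- the gluing constants -/
theorem glue [IsAlgClosed κ] {q : ℕ} (hq : 2 ≤ q) {Nα Nβ : F →* F}
    (hα : IsNorm C B0 q Nα 0 2) (hβ : IsNorm C B0 q Nβ 2 0) {m : ℕ}
    (hm : 0 < m) {u : F} {g : Fin 3 → 𝓕} (hg0 : ∀ i, g i ≠ 0) (hg : ∀ i, (C i).r u = g i ^ m)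
    {na nb : F} (hna : Nα u = na ^ m) (hnb : Nβ u = nb ^ m) :
    ∃ μ : Fin 3 → κ, (∀ i, μ i ^ m = 1) ∧ ∀ 𝔪 : Ideal B0, 𝔪.IsMaximal →
      (⟨algebraMap A₀ F ϖ₀, hS.c0.ϖ_mem⟩ : B0) ∈ 𝔪 → ∀ 𝔫 : Ideal R0,
      (∀ i (b : B0), b ∈ 𝔪 ↔ hS.c0.rho i b ∈ 𝔫) → ∀ ev : R0 →+* κ, (∀ y, ev y = 0 ↔ y ∈ 𝔫) →
      (∀ (a : A₀) (h : algebraMap κ 𝓕 (π a) ∈ R0), ev ⟨_, h⟩ = π a) →
      ∀ h : F, h ^ m * u ∈ B0 → ∀ γ : Fin 3 → R0, (∀ i, (γ i : 𝓕) = g i * (C i).r h) →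
      (∀ i, ev (γ i) ≠ 0) → ∀ i, μ i * ev (γ i) ^ (q ^ 2 - 1) = ev (γ 2) ^ (q ^ 2 - 1) := by
  obtain ⟨ζ, ζ', hζ, hζ', h1⟩ := hS.norm_relation hα hm hg0 hg hna
  obtain ⟨ξ, ξ', hξ, hξ', h2⟩ := hS.norm_relation hβ hm hg0 hg hnb
  have hne : ∀ {z : κ}, z ^ m = 1 → z ≠ 0 := by
    rintro z hz rfl
    rw [zero_pow hm.ne'] at hz
    exact zero_ne_one hz
  have hζ0 := hne hζ
  have hζ0' := hne hζ'
  have hξ0 := hne hξ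
  have hξ0' := hne hξ'
  -- `(e₀ / e₂) ^ (q + 1) = c₁`, `(e₁ / e₂) ^ (q ^ 2 - 1) = c₂`
  set c₁ : κ := ζ' * ξ / (ζ * ξ') with hc₁
  set c₂ : κ := (ζ' / ζ) ^ (q + 1) * c₁⁻¹ with hc₂
  have hc₁m : c₁ ^ m = 1 := by
    rw [hc₁, div_pow, mul_pow, mul_pow, hζ, hζ', hξ, hξ', mul_one, div_one]
  have hc₂m : c₂ ^ m = 1 := by
    rw [hc₂, mul_pow, inv_pow, hc₁m, inv_one, mul_one, ← pow_mul, mul_comm, pow_mul, div_pow, hζ,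
      hζ', div_one, one_pow]
  obtain ⟨p, rfl⟩ : ∃ p, q = p + 1 := ⟨q - 1, by omega⟩
  have hq2 : (p + 1) ^ 2 - 1 = p * (p + 2) := by
    have : (p + 1) ^ 2 = p * (p + 2) + 1 := by ring
    rw [this, Nat.add_sub_cancel]
  refine ⟨![(c₁ ^ p)⁻¹, c₂⁻¹, 1], ?_, ?_⟩
  · intro i
    fin_cases i
    · change ((c₁ ^ p)⁻¹) ^ m = 1
      rw [inv_pow, ← pow_mul, mul_comm, pow_mul, hc₁m, one_pow, inv_one]
    · change (c₂⁻¹) ^ m = 1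
      rw [inv_pow, hc₂m, inv_one]
    · change (1 : κ) ^ m = 1
      exact one_pow m
  · intro 𝔪 h𝔪 hϖ 𝔫 h𝔫 ev hev hevc h hh γ hγ hne i
    have r1 := h1 𝔪 h𝔪 hϖ 𝔫 h𝔫 ev hev hevc h hh γ hγ
    have r2 := h2 𝔪 h𝔪 hϖ 𝔫 h𝔫 ev hev hevc h hh γ hγ
    rw [Nat.add_sub_cancel] at r1 r2
    have n0 := hne 0
    have n1 := hne 1
    have n2 := hne 2
    set e₀ := ev (γ 0)
    set e₁ := ev (γ 1)
    set e₂ := ev (γ 2)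
    have n1' : e₁ ^ p ≠ 0 := pow_ne_zero _ n1
    have k1 : e₀ ^ (p + 2) = c₁ * e₂ ^ (p + 2) := by
      rw [hc₁]
      field_simp
      apply mul_right_cancel₀ n1'
      linear_combination (e₀ ^ (p + 1) * ξ') * r1 - (e₂ ^ (p + 1) * ζ') * r2
    have k2 : e₁ ^ (p * (p + 2)) = c₂ * e₂ ^ (p * (p + 2)) := by
      have k3 : ζ ^ (p + 2) * e₀ ^ (p + 2) * e₁ ^ (p * (p + 2)) =
          ζ' ^ (p + 2) * e₂ ^ ((p + 1) * (p + 2)) := by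
        have := congrArg (fun z => z ^ (p + 2)) r1
        simp only [mul_pow, ← pow_mul] at this
        exact this
      rw [k1] at k3
      have hc₁0 : c₁ ≠ 0 := by
        intro h0
        rw [h0, zero_pow hm.ne'] at hc₁m
        exact zero_ne_one hc₁m
      have n2' : e₂ ^ (p + 2) ≠ 0 := pow_ne_zero _ n2
      have hZ : ζ ^ (p + 2) ≠ 0 := pow_ne_zero _ hζ0
      have e5 : e₂ ^ ((p + 1) * (p + 2)) = e₂ ^ (p * (p + 2)) * e₂ ^ (p + 2) := by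
        rw [← pow_add]; congr 1; ring
      rw [e5] at k3
      have e6 : c₂ * (ζ ^ (p + 2) * c₁) = ζ' ^ (p + 2) := by
        rw [hc₂, div_pow]
        field_simp
      apply mul_right_cancel₀ (mul_ne_zero (mul_ne_zero hZ hc₁0) n2')
      linear_combination k3 - (e₂ ^ (p * (p + 2)) * e₂ ^ (p + 2)) * e6
    rw [hq2]
    fin_cases i
    · change (c₁ ^ p)⁻¹ * e₀ ^ (p * (p + 2)) = e₂ ^ (p * (p + 2))
      have hc₁0 : c₁ ≠ 0 := by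
        intro h0
        rw [h0, zero_pow hm.ne'] at hc₁m
        exact zero_ne_one hc₁m
      rw [mul_comm p, pow_mul, k1, mul_pow, ← pow_mul]
      field_simp
    · change c₂⁻¹ * e₁ ^ (p * (p + 2)) = e₂ ^ (p * (p + 2))
      have hc₂0 : c₂ ≠ 0 := by
        intro h0
        rw [h0, zero_pow hm.ne'] at hc₂m
        exact zero_ne_one hc₂m
      rw [k2]
      field_simp
    · change (1 : κ) * e₂ ^ (p * (p + 2)) = e₂ ^ (p * (p + 2))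
      rw [one_mul]

end Glue

end Setup

end Fermat.Agent.Carayol
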