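import Fermat.Agent.Carayol.Pre
import Fermat.Agent.Carayol.Comps
import Fermat.Agent.ModFun.BaseChange
import Fermat.Agent.Curves.Modular
import Fermat.Agent.Carayol.Icr2

/-!
# The modular situation: three embeddings and their reductions
-/

set_option autoImplicit false
set_option linter.unusedSectionVars false
set_option linter.style.haveILetI false

noncomputable section

namespace Fermat.Agent.Carayol

open ModularCurve Fermat.Agent.GoodRed Fermat.Agent.ModFun Fermat.Agent.GenusX0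
open Fermat.Agent.Models IsLocalRing Polynomial

/-- the situation -/
structure Sit (k₀ K κ : Type) [Field k₀] [Field K] [Field κ] [Algebra k₀ K] (q M' : ℕ)
    [NeZero q] [NeZero M'] where
  A : ValuationSubring K
  A₀ : ValuationSubring k₀
  incA : A₀ →+* A
  hinc : ∀ a, ((incA a : A) : K) = algebraMap k₀ K a
  mem_A₀ : ∀ {x : k₀}, algebraMap k₀ K x ∈ A → x ∈ A₀
  π : A →+* κ
  πs : Function.Surjective π
  [πl : IsLocalHom π]
  π₀s : Function.Surjective (π.comp incA)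
  hq : q.Prime
  charP : CharP κ q
  hM : Nat.Coprime q M'
  dvr : ∀ x : k₀, x ≠ 0 → ∃ (n : ℤ) (u : A₀ˣ), x = (q : k₀) ^ n * ((u : A₀) : k₀)
  hpow : ∀ c : K, ∃ N : ℕ, (q : K) ^ N * c ∈ A
  ι : K →+* ℂ
  ζ : Kˣ
  hζ : IsPrimitiveRoot (ζ : K) q
  s : FF K (q ^ 2 * M') →+* LaurentSeries K
  hs : IsSig ζ s
  w : FF k₀ (q ^ 2 * M') →+* FF k₀ (q ^ 2 * M')
  hw : IsW w
  [dvrI : IsDiscreteValuationRing A₀]
  irr : Irreducible ((q : ℕ) : A₀)
  [acK : IsAlgClosed K]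
  [acκ : IsAlgClosed κ]
  [intK : Algebra.IsIntegral k₀ K]
  lift0 : ∀ y : FF κ M', y ∈ icr κ (je κ M') → ∃ f : FF k₀ M', f ∈ icr k₀ (je k₀ M') ∧
    LR π (coeffMap (algebraMap k₀ K) (f : LaurentSeries k₀)) (y : LaurentSeries κ)
  lift1 : ∀ y : FF κ M', y ∈ icr κ (je κ M')⁻¹ → ∃ f : FF k₀ M', f ∈ icr k₀ (je k₀ M')⁻¹ ∧
    LR π (coeffMap (algebraMap k₀ K) (f : LaurentSeries k₀)) (y : LaurentSeries κ)

/-- division of integral series by a prime -/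
theorem exists_div {κ : Type*} [Field κ] (q : ℕ) [CharP κ q] {z : LaurentSeries ℤ}
    (hz : cZ κ z = 0) : ∃ z' : LaurentSeries ℤ, z = HahnSeries.C (q : ℤ) * z' := by
  have h1 : ∀ n, ∃ c : ℤ, z.coeff n = q * c := by
    intro n
    have h2 := congrArg (fun f : LaurentSeries κ => f.coeff n) hz
    simp only [cZ, coeffMap_coeff] at h2
    have h3 : ((z.coeff n : ℤ) : κ) = 0 := h2
    rw [CharP.intCast_eq_zero_iff κ q] at h3
    exact h3
  have h2 : ∀ n, ∃ c : ℤ, z.coeff n = q * c ∧ (z.coeff n = 0 → c = 0) := by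
    intro n
    obtain ⟨c, hc⟩ := h1 n
    by_cases h : z.coeff n = 0
    · exact ⟨0, by rw [h, mul_zero], fun _ => rfl⟩
    · exact ⟨c, hc, fun h' => absurd h' h⟩
  choose c hc hc0 using h2
  refine ⟨⟨c, z.isPWO_support.mono fun n hn => ?_⟩, ?_⟩
  · rw [Function.mem_support] at hn
    rw [HahnSeries.mem_support]
    exact fun h => hn (hc0 n h)
  · ext n
    rw [HahnSeries.C_mul_eq_smul, HahnSeries.coeff_smul, hc]
    rfl

theorem pow_jq {κ : Type*} [Field κ] {q : ℕ} [NeZero q] (hq : q.Prime) [CharP κ q] :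
    jqModC κ ^ q = qExpand κ q (jqModC κ) := by
  haveI : Fact q.Prime := ⟨hq⟩
  rw [pow_eq_qExpand, coeffMap_jqModC]

theorem pow_jq2 {κ : Type*} [Field κ] {q : ℕ} [NeZero q] (hq : q.Prime) [CharP κ q] :
    jqModC κ ^ q ^ 2 = qExpand κ (q ^ 2) (jqModC κ) := by
  haveI : Fact q.Prime := ⟨hq⟩
  have h1 : jqModC κ ^ q ^ 2 = (jqModC κ ^ q) ^ q := by rw [← pow_mul, sq]
  rw [h1, pow_jq hq, ← map_pow, pow_jq hq, qExpand_qExpand]
  exact qExpand_congr (sq q).symm _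

namespace Sit

variable {k₀ K κ : Type} [Field k₀] [Field K] [Field κ] [Algebra k₀ K] {q M' : ℕ}
  [NeZero q] [NeZero M'] (S : Sit k₀ K κ q M')

attribute [instance] Sit.πl Sit.dvrI

/-- the function field -/
abbrev F (_ : Sit k₀ K κ q M') := FF k₀ (q ^ 2 * M')

/-- the inclusion of constants -/
abbrev cK (_ : Sit k₀ K κ q M') : k₀ →+* K := algebraMap k₀ K

/-- the residue map of `A₀` -/
abbrev π₀ : S.A₀ →+* κ := S.π.comp S.incA

/-- the embeddings -/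
def φ (i : Fin 3) : S.F →+* LaurentSeries K :=
  match i with
  | 0 => (algebraMap (FF K (q ^ 2 * M')) (LaurentSeries K)).comp (bc S.cK (q ^ 2 * M'))
  | 1 => S.s.comp (bc S.cK (q ^ 2 * M'))
  | 2 => ((algebraMap (FF K (q ^ 2 * M')) (LaurentSeries K)).comp
      (bc S.cK (q ^ 2 * M'))).comp S.w

theorem φ0 (x : S.F) : S.φ 0 x = coeffMap S.cK (x : LaurentSeries k₀) := rfl
theorem φ1 (x : S.F) : S.φ 1 x = S.s (bc S.cK _ x) := rfl
theorem φ2 (x : S.F) : S.φ 2 x = S.φ 0 (S.w x) := rfl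

theorem φ_const (i : Fin 3) (c : k₀) :
    S.φ i (algebraMap k₀ S.F c) = algebraMap K (LaurentSeries K) (algebraMap k₀ K c) := by
  have h0 : ∀ c : k₀, S.φ 0 (algebraMap k₀ S.F c) = algebraMap K (LaurentSeries K) (algebraMap k₀ K c) :=
    fun c => coeffMap_algebraMap S.cK c
  fin_cases i
  · exact h0 c
  · change S.s (bc S.cK _ (algebraMap k₀ S.F c)) = _
    rw [bc_const, S.hs.const]
  · change S.φ 0 (S.w (algebraMap k₀ S.F c)) = _
    rw [S.hw.const]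
    exact h0 c

theorem φ_scale (i : Fin 3) (x : S.F) (hx : x ≠ 0) : ∃ c : K, c ≠ 0 ∧ ∃ y, y ≠ 0 ∧
    LR S.π (algebraMap K (LaurentSeries K) c * S.φ i x) y := by
  have h0 : ∀ x : S.F, x ≠ 0 → ∃ c : K, c ≠ 0 ∧ ∃ y, y ≠ 0 ∧
    LR S.π (algebraMap K (LaurentSeries K) c * S.φ 0 x) y := by
    intro x hx
    exact scale_FF S.π (q ^ 2 * M') (z := S.φ 0 x) (bc S.cK _ x).2
      ((_root_.map_ne_zero (S.φ 0)).2 hx)
  fin_cases i
  · exact h0 x hx
  · refine scale_sig S.π S.hq (ζ := S.ζ) ?_ S.hs ((_root_.map_ne_zero (bc S.cK _)).2 hx)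
    exact Units.ext (by push_cast; exact S.hζ.pow_eq_one)
  · exact h0 _ ((_root_.map_ne_zero S.w).2 hx)

/-- the relations -/
def P (i : Fin 3) : PreRed S.A₀ S.π₀ (S.F) (LaurentSeries κ) :=
  pre S.hinc (S.φ_const i)

theorem P_R {i : Fin 3} {x : S.F} {y : LaurentSeries κ} :
    (S.P i).R x y ↔ LR S.π (S.φ i x) y := Iff.rfl

theorem P2_R {x : S.F} {y : LaurentSeries κ} : (S.P 2).R x y ↔ (S.P 0).R (S.w x) y := Iff.rfl

theorem w_w (x : S.F) : S.w (S.w x) = x := S.hw.invol S.hq x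

theorem P0_R_w {x : S.F} {y : LaurentSeries κ} : (S.P 0).R x y ↔ (S.P 2).R (S.w x) y := by
  rw [P2_R, w_w]

/-- `ζ` as a unit of `A` -/
theorem exists_ζA : ∃ z : S.Aˣ, Units.map (S.A.subtype : S.A →* K) z = S.ζ ∧
    S.π z = 1 := by
  have h1 : S.A.valuation (S.ζ : K) ^ q = 1 := by
    rw [← map_pow, S.hζ.pow_eq_one, map_one]
  have h2 : S.A.valuation (S.ζ : K) = 1 := by
    rcases lt_trichotomy (S.A.valuation (S.ζ : K)) 1 with h | h | h
    · exact absurd h1 (pow_lt_one₀ zero_le h (NeZero.ne q)).ne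
    · exact h
    · exact absurd h1 (one_lt_pow₀ h (NeZero.ne q)).ne'
  have h3 : (S.ζ : K) ∈ S.A := (S.A.valuation_le_one_iff _).1 h2.le
  have h4 : ((S.ζ⁻¹ : Kˣ) : K) ∈ S.A := by
    rw [← S.A.valuation_le_one_iff, Units.val_inv_eq_inv_val, map_inv₀, h2, inv_one]
  let z : S.Aˣ := ⟨⟨_, h3⟩, ⟨_, h4⟩, Subtype.ext S.ζ.mul_inv, Subtype.ext S.ζ.inv_mul⟩
  refine ⟨z, Units.ext rfl, ?_⟩
  haveI := S.charP
  haveI : Fact q.Prime := ⟨S.hq⟩
  have h5 : (S.π z) ^ q = 1 := by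
    rw [← map_pow]
    have : (z : S.A) ^ q = 1 := Subtype.ext (by push_cast; exact S.hζ.pow_eq_one)
    rw [this, map_one]
  have h6 : (S.π z - 1) ^ q = 0 := by
    rw [sub_pow_char, h5, one_pow, sub_self]
  have := pow_eq_zero_iff (NeZero.ne q) |>.1 h6
  exact sub_eq_zero.1 this

/-- `j(dz)` -/
abbrev J (d : ℕ) [NeZero d] (h : d ∣ q ^ 2 * M') : S.F := jel k₀ d h

theorem h1 : 1 ∣ q ^ 2 * M' := one_dvd _
theorem hq1 : q ∣ q ^ 2 * M' := (dvd_pow_self q two_ne_zero).trans (Dvd.intro _ rfl)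
theorem hq2 : q ^ 2 ∣ q ^ 2 * M' := Dvd.intro _ rfl

/-- `j(z)` -/
abbrev j1 : S.F := S.J 1 h1
/-- `j(qz)` -/
abbrev jq' : S.F := S.J q hq1
/-- `j(q²z)` -/
abbrev j2 : S.F := S.J (q ^ 2) hq2

theorem w_j1 : S.w S.j1 = S.j2 := by
  haveI : NeZero (1 : ℕ) := ⟨one_ne_zero⟩
  exact S.hw.gen 0 1 1 (q ^ 2) _ _ (Nat.zero_le _) (one_dvd _) (by simp) (by simp)

theorem w_j2 : S.w S.j2 = S.j1 := by
  rw [← w_j1, w_w]

theorem w_jq : S.w S.jq' = S.jq' := by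
  exact S.hw.gen 1 1 q q _ _ (by norm_num) (one_dvd _) (by simp) (by simp)

theorem φ0_J (d : ℕ) [NeZero d] (h : d ∣ q ^ 2 * M') :
    S.φ 0 (S.J d h) = cZ K (qExpand ℤ d (jqModC ℤ)) := by
  rw [φ0, coe_jel, coeffMap_gen', cZ_gen]

theorem R_cZ (z : LaurentSeries ℤ) : LR S.π (cZ K z) (cZ κ z) :=
  LR_int S.π z

theorem R0_J (d : ℕ) [NeZero d] (h : d ∣ q ^ 2 * M') :
    (S.P 0).R (S.J d h) (qExpand κ d (jqModC κ)) := by
  rw [P_R, φ0_J, ← cZ_gen]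
  exact S.R_cZ _

/-- the reduction of `j` -/
abbrev jb (_ : Sit k₀ K κ q M') : LaurentSeries κ := jqModC κ

theorem jb_pow : S.jb ^ q = qExpand κ q S.jb := by
  haveI := S.charP
  exact pow_jq S.hq

theorem jb_pow2 : S.jb ^ q ^ 2 = qExpand κ (q ^ 2) S.jb := by
  haveI := S.charP
  exact pow_jq2 S.hq

theorem R0_j1 : (S.P 0).R S.j1 S.jb := by
  have := S.R0_J 1 h1
  rwa [qExpand_one_apply] at this

theorem R0_jq : (S.P 0).R S.jq' (S.jb ^ q) := by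
  rw [jb_pow]; exact S.R0_J q hq1

theorem R0_j2 : (S.P 0).R S.j2 (S.jb ^ q ^ 2) := by
  rw [jb_pow2]; exact S.R0_J (q ^ 2) hq2

theorem R2_j1 : (S.P 2).R S.j1 (S.jb ^ q ^ 2) := by
  rw [P2_R, w_j1]; exact S.R0_j2

theorem R2_jq : (S.P 2).R S.jq' (S.jb ^ q) := by
  rw [P2_R, w_jq]; exact S.R0_jq

theorem R2_j2 : (S.P 2).R S.j2 S.jb := by
  rw [P2_R, w_j2]; exact S.R0_j1

theorem φ1_j1 : S.φ 1 S.j1 = cZ K (jqModC ℤ) := by
  rw [φ1, bc_jel, S.hs.gen1 1 h1 (one_dvd _), qExpand_one_apply, cZ, coeffMap_jqModC]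

theorem φ1_jq : S.φ 1 S.jq' = cZ K (qExpand ℤ q (jqModC ℤ)) := by
  rw [φ1, bc_jel, S.hs.gen1 q hq1 (Dvd.intro _ rfl), cZ_gen]

theorem φ1_j2 : S.φ 1 S.j2 = twist S.ζ (cZ K (jqModC ℤ)) := by
  haveI : NeZero (1 : ℕ) := ⟨one_ne_zero⟩
  rw [φ1, bc_jel, S.hs.gen2 1 (q ^ 2) hq2 (one_dvd _) (mul_one _).symm, qExpand_one_apply, cZ,
    coeffMap_jqModC]

theorem R1_j1 : (S.P 1).R S.j1 S.jb := by
  rw [P_R, φ1_j1]
  have := S.R_cZ (jqModC ℤ)
  rwa [show cZ κ (jqModC ℤ) = jqModC κ from coeffMap_jqModC _] at this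

theorem R1_jq : (S.P 1).R S.jq' (S.jb ^ q) := by
  rw [P_R, φ1_jq, jb_pow]
  have := S.R_cZ (qExpand ℤ q (jqModC ℤ))
  rwa [cZ_gen κ] at this

theorem R_twist {x : LaurentSeries K} {y : LaurentSeries κ} (h : LR S.π x y) :
    LR S.π (twist S.ζ x) y := by
  obtain ⟨z, hz, hz1⟩ := S.exists_ζA
  rw [← hz]
  exact LR_twist hz1 h

theorem R1_j2 : (S.P 1).R S.j2 S.jb := by
  rw [P_R, φ1_j2]
  have := S.R_cZ (jqModC ℤ)
  rw [show cZ κ (jqModC ℤ) = jqModC κ from coeffMap_jqModC _] at this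
  exact S.R_twist this

/-- the residues of `j` -/
def tb (S : Sit k₀ K κ q M') (i : Fin 3) : LaurentSeries κ :=
  match i with
  | 0 => S.jb
  | 1 => S.jb
  | 2 => S.jb ^ q ^ 2

theorem R_j1 (i : Fin 3) : (S.P i).R S.j1 (S.tb i) := by
  fin_cases i
  · exact S.R0_j1
  · exact S.R1_j1
  · exact S.R2_j1

include S in
theorem tr_jb : Transcendental κ S.jb := Curves.transcendental_jqModC _

theorem tr_tb (i : Fin 3) : Transcendental κ (S.tb i) := by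
  fin_cases i
  · exact S.tr_jb
  · exact S.tr_jb
  · exact S.tr_jb.pow (pow_pos S.hq.pos 2)

theorem jb_pow_ne {a b : ℕ} (h : a ≠ b) : S.jb ^ a - S.jb ^ b ≠ 0 := by
  intro h0
  have h1 := S.tr_jb
  rw [transcendental_iff] at h1
  have h2 := h1 (X ^ a - X ^ b) (by simpa using h0)
  have h3 := congrArg (fun p => coeff p a) h2
  simp only [coeff_sub, coeff_X_pow, coeff_zero, if_pos, if_neg h, sub_zero] at h3
  exact one_ne_zero h3

end Sit

end Fermat.Agent.Carayol
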