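import Fermat.Agent.GenusX0.Places
import Fermat.Agent.GoodRed.Haupt4
import Fermat.Agent.Gamma0Comb.Basic
import Fermat.Prelude.Def_ModularCurve_GenusNumerics

/-!
# The identity `(θ j)⁶ = j⁴ (j - 1728)³ Δ`
-/

set_option autoImplicit false
set_option linter.unusedSectionVars false
set_option linter.style.haveILetI false

noncomputable section

open HahnSeries ModularCurve UpperHalfPlane Filter Topology Function.Periodic
open scoped MatrixGroups ModularForm Manifold Derivative

namespace Fermat.Agent.Carayol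

open Fermat.Agent.ModFun Fermat.Agent.DimS2 Fermat.Agent.GenusX0 Fermat.Agent.GoodRed

theorem hasSum_deriv_pev {G : PowerSeries ℂ} (hG : PConv G) {z : ℂ} (hz : ‖z‖ < 1) :
    HasSum (fun n : ℕ => PowerSeries.coeff n G * (n * z ^ (n - 1))) (deriv (pev G) z) := by
  obtain ⟨r, hr1, hr2⟩ := exists_between hz
  have hr0 : 0 ≤ r := (norm_nonneg z).trans hr1.le
  have h := Complex.hasSum_deriv_of_summable_norm (U := Metric.ball (0 : ℂ) r) (z := z)
    (F := fun (n : ℕ) (w : ℂ) => PowerSeries.coeff n G * w ^ n)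
    (u := fun n : ℕ => ‖PowerSeries.coeff n G * (r : ℂ) ^ n‖)
    (hG r (by rw [Complex.norm_real, Real.norm_of_nonneg hr0]; exact hr2))
    (fun n => (differentiable_id.pow n).const_mul _ |>.differentiableOn) Metric.isOpen_ball
    (fun n w hw => by
      rw [norm_mul, norm_mul, norm_pow, norm_pow, Complex.norm_real, Real.norm_of_nonneg hr0]
      have : ‖w‖ ≤ r := by simpa using (Metric.mem_ball.1 hw).le
      gcongr) (by simpa using hr1)
  have e : (fun n : ℕ => PowerSeries.coeff n G * (n * z ^ (n - 1))) =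
      fun n : ℕ => deriv (fun w : ℂ => PowerSeries.coeff n G * w ^ n) z := by
    funext n
    rw [deriv_const_mul_field, deriv_pow_field]
  rw [e]
  exact h

/-- `X G'` -/
def thetaPS (G : PowerSeries ℂ) : PowerSeries ℂ := PowerSeries.mk fun n => n * PowerSeries.coeff n G

theorem hasSum_thetaPS {G : PowerSeries ℂ} (hG : PConv G) {z : ℂ} (hz : ‖z‖ < 1) :
    HasSum (fun n : ℕ => PowerSeries.coeff n (thetaPS G) * z ^ n) (z * deriv (pev G) z) := by
  have h := (hasSum_deriv_pev hG hz).mul_left z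
  refine h.congr_fun fun n => ?_
  rw [thetaPS, PowerSeries.coeff_mk]
  rcases n with _ | n
  · simp
  · rw [Nat.add_sub_cancel, pow_succ]
    ring

theorem pconv_thetaPS {G : PowerSeries ℂ} (hG : PConv G) : PConv (thetaPS G) :=
  fun _ hz => (hasSum_thetaPS hG hz).summable.norm

theorem pev_thetaPS {G : PowerSeries ℂ} (hG : PConv G) {z : ℂ} (hz : ‖z‖ < 1) :
    pev (thetaPS G) z = z * deriv (pev G) z := (hasSum_thetaPS hG hz).tsum_eq

theorem thetaFun_ofPS (G : PowerSeries ℂ) :
    thetaFun (HahnSeries.ofPowerSeries ℤ ℂ G) = HahnSeries.ofPowerSeries ℤ ℂ (thetaPS G) := by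
  ext n
  rw [thetaFun_coeff]
  rcases lt_or_ge n 0 with hn | hn
  · rw [ModularCurve.ofPowerSeries_coeff_of_neg _ hn, ModularCurve.ofPowerSeries_coeff_of_neg _ hn,
      mul_zero]
  · obtain ⟨m, rfl⟩ := Int.eq_ofNat_of_zero_le hn
    rw [HahnSeries.ofPowerSeries_apply_coeff, HahnSeries.ofPowerSeries_apply_coeff, thetaPS,
      PowerSeries.coeff_mk]
    push_cast
    rfl

theorem thetaFun_single (m : ℤ) : thetaFun (HahnSeries.single m (1 : ℂ)) =
    HahnSeries.single m (m : ℂ) := by
  ext n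
  rw [thetaFun_coeff, HahnSeries.coeff_single, HahnSeries.coeff_single]
  split_ifs with h
  · rw [h, mul_one]
  · rw [mul_zero]

theorem theta_j_eq : thetaFun (jqModC ℂ) = HahnSeries.single (-1) (1 : ℂ) *
    (HahnSeries.ofPowerSeries ℤ ℂ (thetaPS Hj) - HahnSeries.ofPowerSeries ℤ ℂ Hj) := by
  have h : jqModC ℂ = HahnSeries.single (-1) 1 * HahnSeries.ofPowerSeries ℤ ℂ Hj := rfl
  have h2 : HahnSeries.single (-1 : ℤ) (((-1 : ℤ) : ℂ)) = -HahnSeries.single (-1 : ℤ) (1 : ℂ) := by
    rw [← HahnSeries.single_neg]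
    push_cast
    rfl
  rw [h, thetaFun_mul, thetaFun_ofPS, thetaFun_single, h2]
  ring

theorem theta_j_mem : thetaFun (jqModC ℂ) ∈ convLaurent := by
  rw [theta_j_eq]
  exact convLaurent.mul_mem (single_mem_convLaurent _ _)
    (convLaurent.sub_mem (pconv_thetaPS pconv_Hj).mem_convLaurent pconv_Hj.mem_convLaurent)

theorem evf_theta_j (τ : ℍ) : evf (thetaFun (jqModC ℂ)) (qParam 1 τ) = D jfun τ := by
  have hz := pdisc_q τ
  have h1 := map_mul (ev _ hz) ⟨_, single_mem_convLaurent (-1) 1⟩
    ⟨_, convLaurent.sub_mem (pconv_thetaPS pconv_Hj).mem_convLaurent pconv_Hj.mem_convLaurent⟩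
  have h2 := map_sub (ev _ hz) ⟨_, (pconv_thetaPS pconv_Hj).mem_convLaurent⟩
    ⟨_, pconv_Hj.mem_convLaurent⟩
  have h3 : evf (thetaFun (jqModC ℂ)) (qParam 1 τ) =
      evf (HahnSeries.single (-1) 1) (qParam 1 τ) *
        (evf (HahnSeries.ofPowerSeries ℤ ℂ (thetaPS Hj)) (qParam 1 τ) -
          evf (HahnSeries.ofPowerSeries ℤ ℂ Hj) (qParam 1 τ)) := by
    rw [theta_j_eq]
    refine h1.trans ?_
    congr 1
  rw [h3, evf_single, evf_ofPowerSeries, evf_ofPowerSeries, D_jfun, one_mul, zpow_neg_one]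
  change _ * (pev (thetaPS Hj) _ - pev Hj _) = _
  rw [pev_thetaPS pconv_Hj hz.2, mul_sub, inv_mul_cancel_left₀ hz.ne_zero]
  ring

theorem evf_eq_zero_aux {F : LaurentSeries ℂ} (hF : F ∈ convLaurent)
    (h : ∀ τ : ℍ, evf F (qParam 1 τ) = 0) : F = 0 := by
  apply eq_zero_of_evf hF
  intro z hz
  have h0 : (0 : ℝ) < 1 := one_pos
  have := h ⟨_, im_invQParam_pos_of_norm_lt_one h0 hz.2 hz.ne_zero⟩
  rwa [UpperHalfPlane.coe_mk, qParam_right_inv h0.ne' hz.ne_zero] at this

theorem theta_j_aux : ∃ c : ℂ, thetaFun (jqModC ℂ) ^ 6 =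
    HahnSeries.C c * (jqModC ℂ ^ 4 * (jqModC ℂ - 1728) ^ 3 * DeltaSer ℂ) := by
  obtain ⟨c, hc0, hc⟩ := GenusX0.exists_const
  refine ⟨c ^ 6, ?_⟩
  let T : convLaurent := ⟨_, theta_j_mem⟩
  let J : convLaurent := ⟨_, jqModC_mem_convLaurent⟩
  let E : convLaurent := ⟨_, DeltaSer_mem⟩
  let c' : convLaurent := ⟨HahnSeries.C (c ^ 6), single_mem_convLaurent 0 _⟩
  have key : ((T ^ 6 - c' * (J ^ 4 * (J - 1728) ^ 3 * E) : convLaurent) : LaurentSeries ℂ) = 0 := by
    apply evf_eq_zero_aux (Subtype.prop _)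
    intro τ
    have hz := pdisc_q τ
    change ev _ hz (T ^ 6 - c' * (J ^ 4 * (J - 1728) ^ 3 * E)) = 0
    have hT : ev _ hz T = D jfun τ := evf_theta_j τ
    have hJ : ev _ hz J = jfun τ := evf_jqModC τ
    have hE : ev _ hz E = ModularForm.discriminant τ := evf_DeltaSer τ
    have hc' : ev _ hz c' = c ^ 6 := by
      rw [ev_apply]
      change evf (HahnSeries.single 0 (c ^ 6)) _ = _
      rw [evf_single, zpow_zero, mul_one]
    rw [map_sub, map_mul, map_mul, map_mul, map_pow, map_pow, map_pow, map_sub, hT, hJ, hE, hc',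
      map_ofNat]
    have h1 := hc τ
    have h2 := jfun_mul_disc τ
    have h3 := jfun_sub_mul_disc τ
    have h4 := ModularForm.discriminant_ne_zero τ
    apply mul_left_cancel₀ (pow_ne_zero 6 h4)
    have h5 : (ModularForm.discriminant τ * D jfun τ) ^ 6 =
        c ^ 6 * ((jfun τ * ModularForm.discriminant τ) ^ 4 *
          ((jfun τ - 1728) * ModularForm.discriminant τ) ^ 3) := by
      rw [h1, h2, h3]; ring
    linear_combination h5
  exact sub_eq_zero.1 key

theorem Ld.pow' {R : Type*} [CommRing R] {n : ℤ} {x : LaurentSeries R} {c : R} (h : Ld n x c)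
    (m : ℕ) : Ld (m * n) (x ^ m) (c ^ m) := by
  induction m with
  | zero =>
    rw [pow_zero, pow_zero, Nat.cast_zero, zero_mul]
    refine ⟨fun m hm => ?_, ?_⟩
    · rw [HahnSeries.coeff_one, if_neg hm.ne]
    · rw [HahnSeries.coeff_one, if_pos rfl]
  | succ m ih =>
    rw [pow_succ, pow_succ]
    have := ih.mul h
    rwa [show (m : ℤ) * n + n = ((m + 1 : ℕ) : ℤ) * n by push_cast; ring] at this

theorem ld_theta {L : Type*} [Field L] {n : ℤ} {x : LaurentSeries L} {c : L} (h : Ld n x c) :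
    Ld n (thetaFun x) (n * c) :=
  ⟨fun m hm => by rw [thetaFun_coeff, h.1 m hm, mul_zero], by rw [thetaFun_coeff, h.2]⟩

theorem ld_j_sub (L : Type*) [Field L] : Ld (-1) (jqModC L - 1728) (1 : L) := by
  have h := ld_jq L
  refine ⟨fun m hm => ?_, ?_⟩
  · rw [HahnSeries.coeff_sub, h.1 m hm]
    have : (1728 : LaurentSeries L) = HahnSeries.single 0 (1728 : L) := by
      change _ = HahnSeries.C (1728 : L)
      rw [map_ofNat]
    rw [this, HahnSeries.coeff_single_of_ne (by omega), sub_zero]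
  · rw [HahnSeries.coeff_sub, h.2]
    have : (1728 : LaurentSeries L) = HahnSeries.single 0 (1728 : L) := by
      change _ = HahnSeries.C (1728 : L)
      rw [map_ofNat]
    rw [this, HahnSeries.coeff_single_of_ne (by omega), sub_zero]

theorem theta_j_C : thetaFun (jqModC ℂ) ^ 6 =
    jqModC ℂ ^ 4 * (jqModC ℂ - 1728) ^ 3 * DeltaSer ℂ := by
  obtain ⟨c, hc⟩ := theta_j_aux
  have h1 : Ld (-6) (thetaFun (jqModC ℂ) ^ 6) (1 : ℂ) := by
    have := Ld.pow' (ld_theta (ld_jq ℂ)) 6
    have e1 : (((-1 : ℤ) : ℂ) * 1) ^ 6 = 1 := by norm_num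
    rw [e1] at this
    exact this
  have h2 : Ld (-6) (jqModC ℂ ^ 4 * (jqModC ℂ - 1728) ^ 3 * DeltaSer ℂ) (1 : ℂ) := by
    have := (((Ld.pow' (ld_jq ℂ) 4).mul (Ld.pow' (ld_j_sub ℂ) 3)).mul (ld_Delta ℂ))
    have e1 : ((1 : ℂ) ^ 4 * 1 ^ 3 * 1) = 1 := by norm_num
    rw [e1] at this
    exact this
  have h3 := (h2.C_mul c).2
  rw [← hc, h1.2, mul_one] at h3
  rw [hc, ← h3, map_one, one_mul]

theorem coeffMap_thetaFun {L L' : Type*} [Field L] [Field L'] (f : L →+* L')
    (x : LaurentSeries L) : coeffMap f (thetaFun x) = thetaFun (coeffMap f x) := by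
  ext n
  rw [coeffMap_coeff, thetaFun_coeff, thetaFun_coeff, coeffMap_coeff, map_mul, map_intCast]

theorem theta_j {K : Type*} [Field K] (ι : K →+* ℂ) : thetaFun (jqModC K) ^ 6 =
    jqModC K ^ 4 * (jqModC K - 1728) ^ 3 * DeltaSer K := by
  apply coeffMap_injective ι.injective
  rw [map_pow, coeffMap_thetaFun, map_mul, map_mul, map_pow, map_pow, map_sub, map_ofNat,
    coeffMap_jqModC, coeffMap_DeltaSer]
  exact theta_j_C

/-- the derivative of a Laurent series over a ring -/
def thetaR {R : Type*} [CommRing R] (G : LaurentSeries R) : LaurentSeries R where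
  coeff n := (n : R) * G.coeff n
  isPWO_support' := by
    refine G.isPWO_support.mono fun n hn => ?_
    rw [Function.mem_support] at hn
    exact right_ne_zero_of_mul hn

theorem coeffMap_thetaR {R L : Type*} [CommRing R] [Field L] (f : R →+* L)
    (x : LaurentSeries R) : coeffMap f (thetaR x) = thetaFun (coeffMap f x) := by
  ext n
  rw [coeffMap_coeff, thetaFun_coeff, coeffMap_coeff]
  change f (n * x.coeff n) = _
  rw [map_mul, map_intCast]

theorem LR_theta {K κ : Type*} [Field K] [Field κ] {A : ValuationSubring K} {π : A →+* κ}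
    {x : LaurentSeries K} {y : LaurentSeries κ} (h : LR π x y) :
    LR π (thetaFun x) (thetaFun y) := by
  obtain ⟨f, g, hg, hx, hy⟩ := h
  refine ⟨g * thetaR f - f * thetaR g, g * g, ?_, ?_, ?_⟩
  · rw [map_mul]; exact mul_ne_zero hg hg
  · have h5 := congrArg thetaFun hx
    rw [thetaFun_mul] at h5
    rw [map_mul, map_sub, map_mul, map_mul, coeffMap_thetaR, coeffMap_thetaR]
    linear_combination coeffMap A.subtype g * h5 - thetaFun (coeffMap A.subtype g) * hx
  · have h5 := congrArg thetaFun hy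
    rw [thetaFun_mul] at h5
    rw [map_mul, map_sub, map_mul, map_mul, coeffMap_thetaR, coeffMap_thetaR]
    linear_combination coeffMap π g * h5 - thetaFun (coeffMap π g) * hy

/-! ### elliptic points -/

theorem nuTwo_eq_zero {N : ℕ} (h : 4 ∣ N ∨ 3 ∣ N) : nuTwo N = 0 := by
  rw [nuTwo, Nat.card_eq_zero]
  left
  constructor
  rintro ⟨x, hx⟩
  rcases h with h | h
  · have := congrArg (ZMod.castHom h (ZMod 4)) hx
    rw [map_add, map_pow, map_one, map_zero] at this
    revert this
    generalize (ZMod.castHom h (ZMod 4)) x = y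
    revert y
    decide
  · have := congrArg (ZMod.castHom h (ZMod 3)) hx
    rw [map_add, map_pow, map_one, map_zero] at this
    revert this
    generalize (ZMod.castHom h (ZMod 3)) x = y
    revert y
    decide

theorem nuThree_eq_zero {N : ℕ} (h : 2 ∣ N ∨ 9 ∣ N) : nuThree N = 0 := by
  rw [nuThree, Nat.card_eq_zero]
  left
  constructor
  rintro ⟨x, hx⟩
  rcases h with h | h
  · have := congrArg (ZMod.castHom h (ZMod 2)) hx
    rw [map_add, map_add, map_pow, map_one, map_zero] at this
    revert this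
    generalize (ZMod.castHom h (ZMod 2)) x = y
    revert y
    decide
  · have := congrArg (ZMod.castHom h (ZMod 9)) hx
    rw [map_add, map_add, map_pow, map_one, map_zero] at this
    revert this
    generalize (ZMod.castHom h (ZMod 9)) x = y
    revert y
    decide

section Ell

open AlgebraicCurve Fermat.Agent.Curves

variable {K : Type*} [Field K] [IsAlgClosed K] [CharZero K] (ι : K →+* ℂ) {N : ℕ} [NeZero N]

include ι in
theorem ord_je_eq_three (hN : nuThree N = 0)
    (v : Place K (modularFunctionFieldFullC K N)) (hv : 0 < v.ord (je K N)) :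
    v.ord (je K N) = 3 := by
  classical
  have h := isLoc_rho (k := K) (N := N) ι
  have h1 := ord_dvd h hv
  have h2 : v.ord (je K N) ∣ 3 := h1
  have h3 : v.ord (je K N) ≠ 1 := by
    intro h1
    have h4 := card_unram_eq h
    have f0 : Nat.card {x : Cos N // (ptRho.toUDN N).s • x = x} = nuThree N :=
      Gamma0Comb.card_fix_ST N
    rw [f0, hN, Finset.card_eq_zero] at h4
    have h5 : v ∈ (zeros K (je K N)).filter fun v => v.ord (je K N) = 1 :=
      Finset.mem_filter.2 ⟨mem_zeros.2 hv, h1⟩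
    rw [h4] at h5
    exact absurd h5 (Finset.notMem_empty v)
  obtain ⟨m, hm⟩ := Int.eq_ofNat_of_zero_le hv.le
  rw [hm] at h2 h3 ⊢
  have h6 : m ∣ 3 := by exact_mod_cast h2
  rcases (Nat.dvd_prime Nat.prime_three).1 h6 with h7 | h7
  · rw [h7] at h3
    exact absurd rfl h3
  · rw [h7]; rfl

include ι in
theorem ord_je_eq_two (hN : nuTwo N = 0)
    (v : Place K (modularFunctionFieldFullC K N))
    (hv : 0 < v.ord (je K N - algebraMap K (modularFunctionFieldFullC K N) 1728)) :
    v.ord (je K N - algebraMap K (modularFunctionFieldFullC K N) 1728) = 2 := by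
  classical
  have h := isLoc_I (k := K) (N := N) ι
  have h1 := ord_dvd h hv
  have h2 : v.ord (je K N - algebraMap K (modularFunctionFieldFullC K N) 1728) ∣ 2 := h1
  have h3 : v.ord (je K N - algebraMap K (modularFunctionFieldFullC K N) 1728) ≠ 1 := by
    intro h1
    have h4 := card_unram_eq h
    have f0 : Nat.card {x : Cos N // (ptI.toUDN N).s • x = x} = nuTwo N :=
      Gamma0Comb.card_fix_S N
    rw [f0, hN, Finset.card_eq_zero] at h4
    have h5 : v ∈ (zeros K (je K N - algebraMap K (modularFunctionFieldFullC K N) 1728)).filter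
        fun v => v.ord (je K N - algebraMap K (modularFunctionFieldFullC K N) 1728) = 1 :=
      Finset.mem_filter.2 ⟨mem_zeros.2 hv, h1⟩
    rw [h4] at h5
    exact absurd h5 (Finset.notMem_empty v)
  obtain ⟨m, hm⟩ := Int.eq_ofNat_of_zero_le hv.le
  rw [hm] at h2 h3 ⊢
  have h6 : m ∣ 2 := by exact_mod_cast h2
  rcases (Nat.dvd_prime Nat.prime_two).1 h6 with h7 | h7
  · rw [h7] at h3
    exact absurd rfl h3
  · rw [h7]; rfl

local notation "𝔽" => modularFunctionFieldFullC K N

set_option synthInstance.maxHeartbeats 400000 in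
set_option maxHeartbeats 1000000 in
include ι in
/-- the function `(θ s)⁶/Δ` is a unit wherever `s - s(P)` is a local parameter -/
theorem exists_Psi (hN2 : nuTwo N = 0) (hN3 : nuThree N = 0)
    (s : modularFunctionFieldFullC K N) (hs : Transcendental K s) :
    ∃ Ψ : modularFunctionFieldFullC K N, Ψ ≠ 0 ∧
      (Ψ : LaurentSeries K) * DeltaSer K = thetaFun (s : LaurentSeries K) ^ 6 ∧
      ∀ (v : Place K (modularFunctionFieldFullC K N)) (c : K),
        je K N ∈ v.toValuationSubring → v.ord (s - algebraMap K _ c) = 1 → v.ord Ψ = 0 := by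
  obtain ⟨h, hh⟩ : ∃ h : 𝔽, h • KaehlerDifferential.D K 𝔽 s = KaehlerDifferential.D K 𝔽 (je K N) := by
    have : KaehlerDifferential.D K 𝔽 (je K N) ∈ Submodule.span 𝔽 {KaehlerDifferential.D K 𝔽 s} := by
      rw [span_D_eq_top hs]; exact Submodule.mem_top
    exact Submodule.mem_span_singleton.1 this
  have hj0 : je K N ≠ 0 := fun h => transcendental_je (k := K) (N := N) (h ▸ isAlgebraic_zero)
  have hj1 : je K N - algebraMap K 𝔽 1728 ≠ 0 := fun h0 =>
    transcendental_je_sub (N := N) (1728 : K) (by rw [h0]; exact isAlgebraic_zero)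
  -- the relation of series
  let σ : 𝔽 →+* LaurentSeries K := algebraMap 𝔽 (LaurentSeries K)
  have hσ : ∀ c, σ (algebraMap K 𝔽 c) = HahnSeries.C ((RingHom.id K) c) := by
    intro c
    rw [ModFun.C_eq_algebraMap]
    rfl
  have hrel : thetaFun (jqModC K) = (h : LaurentSeries K) * thetaFun (s : LaurentSeries K) := by
    have h2 := congrArg (thetaDer σ (RingHom.id K) hσ).liftKaehlerDifferential hh
    rw [map_smul, Derivation.liftKaehlerDifferential_comp_D,
      Derivation.liftKaehlerDifferential_comp_D] at h2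
    exact h2.symm
  have hθj : thetaFun (jqModC K) ≠ 0 := by
    have := ld_theta (ld_jq K)
    exact this.ne_zero (by norm_num)
  have hh0 : h ≠ 0 := by
    rintro rfl
    rw [ZeroMemClass.coe_zero, zero_mul] at hrel
    exact hθj hrel
  refine ⟨(h ^ 6)⁻¹ * (je K N ^ 4 * (je K N - algebraMap K 𝔽 1728) ^ 3),
    mul_ne_zero (inv_ne_zero (pow_ne_zero _ hh0)) (mul_ne_zero (pow_ne_zero _ hj0)
      (pow_ne_zero _ hj1)), ?_, ?_⟩
  · have h1 := theta_j ι
    rw [hrel, mul_pow] at h1
    have h2 : (h : LaurentSeries K) ^ 6 ≠ 0 := pow_ne_zero _ fun h0 => hh0 (Subtype.ext h0)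
    have e1 : ((je K N : 𝔽) : LaurentSeries K) = jqModC K := rfl
    have e2 : ((algebraMap K 𝔽 1728 : 𝔽) : LaurentSeries K) = 1728 := by
      have : ((algebraMap K 𝔽 1728 : 𝔽) : LaurentSeries K) = algebraMap K (LaurentSeries K) 1728 :=
        rfl
      rw [this, map_ofNat]
    have e3 : (((h ^ 6)⁻¹ * (je K N ^ 4 * (je K N - algebraMap K 𝔽 1728) ^ 3) : 𝔽) :
        LaurentSeries K) = ((h : LaurentSeries K) ^ 6)⁻¹ *
          (jqModC K ^ 4 * (jqModC K - 1728) ^ 3) := by
      push_cast
      rw [e1, map_ofNat]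
    rw [e3, mul_assoc, ← h1, inv_mul_cancel_left₀ h2]
  · intro v c hjv hsv
    obtain ⟨d, hd⟩ := exists_residue v ((mem_iff_val v).1 hjv)
    rw [val_lt_one_iff, or_iff_right (fun h0 => transcendental_je_sub (N := N) d
      (by rw [h0]; exact isAlgebraic_zero))] at hd
    -- the order of `h`
    obtain ⟨P, _, _, h3⟩ := exists_isLoc (N := N) ι d
    obtain ⟨x, hx⟩ := exists_centred h3 hd
    have hD : KaehlerDifferential.D K 𝔽 (je K N - algebraMap K 𝔽 d) =
        h • KaehlerDifferential.D K 𝔽 (s - algebraMap K 𝔽 c) := by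
      rw [map_sub, map_sub, Derivation.map_algebraMap, Derivation.map_algebraMap, sub_zero,
        sub_zero, hh]
    have hord := (order_of_smul_D (sig_const ι (P.toUDN N) x) hx hsv (by omega) hD).2
    rw [v.ord_mul (inv_ne_zero (pow_ne_zero _ hh0)) (mul_ne_zero (pow_ne_zero _ hj0)
      (pow_ne_zero _ hj1)), v.ord_mul (pow_ne_zero _ hj0) (pow_ne_zero _ hj1), v.ord_inv,
      ord_pow, ord_pow, ord_pow, hord]
    -- the cases
    have hge : 0 ≤ v.ord (je K N) := (mem_iff_ord v hj0).1 hjv
    have hge1 : 0 ≤ v.ord (je K N - algebraMap K 𝔽 1728) :=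
      (mem_iff_ord v hj1).1 (sub_mem hjv (v.algebraMap_mem' _))
    have hconst : ∀ a b : K, a ≠ b → 0 < v.ord (je K N - algebraMap K 𝔽 a) →
        ¬ 0 < v.ord (je K N - algebraMap K 𝔽 b) := by
      intro a b hab ha hb
      have hne : algebraMap K 𝔽 (b - a) ≠ 0 := by
        rw [_root_.map_ne_zero]; exact sub_ne_zero.2 (Ne.symm hab)
      have e : algebraMap K 𝔽 (b - a) = (je K N - algebraMap K 𝔽 a) +
          -(je K N - algebraMap K 𝔽 b) := by rw [map_sub]; ring
      have hna : je K N - algebraMap K 𝔽 a ≠ 0 := fun h0 =>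
        transcendental_je_sub (N := N) a (by rw [h0]; exact isAlgebraic_zero)
      have hnb : je K N - algebraMap K 𝔽 b ≠ 0 := fun h0 =>
        transcendental_je_sub (N := N) b (by rw [h0]; exact isAlgebraic_zero)
      have h7 := ord_add v (f := je K N - algebraMap K 𝔽 a) (g := -(je K N - algebraMap K 𝔽 b))
        (by rw [← e]; exact hne) hna (neg_ne_zero.2 hnb)
      rw [← e, ord_algebraMap, ord_neg] at h7
      have := lt_min ha hb
      omega
    by_cases hd0 : d = 0
    · subst hd0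
      rw [map_zero, sub_zero] at hd ⊢
      have e1 := ord_je_eq_three ι hN3 v hd
      have e2 := hconst 0 1728 (by norm_num) (by rw [map_zero, sub_zero]; exact hd)
      rw [e1]
      push_cast
      omega
    by_cases hd1 : d = 1728
    · subst hd1
      have e1 := ord_je_eq_two ι hN2 v hd
      have e2 := hconst 1728 0 (by norm_num) hd
      rw [map_zero, sub_zero] at e2
      rw [e1]
      push_cast
      omega
    · have e1 := ord_je_sub_le_one v ι hd0 hd1
      have e2 := hconst d 0 hd0 hd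
      have e3 := hconst d 1728 hd1 hd
      rw [map_zero, sub_zero] at e2
      push_cast
      omega

end Ell

end Fermat.Agent.Carayol
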