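import Mathlib

/-!
# Unique factorisation in two-dimensional regular local rings, and local `m`-th roots
-/

set_option autoImplicit false
set_option linter.unusedSectionVars false

noncomputable section

namespace Fermat.Agent.Carayol

section UFD

variable {R : Type*} [CommRing R] [IsDomain R]

/-- A noetherian local domain with a prime element `x` such that every ideal is principal modulo
`x` is a unique factorisation domain. -/
theorem ufd_of_prime [IsNoetherianRing R] [IsLocalRing R] {x : R} (hx : Prime x)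
    (h : ∀ I : Ideal R, ∃ p ∈ I, I ≤ Ideal.span {p} ⊔ Ideal.span {x}) :
    UniqueFactorizationMonoid R := by
  refine UniqueFactorizationMonoid.iff_exists_prime_mem_of_isPrime.2 fun I hI hIp => ?_
  by_cases hxI : x ∈ I
  · exact ⟨x, hxI, hx⟩
  obtain ⟨p, hp, hle⟩ := h I
  have h1 : I ≤ Ideal.span {p} ⊔ (Ideal.span {x}) • I := by
    intro y hy
    obtain ⟨a, ha, b, hb, rfl⟩ := Submodule.mem_sup.1 (hle hy)
    obtain ⟨r, rfl⟩ := Ideal.mem_span_singleton'.1 ha
    obtain ⟨s, rfl⟩ := Ideal.mem_span_singleton'.1 hb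
    have h2 : s * x ∈ I := by
      have := I.sub_mem hy (I.mul_mem_left r hp)
      rwa [add_sub_cancel_left] at this
    have h3 : s ∈ I := (hIp.mem_or_mem h2).resolve_right hxI
    refine Submodule.add_mem_sup ha ?_
    rw [mul_comm]
    exact Submodule.smul_mem_smul (Ideal.mem_span_singleton_self x) h3
  have h4 : I ≤ Ideal.span {p} := by
    refine Submodule.le_of_le_smul_of_le_jacobson_bot (IsNoetherian.noetherian I) ?_ h1
    rw [IsLocalRing.jacobson_eq_maximalIdeal ⊥ bot_ne_top, Ideal.span_singleton_le_iff_mem]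
    exact (IsLocalRing.mem_maximalIdeal x).2 hx.not_isUnit
  have h5 : I = Ideal.span {p} := le_antisymm h4 ((Ideal.span_singleton_le_iff_mem _).2 hp)
  refine ⟨p, hp, ?_⟩
  have hp0 : p ≠ 0 := by
    rintro rfl
    rw [Ideal.span_singleton_eq_bot.2 rfl] at h5
    exact hI h5
  rw [h5] at hIp
  exact (Ideal.span_singleton_prime hp0).1 hIp

theorem exists_assoc_pow [UniqueFactorizationMonoid R] {m : ℕ} (a : R) (ha : a ≠ 0)
    (h : ∀ p, Prime p → ∀ n b, a = p ^ n * b → ¬ p ∣ b → m ∣ n) :
    ∃ c, Associated a (c ^ m) := by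
  revert ha h
  refine UniqueFactorizationMonoid.induction_on_coprime a ?_ ?_ ?_ ?_
  · intro h; exact absurd rfl h
  · intro x hx _ _
    exact ⟨1, by rw [one_pow]; exact associated_one_iff_isUnit.2 hx⟩
  · intro p i hp _ h
    obtain ⟨k, hk⟩ := h p hp i 1 (by rw [mul_one]) hp.not_dvd_one
    exact ⟨p ^ k, by rw [← pow_mul, mul_comm, ← hk]⟩
  · intro x y hxy hx hy h0 h
    have hx0 : x ≠ 0 := left_ne_zero_of_mul h0
    have hy0 : y ≠ 0 := right_ne_zero_of_mul h0
    obtain ⟨c, hc⟩ := hx hx0 fun p hp n b hb hpb => by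
      rcases Nat.eq_zero_or_pos n with rfl | hn
      · exact dvd_zero m
      · have hpx : p ∣ x := by rw [hb]; exact Dvd.dvd.mul_right (dvd_pow_self p hn.ne') b
        have hpy : ¬ p ∣ y := fun hpy => hp.not_isUnit (hxy hpx hpy)
        exact h p hp n (b * y) (by rw [hb]; ring) fun hd => (hp.dvd_or_dvd hd).elim hpb hpy
    obtain ⟨d, hd⟩ := hy hy0 fun p hp n b hb hpb => by
      rcases Nat.eq_zero_or_pos n with rfl | hn
      · exact dvd_zero m
      · have hpy : p ∣ y := by rw [hb]; exact Dvd.dvd.mul_right (dvd_pow_self p hn.ne') b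
        have hpx : ¬ p ∣ x := fun hpx => hp.not_isUnit (hxy hpx hpy)
        exact h p hp n (b * x) (by rw [hb]; ring) fun hd => (hp.dvd_or_dvd hd).elim hpb hpx
    exact ⟨c * d, by rw [mul_pow]; exact hc.mul_mul hd⟩

theorem exists_pow_mul_not_dvd [UniqueFactorizationMonoid R] {p a : R} (hp : Prime p)
    (ha : a ≠ 0) : ∃ (n : ℕ) (b : R), ¬ p ∣ b ∧ a = p ^ n * b :=
  WfDvdMonoid.max_power_factor ha hp.irreducible

theorem pow_eq_of_mul_eq {p : R} (hp : Prime p) {k l : ℕ} {a b : R} (ha : ¬ p ∣ a)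
    (hb : ¬ p ∣ b) (h : p ^ k * a = p ^ l * b) : k = l := by
  have hp0 := hp.ne_zero
  rcases lt_trichotomy k l with hkl | hkl | hkl
  · exfalso
    obtain ⟨d, rfl⟩ := Nat.exists_eq_add_of_lt hkl
    have h1 : a = p * (p ^ d * b) := by
      apply mul_left_cancel₀ (pow_ne_zero k hp0)
      rw [h]; ring
    exact ha ⟨_, h1⟩
  · exact hkl
  · exfalso
    obtain ⟨d, rfl⟩ := Nat.exists_eq_add_of_lt hkl
    have h1 : b = p * (p ^ d * a) := by
      apply mul_left_cancel₀ (pow_ne_zero l hp0)
      rw [← h]; ring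
    exact hb ⟨_, h1⟩

variable {F : Type*} [Field F] [Algebra R F] [IsFractionRing R F]

/-- local existence of `m`-th roots up to units in a UFD -/
theorem local_root [UniqueFactorizationMonoid R] {m : ℕ} (hm : 0 < m) {u : F} (hu : u ≠ 0)
    (h : ∀ p : R, Prime p → ∃ y : F, y ≠ 0 ∧ ∃ a b : R, ¬ p ∣ a ∧ ¬ p ∣ b ∧
      u * y ^ m * algebraMap R F b = algebraMap R F a) :
    ∃ w : F, w ≠ 0 ∧ ∃ v : Rˣ, w ^ m * u = algebraMap R F (v : R) := by
  have hinj : Function.Injective (algebraMap R F) := IsFractionRing.injective R F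
  obtain ⟨a₀, b₀, hb₀, hab⟩ := IsFractionRing.div_surjective (A := R) u
  have hb₀' : b₀ ≠ 0 := nonZeroDivisors.ne_zero hb₀
  have hb₀F : algebraMap R F b₀ ≠ 0 := fun h => hb₀' (hinj (by rw [h, map_zero]))
  set a := a₀ * b₀ ^ (m - 1) with ha
  have hua : u * algebraMap R F b₀ ^ m = algebraMap R F a := by
    obtain ⟨k, rfl⟩ := Nat.exists_eq_succ_of_ne_zero hm.ne'
    rw [← hab, ha, map_mul, map_pow, Nat.succ_sub_one, pow_succ]
    field_simp
  have ha0 : a ≠ 0 := by
    intro h0
    rw [h0, map_zero, mul_eq_zero] at hua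
    exact hua.elim hu (pow_ne_zero m hb₀F)
  obtain ⟨c, v, hc⟩ := exists_assoc_pow (m := m) a ha0 fun p hp n b hb hpb => by
    obtain ⟨y, hy0, a', b', ha', hb', hy⟩ := h p hp
    obtain ⟨c, d, hd, rfl⟩ := IsFractionRing.div_surjective (A := R) y
    have hd' : d ≠ 0 := nonZeroDivisors.ne_zero hd
    have hdF : algebraMap R F d ≠ 0 := fun h => hd' (hinj (by rw [h, map_zero]))
    have hc0 : c ≠ 0 := by
      rintro rfl
      apply hy0
      rw [map_zero, zero_div]
    obtain ⟨k, c', hc', rfl⟩ := exists_pow_mul_not_dvd hp hc0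
    obtain ⟨l, d', hd1, rfl⟩ := exists_pow_mul_not_dvd hp hd'
    obtain ⟨j, e, he, rfl⟩ := exists_pow_mul_not_dvd hp hb₀'
    have h1 : a * (p ^ k * c') ^ m * b' = a' * (p ^ j * e) ^ m * (p ^ l * d') ^ m := by
      apply hinj
      have h2 := congrArg (fun z => z * algebraMap R F (p ^ j * e) ^ m *
        algebraMap R F (p ^ l * d') ^ m) hy
      rw [div_pow] at h2
      rw [map_mul, map_mul, map_pow, map_mul (algebraMap R F) _ ((p ^ l * d') ^ m),
        map_mul (algebraMap R F) a', map_pow, map_pow, ← h2, ← hua]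
      field_simp
    rw [hb] at h1
    have h3 : p ^ (n + m * k) * (b * c' ^ m * b') = p ^ (m * j + m * l) * (a' * e ^ m * d' ^ m) := by
      rw [mul_pow, mul_pow, mul_pow, ← pow_mul, ← pow_mul, ← pow_mul] at h1
      rw [pow_add, pow_add, mul_comm m k, mul_comm m j, mul_comm m l]
      linear_combination h1
    have h4 : n + m * k = m * j + m * l := by
      refine pow_eq_of_mul_eq hp ?_ ?_ h3
      · intro hd
        rcases hp.dvd_or_dvd hd with hd | hd
        · rcases hp.dvd_or_dvd hd with hd | hd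
          · exact hpb hd
          · exact hc' (hp.dvd_of_dvd_pow hd)
        · exact hb' hd
      · intro hd
        rcases hp.dvd_or_dvd hd with hd | hd
        · rcases hp.dvd_or_dvd hd with hd | hd
          · exact ha' hd
          · exact he (hp.dvd_of_dvd_pow hd)
        · exact hd1 (hp.dvd_of_dvd_pow hd)
    have h5 : m ∣ n + m * k := by
      rw [h4]; exact dvd_add (dvd_mul_right m j) (dvd_mul_right m l)
    exact (Nat.dvd_add_left (dvd_mul_right m k)).1 h5
  have hc0 : c ≠ 0 := by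
    rintro rfl
    rw [zero_pow hm.ne'] at hc
    exact ha0 (by simpa using hc)
  have hcF : algebraMap R F c ≠ 0 := fun h => hc0 (hinj (by rw [h, map_zero]))
  refine ⟨algebraMap R F b₀ / algebraMap R F c, div_ne_zero hb₀F hcF, v⁻¹, ?_⟩
  have h6 : a = c ^ m * ((v⁻¹ : Rˣ) : R) := by
    rw [← hc, mul_assoc, ← Units.val_mul, mul_inv_cancel, Units.val_one, mul_one]
  rw [div_pow, div_mul_eq_mul_div, mul_comm (algebraMap R F b₀ ^ m), hua, h6, map_mul, map_pow]
  field_simp

/-- the valuation subring of a prime element of a UFD -/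
def primeVal [UniqueFactorizationMonoid R] (F : Type*) [Field F] [Algebra R F]
    [IsFractionRing R F] (p : R) (hp : Prime p) : ValuationSubring F where
  carrier := {f | ∃ a b : R, ¬ p ∣ b ∧ f * algebraMap R F b = algebraMap R F a}
  mul_mem' := by
    rintro f g ⟨a, b, hb, h⟩ ⟨a', b', hb', h'⟩
    refine ⟨a * a', b * b', fun hd => (hp.dvd_or_dvd hd).elim hb hb', ?_⟩
    rw [map_mul, map_mul, ← h, ← h']; ring
  one_mem' := ⟨1, 1, hp.not_dvd_one, by rw [one_mul]⟩
  add_mem' := by
    rintro f g ⟨a, b, hb, h⟩ ⟨a', b', hb', h'⟩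
    refine ⟨a * b' + a' * b, b * b', fun hd => (hp.dvd_or_dvd hd).elim hb hb', ?_⟩
    rw [map_mul, map_add, map_mul, map_mul, ← h, ← h']; ring
  zero_mem' := ⟨0, 1, hp.not_dvd_one, by rw [zero_mul, map_zero]⟩
  neg_mem' := by
    rintro f ⟨a, b, hb, h⟩
    exact ⟨-a, b, hb, by rw [map_neg, ← h]; ring⟩
  mem_or_inv_mem' := by
    intro f
    have hinj : Function.Injective (algebraMap R F) := IsFractionRing.injective R F
    obtain ⟨a, b, hb, rfl⟩ := IsFractionRing.div_surjective (A := R) f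
    have hb0 : b ≠ 0 := nonZeroDivisors.ne_zero hb
    rcases eq_or_ne a 0 with rfl | ha0
    · exact Or.inl ⟨0, 1, hp.not_dvd_one, by simp⟩
    obtain ⟨n, a', ha', rfl⟩ := exists_pow_mul_not_dvd hp ha0
    obtain ⟨l, b', hb', rfl⟩ := exists_pow_mul_not_dvd hp hb0
    have hpF : algebraMap R F p ≠ 0 := fun h => hp.ne_zero (hinj (by rw [h, map_zero]))
    have haF : algebraMap R F a' ≠ 0 := fun h => by
      have : a' = 0 := hinj (by rw [h, map_zero])
      exact ha' (this ▸ dvd_zero p)
    have hbF : algebraMap R F b' ≠ 0 := fun h => by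
      have : b' = 0 := hinj (by rw [h, map_zero])
      exact hb' (this ▸ dvd_zero p)
    rcases le_total l n with hln | hln
    · left
      obtain ⟨d, rfl⟩ := Nat.exists_eq_add_of_le hln
      refine ⟨p ^ d * a', b', hb', ?_⟩
      simp only [map_mul, map_pow, pow_add]
      field_simp
    · right
      obtain ⟨d, rfl⟩ := Nat.exists_eq_add_of_le hln
      refine ⟨p ^ d * b', a', ha', ?_⟩
      simp only [map_mul, map_pow, pow_add]
      field_simp

theorem mem_primeVal [UniqueFactorizationMonoid R] {p : R} (hp : Prime p) {f : F} :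
    f ∈ primeVal F p hp ↔ ∃ a b : R, ¬ p ∣ b ∧ f * algebraMap R F b = algebraMap R F a := Iff.rfl

theorem algebraMap_mem_primeVal [UniqueFactorizationMonoid R] {p : R} (hp : Prime p) (a : R) :
    algebraMap R F a ∈ primeVal F p hp := ⟨a, 1, hp.not_dvd_one, by simp⟩

theorem inv_mem_primeVal [UniqueFactorizationMonoid R] {p : R} (hp : Prime p) {b : R}
    (hb : ¬ p ∣ b) : (algebraMap R F b)⁻¹ ∈ primeVal F p hp := by
  have hinj : Function.Injective (algebraMap R F) := IsFractionRing.injective R F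
  have hbF : algebraMap R F b ≠ 0 := fun h => by
    have : b = 0 := hinj (by rw [h, map_zero])
    exact hb (this ▸ dvd_zero p)
  exact ⟨1, b, hb, by rw [inv_mul_cancel₀ hbF, map_one]⟩

theorem inv_notMem_primeVal [UniqueFactorizationMonoid R] {p : R} (hp : Prime p) :
    (algebraMap R F p)⁻¹ ∉ primeVal F p hp := by
  rintro ⟨a, b, hb, h⟩
  have hinj : Function.Injective (algebraMap R F) := IsFractionRing.injective R F
  have hpF : algebraMap R F p ≠ 0 := fun h => hp.ne_zero (hinj (by rw [h, map_zero]))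
  apply hb
  refine ⟨a, hinj ?_⟩
  rw [map_mul, ← h, ← mul_assoc, mul_inv_cancel₀ hpF, one_mul]

/-- a unit of `primeVal` is a quotient of two elements not divisible by `p` -/
theorem exists_of_unit_primeVal [UniqueFactorizationMonoid R] {p : R} (hp : Prime p) {f : F}
    (h : f ∈ primeVal F p hp) (h' : f⁻¹ ∈ primeVal F p hp) (hf : f ≠ 0) :
    ∃ a b : R, ¬ p ∣ a ∧ ¬ p ∣ b ∧ f * algebraMap R F b = algebraMap R F a := by
  obtain ⟨a, b, hb, e⟩ := h
  obtain ⟨a', b', hb', e'⟩ := h'
  have hinj : Function.Injective (algebraMap R F) := IsFractionRing.injective R F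
  refine ⟨a, b, fun ha => ?_, hb, e⟩
  have h1 : a * a' = b * b' := by
    apply hinj
    rw [map_mul, map_mul, ← e, ← e']
    field_simp
  rcases hp.dvd_or_dvd (h1 ▸ Dvd.dvd.mul_right ha a' : p ∣ b * b') with h2 | h2
  · exact hb h2
  · exact hb' h2

end UFD

end Fermat.Agent.Carayol
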